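import Fermat.Agent.RepTwo.Burnside

/-!
# Finite subgroups of `GL₂` with few characteristic polynomials are bounded

A classification free version of Deligne-Serre, Proposition 7.2.
-/

set_option autoImplicit false

open Finset Module

namespace Fermat.Agent.DS

namespace Bdd

section Basic

variable {k : Type} [Field k] {V : Type} [AddCommGroup V] [Module k V]
variable {G : Type} [Group G] (ρ : G →* Module.End k V)

/-- the point attached to `g` -/
def pt (g : G) : Module.End k V × k := (ρ g, 1)

/-- the left translation action -/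
def act (h : G) : (Module.End k V × k) →ₗ[k] (Module.End k V × k) :=
  LinearMap.prodMap (LinearMap.mulLeft k (ρ h)) LinearMap.id

@[simp] theorem act_apply (h : G) (x : Module.End k V × k) : act ρ h x = (ρ h * x.1, x.2) := rfl

theorem act_mul (g h : G) (x : Module.End k V × k) : act ρ (g * h) x = act ρ g (act ρ h x) := by
  simp [mul_assoc]

theorem act_one (x : Module.End k V × k) : act ρ 1 x = x := by simp

theorem act_pt (h g : G) : act ρ h (pt ρ g) = pt ρ (h * g) := by simp [pt]

/-- the translation as an equivalence -/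
def actEquiv (h : G) : (Module.End k V × k) ≃ₗ[k] (Module.End k V × k) :=
  LinearEquiv.ofLinearMap (act ρ h) (act ρ h⁻¹)
    (by ext x <;> simp [← mul_assoc, ← map_mul]) (by ext x <;> simp [← mul_assoc, ← map_mul])

theorem actEquiv_apply (h : G) (x : Module.End k V × k) : actEquiv ρ h x = act ρ h x := rfl

/-- translate of a subspace -/
def tr (h : G) (W : Submodule k (Module.End k V × k)) : Submodule k (Module.End k V × k) :=
  W.comap (act ρ h)

theorem mem_tr {h : G} {W : Submodule k (Module.End k V × k)} {x : Module.End k V × k} :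
    x ∈ tr ρ h W ↔ act ρ h x ∈ W := Iff.rfl

theorem tr_one (W : Submodule k (Module.End k V × k)) : tr ρ 1 W = W := by
  ext x; rw [mem_tr, act_one]

theorem tr_mul (g h : G) (W : Submodule k (Module.End k V × k)) :
    tr ρ (g * h) W = tr ρ h (tr ρ g W) := by
  ext x; rw [mem_tr, mem_tr, mem_tr, act_mul]

theorem finrank_tr [FiniteDimensional k V] (h : G) (W : Submodule k (Module.End k V × k)) :
    finrank k (tr ρ h W) = finrank k W := by
  have : tr ρ h W = W.map (actEquiv ρ h).symm.toLinearMap := by
    ext x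
    rw [mem_tr, Submodule.mem_map]
    constructor
    · intro hx
      exact ⟨act ρ h x, hx, (actEquiv ρ h).symm_apply_apply x⟩
    · rintro ⟨y, hy, rfl⟩
      have : act ρ h ((actEquiv ρ h).symm y) = y := (actEquiv ρ h).apply_symm_apply y
      show act ρ h ((actEquiv ρ h).symm y) ∈ W
      rwa [this]
  rw [this]
  exact LinearEquiv.finrank_map_eq _ _

/-- stabiliser -/
def stab (W : Submodule k (Module.End k V × k)) : Subgroup G where
  carrier := {h | tr ρ h W = W}
  one_mem' := tr_one ρ W
  mul_mem' {a b} ha hb := by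
    simp only [Set.mem_ofPred_eq] at ha hb ⊢
    rw [tr_mul, ha, hb]
  inv_mem' {a} ha := by
    simp only [Set.mem_ofPred_eq] at ha ⊢
    have : tr ρ (a * a⁻¹) W = tr ρ a⁻¹ W := by rw [tr_mul, ha]
    rw [← this, mul_inv_cancel, tr_one]

theorem mem_stab {W : Submodule k (Module.End k V × k)} {h : G} :
    h ∈ stab ρ W ↔ tr ρ h W = W := Iff.rfl

open Classical in
/-- number of group elements in a subspace -/
noncomputable def cnt [Fintype G] (W : Submodule k (Module.End k V × k)) : ℕ :=
  (univ.filter fun g ↦ pt ρ g ∈ W).card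

theorem cnt_tr [Fintype G] (h : G) (W : Submodule k (Module.End k V × k)) :
    cnt ρ (tr ρ h W) = cnt ρ W := by
  classical
  unfold cnt
  refine Finset.card_bij (fun g _ ↦ h * g) ?_ ?_ ?_
  · intro g hg
    simp only [mem_filter, mem_univ, true_and, mem_tr, act_pt] at hg ⊢
    exact hg
  · intro a _ b _ hab
    exact mul_left_cancel hab
  · intro b hb
    refine ⟨h⁻¹ * b, ?_, by simp⟩
    simp only [mem_filter, mem_univ, true_and, mem_tr, act_pt] at hb ⊢
    simpa using hb

open Classical in
theorem index_stab_le [Fintype G] (W : Submodule k (Module.End k V × k)) :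
    (stab ρ W).index ≤ (univ.image fun h : G ↦ tr ρ h W).card := by
  have h1 : Nat.card (univ.image fun h : G ↦ tr ρ h W) =
      (univ.image fun h : G ↦ tr ρ h W).card := by
    rw [Nat.card_eq_fintype_card, Fintype.card_coe]
  rw [← h1, Subgroup.index]
  refine Nat.card_le_card_of_injective
    (fun q : G ⧸ stab ρ W ↦ (⟨Quotient.liftOn' q (fun g ↦ tr ρ g⁻¹ W) ?_, ?_⟩ :
      (univ.image fun h : G ↦ tr ρ h W))) ?_
  · intro a b hab
    have hab' : a⁻¹ * b ∈ stab ρ W := QuotientGroup.leftRel_apply.mp hab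
    show tr ρ a⁻¹ W = tr ρ b⁻¹ W
    rw [mem_stab, tr_mul] at hab'
    conv_rhs => rw [← hab']
    rw [← tr_mul ρ b b⁻¹, mul_inv_cancel, tr_one]
  · induction q using Quotient.inductionOn' with
    | h g => exact mem_image_of_mem _ (mem_univ _)
  · intro p q
    induction p using Quotient.inductionOn' with
    | h a =>
    induction q using Quotient.inductionOn' with
    | h b =>
    intro hab
    have hab' : tr ρ a⁻¹ W = tr ρ b⁻¹ W := congrArg Subtype.val hab
    refine Quotient.sound' (QuotientGroup.leftRel_apply.mpr ?_)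
    rw [mem_stab, tr_mul, hab', ← tr_mul, inv_mul_cancel, tr_one]

/-- Bonferroni type inequality -/
theorem sum_cnt_le [Fintype G] [DecidableEq (Submodule k (Module.End k V × k))]
    (T : Finset (Submodule k (Module.End k V × k))) :
    ∑ W ∈ T, cnt ρ W ≤ Fintype.card G + ∑ p ∈ T.offDiag, cnt ρ (p.1 ⊓ p.2) := by
  classical
  have h1 : ∑ W ∈ T, cnt ρ W = ∑ g : G, (T.filter fun W ↦ pt ρ g ∈ W).card := by
    simp only [cnt, Finset.card_filter]
    exact Finset.sum_comm
  have h2 : ∑ p ∈ T.offDiag, cnt ρ (p.1 ⊓ p.2) =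
      ∑ g : G, (T.filter fun W ↦ pt ρ g ∈ W).offDiag.card := by
    have h3 : ∀ g : G, (T.filter fun W ↦ pt ρ g ∈ W).offDiag.card =
        ∑ p ∈ T.offDiag, if pt ρ g ∈ p.1 ⊓ p.2 then 1 else 0 := by
      intro g
      rw [← Finset.card_filter]
      congr 1
      ext ⟨a, b⟩
      simp only [mem_offDiag, mem_filter, Submodule.mem_inf]
      tauto
    simp only [h3, cnt, Finset.card_filter]
    exact Finset.sum_comm
  have h4 : Fintype.card G = ∑ _g : G, 1 := by simp
  rw [h1, h2, h4, ← Finset.sum_add_distrib]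
  refine Finset.sum_le_sum fun g _ ↦ ?_
  rw [offDiag_card]
  generalize (T.filter fun W ↦ pt ρ g ∈ W).card = c
  rcases Nat.lt_or_ge c 2 with hc | hc
  · omega
  · have : c * 2 ≤ c * c := Nat.mul_le_mul_left c hc
    omega

end Basic

/-- The inductive step: a subspace containing a positive proportion of `G` can be replaced by one
stable under a subgroup of bounded index. -/
theorem exists_stab (d : ℕ) : ∀ R : ℕ, 0 < R → ∃ r : ℕ, ∀ (k : Type) [Field k] (V : Type)
    [AddCommGroup V] [Module k V] [FiniteDimensional k V] (G : Type) [Group G] [Fintype G]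
    (ρ : G →* Module.End k V) (W : Submodule k (Module.End k V × k)), finrank k W ≤ d →
    Fintype.card G ≤ R * cnt ρ W →
    ∃ W' : Submodule k (Module.End k V × k), finrank k W' ≤ d ∧ (∃ g, pt ρ g ∈ W') ∧
      (stab ρ W').index ≤ r := by
  induction d with
  | zero =>
    intro R hR
    refine ⟨0, fun k _ V _ _ _ G _ _ ρ W hW hG ↦ ?_⟩
    exfalso
    have h1 : W = ⊥ := Submodule.finrank_eq_zero.mp (Nat.le_zero.mp hW)
    have h2 : cnt ρ W = 0 := by
      classical
      rw [cnt, Finset.card_eq_zero, filter_eq_empty_iff]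
      intro g _ hg
      rw [h1, Submodule.mem_bot] at hg
      exact one_ne_zero (congrArg Prod.snd hg)
    rw [h2, mul_zero] at hG
    exact absurd hG (not_le.mpr Fintype.card_pos)
  | succ d ih =>
    intro R hR
    obtain ⟨r, hr⟩ := ih ((2 * R) ^ 2) (by positivity)
    refine ⟨max r (2 * R), fun k _ V _ _ _ G _ _ ρ W hW hG ↦ ?_⟩
    classical
    have hcnt : 0 < cnt ρ W := by
      by_contra h0
      rw [Nat.le_zero.mp (not_lt.mp h0), mul_zero] at hG
      exact absurd hG (not_le.mpr Fintype.card_pos)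
    set O := univ.image fun h : G ↦ tr ρ h W with hO
    rcases Nat.lt_or_ge (2 * R) O.card with hlt | hge
    · -- many translates
      obtain ⟨T, hTO, hTc⟩ := Finset.exists_subset_card_eq hlt.le
      have hT : ∀ U ∈ T, cnt ρ U = cnt ρ W ∧ finrank k U = finrank k W := by
        intro U hU
        obtain ⟨h, -, rfl⟩ := Finset.mem_image.mp (hTO hU)
        exact ⟨cnt_tr ρ h W, finrank_tr ρ h W⟩
      have h1 := sum_cnt_le ρ T
      rw [Finset.sum_congr rfl fun U hU ↦ (hT U hU).1, Finset.sum_const, hTc, smul_eq_mul] at h1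
      have h2 : ∃ p ∈ T.offDiag, Fintype.card G ≤ (2 * R) ^ 2 * cnt ρ (p.1 ⊓ p.2) := by
        by_contra hcon
        push Not at hcon
        have h3 : (2 * R) ^ 2 * ∑ p ∈ T.offDiag, cnt ρ (p.1 ⊓ p.2) ≤
            T.offDiag.card * Fintype.card G := by
          rw [Finset.mul_sum, ← smul_eq_mul (a := T.offDiag.card), ← Finset.sum_const]
          exact Finset.sum_le_sum fun p hp ↦ (hcon p hp).le
        rw [offDiag_card, hTc] at h3
        have h4 : 2 * R * (2 * R) - 2 * R < (2 * R) ^ 2 := by
          have : 0 < 2 * R := by omega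
          rw [sq]
          exact Nat.sub_lt (by positivity) this
        have h5 : (2 * R * (2 * R) - 2 * R) * Fintype.card G < (2 * R) ^ 2 * Fintype.card G :=
          Nat.mul_lt_mul_of_pos_right h4 Fintype.card_pos
        have h6 : ∑ p ∈ T.offDiag, cnt ρ (p.1 ⊓ p.2) < Fintype.card G :=
          Nat.lt_of_mul_lt_mul_left (h3.trans_lt h5)
        nlinarith
      obtain ⟨⟨U₁, U₂⟩, hp, hG'⟩ := h2
      rw [mem_offDiag] at hp
      obtain ⟨hU₁, hU₂, hne⟩ := hp
      have hfr : finrank k (U₁ ⊓ U₂ : Submodule k (Module.End k V × k)) ≤ d := by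
        have h3 : U₁ ⊓ U₂ < U₁ := by
          refine lt_of_le_of_ne inf_le_left fun h ↦ hne ?_
          have h4 : U₁ ≤ U₂ := inf_eq_left.mp h
          exact Submodule.eq_of_le_of_finrank_eq h4 ((hT U₁ hU₁).2.trans (hT U₂ hU₂).2.symm)
        have h4 := Submodule.finrank_lt_finrank_of_lt h3
        have h5 := (hT U₁ hU₁).2
        omega
      obtain ⟨W', h7, h8, h9⟩ := hr k V G ρ (U₁ ⊓ U₂) hfr hG'
      exact ⟨W', by omega, h8, h9.trans (le_max_left _ _)⟩
    · refine ⟨W, hW, ?_, (index_stab_le ρ W).trans (hge.trans (le_max_right _ _))⟩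
      rw [cnt, Finset.card_pos] at hcnt
      obtain ⟨g, hg⟩ := hcnt
      exact ⟨g, (mem_filter.mp hg).2⟩

/-- A proper left ideal of `End V` (as a subspace) kills a nonzero vector; here `V` has
dimension two. -/
theorem exists_kill {k : Type} [Field k] {V : Type} [AddCommGroup V] [Module k V]
    (hV : finrank k V = 2) (J : Submodule k (Module.End k V))
    (hJ : ∀ a x : Module.End k V, x ∈ J → a * x ∈ J) (h1 : (1 : Module.End k V) ∉ J) :
    ∃ v : V, v ≠ 0 ∧ ∀ x ∈ J, x v = 0 := by
  have : FiniteDimensional k V := FiniteDimensional.of_finrank_pos (by omega)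
  by_contra hcon
  push Not at hcon
  have : Nontrivial V := Module.nontrivial_of_finrank_pos (R := k) (by omega)
  obtain ⟨v₀, hv₀⟩ := exists_ne (0 : V)
  obtain ⟨x₁, hx₁, hx₁v⟩ := hcon v₀ hv₀
  by_cases hinj : LinearMap.ker x₁ = ⊥
  · -- invertible
    obtain ⟨g, hg⟩ := x₁.exists_leftInverse_of_injective hinj
    have h2 : (1 : Module.End k V) = g * x₁ := hg.symm
    exact h1 (h2 ▸ hJ g x₁ hx₁)
  · obtain ⟨u, hu, hu0⟩ := Submodule.exists_mem_ne_zero_of_ne_bot hinj
    obtain ⟨x₂, hx₂, hx₂u⟩ := hcon u hu0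
    have hker : ∀ w ∈ LinearMap.ker x₁, ∃ c : k, w = c • u := by
      have h2 : finrank k (LinearMap.ker x₁) = 1 := by
        have h3 := LinearMap.finrank_range_add_finrank_ker x₁
        have h4 : finrank k (LinearMap.range x₁) ≠ 0 := by
          intro h5
          rw [Submodule.finrank_eq_zero, LinearMap.range_eq_bot] at h5
          rw [h5] at hx₁v
          exact hx₁v rfl
        have h5 : finrank k (LinearMap.ker x₁) ≠ 0 := by
          intro h6
          exact hinj (Submodule.finrank_eq_zero.mp h6)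
        omega
      intro w hw
      obtain ⟨c, hc⟩ := (finrank_eq_one_iff_of_nonzero' (⟨u, hu⟩ : LinearMap.ker x₁)
        (fun h ↦ hu0 (congrArg Subtype.val h))).mp h2 ⟨w, hw⟩
      exact ⟨c, (congrArg Subtype.val hc).symm⟩
    have hinj2 : LinearMap.ker (x₁.prod x₂) = ⊥ := by
      rw [LinearMap.ker_eq_bot']
      intro w hw
      rw [LinearMap.prod_apply] at hw
      replace hw : x₁ w = 0 ∧ x₂ w = 0 := Prod.mk_eq_zero.mp hw
      obtain ⟨c, rfl⟩ := hker w hw.1
      have h3 : c • x₂ u = 0 := by rw [← map_smul]; exact hw.2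
      rcases smul_eq_zero.mp h3 with h | h
      · rw [h, zero_smul]
      · exact absurd h hx₂u
    obtain ⟨g, hg⟩ := (x₁.prod x₂).exists_leftInverse_of_injective hinj2
    have h3 : (1 : Module.End k V) = (g.comp (LinearMap.inl k V V)) * x₁ +
        (g.comp (LinearMap.inr k V V)) * x₂ := by
      ext w
      have h4 := LinearMap.congr_fun hg w
      rw [LinearMap.comp_apply, LinearMap.prod_apply, LinearMap.id_apply] at h4
      replace h4 : g (x₁ w, x₂ w) = w := h4
      show w = g (x₁ w, 0) + g (0, x₂ w)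
      rw [← map_add, Prod.mk_add_mk, add_zero, zero_add, h4]
    exact h1 (h3 ▸ J.add_mem (hJ _ _ hx₁) (hJ _ _ hx₂))

/-- A subgroup stabilising a proper subspace containing a point has a common eigenvector. -/
theorem exists_eigenvector {k : Type} [Field k] [IsAlgClosed k] {V : Type} [AddCommGroup V]
    [Module k V] (hV : finrank k V = 2) {G : Type} [Group G] (ρ : G →* Module.End k V)
    (W : Submodule k (Module.End k V × k)) (hW : finrank k W ≤ 4) {g₀ : G} (hg₀ : pt ρ g₀ ∈ W)
    (K : Subgroup G) (hK : K ≤ stab ρ W) :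
    ∃ v : V, v ≠ 0 ∧ ∀ h ∈ K, ∃ c : k, ρ h v = c • v := by
  have : FiniteDimensional k V := FiniteDimensional.of_finrank_pos (by omega)
  have : Nontrivial V := Module.nontrivial_of_finrank_pos (R := k) (by omega)
  by_contra hcon
  push Not at hcon
  -- `K` acts irreducibly
  have hirr : ∀ U : Submodule k V, (∀ g : K, ∀ x ∈ U, (ρ.comp K.subtype) g x ∈ U) →
      U = ⊥ ∨ U = ⊤ := by
    intro U hU
    by_contra h
    push Not at h
    obtain ⟨hbot, htop⟩ := h
    obtain ⟨v, hv, hv0⟩ := Submodule.exists_mem_ne_zero_of_ne_bot hbot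
    have hfr : finrank k U = 1 := by
      have h1 : finrank k U ≠ 0 := fun h ↦ hbot (Submodule.finrank_eq_zero.mp h)
      have h2 : finrank k U < 2 := hV ▸ Submodule.finrank_lt htop
      omega
    obtain ⟨g, hg, hgv⟩ := hcon v hv0
    obtain ⟨c, hc⟩ := (finrank_eq_one_iff_of_nonzero' (⟨v, hv⟩ : U)
      (fun h ↦ hv0 (congrArg Subtype.val h))).mp hfr ⟨ρ g v, hU ⟨g, hg⟩ v hv⟩
    exact hgv c (congrArg Subtype.val hc).symm
  have hspan := RepTwo.span_range_eq_top (ρ.comp K.subtype) hirr
  -- the left ideal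
  have hunit : ∀ g : G, ρ g * ρ g⁻¹ = 1 := fun g ↦ by rw [← map_mul, mul_inv_cancel, map_one]
  let J : Submodule k (Module.End k V) :=
    W.comap ((LinearMap.inl k (Module.End k V) k).comp (LinearMap.mulRight k (ρ g₀)))
  have hmemJ : ∀ x : Module.End k V, x ∈ J ↔ (x * ρ g₀, (0 : k)) ∈ W := fun x ↦ Iff.rfl
  have hstab : ∀ h ∈ K, ∀ x : Module.End k V × k, x ∈ W → act ρ h x ∈ W := by
    intro h hh x hx
    have h1 : tr ρ h W = W := hK hh
    rw [← h1, mem_tr] at hx
    exact hx
  have hJ : ∀ a x : Module.End k V, x ∈ J → a * x ∈ J := by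
    intro a x hx
    have ha : a ∈ Submodule.span k (Set.range (ρ.comp K.subtype)) := hspan ▸ Submodule.mem_top
    induction ha using Submodule.span_induction with
    | mem a ha =>
      obtain ⟨h, rfl⟩ := ha
      rw [hmemJ]
      have := hstab h h.2 _ ((hmemJ x).mp hx)
      rw [act_apply] at this
      rw [mul_assoc]
      exact this
    | zero => rw [zero_mul]; exact J.zero_mem
    | add a b _ _ ha hb => rw [add_mul]; exact J.add_mem ha hb
    | smul c a _ ha => rw [smul_mul_assoc]; exact J.smul_mem c ha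
  have h1J : (1 : Module.End k V) ∉ J := by
    intro h1
    -- then `W` is everything
    have h2 : W = ⊤ := by
      rw [eq_top_iff]
      rintro ⟨x, s⟩ -
      have h3 : (x - s • ρ g₀) * ρ g₀⁻¹ ∈ J := by
        have := hJ ((x - s • ρ g₀) * ρ g₀⁻¹) 1 h1
        rwa [mul_one] at this
      rw [hmemJ, mul_assoc] at h3
      have h4 : ρ g₀⁻¹ * ρ g₀ = 1 := by rw [← map_mul, inv_mul_cancel, map_one]
      rw [h4, mul_one] at h3
      have h5 := W.add_mem h3 (W.smul_mem s hg₀)
      simpa [pt] using h5
    rw [h2, finrank_top, Module.finrank_prod, Module.finrank_linearMap, hV,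
      Module.finrank_self] at hW
    omega
  obtain ⟨v, hv0, hv⟩ := exists_kill hV J hJ h1J
  obtain ⟨h, hh, hhv⟩ := hcon v hv0
  apply hhv 1
  have h2 : ρ h - 1 ∈ J := by
    rw [hmemJ]
    have h3 := W.sub_mem (hstab h hh _ hg₀) hg₀
    rw [act_pt] at h3
    simpa [pt, sub_mul] using h3
  have h4 := hv _ h2
  rw [LinearMap.sub_apply, Module.End.one_apply, sub_eq_zero] at h4
  rw [one_smul, h4]

section Diag

variable {k : Type} [Field k] {V : Type} [AddCommGroup V] [Module k V]

theorem trace_diag (b : Module.Basis (Fin 2) k V) {f : Module.End k V} {α β : k}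
    (h0 : f (b 0) = α • b 0) (h1 : f (b 1) = β • b 1) : LinearMap.trace k V f = α + β := by
  rw [LinearMap.trace_eq_matrix_trace k b f, Matrix.trace_fin_two, LinearMap.toMatrix_apply,
    LinearMap.toMatrix_apply, h0, h1]
  simp

theorem det_diag (b : Module.Basis (Fin 2) k V) {f : Module.End k V} {α β : k}
    (h0 : f (b 0) = α • b 0) (h1 : f (b 1) = β • b 1) : LinearMap.det f = α * β := by
  rw [← LinearMap.det_toMatrix b f, Matrix.det_fin_two]
  simp only [LinearMap.toMatrix_apply, h0, h1]
  simp

variable {G : Type} [Group G] (ρ : G →* Module.End k V)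

/-- `g` acts diagonally in the basis `b` -/
def IsDiag (b : Module.Basis (Fin 2) k V) (g : G) : Prop :=
  (∃ α : k, ρ g (b 0) = α • b 0) ∧ (∃ β : k, ρ g (b 1) = β • b 1)

open Classical in
/-- the number of diagonal elements with trace in a given set -/
theorem card_diag_le [Fintype G] (hinj : Function.Injective ρ) {M m : ℕ} (hm : 0 < m)
    (hdet : ∀ g, LinearMap.det (ρ g) ^ m = 1) (S : Finset k) (hS : S.card ≤ M)
    (b : Module.Basis (Fin 2) k V) :
    (univ.filter fun g : G ↦ IsDiag ρ b g ∧ LinearMap.trace k V (ρ g) ∈ S).card ≤ 2 * M * m := by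
  set P : k → k → Polynomial k := fun t d ↦ Polynomial.X ^ 2 - Polynomial.C t * Polynomial.X +
    Polynomial.C d with hP
  have hP0 : ∀ t d, P t d ≠ 0 ∧ (P t d).natDegree = 2 := by
    intro t d
    have h1 : (P t d).natDegree = 2 := by simp only [hP]; compute_degree!
    exact ⟨fun h ↦ by rw [h] at h1; simp at h1, h1⟩
  set R : Finset (k × k) := S.biUnion fun t ↦
    ((Polynomial.nthRoots m (1 : k)).toFinset.biUnion fun d ↦ (P t d).roots.toFinset).image
      (fun α ↦ (t, α)) with hR
  have hRc : R.card ≤ 2 * M * m := by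
    refine card_biUnion_le.trans ?_
    have h1 : ∀ t ∈ S, (((Polynomial.nthRoots m (1 : k)).toFinset.biUnion fun d ↦
        (P t d).roots.toFinset).image (fun α ↦ (t, α))).card ≤ m * 2 := by
      intro t _
      refine card_image_le.trans (card_biUnion_le.trans ?_)
      refine (sum_le_card_nsmul _ _ 2 fun d _ ↦ ?_).trans ?_
      · refine (Multiset.toFinset_card_le _).trans ((Polynomial.card_roots' _).trans ?_)
        rw [(hP0 t d).2]
      · rw [smul_eq_mul]
        refine Nat.mul_le_mul_right 2 ((Multiset.toFinset_card_le _).trans ?_)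
        exact Polynomial.card_nthRoots m 1
    refine (sum_le_card_nsmul _ _ _ h1).trans ?_
    rw [smul_eq_mul]
    nlinarith [Nat.mul_le_mul_right (m * 2) hS]
  refine le_trans (card_le_card_of_injOn
    (fun g ↦ (LinearMap.trace k V (ρ g), b.repr (ρ g (b 0)) 0)) ?_ ?_) hRc
  · intro g hg
    simp only [coe_filter, mem_univ, true_and, Set.mem_ofPred_eq] at hg
    obtain ⟨⟨⟨α, hα⟩, ⟨β, hβ⟩⟩, hS'⟩ := hg
    have h1 : b.repr (ρ g (b 0)) 0 = α := by rw [hα]; simp
    have ht := trace_diag b hα hβ
    have hd := det_diag b hα hβ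
    simp only [hR, coe_biUnion, Set.mem_iUnion, mem_coe, mem_image, Prod.mk.injEq]
    refine ⟨_, hS', α, ?_, rfl, h1.symm⟩
    simp only [mem_biUnion, Multiset.mem_toFinset]
    refine ⟨LinearMap.det (ρ g), (Polynomial.mem_nthRoots hm).mpr (hdet g), ?_⟩
    rw [Polynomial.mem_roots (hP0 _ _).1, Polynomial.IsRoot.def]
    simp only [hP]
    simp
    rw [ht, hd]
    ring
  · intro g hg g' hg' hgg'
    simp only [coe_filter, mem_univ, true_and, Set.mem_ofPred_eq] at hg hg'
    obtain ⟨⟨⟨α, hα⟩, ⟨β, hβ⟩⟩, -⟩ := hg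
    obtain ⟨⟨⟨α', hα'⟩, ⟨β', hβ'⟩⟩, -⟩ := hg'
    simp only [Prod.mk.injEq] at hgg'
    obtain ⟨h1, h2⟩ := hgg'
    rw [hα, hα'] at h2
    simp at h2
    rw [trace_diag b hα hβ, trace_diag b hα' hβ', h2] at h1
    have h3 := add_left_cancel h1
    apply hinj
    refine b.ext fun i ↦ ?_
    fin_cases i
    · exact hα.trans (h2 ▸ hα'.symm)
    · exact hβ.trans (h3 ▸ hβ'.symm)

theorem linearIndependent_pair_of {v w : V} (hv : v ≠ 0) (hw : ∀ c : k, w ≠ c • v) :
    LinearIndependent k ![v, w] := by
  rw [LinearIndependent.pair_iff' hv]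
  exact fun c h ↦ hw c h.symm

theorem exists_basis_pair (hV : finrank k V = 2) {v w : V} (hv : v ≠ 0)
    (hw : ∀ c : k, w ≠ c • v) : ∃ b : Module.Basis (Fin 2) k V, b 0 = v ∧ b 1 = w := by
  have hli := linearIndependent_pair_of hv hw
  let b := basisOfLinearIndependentOfCardEqFinrank hli (by simp [hV])
  have hb : ⇑b = ![v, w] := coe_basisOfLinearIndependentOfCardEqFinrank hli _
  exact ⟨b, by rw [hb]; rfl, by rw [hb]; rfl⟩

omit [AddCommGroup V] [Module k V] in
theorem ρ_inv_apply {V : Type} [AddCommGroup V] [Module k V] (ρ : G →* Module.End k V) (g : G)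
    (x : V) : ρ g⁻¹ (ρ g x) = x := by
  rw [← Module.End.mul_apply, ← map_mul, inv_mul_cancel, map_one, Module.End.one_apply]

end Diag

theorem card_normalCore_index_le {G : Type} [Group G] [Finite G] (K : Subgroup G) :
    K.normalCore.index ≤ K.index.factorial := by
  rw [Subgroup.normalCore_eq_ker, Subgroup.index_ker]
  have : Finite (G ⧸ K) := inferInstance
  refine (Nat.card_le_card_of_injective (Subtype.val : (MulAction.toPermHom G (G ⧸ K)).range →
    Equiv.Perm (G ⧸ K)) Subtype.val_injective).trans (le_of_eq ?_)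
  rw [Nat.card_perm, Subgroup.index]

/-- **Bounded image theorem.** -/
theorem exists_card_bound (M m : ℕ) (hm : 0 < m) : ∃ A : ℕ, ∀ (k : Type) [Field k]
    [IsAlgClosed k] (V : Type) [AddCommGroup V] [Module k V] (_ : finrank k V = 2)
    (G : Type) [Group G] [Fintype G] (ρ : G →* Module.End k V) (_ : Function.Injective ρ)
    (_ : ∀ U : Submodule k V, (∀ g, ∀ x ∈ U, ρ g x ∈ U) →
      ∃ U' : Submodule k V, (∀ g, ∀ x ∈ U', ρ g x ∈ U') ∧ IsCompl U U')
    (_ : ∀ g, LinearMap.det (ρ g) ^ m = 1) (S : Finset k) (_ : S.card ≤ M)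
    (H : Finset G) (_ : ∀ g ∈ H, LinearMap.trace k V (ρ g) ∈ S)
    (_ : 3 * Fintype.card G ≤ 4 * H.card), Fintype.card G ≤ A := by
  obtain ⟨r, hr⟩ := exists_stab 4 (2 * M + 1) (by omega)
  refine ⟨8 * M * m + 2 * m * r.factorial + 1,
    fun k _ _ V _ _ hV G _ _ ρ hinj hss hdet S hS H hHS hH ↦ ?_⟩
  classical
  have : FiniteDimensional k V := FiniteDimensional.of_finrank_pos (by omega)
  have hG : 0 < Fintype.card G := Fintype.card_pos
  -- pigeonhole
  obtain ⟨t, ht⟩ : ∃ t : k, Fintype.card G ≤
      (2 * M + 1) * (univ.filter fun g : G ↦ LinearMap.trace k V (ρ g) = t).card := by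
    by_contra hcon
    push Not at hcon
    have h1 : H.card ≤ ∑ t ∈ S, (univ.filter fun g : G ↦ LinearMap.trace k V (ρ g) = t).card := by
      have h2 : H ⊆ S.biUnion fun t ↦ univ.filter fun g : G ↦ LinearMap.trace k V (ρ g) = t := by
        intro g hg
        simp only [mem_biUnion, mem_filter, mem_univ, true_and, exists_eq_right']
        exact hHS g hg
      exact (card_le_card h2).trans card_biUnion_le
    have h2 : (2 * M + 1) * H.card ≤ M * Fintype.card G := by
      refine (Nat.mul_le_mul_left _ h1).trans ?_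
      rw [mul_sum]
      refine (sum_le_card_nsmul _ _ (Fintype.card G) fun t _ ↦ (hcon t).le).trans ?_
      rw [smul_eq_mul]
      exact Nat.mul_le_mul_right _ hS
    have h3 : (2 * M + 1) * (3 * Fintype.card G) ≤ (2 * M + 1) * (4 * H.card) :=
      Nat.mul_le_mul_left _ hH
    nlinarith
  -- the hyperplane
  let φ : (Module.End k V × k) →ₗ[k] k :=
    (LinearMap.trace k V).comp (LinearMap.fst k _ _) - t • LinearMap.snd k _ _
  have hφ : ∀ x : Module.End k V × k, φ x = LinearMap.trace k V x.1 - t * x.2 := fun x ↦ rfl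
  have hW4 : finrank k (LinearMap.ker φ) ≤ 4 := by
    have h1 := LinearMap.finrank_range_add_finrank_ker φ
    rw [Module.finrank_prod, Module.finrank_linearMap, hV, Module.finrank_self] at h1
    have h2 : finrank k (LinearMap.range φ) ≠ 0 := by
      intro h3
      rw [Submodule.finrank_eq_zero, LinearMap.range_eq_bot] at h3
      -- choose an endomorphism of trace one
      let b := Module.finBasisOfFinrankEq k V hV
      let f : Module.End k V := b.constr k ![b 0, 0]
      have hf0 : f (b 0) = (1 : k) • b 0 := by simp [f, b.constr_basis]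
      have hf1 : f (b 1) = (0 : k) • b 1 := by simp [f, b.constr_basis]
      have h4 := LinearMap.congr_fun h3 (f, 0)
      rw [hφ, trace_diag b hf0 hf1] at h4
      simp at h4
    omega
  have hcnt : cnt ρ (LinearMap.ker φ) =
      (univ.filter fun g : G ↦ LinearMap.trace k V (ρ g) = t).card := by
    unfold cnt
    congr 1
    ext g
    simp only [mem_filter, mem_univ, true_and, LinearMap.mem_ker, hφ, pt, mul_one, sub_eq_zero]
  rw [← hcnt] at ht
  obtain ⟨W, hW, ⟨g₀, hg₀⟩, hindex⟩ := hr k V G ρ _ hW4 ht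
  obtain ⟨v, hv0, hv⟩ := exists_eigenvector hV ρ W hW hg₀ (stab ρ W) le_rfl
  set K' := (stab ρ W).normalCore with hK'
  have hK'le : K' ≤ stab ρ W := Subgroup.normalCore_le _
  have hK'index : K'.index ≤ r.factorial :=
    (card_normalCore_index_le _).trans (Nat.factorial_le hindex)
  have hvne : ∀ g : G, ρ g v ≠ 0 := by
    intro g h
    apply hv0
    rw [← ρ_inv_apply ρ g v, h, map_zero]
  by_cases hall : ∀ g : G, ∃ c : k, ρ g v = c • v
  · -- reducible case
    obtain ⟨U', hU', hcompl⟩ := hss (Submodule.span k {v}) (fun g x hx ↦ by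
      obtain ⟨c, rfl⟩ := Submodule.mem_span_singleton.mp hx
      obtain ⟨d, hd⟩ := hall g
      rw [map_smul, hd]
      exact Submodule.smul_mem _ _ (Submodule.smul_mem _ _ (Submodule.mem_span_singleton_self v)))
    have hfr : finrank k U' = 1 := by
      have h1 := Submodule.finrank_add_eq_of_isCompl hcompl
      rw [finrank_span_singleton hv0, hV] at h1
      omega
    have hU'bot : U' ≠ ⊥ := by
      intro h
      rw [h, finrank_bot] at hfr
      omega
    obtain ⟨w, hw, hw0⟩ := Submodule.exists_mem_ne_zero_of_ne_bot hU'bot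
    have hwv : ∀ c : k, w ≠ c • v := by
      intro c hc
      have h1 : w ∈ Submodule.span k {v} := hc ▸ Submodule.smul_mem _ _
        (Submodule.mem_span_singleton_self v)
      have h2 := Submodule.disjoint_def.mp hcompl.disjoint w h1 hw
      exact hw0 h2
    obtain ⟨b, hb0, hb1⟩ := exists_basis_pair hV hv0 hwv
    have hD : ∀ g, IsDiag ρ b g := by
      intro g
      rw [IsDiag, hb0, hb1]
      refine ⟨hall g, ?_⟩
      obtain ⟨c, hc⟩ := (finrank_eq_one_iff_of_nonzero' (⟨w, hw⟩ : U')
        (fun h ↦ hw0 (congrArg Subtype.val h))).mp hfr ⟨ρ g w, hU' g w hw⟩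
      exact ⟨c, (congrArg Subtype.val hc).symm⟩
    have h1 := card_diag_le ρ hinj hm hdet S hS b
    have h2 : H.card ≤ 2 * M * m := by
      refine (card_le_card fun g hg ↦ ?_).trans h1
      simp only [mem_filter, mem_univ, true_and]
      exact ⟨hD g, hHS g hg⟩
    nlinarith
  · push Not at hall
    obtain ⟨g₁, hg₁⟩ := hall
    obtain ⟨b, hb0, hb1⟩ := exists_basis_pair hV hv0 hg₁
    have hD : ∀ h ∈ K', IsDiag ρ b h := by
      intro h hh
      rw [IsDiag, hb0, hb1]
      refine ⟨hv h (hK'le hh), ?_⟩
      have h1 : g₁⁻¹ * h * g₁ ∈ K' := by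
        have := (Subgroup.normalCore_normal (stab ρ W)).conj_mem h hh g₁⁻¹
        simpa using this
      obtain ⟨c, hc⟩ := hv _ (hK'le h1)
      refine ⟨c, ?_⟩
      have h2 : ρ h (ρ g₁ v) = ρ g₁ (ρ (g₁⁻¹ * h * g₁) v) := by
        rw [← Module.End.mul_apply, ← Module.End.mul_apply, ← map_mul, ← map_mul]
        congr 2
        group
      rw [h2, hc, map_smul]
    by_cases hsc : ∀ h ∈ K', ∃ c : k, ρ h = c • (1 : Module.End k V)
    · -- scalar case
      have h1 : Nat.card K' ≤ 2 * m := by
        choose! c hc using hsc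
        have h2 : ∀ h ∈ K', c h ∈ Polynomial.nthRoots (2 * m) (1 : k) := by
          intro h hh
          rw [Polynomial.mem_nthRoots (by omega)]
          have h3 := hdet h
          rw [hc h hh, LinearMap.det_smul, hV, map_one, mul_one] at h3
          rw [pow_mul]
          exact h3
        have h3 : Nat.card K' ≤ ((Polynomial.nthRoots (2 * m) (1 : k)).toFinset).card := by
          have h4 : Nat.card ((Polynomial.nthRoots (2 * m) (1 : k)).toFinset) =
              ((Polynomial.nthRoots (2 * m) (1 : k)).toFinset).card := by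
            rw [Nat.card_eq_fintype_card, Fintype.card_coe]
          rw [← h4]
          refine Nat.card_le_card_of_injective (fun h : K' ↦
            (⟨c h, Multiset.mem_toFinset.mpr (h2 h h.2)⟩ :
              ((Polynomial.nthRoots (2 * m) (1 : k)).toFinset))) fun x y hxy ↦ ?_
          have h5 : c x = c y := congrArg Subtype.val hxy
          apply Subtype.ext
          apply hinj
          rw [hc x x.2, hc y y.2, h5]
        exact h3.trans ((Multiset.toFinset_card_le _).trans (Polynomial.card_nthRoots _ _))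
      have h2 := K'.card_mul_index
      rw [Nat.card_eq_fintype_card (α := G)] at h2
      rw [← h2]
      calc Nat.card K' * K'.index ≤ 2 * m * r.factorial := Nat.mul_le_mul h1 hK'index
        _ ≤ _ := by omega
    · -- normaliser of a torus
      push Not at hsc
      obtain ⟨κ, hκ, hκs⟩ := hsc
      obtain ⟨⟨α, hα⟩, ⟨β, hβ⟩⟩ := hD κ hκ
      have hαβ : α ≠ β := by
        rintro rfl
        apply hκs α
        refine b.ext fun i ↦ ?_
        fin_cases i
        · exact hα
        · exact hβ
      -- each element is diagonal or antidiagonal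
      have hanti : ∀ g : G, ¬ IsDiag ρ b g → (∃ c : k, ρ g (b 0) = c • b 1) ∧
          (∃ c : k, ρ g (b 1) = c • b 0) := by
        intro g hg
        have hconj : g * κ * g⁻¹ ∈ K' := (Subgroup.normalCore_normal (stab ρ W)).conj_mem κ hκ g
        obtain ⟨⟨α', hα'⟩, ⟨β', hβ'⟩⟩ := hD _ hconj
        have htr : LinearMap.trace k V (ρ (g * κ * g⁻¹)) = LinearMap.trace k V (ρ κ) := by
          rw [map_mul, LinearMap.trace_mul_comm, ← map_mul]
          congr 2
          group
        have hdt : LinearMap.det (ρ (g * κ * g⁻¹)) = LinearMap.det (ρ κ) := by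
          have h20 : LinearMap.det (ρ g⁻¹) * LinearMap.det (ρ g) = 1 := by
            rw [← map_mul, ← map_mul, inv_mul_cancel, map_one, map_one]
          rw [map_mul, map_mul, map_mul, map_mul]
          linear_combination (LinearMap.det (ρ κ)) * h20
        rw [trace_diag b hα hβ, trace_diag b hα' hβ'] at htr
        rw [det_diag b hα hβ, det_diag b hα' hβ'] at hdt
        -- for an eigenvector `x` of `κ`, `ρ g x` is an eigenvector of `g κ g⁻¹`
        have heig : ∀ (x : V) (γ : k), ρ κ x = γ • x → ρ (g * κ * g⁻¹) (ρ g x) = γ • ρ g x := by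
          intro x γ hx
          have h5 : ρ (g * κ * g⁻¹) (ρ g x) = ρ g (ρ κ x) := by
            rw [← Module.End.mul_apply, ← Module.End.mul_apply, ← map_mul, ← map_mul]
            congr 2
            group
          rw [h5, hx, map_smul]
        -- coordinates
        have hco : ∀ (y : V) (γ : k), ρ (g * κ * g⁻¹) y = γ • y →
            (α' - γ) * b.repr y 0 = 0 ∧ (β' - γ) * b.repr y 1 = 0 := by
          intro y γ hy
          have h6 : y = b.repr y 0 • b 0 + b.repr y 1 • b 1 := by
            conv_lhs => rw [← b.sum_repr y, Fin.sum_univ_two]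
          have h7 : b.repr (ρ (g * κ * g⁻¹) y) = b.repr (γ • y) := by rw [hy]
          have h8 : ρ (g * κ * g⁻¹) y = (b.repr y 0 * α') • b 0 + (b.repr y 1 * β') • b 1 := by
            conv_lhs => rw [h6]
            rw [map_add, map_smul, map_smul, hα', hβ', smul_smul, smul_smul]
          rw [h8] at h7
          have h9 := congrArg (fun f ↦ f 0) h7
          have h10 := congrArg (fun f ↦ f 1) h7
          simp at h9 h10
          constructor
          · linear_combination h9
          · linear_combination h10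
        obtain ⟨e1, e2⟩ := hco _ _ (heig _ _ hα)
        obtain ⟨e3, e4⟩ := hco _ _ (heig _ _ hβ)
        have h11 : (α' - α) * (α' - β) = 0 := by
          linear_combination α' * htr - hdt
        rcases mul_eq_zero.mp h11 with h12 | h12
        · exfalso
          have hα'eq : α' = α := sub_eq_zero.mp h12
          have hβ'eq : β' = β := by rw [hα'eq] at htr; exact add_left_cancel htr
          apply hg
          rw [hβ'eq] at e2
          rw [hα'eq] at e3
          have h13 := (mul_eq_zero.mp e2).resolve_left (sub_ne_zero.mpr hαβ.symm)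
          have h14 := (mul_eq_zero.mp e3).resolve_left (sub_ne_zero.mpr hαβ)
          refine ⟨⟨b.repr (ρ g (b 0)) 0, ?_⟩, ⟨b.repr (ρ g (b 1)) 1, ?_⟩⟩
          · conv_lhs => rw [← b.sum_repr (ρ g (b 0)), Fin.sum_univ_two, h13, zero_smul, add_zero]
          · conv_lhs => rw [← b.sum_repr (ρ g (b 1)), Fin.sum_univ_two, h14, zero_smul, zero_add]
        · have hα'eq : α' = β := sub_eq_zero.mp h12
          have hβ'eq : β' = α := by rw [hα'eq] at htr; linear_combination htr
          rw [hα'eq] at e1
          rw [hβ'eq] at e4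
          have h13 := (mul_eq_zero.mp e1).resolve_left (sub_ne_zero.mpr hαβ.symm)
          have h14 := (mul_eq_zero.mp e4).resolve_left (sub_ne_zero.mpr hαβ)
          refine ⟨⟨b.repr (ρ g (b 0)) 1, ?_⟩, ⟨b.repr (ρ g (b 1)) 0, ?_⟩⟩
          · conv_lhs => rw [← b.sum_repr (ρ g (b 0)), Fin.sum_univ_two, h13, zero_smul, zero_add]
          · conv_lhs => rw [← b.sum_repr (ρ g (b 1)), Fin.sum_univ_two, h14, zero_smul, add_zero]
      set D := univ.filter fun g : G ↦ IsDiag ρ b g with hDdef
      set D' := univ.filter fun g : G ↦ ¬ IsDiag ρ b g with hD'def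
      have hcardD : D'.card ≤ D.card := by
        rcases D'.eq_empty_or_nonempty with hemp | ⟨g₂, hg₂⟩
        · rw [hemp, card_empty]; exact Nat.zero_le _
        · have hg₂' := (mem_filter.mp hg₂).2
          refine card_le_card_of_injOn (fun g ↦ g₂ * g) ?_ (fun x _ y _ h ↦ mul_left_cancel h)
          intro g hg
          have hg' : ¬ IsDiag ρ b g := (mem_filter.mp hg).2
          obtain ⟨⟨c1, hc1⟩, ⟨c2, hc2⟩⟩ := hanti g hg'
          obtain ⟨⟨d1, hd1⟩, ⟨d2, hd2⟩⟩ := hanti g₂ hg₂'
          simp only [hDdef, coe_filter, mem_univ, true_and, Set.mem_ofPred_eq]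
          refine ⟨⟨c1 * d2, ?_⟩, ⟨c2 * d1, ?_⟩⟩
          · rw [map_mul, Module.End.mul_apply, hc1, map_smul, hd2, smul_smul]
          · rw [map_mul, Module.End.mul_apply, hc2, map_smul, hd1, smul_smul]
      have hcardDD : D.card + D'.card = Fintype.card G := by
        have := Finset.card_filter_add_card_filter_not (s := (univ : Finset G)) (IsDiag ρ b)
        rw [card_univ] at this
        exact this
      have h1 := card_diag_le ρ hinj hm hdet S hS b
      have h2 : H.card ≤ 2 * M * m + D'.card := by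
        have h3 : H ⊆ (univ.filter fun g : G ↦ IsDiag ρ b g ∧ LinearMap.trace k V (ρ g) ∈ S) ∪
            D' := by
          intro g hg
          simp only [mem_union, mem_filter, mem_univ, true_and, hD'def]
          by_cases hg' : IsDiag ρ b g
          · exact Or.inl ⟨hg', hHS g hg⟩
          · exact Or.inr hg'
        refine (card_le_card h3).trans ((card_union_le _ _).trans ?_)
        omega
      have h3 : 8 * M * m = 4 * (2 * M * m) := by ring
      omega

end Bdd

end Fermat.Agent.DS
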