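import Mathlib

/-!
# Semisimplification of two-dimensional matrix representations
-/

set_option autoImplicit false

open Module Matrix

namespace Fermat.Agent.DS

section

variable {k : Type} [Field k] {G : Type*} [Group G]

/-- every invariant subspace has an invariant complement -/
def IsSS (ρ : G →* Matrix (Fin 2) (Fin 2) k) : Prop :=
  ∀ U : Submodule k (Fin 2 → k), (∀ g, ∀ x ∈ U, (ρ g).mulVec x ∈ U) →
    ∃ U' : Submodule k (Fin 2 → k), (∀ g, ∀ x ∈ U', (ρ g).mulVec x ∈ U') ∧ IsCompl U U'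

theorem isSS_of_no_eigenvector (ρ : G →* Matrix (Fin 2) (Fin 2) k)
    (h : ∀ v : Fin 2 → k, v ≠ 0 → ∃ g, ∀ c : k, (ρ g).mulVec v ≠ c • v) : IsSS ρ := by
  intro U hU
  have hle : finrank k U ≤ 2 := by
    have := Submodule.finrank_le U
    simpa using this
  have h3 : finrank k U = 0 ∨ finrank k U = 1 ∨ finrank k U = 2 := by omega
  rcases h3 with h0 | h1 | h2
  · rw [Submodule.finrank_eq_zero] at h0
    subst h0
    exact ⟨⊤, fun _ _ _ ↦ trivial, isCompl_bot_top⟩
  · exfalso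
    obtain ⟨v, hv, hv2⟩ := finrank_eq_one_iff'.mp h1
    obtain ⟨g, hg⟩ := h v (by simpa using hv)
    obtain ⟨c, hc⟩ := hv2 ⟨(ρ g).mulVec v, hU g v v.2⟩
    exact hg c (by simpa using (congrArg Subtype.val hc).symm)
  · have : U = ⊤ := by
      apply Submodule.eq_top_of_finrank_eq
      simpa using h2
    subst this
    exact ⟨⊥, fun g x hx ↦ by
      rw [Submodule.mem_bot] at hx ⊢
      rw [hx, mulVec_zero], isCompl_top_bot⟩

theorem isCompl_span {v w : Fin 2 → k} (h : v 0 * w 1 - v 1 * w 0 ≠ 0) :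
    IsCompl (Submodule.span k {v}) (Submodule.span k {w}) := by
  constructor
  · rw [Submodule.disjoint_def]
    intro x hx hx'
    obtain ⟨a, rfl⟩ := Submodule.mem_span_singleton.mp hx
    obtain ⟨b, hb⟩ := Submodule.mem_span_singleton.mp hx'
    have h0 := congrFun hb 0
    have h1 := congrFun hb 1
    simp only [Pi.smul_apply, smul_eq_mul] at h0 h1
    have h2 : a * (v 0 * w 1 - v 1 * w 0) = 0 := by linear_combination (-w 1) * h0 + w 0 * h1
    rw [(mul_eq_zero.mp h2).resolve_right h, zero_smul]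
  · rw [codisjoint_iff, eq_top_iff]
    intro x _
    rw [Submodule.mem_sup]
    set D := v 0 * w 1 - v 1 * w 0
    refine ⟨((x 0 * w 1 - x 1 * w 0) / D) • v,
      Submodule.smul_mem _ _ (Submodule.mem_span_singleton_self v),
      ((v 0 * x 1 - v 1 * x 0) / D) • w,
      Submodule.smul_mem _ _ (Submodule.mem_span_singleton_self w), ?_⟩
    ext i
    fin_cases i
    · simp only [Pi.add_apply, Pi.smul_apply, smul_eq_mul, Fin.zero_eta]
      field_simp
      ring
    · simp only [Pi.add_apply, Pi.smul_apply, smul_eq_mul, Fin.mk_one]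
      field_simp
      ring

theorem isSS_diagonal (χ₁ χ₂ : G → k) (ρ : G →* Matrix (Fin 2) (Fin 2) k)
    (h : ∀ g, ρ g = !![χ₁ g, 0; 0, χ₂ g]) : IsSS ρ := by
  classical
  have hmv : ∀ g (v : Fin 2 → k), (ρ g).mulVec v = ![χ₁ g * v 0, χ₂ g * v 1] := by
    intro g v
    rw [h]
    ext i
    fin_cases i <;> simp [mulVec, dotProduct, Fin.sum_univ_two]
  by_cases hsc : ∀ g, χ₁ g = χ₂ g
  · intro U hU
    obtain ⟨U', hU'⟩ := Submodule.exists_isCompl U
    refine ⟨U', fun g x hx ↦ ?_, hU'⟩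
    have : (ρ g).mulVec x = χ₁ g • x := by
      rw [hmv, ← hsc g]
      ext i
      fin_cases i <;> simp
    rw [this]
    exact U'.smul_mem _ hx
  · push Not at hsc
    obtain ⟨g, hg⟩ := hsc
    intro U hU
    have hle : finrank k U ≤ 2 := by
      have := Submodule.finrank_le U
      simpa using this
    have h3 : finrank k U = 0 ∨ finrank k U = 1 ∨ finrank k U = 2 := by omega
    rcases h3 with h0 | h1 | h2
    · rw [Submodule.finrank_eq_zero] at h0
      subst h0
      exact ⟨⊤, fun _ _ _ ↦ trivial, isCompl_bot_top⟩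
    · obtain ⟨v, hv, hv2⟩ := finrank_eq_one_iff'.mp h1
      have hUs : U = Submodule.span k {(v : Fin 2 → k)} := by
        apply le_antisymm
        · intro x hx
          obtain ⟨c, hc⟩ := hv2 ⟨x, hx⟩
          rw [Submodule.mem_span_singleton]
          exact ⟨c, congrArg Subtype.val hc⟩
        · rw [Submodule.span_singleton_le_iff_mem]; exact v.2
      obtain ⟨c, hc⟩ := hv2 ⟨(ρ g).mulVec v, hU g v v.2⟩
      have hc' : c • (v : Fin 2 → k) = ![χ₁ g * v.1 0, χ₂ g * v.1 1] := by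
        rw [← hmv]; exact congrArg Subtype.val hc
      have e0 : c * v.1 0 = χ₁ g * v.1 0 := by simpa using congrFun hc' 0
      have e1 : c * v.1 1 = χ₂ g * v.1 1 := by simpa using congrFun hc' 1
      have hv0 : v.1 0 = 0 ∨ v.1 1 = 0 := by
        by_contra hcon
        push Not at hcon
        exact hg ((mul_right_cancel₀ hcon.1 e0).symm.trans (mul_right_cancel₀ hcon.2 e1))
      have hvne : (v : Fin 2 → k) ≠ 0 := by simpa using hv
      rcases hv0 with hz | hz
      · have hz1 : v.1 1 ≠ 0 := by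
          intro hz1
          apply hvne
          ext i
          fin_cases i
          · exact hz
          · exact hz1
        refine ⟨Submodule.span k {![1, 0]}, fun g' x hx ↦ ?_, ?_⟩
        · obtain ⟨b, rfl⟩ := Submodule.mem_span_singleton.mp hx
          rw [hmv, Submodule.mem_span_singleton]
          exact ⟨χ₁ g' * b, by ext i; fin_cases i <;> simp⟩
        · rw [hUs]
          exact isCompl_span (by simp [hz, hz1])
      · have hz1 : v.1 0 ≠ 0 := by
          intro hz1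
          apply hvne
          ext i
          fin_cases i
          · exact hz1
          · exact hz
        refine ⟨Submodule.span k {![0, 1]}, fun g' x hx ↦ ?_, ?_⟩
        · obtain ⟨b, rfl⟩ := Submodule.mem_span_singleton.mp hx
          rw [hmv, Submodule.mem_span_singleton]
          exact ⟨χ₂ g' * b, by ext i; fin_cases i <;> simp⟩
        · rw [hUs]
          exact isCompl_span (by simp [hz, hz1])
    · have : U = ⊤ := by
        apply Submodule.eq_top_of_finrank_eq
        simpa using h2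
      subst this
      exact ⟨⊥, fun g x hx ↦ by
        rw [Submodule.mem_bot] at hx ⊢
        rw [hx, mulVec_zero], isCompl_top_bot⟩

/-- a reducible two-dimensional representation is a sum of two characters -/
theorem exists_chars (ρ : G →* Matrix (Fin 2) (Fin 2) k) {v : Fin 2 → k} (hv : v ≠ 0)
    (hev : ∀ g, ∃ c : k, (ρ g).mulVec v = c • v) :
    ∃ χ₁ χ₂ : G →* k, (∀ g, (ρ g).trace = χ₁ g + χ₂ g) ∧ (∀ g, (ρ g).det = χ₁ g * χ₂ g) ∧
      ∀ g, ρ g = 1 → χ₁ g = 1 ∧ χ₂ g = 1 := by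
  choose c hc using hev
  -- complete to a basis
  obtain ⟨w, hw⟩ : ∃ w : Fin 2 → k, v 0 * w 1 - v 1 * w 0 ≠ 0 := by
    by_cases h0 : v 0 = 0
    · have h1 : v 1 ≠ 0 := by
        intro h1
        apply hv
        ext i
        fin_cases i
        · exact h0
        · exact h1
      exact ⟨![1, 0], by simp [h1]⟩
    · exact ⟨![0, 1], by simp [h0]⟩
  set P : Matrix (Fin 2) (Fin 2) k := !![v 0, w 0; v 1, w 1] with hP
  have hdet : P.det ≠ 0 := by
    rw [hP, det_fin_two_of]
    intro h0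
    apply hw
    linear_combination h0
  have hPu : IsUnit P.det := hdet.isUnit
  have hPP : P⁻¹ * P = 1 := nonsing_inv_mul P hPu
  have hPP' : P * P⁻¹ = 1 := mul_nonsing_inv P hPu
  let R : G → Matrix (Fin 2) (Fin 2) k := fun g ↦ P⁻¹ * ρ g * P
  have hR1 : R 1 = 1 := by simp only [R, map_one, mul_one, hPP]
  have hRmul : ∀ g g', R (g * g') = R g * R g' := by
    intro g g'
    simp only [R, map_mul]
    calc P⁻¹ * (ρ g * ρ g') * P = P⁻¹ * ρ g * 1 * ρ g' * P := by
          rw [mul_one]; simp only [mul_assoc]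
      _ = _ := by rw [← hPP']; simp only [mul_assoc]
  have hPe : P.mulVec ![1, 0] = v := by
    ext i
    fin_cases i <;> simp [hP, mulVec, dotProduct, Fin.sum_univ_two]
  have hR10 : ∀ g, R g 1 0 = 0 := by
    intro g
    have h1 : (R g).mulVec ![1, 0] = c g • ![1, 0] := by
      simp only [R]
      rw [← mulVec_mulVec, hPe, ← mulVec_mulVec, hc, mulVec_smul]
      congr 1
      rw [← hPe, mulVec_mulVec, hPP, one_mulVec]
    have h2 := congrFun h1 1
    simpa [mulVec, dotProduct, Fin.sum_univ_two] using h2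
  have htr : ∀ g, R g 0 0 + R g 1 1 = (ρ g).trace := by
    intro g
    rw [← trace_fin_two]
    simp only [R]
    rw [trace_mul_comm, ← mul_assoc, hPP', one_mul]
  have hdt : ∀ g, R g 0 0 * R g 1 1 = (ρ g).det := by
    intro g
    have h1 : (R g).det = (ρ g).det := by
      simp only [R]
      rw [det_mul, det_mul, mul_comm, ← mul_assoc, ← det_mul, hPP', det_one, one_mul]
    rw [← h1, det_fin_two, hR10, mul_zero, sub_zero]
  have e0 : ∀ g g', R (g * g') 0 0 = R g 0 0 * R g' 0 0 := fun g g' ↦ by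
    rw [hRmul, mul_apply, Fin.sum_univ_two, hR10 g', mul_zero, add_zero]
  have e1 : ∀ g g', R (g * g') 1 1 = R g 1 1 * R g' 1 1 := fun g g' ↦ by
    rw [hRmul, mul_apply, Fin.sum_univ_two, hR10 g, zero_mul, zero_add]
  refine ⟨{ toFun := fun g ↦ R g 0 0, map_one' := by rw [hR1]; rfl, map_mul' := e0 },
    { toFun := fun g ↦ R g 1 1, map_one' := by rw [hR1]; rfl, map_mul' := e1 },
    fun g ↦ (htr g).symm, fun g ↦ (hdt g).symm, fun g hg ↦ ?_⟩
  have : R g = 1 := by simp only [R, hg, mul_one, hPP]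
  change R g 0 0 = 1 ∧ R g 1 1 = 1
  rw [this]
  exact ⟨rfl, rfl⟩

/-- **Semisimplification** -/
theorem exists_isSS (ρ : G →* Matrix (Fin 2) (Fin 2) k) :
    ∃ ρ' : G →* Matrix (Fin 2) (Fin 2) k, IsSS ρ' ∧ (∀ g, ρ g = 1 → ρ' g = 1) ∧
      (∀ g, (ρ' g).trace = (ρ g).trace) ∧ ∀ g, (ρ' g).det = (ρ g).det := by
  by_cases h : ∀ v : Fin 2 → k, v ≠ 0 → ∃ g, ∀ c : k, (ρ g).mulVec v ≠ c • v
  · exact ⟨ρ, isSS_of_no_eigenvector ρ h, fun _ h ↦ h, fun _ ↦ rfl, fun _ ↦ rfl⟩
  push Not at h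
  obtain ⟨v, hv, hev⟩ := h
  obtain ⟨χ₁, χ₂, htr, hdet, hker⟩ := exists_chars ρ hv hev
  let ρ' : G →* Matrix (Fin 2) (Fin 2) k :=
    { toFun := fun g ↦ !![χ₁ g, 0; 0, χ₂ g]
      map_one' := by
        rw [map_one, map_one]
        exact one_fin_two.symm
      map_mul' := fun g g' ↦ by
        rw [map_mul, map_mul, mul_fin_two]
        simp }
  refine ⟨ρ', isSS_diagonal (fun g ↦ χ₁ g) (fun g ↦ χ₂ g) ρ' fun g ↦ rfl, fun g hg ↦ ?_,
    fun g ↦ ?_, fun g ↦ ?_⟩
  · change !![χ₁ g, 0; 0, χ₂ g] = 1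
    rw [(hker g hg).1, (hker g hg).2]
    exact one_fin_two.symm
  · change (!![χ₁ g, 0; 0, χ₂ g]).trace = _
    rw [trace_fin_two_of, htr]
  · change (!![χ₁ g, 0; 0, χ₂ g]).det = _
    rw [det_fin_two_of, hdet]
    ring

end

section Complex

variable {G : Type*} [Group G] [Fintype G]

/-- the square norm of the trace of a reducible representation is at least two on average -/
theorem two_mul_card_le_sum (ρ : G →* Matrix (Fin 2) (Fin 2) ℂ) {v : Fin 2 → ℂ} (hv : v ≠ 0)
    (hev : ∀ g, ∃ c : ℂ, (ρ g).mulVec v = c • v) :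
    2 * (Fintype.card G : ℝ) ≤ ∑ g, ‖(ρ g).trace‖ ^ 2 := by
  classical
  obtain ⟨χ₁, χ₂, htr, -, -⟩ := exists_chars ρ hv hev
  have hnorm : ∀ (χ : G →* ℂ) (g : G), ‖χ g‖ = 1 := by
    intro χ g
    apply Complex.norm_eq_one_of_pow_eq_one (n := Fintype.card G) _ Fintype.card_ne_zero
    rw [← map_pow, pow_card_eq_one, map_one]
  let ψ : G →* ℂ := χ₁ * ((starRingEnd ℂ : ℂ →+* ℂ).toMonoidHom.comp χ₂)
  have hψ : ∀ g, ψ g = χ₁ g * (starRingEnd ℂ) (χ₂ g) := fun g ↦ rfl
  have h1 : ∀ g, ‖(ρ g).trace‖ ^ 2 = 2 + 2 * (ψ g).re := by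
    intro g
    rw [htr, hψ]
    have h2 : ‖χ₁ g + χ₂ g‖ ^ 2 = ‖χ₁ g‖ ^ 2 + ‖χ₂ g‖ ^ 2 +
        2 * (χ₁ g * (starRingEnd ℂ) (χ₂ g)).re := by
      rw [← Complex.normSq_eq_norm_sq, ← Complex.normSq_eq_norm_sq, ← Complex.normSq_eq_norm_sq,
        Complex.normSq_add]
    rw [h2, hnorm, hnorm]
    ring
  have h2 : 0 ≤ (∑ g, ψ g).re := by
    rw [sum_hom_units]
    split_ifs
    · simp
    · simp
  calc 2 * (Fintype.card G : ℝ) ≤ 2 * (Fintype.card G : ℝ) + 2 * (∑ g, ψ g).re := by linarith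
    _ = ∑ g, ‖(ρ g).trace‖ ^ 2 := by
      rw [Finset.sum_congr rfl fun g _ ↦ h1 g, Finset.sum_add_distrib, ← Finset.mul_sum,
        ← Complex.re_sum]
      simp
      ring

end Complex

end Fermat.Agent.DS
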