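import Fermat.Agent.DS.ModLift
import Fermat.Agent.DS.Semisimple
import Fermat.Agent.DS.BoundedGroup
import Fermat.Agent.Cheb.DetCyc
import Fermat.Prelude.Def_GaloisRep_ComplexConjugation

/-!
# From mod `ℓ` representations to a complex representation (Deligne-Serre, section 8)
-/

set_option autoImplicit false
set_option linter.style.haveILetI false

open Finset Module

namespace Fermat.Agent.DS

local notation "Qbar" => AlgebraicClosure ℚ
local notation "Γℚ" => (AlgebraicClosure ℚ ≃ₐ[ℚ] AlgebraicClosure ℚ)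
local notation "ℤbar" => integralClosure ℤ ℂ

/-- The lower bound half of Chebotarev's theorem (Dirichlet density form). -/
def ChebLower : Prop :=
  ∀ (G : Type) [Group G] [Fintype G] (π : Γℚ →* G), GaloisFactorsThroughFiniteLevel π →
    Function.Surjective π → ∀ B : Finset G, ∀ ε : ℝ, 0 < ε →
    ∃ C : ℝ, ∀ s : ℝ, 1 < s → s ≤ 2 → ∃ F : Finset ℕ,
      (∀ p ∈ F, p.Prime ∧
        (∃ A : ValuationSubring Qbar, A.LiesOverPrime p ∧ ∃ σ : Γℚ, A.IsFrobeniusAt σ p ∧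
          π σ ∈ B)) ∧
      ((B.card : ℝ) / Fintype.card G - ε) * Real.log (1 / (s - 1)) - C ≤
        ∑ p ∈ F, (p : ℝ) ^ (-s)

/-- A representation of `Γℚ` with prescribed Frobenius traces and determinants. -/
structure IsFrobRep {k : Type} [Field k] (B : ℕ) (t d : ℕ → k)
    (ρ : Γℚ →* Matrix (Fin 2) (Fin 2) k) : Prop where
  level : GaloisFactorsThroughFiniteLevel ρ
  unram : ∀ p : ℕ, p.Prime → ¬ p ∣ B → ∀ A : ValuationSubring Qbar, A.LiesOverPrime p →
    ∀ σ ∈ A.inertiaSubgroupIn ℚ, ρ σ = 1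
  trace : ∀ p : ℕ, p.Prime → ¬ p ∣ B → ∀ A : ValuationSubring Qbar, A.LiesOverPrime p →
    ∀ σ : Γℚ, A.IsFrobeniusAt σ p → (ρ σ).trace = t p
  det : ∀ p : ℕ, p.Prime → ¬ p ∣ B → ∀ A : ValuationSubring Qbar, A.LiesOverPrime p →
    ∀ σ : Γℚ, A.IsFrobeniusAt σ p → (ρ σ).det = d p

theorem IsFrobRep.semisimplify {k : Type} [Field k] {B : ℕ} {t d : ℕ → k}
    {ρ : Γℚ →* Matrix (Fin 2) (Fin 2) k} (h : IsFrobRep B t d ρ) :
    ∃ ρ' : Γℚ →* Matrix (Fin 2) (Fin 2) k, IsFrobRep B t d ρ' ∧ IsSS ρ' := by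
  obtain ⟨ρ', h1, h2, h3, h4⟩ := exists_isSS ρ
  obtain ⟨L, hL, hL'⟩ := h.level
  exact ⟨ρ', ⟨⟨L, hL, fun σ hσ ↦ h2 _ (hL' σ hσ)⟩,
    fun p hp hpB A hA σ hσ ↦ h2 _ (h.unram p hp hpB A hA σ hσ),
    fun p hp hpB A hA σ hσ ↦ (h3 σ).trans (h.trace p hp hpB A hA σ hσ),
    fun p hp hpB A hA σ hσ ↦ (h4 σ).trans (h.det p hp hpB A hA σ hσ)⟩, h1⟩

/-- a homomorphism of finite level has finite range -/
theorem finite_range {M : Type} [Monoid M] {π : Γℚ →* M} (h : GaloisFactorsThroughFiniteLevel π) :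
    (Set.range π).Finite := by
  obtain ⟨F, hF, h⟩ := h
  let L : IntermediateField ℚ Qbar := IntermediateField.normalClosure ℚ F Qbar
  haveI : FiniteDimensional ℚ L := normalClosure.is_finiteDimensional ℚ F Qbar
  haveI : Normal ℚ L := normalClosure.normal ℚ F Qbar
  have hFL : F ≤ L := F.le_normalClosure
  have hsurj : Function.Surjective (AlgEquiv.restrictNormalHom (F := ℚ) (K₁ := Qbar) L) :=
    AlgEquiv.restrictNormalHom_surjective Qbar
  refine Set.Finite.subset (Set.finite_range fun g : (L ≃ₐ[ℚ] L) ↦ π (hsurj g).choose) ?_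
  rintro _ ⟨σ, rfl⟩
  refine ⟨AlgEquiv.restrictNormalHom L σ, ?_⟩
  set τ := (hsurj (AlgEquiv.restrictNormalHom L σ)).choose with hτ
  have h1 : AlgEquiv.restrictNormalHom L τ = AlgEquiv.restrictNormalHom L σ :=
    (hsurj (AlgEquiv.restrictNormalHom L σ)).choose_spec
  have h2 : ∀ x ∈ F, τ x = σ x := by
    intro x hx
    have e1 := AlgEquiv.restrictNormal_commutes σ L ⟨x, hFL hx⟩
    have e2 := AlgEquiv.restrictNormal_commutes τ L ⟨x, hFL hx⟩
    have h1' : AlgEquiv.restrictNormal τ L = AlgEquiv.restrictNormal σ L := h1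
    rw [h1'] at e2
    exact e2.symm.trans e1
  have h3 : π (σ⁻¹ * τ) = 1 := h _ fun x hx ↦ by
    change σ⁻¹ (τ x) = x
    rw [h2 x hx]
    exact inv_smul_smul σ x
  change π τ = π σ
  have h4 : τ = σ * (σ⁻¹ * τ) := by group
  rw [h4, map_mul, h3, mul_one]

theorem notMem_primeFactors {B : ℕ} (hB : B ≠ 0) {p : ℕ} (hp : p.Prime)
    (h : p ∉ B.primeFactors) : ¬ p ∣ B := fun hd ↦ h (Nat.mem_primeFactors.mpr ⟨hp, hd, hB⟩)

/-- the determinant is of bounded order -/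
theorem IsFrobRep.det_pow {k : Type} [Field k] {B : ℕ} (hB : B ≠ 0) {t d : ℕ → k}
    {ρ : Γℚ →* Matrix (Fin 2) (Fin 2) k} (h : IsFrobRep B t d ρ) {m : ℕ}
    (hd : ∀ p : ℕ, p.Prime → ¬ p ∣ B → d p ^ m = 1) (σ : Γℚ) : (ρ σ).det ^ m = 1 := by
  obtain ⟨p, hp, hpS, -, A, hA, φ, hφ, ⟨j, hj⟩, -⟩ :=
    Cheb.exists_frobenius_of_factors ρ h.level σ B.primeFactors
  have hpB := notMem_primeFactors hB hp hpS
  rw [hj, Matrix.det_pow, h.det p hp hpB A hA φ hφ, ← pow_mul, mul_comm, pow_mul, hd p hp hpB,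
    one_pow]

/-- the determinant of complex conjugation -/
theorem IsFrobRep.det_complexConjugation {k : Type} [Field k] {B : ℕ} (hB : B ≠ 0)
    {t d : ℕ → k} {ρ : Γℚ →* Matrix (Fin 2) (Fin 2) k} (h : IsFrobRep B t d ρ) {N : ℕ}
    (hN : N ∣ B) (χ : ZMod N →* k)
    (hd : ∀ p : ℕ, p.Prime → ¬ p ∣ B → d p = χ p) : (ρ complexConjugation).det = χ (-1) := by
  have hN0 : N ≠ 0 := fun h0 ↦ hB (by rw [h0] at hN; exact Nat.eq_zero_of_zero_dvd hN)
  haveI : NeZero N := ⟨hN0⟩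
  haveI : NeZero ((N : ℕ) : Qbar) := ⟨by exact_mod_cast hN0⟩
  obtain ⟨ζ, hζ⟩ := HasEnoughRootsOfUnity.exists_primitiveRoot Qbar N
  obtain ⟨L1, hL1f, hL1⟩ := h.level
  haveI := hL1f
  let F : IntermediateField ℚ Qbar := L1 ⊔ IntermediateField.adjoin ℚ {ζ}
  have hζF : ζ ∈ F := (le_sup_right : IntermediateField.adjoin ℚ {ζ} ≤ L1 ⊔ _)
    (IntermediateField.mem_adjoin_simple_self ℚ ζ)
  haveI : FiniteDimensional ℚ (IntermediateField.adjoin ℚ {ζ}) :=
    IntermediateField.adjoin.finiteDimensional (Algebra.IsIntegral.isIntegral ζ)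
  haveI : FiniteDimensional ℚ F := IntermediateField.finiteDimensional_sup _ _
  obtain ⟨p, hp, hpS, -, A, hA, φ, hφ, ⟨j, hj⟩, -⟩ :=
    Cheb.exists_frobenius F complexConjugation B.primeFactors
  have hpB := notMem_primeFactors hB hp hpS
  have hpN : ¬ p ∣ N := fun hd ↦ hpB (hd.trans hN)
  have hφζ : ∀ j : ℕ, (φ ^ j) ζ = ζ ^ (p ^ j) := by
    intro j
    induction j with
    | zero => simp
    | succ j ih =>
      rw [pow_succ, AlgEquiv.mul_apply, Cheb.frob_rootOfUnity hp hA hφ hpN hζ.pow_eq_one,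
        map_pow, ih, ← pow_mul, ← pow_succ]
  -- complex conjugation inverts `ζ`
  have hcc : complexConjugation ζ = ζ⁻¹ := by
    apply complexEmbedding.injective
    change complexEmbedding (complexConjugation ζ) = complexEmbedding ζ⁻¹
    rw [complexEmbedding_complexConjugation, map_inv₀]
    have h1 : (complexEmbedding ζ) ^ N = 1 := by rw [← map_pow, hζ.pow_eq_one, map_one]
    have h2 : ‖complexEmbedding ζ‖ = 1 := Complex.norm_eq_one_of_pow_eq_one h1 hN0
    exact (Complex.inv_eq_conj h2).symm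
  have hmod : ((p ^ j : ℕ) : ZMod N) = -1 := by
    have h1 : ζ ^ (p ^ j + 1) = 1 := by
      rw [pow_succ, ← hφζ, ← hj ζ hζF, hcc, inv_mul_cancel₀ (hζ.ne_zero hN0)]
    have h2 := (hζ.pow_eq_one_iff_dvd _).mp h1
    have h3 : ((p ^ j + 1 : ℕ) : ZMod N) = 0 := (ZMod.natCast_eq_zero_iff _ _).mpr h2
    rw [Nat.cast_add, Nat.cast_one] at h3
    exact eq_neg_of_add_eq_zero_left h3
  have hρ : ρ complexConjugation = ρ φ ^ j := by
    rw [← map_pow]
    have h1 : ρ ((φ ^ j)⁻¹ * complexConjugation) = 1 := hL1 _ fun x hx ↦ by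
      change (φ ^ j)⁻¹ (complexConjugation x) = x
      rw [hj x ((le_sup_left : L1 ≤ L1 ⊔ _) hx)]
      exact inv_smul_smul (φ ^ j) x
    have h2 : complexConjugation = φ ^ j * ((φ ^ j)⁻¹ * complexConjugation) := by group
    rw [h2, map_mul, h1, mul_one]
  rw [hρ, Matrix.det_pow, h.det p hp hpB A hA φ hφ, hd p hp hpB, ← map_pow, ← hmod]
  congr 1
  push_cast
  rfl

theorem le_of_log_bound {x y C : ℝ}
    (h : ∀ s : ℝ, 1 < s → s ≤ 2 → x * Real.log (1 / (s - 1)) ≤ y * Real.log (1 / (s - 1)) + C) :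
    x ≤ y := by
  by_contra hcon
  push Not at hcon
  have hδ : 0 < x - y := sub_pos.mpr hcon
  set L := (|C| + 1) / (x - y) with hL
  have hL0 : 0 ≤ L := by positivity
  have h1 := h (1 + Real.exp (-L)) (by linarith [Real.exp_pos (-L)]) (by
    have : Real.exp (-L) ≤ 1 := Real.exp_le_one_iff.mpr (by linarith)
    linarith)
  have h2 : Real.log (1 / (1 + Real.exp (-L) - 1)) = L := by
    rw [add_sub_cancel_left, one_div, Real.log_inv, Real.log_exp, neg_neg]
  rw [h2] at h1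
  have h3 : (x - y) * L = |C| + 1 := by
    rw [hL]
    field_simp
  have h4 := le_abs_self C
  linarith [h1, h3, sub_mul x y L]

/-- the image of a matrix representation of finite level -/
abbrev imG {k : Type} [Field k] (ρ : Γℚ →* Matrix (Fin 2) (Fin 2) k) : Type :=
  (MonoidHom.toHomUnits ρ).range

/-- the projection to the image -/
noncomputable def imPi {k : Type} [Field k] (ρ : Γℚ →* Matrix (Fin 2) (Fin 2) k) :
    Γℚ →* imG ρ := (MonoidHom.toHomUnits ρ).rangeRestrict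

theorem imPi_surjective {k : Type} [Field k] (ρ : Γℚ →* Matrix (Fin 2) (Fin 2) k) :
    Function.Surjective (imPi ρ) := MonoidHom.rangeRestrict_surjective _

theorem coe_imPi {k : Type} [Field k] (ρ : Γℚ →* Matrix (Fin 2) (Fin 2) k) (σ : Γℚ) :
    (((imPi ρ σ : imG ρ) : (Matrix (Fin 2) (Fin 2) k)ˣ) : Matrix (Fin 2) (Fin 2) k) = ρ σ := rfl

theorem imPi_level {k : Type} [Field k] {ρ : Γℚ →* Matrix (Fin 2) (Fin 2) k}
    (h : GaloisFactorsThroughFiniteLevel ρ) : GaloisFactorsThroughFiniteLevel (imPi ρ) := by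
  obtain ⟨L, hL, h⟩ := h
  refine ⟨L, hL, fun σ hσ ↦ ?_⟩
  apply Subtype.ext
  apply Units.ext
  rw [coe_imPi, h σ hσ]
  rfl

theorem finite_imG {k : Type} [Field k] {ρ : Γℚ →* Matrix (Fin 2) (Fin 2) k}
    (h : GaloisFactorsThroughFiniteLevel ρ) : Finite (imG ρ) := by
  have h1 := finite_range (imPi_level h)
  rw [(imPi_surjective ρ).range_eq] at h1
  exact Set.finite_univ_iff.mp h1

/-- the image as endomorphisms -/
noncomputable def imRep {k : Type} [Field k] (ρ : Γℚ →* Matrix (Fin 2) (Fin 2) k) :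
    imG ρ →* Module.End k (Fin 2 → k) :=
  (((Matrix.toLinAlgEquiv' : Matrix (Fin 2) (Fin 2) k ≃ₐ[k] _).toAlgHom.toMonoidHom).comp
    (Units.coeHom _)).comp (Subgroup.subtype _)

theorem imRep_apply {k : Type} [Field k] (ρ : Γℚ →* Matrix (Fin 2) (Fin 2) k) (g : imG ρ) :
    imRep ρ g = Matrix.toLin' ((g : (Matrix (Fin 2) (Fin 2) k)ˣ) : Matrix (Fin 2) (Fin 2) k) := rfl

theorem imRep_injective {k : Type} [Field k] (ρ : Γℚ →* Matrix (Fin 2) (Fin 2) k) :
    Function.Injective (imRep ρ) := by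
  intro g g' h
  rw [imRep_apply, imRep_apply] at h
  exact Subtype.ext (Units.ext (Matrix.toLin'.injective h))

open Classical in
/-- **The images are bounded.** -/
theorem exists_card_imG_le (hC : ChebLower) {N : ℕ} (hN : N ≠ 0) (α : ℕ → ℤbar) (Y : Finset ℤbar)
    {C : ℝ} (hY : ∀ s : ℝ, 1 < s → s ≤ 2 → ∀ F : Finset ℕ,
      (∀ p ∈ F, p.Prime ∧ ¬ p ∣ N ∧ α p ∉ Y) →
        ∑ p ∈ F, (p : ℝ) ^ (-s) ≤ (1 / 4) * Real.log (1 / (s - 1)) + C) {m : ℕ} (hm : 0 < m) :
    ∃ A : ℕ, ∀ ℓ : ℕ, ℓ ≠ 0 → ∀ (k : Type) [Field k] [IsAlgClosed k] (φ : ℤbar →+* k)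
      (d : ℕ → k) (ρ : Γℚ →* Matrix (Fin 2) (Fin 2) k),
      IsFrobRep (N * ℓ) (fun p ↦ φ (α p)) d ρ → IsSS ρ →
      (∀ p : ℕ, p.Prime → ¬ p ∣ N * ℓ → d p ^ m = 1) → Nat.card (imG ρ) ≤ A := by
  obtain ⟨A, hA⟩ := Bdd.exists_card_bound Y.card m hm
  refine ⟨A, fun ℓ hℓ k _ _ φ d ρ hρ hss hd ↦ ?_⟩
  have hB : N * ℓ ≠ 0 := mul_ne_zero hN hℓ
  haveI := finite_imG hρ.level
  letI : Fintype (imG ρ) := Fintype.ofFinite _
  have htr : ∀ g : imG ρ, LinearMap.trace k (Fin 2 → k) (imRep ρ g) =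
      ((g : (Matrix (Fin 2) (Fin 2) k)ˣ) : Matrix (Fin 2) (Fin 2) k).trace := by
    intro g
    rw [imRep_apply, Matrix.trace_toLin'_eq]
  set S : Finset k := Y.image φ with hS
  set H : Finset (imG ρ) := univ.filter fun g ↦
    ((g : (Matrix (Fin 2) (Fin 2) k)ˣ) : Matrix (Fin 2) (Fin 2) k).trace ∈ S with hH
  rw [Nat.card_eq_fintype_card]
  refine hA k (Fin 2 → k) (by simp) (imG ρ) (imRep ρ) (imRep_injective ρ) ?_ ?_ S
    Finset.card_image_le H ?_ ?_
  · intro U hU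
    obtain ⟨U', hU', hc⟩ := hss U (fun σ x hx ↦ hU (imPi ρ σ) x hx)
    refine ⟨U', fun g x hx ↦ ?_, hc⟩
    obtain ⟨σ, rfl⟩ := imPi_surjective ρ g
    exact hU' σ x hx
  · intro g
    obtain ⟨σ, rfl⟩ := imPi_surjective ρ g
    rw [imRep_apply, LinearMap.det_toLin', coe_imPi]
    exact hρ.det_pow hB hd σ
  · intro g hg
    rw [htr]
    exact (Finset.mem_filter.mp hg).2
  · -- density
    set B : Finset (imG ρ) := univ.filter fun g ↦
      ¬ ((g : (Matrix (Fin 2) (Fin 2) k)ˣ) : Matrix (Fin 2) (Fin 2) k).trace ∈ S with hBdef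
    have hG : (0 : ℝ) < Fintype.card (imG ρ) := by exact_mod_cast Fintype.card_pos
    have key : (B.card : ℝ) / Fintype.card (imG ρ) ≤ 1 / 4 := by
      refine le_of_forall_pos_le_add fun ε hε ↦ ?_
      rw [← sub_le_iff_le_add]
      obtain ⟨C1, hC1⟩ := hC (imG ρ) (imPi ρ) (imPi_level hρ.level) (imPi_surjective ρ) B ε hε
      apply le_of_log_bound (C := C + C1 + (N * ℓ).primeFactors.card)
      intro s hs1 hs2
      obtain ⟨F, hF, hFs⟩ := hC1 s hs1 hs2
      have h1 := hY s hs1 hs2 (F \ (N * ℓ).primeFactors) (by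
        intro p hp
        rw [Finset.mem_sdiff] at hp
        have hpp := (hF p hp.1).1
        have hpB := notMem_primeFactors hB hpp hp.2
        refine ⟨hpp, fun hd ↦ hpB (hd.trans (dvd_mul_right _ _)), fun hYp ↦ ?_⟩
        obtain ⟨A', hA', σ, hσ, h2⟩ := (hF p hp.1).2
        rw [hBdef, Finset.mem_filter] at h2
        apply h2.2
        rw [coe_imPi, hρ.trace p hpp hpB A' hA' σ hσ, hS]
        exact Finset.mem_image_of_mem φ hYp)
      have h2 : ∑ p ∈ F, (p : ℝ) ^ (-s) ≤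
          ∑ p ∈ F \ (N * ℓ).primeFactors, (p : ℝ) ^ (-s) + (N * ℓ).primeFactors.card := by
        have h3 : ∑ p ∈ F, (p : ℝ) ^ (-s) ≤ ∑ p ∈ (F \ (N * ℓ).primeFactors) ∪
            (N * ℓ).primeFactors, (p : ℝ) ^ (-s) := by
          apply Finset.sum_le_sum_of_subset_of_nonneg
          · intro p hp
            simp only [Finset.mem_union, Finset.mem_sdiff]
            tauto
          · intro p _ _
            positivity
        have h4 : ∑ p ∈ (N * ℓ).primeFactors, (p : ℝ) ^ (-s) ≤ (N * ℓ).primeFactors.card := by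
          have : ∀ p ∈ (N * ℓ).primeFactors, (p : ℝ) ^ (-s) ≤ 1 := by
            intro p hp
            have hp1 : (1 : ℝ) ≤ p := by exact_mod_cast (Nat.prime_of_mem_primeFactors hp).one_le
            exact Real.rpow_le_one_of_one_le_of_nonpos hp1 (by linarith)
          calc _ ≤ ∑ p ∈ (N * ℓ).primeFactors, (1 : ℝ) := Finset.sum_le_sum this
            _ = _ := by simp
        rw [Finset.sum_union Finset.sdiff_disjoint] at h3
        linarith
      linarith
    have hcard : H.card + B.card = Fintype.card (imG ρ) := by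
      have := Finset.card_filter_add_card_filter_not (s := (univ : Finset (imG ρ)))
        (fun g ↦ ((g : (Matrix (Fin 2) (Fin 2) k)ˣ) : Matrix (Fin 2) (Fin 2) k).trace ∈ S)
      rw [card_univ] at this
      exact this
    rw [div_le_iff₀ hG] at key
    have key2 : 4 * B.card ≤ Fintype.card (imG ρ) := by
      have : (4 : ℝ) * B.card ≤ Fintype.card (imG ρ) := by linarith
      exact_mod_cast this
    omega

/-- elements of the image have bounded order -/
theorem pow_factorial_eq_one {k : Type} [Field k] {ρ : Γℚ →* Matrix (Fin 2) (Fin 2) k}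
    (h : GaloisFactorsThroughFiniteLevel ρ) {A : ℕ} (hA : Nat.card (imG ρ) ≤ A) (σ : Γℚ) :
    ρ σ ^ A.factorial = 1 := by
  haveI := finite_imG h
  have h1 : (imPi ρ σ) ^ Nat.card (imG ρ) = 1 := pow_card_eq_one'
  have h2 : Nat.card (imG ρ) ∣ A.factorial := Nat.dvd_factorial Nat.card_pos hA
  have h3 : (imPi ρ σ) ^ A.factorial = 1 := by
    obtain ⟨c, hc⟩ := h2
    rw [hc, pow_mul, h1, one_pow]
  have h4 := congrArg (fun g : imG ρ ↦
    ((g : (Matrix (Fin 2) (Fin 2) k)ˣ) : Matrix (Fin 2) (Fin 2) k)) h3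
  simpa [coe_imPi] using h4

end Fermat.Agent.DS
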