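import Fermat.Agent.DS.Artin

/-!
# The complex representation attached to a family of mod `ℓ` representations
-/

set_option autoImplicit false
set_option linter.style.haveILetI false

open Finset Module

namespace Fermat.Agent.DS

local notation "Qbar" => AlgebraicClosure ℚ
local notation "Γℚ" => (AlgebraicClosure ℚ ≃ₐ[ℚ] AlgebraicClosure ℚ)
local notation "ℤbar" => integralClosure ℤ ℂ

theorem GaloisFactors_pair {M M' : Type} [Monoid M] [Monoid M'] {ρ : Γℚ →* M} {ρ' : Γℚ →* M'}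
    (h : GaloisFactorsThroughFiniteLevel ρ) (h' : GaloisFactorsThroughFiniteLevel ρ') :
    GaloisFactorsThroughFiniteLevel (ρ.prod ρ') := by
  obtain ⟨L, hL, h⟩ := h
  obtain ⟨L', hL', h'⟩ := h'
  refine ⟨L ⊔ L', IntermediateField.finiteDimensional_sup _ _, fun σ hσ ↦ ?_⟩
  apply Prod.ext
  · exact h σ fun x hx ↦ hσ x ((le_sup_left : L ≤ L ⊔ L') hx)
  · exact h' σ fun x hx ↦ hσ x ((le_sup_right : L' ≤ L ⊔ L') hx)

/-- Traces and determinants are determined by the Frobenius elements. -/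
theorem IsFrobRep.trace_eq {k : Type} [Field k] {B B' : ℕ} (hB : B ≠ 0) (hB' : B' ≠ 0)
    {t d t' d' : ℕ → k} {ρ ρ' : Γℚ →* Matrix (Fin 2) (Fin 2) k} (h : IsFrobRep B t d ρ)
    (h' : IsFrobRep B' t' d' ρ')
    (heq : ∀ p : ℕ, p.Prime → ¬ p ∣ B * B' → t p = t' p ∧ d p = d' p) (σ : Γℚ) :
    (ρ σ).trace = (ρ' σ).trace ∧ (ρ σ).det = (ρ' σ).det := by
  obtain ⟨p, hp, hpS, -, A, hA, φ, hφ, ⟨j, hj⟩, -⟩ :=
    Cheb.exists_frobenius_of_factors (ρ.prod ρ') (GaloisFactors_pair h.level h'.level) σ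
      (B * B').primeFactors
  have hpB := notMem_primeFactors (mul_ne_zero hB hB') hp hpS
  have h1 : ¬ p ∣ B := fun hd ↦ hpB (hd.trans (dvd_mul_right _ _))
  have h2 : ¬ p ∣ B' := fun hd ↦ hpB (hd.trans (dvd_mul_left _ _))
  have e1 : ρ σ = ρ φ ^ j := congrArg Prod.fst hj
  have e2 : ρ' σ = ρ' φ ^ j := congrArg Prod.snd hj
  rw [e1, e2, Cheb.trace_pow_matrix, Cheb.trace_pow_matrix, Matrix.det_pow, Matrix.det_pow,
    h.trace p hp h1 A hA φ hφ, h'.trace p hp h2 A hA φ hφ, h.det p hp h1 A hA φ hφ,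
    h'.det p hp h2 A hA φ hφ, (heq p hp hpB).1, (heq p hp hpB).2]
  exact ⟨rfl, rfl⟩

/-- `ρ` has no stable line -/
def NoLine {k : Type} [Field k] {G : Type*} [Group G] (ρ : G →* Matrix (Fin 2) (Fin 2) k) : Prop :=
  ∀ v : Fin 2 → k, v ≠ 0 → ∃ g, ∀ c : k, (ρ g).mulVec v ≠ c • v

theorem NoLine.invariant {k : Type} [Field k] {G : Type*} [Group G]
    {ρ : G →* Matrix (Fin 2) (Fin 2) k} (h : NoLine ρ) (U : Submodule k (Fin 2 → k))
    (hU : ∀ g, ∀ x ∈ U, (ρ g).mulVec x ∈ U) : U = ⊥ ∨ U = ⊤ := by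
  have hle : finrank k U ≤ 2 := by
    have := Submodule.finrank_le U
    simpa using this
  have h3 : finrank k U = 0 ∨ finrank k U = 1 ∨ finrank k U = 2 := by omega
  rcases h3 with h0 | h1 | h2
  · exact Or.inl (Submodule.finrank_eq_zero.mp h0)
  · exfalso
    obtain ⟨v, hv, hv2⟩ := finrank_eq_one_iff'.mp h1
    obtain ⟨g, hg⟩ := h v (by simpa using hv)
    obtain ⟨c, hc⟩ := hv2 ⟨(ρ g).mulVec v, hU g v v.2⟩
    exact hg c (by simpa using (congrArg Subtype.val hc).symm)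
  · right
    apply Submodule.eq_top_of_finrank_eq
    simpa using h2

/-- an irreducible representation is trivial where its trace function is invariant -/
theorem NoLine.eq_one {k : Type} [Field k] [IsAlgClosed k] {G : Type*} [Group G]
    {ρ : G →* Matrix (Fin 2) (Fin 2) k} (h : NoLine ρ) {g₀ : G}
    (hg : ∀ g, (ρ (g * g₀)).trace = (ρ g).trace) : ρ g₀ = 1 := by
  let ρE : G →* Module.End k (Fin 2 → k) :=
    ((Matrix.toLinAlgEquiv' : Matrix (Fin 2) (Fin 2) k ≃ₐ[k] _).toAlgHom.toMonoidHom).comp ρ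
  have hE : ∀ g, ρE g = Matrix.toLin' (ρ g) := fun g ↦ rfl
  have hspan := RepTwo.span_range_eq_top ρE (fun W hW ↦ h.invariant W fun g x hx ↦ hW g x hx)
  have h1 : ∀ f : Module.End k (Fin 2 → k),
      LinearMap.trace k _ (f * Matrix.toLin' (ρ g₀ - 1)) = 0 := by
    intro f
    have hf : f ∈ Submodule.span k (Set.range ρE) := by rw [hspan]; trivial
    induction hf using Submodule.span_induction with
    | mem x hx =>
      obtain ⟨g, rfl⟩ := hx
      rw [hE, Module.End.mul_eq_comp, ← Matrix.toLin'_mul, Matrix.trace_toLin'_eq, mul_sub,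
        mul_one, ← map_mul, Matrix.trace_sub, hg, sub_self]
    | zero => simp
    | add x y _ _ hx hy => rw [add_mul, map_add, hx, hy, add_zero]
    | smul a x _ hx => rw [smul_mul_assoc, map_smul, hx, smul_zero]
  have h2 : ∀ X : Matrix (Fin 2) (Fin 2) k, (X * (ρ g₀ - 1)).trace = 0 := by
    intro X
    rw [← Matrix.trace_toLin'_eq, Matrix.toLin'_mul]
    exact h1 (Matrix.toLin' X)
  have h3 : ρ g₀ - 1 = 0 := by
    ext i j
    have := h2 (Matrix.single j i 1)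
    rw [Matrix.trace_single_mul] at this
    simpa using this
  exact sub_eq_zero.mp h3

open Classical in
/-- **The mean square of the trace is at most one.** -/
theorem sum_norm_trace_sq_le (hC : ChebLower) {B : ℕ} (hB : B ≠ 0) {a d : ℕ → ℂ}
    {ρ : Γℚ →* Matrix (Fin 2) (Fin 2) ℂ} (h : IsFrobRep B a d ρ) {C : ℝ}
    (hR : ∀ s : ℝ, 1 < s → s ≤ 2 → ∀ F : Finset ℕ, (∀ p ∈ F, p.Prime ∧ ¬ p ∣ B) →
      ∑ p ∈ F, ‖a p‖ ^ 2 * (p : ℝ) ^ (-s) ≤ Real.log (1 / (s - 1)) + C) [Fintype (imG ρ)] :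
    ∑ g : imG ρ, ‖((g : (Matrix (Fin 2) (Fin 2) ℂ)ˣ) : Matrix (Fin 2) (Fin 2) ℂ).trace‖ ^ 2 ≤
      Fintype.card (imG ρ) := by
  set w : imG ρ → ℝ := fun g ↦
    ‖((g : (Matrix (Fin 2) (Fin 2) ℂ)ˣ) : Matrix (Fin 2) (Fin 2) ℂ).trace‖ ^ 2 with hw
  have hw0 : ∀ g, 0 ≤ w g := fun g ↦ by simp only [hw]; positivity
  set W : Finset ℝ := univ.image w with hW
  let Bv : ℝ → Finset (imG ρ) := fun v ↦ univ.filter fun g ↦ w g = v
  have hG : (0 : ℝ) < Fintype.card (imG ρ) := by exact_mod_cast Fintype.card_pos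
  have hsum : ∑ v ∈ W, v * (Bv v).card = ∑ g, w g := by
    rw [← Finset.sum_fiberwise_of_maps_to (s := univ) (t := W) (g := w)
      (fun g _ ↦ Finset.mem_image_of_mem w (mem_univ g))]
    refine Finset.sum_congr rfl fun v _ ↦ ?_
    have : ∀ g ∈ (univ.filter fun g ↦ w g = v), w g = v := fun g hg ↦ (mem_filter.mp hg).2
    rw [Finset.sum_congr rfl this, Finset.sum_const, nsmul_eq_mul, mul_comm]
  have hW0 : ∀ v ∈ W, 0 ≤ v := by
    intro v hv
    obtain ⟨g, _, rfl⟩ := Finset.mem_image.mp hv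
    exact hw0 g
  have hS0 : 0 ≤ ∑ v ∈ W, v := Finset.sum_nonneg hW0
  have key : (∑ g, w g) / Fintype.card (imG ρ) ≤ 1 := by
    refine le_of_forall_pos_le_add fun ε₀ hε₀ ↦ ?_
    set ε : ℝ := ε₀ / (1 + ∑ v ∈ W, v) with hε
    have hε0 : 0 < ε := by positivity
    have hε1 : (∑ v ∈ W, v) * ε ≤ ε₀ := by
      rw [hε, ← mul_div_assoc, div_le_iff₀ (by positivity)]
      nlinarith
    have hCv := fun v ↦ hC (imG ρ) (imPi ρ) (imPi_level h.level) (imPi_surjective ρ) (Bv v) ε hε0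
    choose Cv hCv using hCv
    suffices hs : (∑ g, w g) / Fintype.card (imG ρ) - (∑ v ∈ W, v) * ε ≤ 1 by linarith
    apply le_of_log_bound (C := C + ∑ v ∈ W, v * (Cv v + B.primeFactors.card))
    intro s hs1 hs2
    have hF := fun v ↦ hCv v s hs1 hs2
    choose F hF hFs using hF
    -- remove the bad primes
    have hF' : ∀ v, ∀ p ∈ F v \ B.primeFactors, p.Prime ∧ ¬ p ∣ B ∧ ‖a p‖ ^ 2 = v := by
      intro v p hp
      rw [Finset.mem_sdiff] at hp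
      have hpp := (hF v p hp.1).1
      have hpB := notMem_primeFactors hB hpp hp.2
      refine ⟨hpp, hpB, ?_⟩
      obtain ⟨A', hA', σ, hσ, h2⟩ := (hF v p hp.1).2
      simp only [Bv, mem_filter, mem_univ, true_and, hw] at h2
      rw [coe_imPi, h.trace p hpp hpB A' hA' σ hσ] at h2
      exact h2
    have hdisj : (W : Set ℝ).PairwiseDisjoint fun v ↦ F v \ B.primeFactors := by
      intro v _ v' _ hne
      rw [Function.onFun, Finset.disjoint_left]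
      intro p hp hp'
      exact hne ((hF' v p hp).2.2.symm.trans (hF' v' p hp').2.2)
    have h1 := hR s hs1 hs2 (W.biUnion fun v ↦ F v \ B.primeFactors) (by
      intro p hp
      obtain ⟨v, _, hv⟩ := Finset.mem_biUnion.mp hp
      exact ⟨(hF' v p hv).1, (hF' v p hv).2.1⟩)
    rw [Finset.sum_biUnion hdisj] at h1
    have h2 : ∀ v ∈ W, v * (((Bv v).card / Fintype.card (imG ρ) - ε) * Real.log (1 / (s - 1))
        - (Cv v + B.primeFactors.card)) ≤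
        ∑ p ∈ F v \ B.primeFactors, ‖a p‖ ^ 2 * (p : ℝ) ^ (-s) := by
      intro v hv
      have hv0 : 0 ≤ v := by
        obtain ⟨g, _, rfl⟩ := Finset.mem_image.mp hv
        exact hw0 g
      have e1 : ∑ p ∈ F v \ B.primeFactors, ‖a p‖ ^ 2 * (p : ℝ) ^ (-s) =
          v * ∑ p ∈ F v \ B.primeFactors, (p : ℝ) ^ (-s) := by
        rw [Finset.mul_sum]
        exact Finset.sum_congr rfl fun p hp ↦ by rw [(hF' v p hp).2.2]
      rw [e1]
      apply mul_le_mul_of_nonneg_left _ hv0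
      have h3 : ∑ p ∈ F v, (p : ℝ) ^ (-s) ≤ ∑ p ∈ (F v \ B.primeFactors) ∪
            B.primeFactors, (p : ℝ) ^ (-s) := by
        apply Finset.sum_le_sum_of_subset_of_nonneg
        · intro p hp
          simp only [Finset.mem_union, Finset.mem_sdiff]
          tauto
        · intro p _ _
          positivity
      have h4 : ∑ p ∈ B.primeFactors, (p : ℝ) ^ (-s) ≤ B.primeFactors.card := by
        have : ∀ p ∈ B.primeFactors, (p : ℝ) ^ (-s) ≤ 1 := by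
          intro p hp
          have hp1 : (1 : ℝ) ≤ p := by exact_mod_cast (Nat.prime_of_mem_primeFactors hp).one_le
          exact Real.rpow_le_one_of_one_le_of_nonpos hp1 (by linarith)
        calc _ ≤ ∑ p ∈ B.primeFactors, (1 : ℝ) := Finset.sum_le_sum this
          _ = _ := by simp
      rw [Finset.sum_union Finset.sdiff_disjoint] at h3
      have h5 := hFs v
      linarith
    have h3 := (Finset.sum_le_sum h2).trans h1
    have h4 : ∑ v ∈ W, v * (((Bv v).card / Fintype.card (imG ρ) - ε) * Real.log (1 / (s - 1))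
        - (Cv v + B.primeFactors.card)) =
        ((∑ v ∈ W, v * (Bv v).card) / Fintype.card (imG ρ) - (∑ v ∈ W, v) * ε) *
          Real.log (1 / (s - 1)) - ∑ v ∈ W, v * (Cv v + B.primeFactors.card) := by
      rw [Finset.sum_div, Finset.sum_mul, ← Finset.sum_sub_distrib, Finset.sum_mul,
        ← Finset.sum_sub_distrib]
      exact Finset.sum_congr rfl fun v _ ↦ by ring
    rw [h4, hsum] at h3
    linarith
  rw [div_le_one hG] at key
  exact key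

/-- The input of the Deligne-Serre argument: `χ p` and `α p` are the expected determinant and
trace at `p`. -/
structure ArtinInput (N : ℕ) (χ : ZMod N →* ℤbar) (α : ℕ → ℤbar) : Prop where
  odd : χ (-1) = -1
  dens : ∃ (Y : Finset ℤbar) (C : ℝ), ∀ s : ℝ, 1 < s → s ≤ 2 → ∀ F : Finset ℕ,
      (∀ p ∈ F, p.Prime ∧ ¬ p ∣ N ∧ α p ∉ Y) →
        ∑ p ∈ F, (p : ℝ) ^ (-s) ≤ (1 / 4) * Real.log (1 / (s - 1)) + C
  rankin : ∃ C : ℝ, ∀ s : ℝ, 1 < s → s ≤ 2 → ∀ F : Finset ℕ, (∀ p ∈ F, p.Prime ∧ ¬ p ∣ N) →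
      ∑ p ∈ F, ‖(α p : ℂ)‖ ^ 2 * (p : ℝ) ^ (-s) ≤ Real.log (1 / (s - 1)) + C
  mod : ∀ B : ℕ, ∃ ℓ : ℕ, B < ℓ ∧ ℓ.Prime ∧ ∃ (k : Type) (_ : Field k) (_ : CharP k ℓ)
      (_ : IsAlgClosed k) (φ : ℤbar →+* k) (ρ : Γℚ →* Matrix (Fin 2) (Fin 2) k),
      IsFrobRep (N * ℓ) (fun p ↦ φ (α p)) (fun p ↦ φ (χ p)) ρ

/-- for all large `ℓ` in the family one gets a representation over `ℂ` -/
theorem ArtinInput.exists_large (hC : ChebLower) {N : ℕ} (hN : N ≠ 0) {χ : ZMod N →* ℤbar}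
    {α : ℕ → ℤbar} (h : ArtinInput N χ α) (B : ℕ) : ∃ ℓ : ℕ, B < ℓ ∧ ℓ.Prime ∧
      ∃ M : Γℚ →* Matrix (Fin 2) (Fin 2) ℂ,
        IsFrobRep (N * ℓ) (fun p ↦ (α p : ℂ)) (fun p ↦ (χ p : ℂ)) M := by
  classical
  haveI : NeZero N := ⟨hN⟩
  obtain ⟨Y, C, hY⟩ := h.dens
  have hχ : ∀ p : ℕ, p.Prime → ¬ p ∣ N → (χ p) ^ (Nat.totient N) = 1 := by
    intro p hp hpN
    have h1 : IsUnit ((p : ℕ) : ZMod N) :=
      (ZMod.isUnit_iff_coprime p N).mpr ((Nat.Prime.coprime_iff_not_dvd hp).mpr hpN)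
    obtain ⟨u, hu⟩ := h1
    rw [← map_pow, ← hu, ← Units.val_pow_eq_pow_val, ZMod.pow_totient, Units.val_one, map_one]
  obtain ⟨A, hA⟩ := exists_card_imG_le hC hN α Y hY (Nat.totient_pos.mpr (Nat.pos_of_ne_zero hN))
  set n := A.factorial with hn
  have hn0 : 0 < n := Nat.factorial_pos A
  obtain ⟨B0, hB0⟩ := exists_charZero_lift hn0
  obtain ⟨B2, hB2⟩ := exists_bound_injOn (U n ∪ univ.image fun x : ZMod N ↦ χ x)
  -- a representation in characteristic zero for all large `ℓ` in the family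
  have hlarge : ∀ B' : ℕ, ∃ ℓ : ℕ, B' < ℓ ∧ B0 < ℓ ∧ ℓ.Prime ∧
      ∃ (k : Type) (_ : Field k) (_ : CharP k ℓ) (φ : ℤbar →+* k)
      (M : Γℚ →* Matrix (Fin 2) (Fin 2) ℂ), (∀ x ∈ DD n, ∀ y ∈ DD n, φ x = φ y → x = y) ∧
        GaloisFactorsThroughFiniteLevel M ∧
        (∀ p : ℕ, p.Prime → ¬ p ∣ N * ℓ → ∀ A : ValuationSubring Qbar, A.LiesOverPrime p →
          ∀ σ ∈ A.inertiaSubgroupIn ℚ, M σ = 1) ∧
        ∀ p : ℕ, p.Prime → ¬ p ∣ N * ℓ → ∀ A : ValuationSubring Qbar, A.LiesOverPrime p →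
          ∀ σ : Γℚ, A.IsFrobeniusAt σ p → ∃ t ∈ TT n, ∃ c ∈ U n, (M σ).trace = t ∧
            (M σ).det = c ∧ φ t = φ (α p) ∧ φ c = φ (χ p) := by
    intro B'
    obtain ⟨ℓ, hℓB, hℓ, k, _, _, _, φ, ρ, hρ⟩ := h.mod (max B' B0)
    obtain ⟨ρ', hρ', hss⟩ := hρ.semisimplify
    have hBℓ : N * ℓ ≠ 0 := mul_ne_zero hN hℓ.ne_zero
    have hcard := hA ℓ hℓ.ne_zero k φ _ ρ' hρ' hss (fun p hp hpB ↦ by
      rw [← map_pow, hχ p hp (fun hd ↦ hpB (hd.trans (dvd_mul_right _ _))), map_one])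
    have hpow := pow_factorial_eq_one hρ'.level hcard
    have hodd : (ρ' complexConjugation).det = -1 := by
      rw [hρ'.det_complexConjugation hBℓ (dvd_mul_right N ℓ)
        ((φ.toMonoidHom).comp χ) (fun p _ _ ↦ rfl)]
      change φ (χ (-1)) = -1
      rw [h.odd, map_neg, map_one]
    obtain ⟨hinj, hlift⟩ := hB0 ℓ (lt_of_le_of_lt (le_max_right _ _) hℓB) k φ
    obtain ⟨M, hM1, hM2⟩ := hlift Γℚ ρ' hpow complexConjugation complexConjugation_mul_self hodd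
    refine ⟨ℓ, lt_of_le_of_lt (le_max_left _ _) hℓB, lt_of_le_of_lt (le_max_right _ _) hℓB, hℓ,
      k, inferInstance, inferInstance, φ, M, hinj, ?_, ?_, ?_⟩
    · obtain ⟨L, hL, hL'⟩ := hρ'.level
      exact ⟨L, hL, fun σ hσ ↦ hM1 σ (hL' σ hσ)⟩
    · exact fun p hp hpB A hA σ hσ ↦ hM1 σ (hρ'.unram p hp hpB A hA σ hσ)
    · intro p hp hpB A hA σ hσ
      obtain ⟨t, ht, c, hc, e1, e2, e3, e4⟩ := hM2 σ
      exact ⟨t, ht, c, hc, e1, e2, by rw [e3, hρ'.trace p hp hpB A hA σ hσ],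
        by rw [e4, hρ'.det p hp hpB A hA σ hσ]⟩
  -- the traces lie in the finite set `TT n`
  have hTT : ∀ p : ℕ, p.Prime → ¬ p ∣ N → α p ∈ TT n := by
    intro p hp hpN
    by_contra hcon
    obtain ⟨B1, hB1⟩ := exists_bound_injOn (insert (α p) (TT n))
    obtain ⟨ℓ, h1, h2, hℓ, k, _, _, φ, M, hinj, -, -, hM⟩ := hlarge (max B1 p)
    have hpℓ : ¬ p ∣ N * ℓ := by
      intro hd
      rcases hp.dvd_mul.mp hd with hd | hd
      · exact hpN hd
      · rw [Nat.prime_dvd_prime_iff_eq hp hℓ] at hd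
        have := lt_of_le_of_lt (le_max_right B1 p) h1
        omega
    obtain ⟨A', hA'⟩ := Frob.exists_liesOverPrime Qbar hp
    obtain ⟨σ, hσ⟩ := Frob.exists_isFrobeniusAt A' hp hA'
    obtain ⟨t, ht, c, hc, e1, e2, e3, e4⟩ := hM p hp hpℓ A' hA' σ hσ
    have := hB1 ℓ (lt_of_le_of_lt (le_max_left _ _) h1) k φ t (mem_insert_of_mem ht) (α p)
      (mem_insert_self _ _) e3
    rw [this] at ht
    exact hcon ht
  obtain ⟨ℓ, h1, h2, hℓ, k, _, _, φ, M, hinj, hlev, hunr, hM⟩ := hlarge (max B B2)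
  have hM' : ∀ p : ℕ, p.Prime → ¬ p ∣ N * ℓ → ∀ A : ValuationSubring Qbar, A.LiesOverPrime p →
      ∀ σ : Γℚ, A.IsFrobeniusAt σ p → (M σ).trace = (α p : ℂ) ∧ (M σ).det = (χ p : ℂ) := by
    intro p hp hpB A' hA' σ hσ
    obtain ⟨t, ht, c, hc, e1, e2, e3, e4⟩ := hM p hp hpB A' hA' σ hσ
    have hpN : ¬ p ∣ N := fun hd ↦ hpB (hd.trans (dvd_mul_right _ _))
    have h3 := hinj t (TT_sub ht) (α p) (TT_sub (hTT p hp hpN)) e3
    have h4 := hB2 ℓ (lt_of_le_of_lt (le_max_right _ _) h1) k φ c (mem_union_left _ hc) (χ p)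
      (mem_union_right _ (mem_image_of_mem _ (mem_univ _))) e4
    rw [e1, e2, h3, h4]
    exact ⟨rfl, rfl⟩
  exact ⟨ℓ, lt_of_le_of_lt (le_max_left _ _) h1, hℓ, M, hlev, hunr,
    fun p hp hpB A hA σ hσ ↦ (hM' p hp hpB A hA σ hσ).1,
    fun p hp hpB A hA σ hσ ↦ (hM' p hp hpB A hA σ hσ).2⟩

/-- the representations are irreducible -/
theorem ArtinInput.noLine (hC : ChebLower) {N : ℕ} (hN : N ≠ 0) {χ : ZMod N →* ℤbar}
    {α : ℕ → ℤbar} (h : ArtinInput N χ α) {ℓ : ℕ} (hℓ : ℓ.Prime)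
    {M : Γℚ →* Matrix (Fin 2) (Fin 2) ℂ}
    (hM : IsFrobRep (N * ℓ) (fun p ↦ (α p : ℂ)) (fun p ↦ (χ p : ℂ)) M) : NoLine M := by
  classical
  intro v hv
  by_contra hcon
  push Not at hcon
  obtain ⟨C, hR⟩ := h.rankin
  haveI := finite_imG hM.level
  letI : Fintype (imG M) := Fintype.ofFinite _
  have h1 := sum_norm_trace_sq_le hC (mul_ne_zero hN hℓ.ne_zero) hM (C := C)
    (fun s hs1 hs2 F hF ↦ hR s hs1 hs2 F fun p hp ↦
      ⟨(hF p hp).1, fun hd ↦ (hF p hp).2 (hd.trans (dvd_mul_right _ _))⟩)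
  let r : imG M →* Matrix (Fin 2) (Fin 2) ℂ := (Units.coeHom _).comp (Subgroup.subtype _)
  have h2 := two_mul_card_le_sum r hv (fun g ↦ by
    obtain ⟨σ, rfl⟩ := imPi_surjective M g
    exact hcon σ)
  have hG : (0 : ℝ) < Fintype.card (imG M) := by exact_mod_cast Fintype.card_pos
  have h3 : ∑ g, ‖(r g).trace‖ ^ 2 = ∑ g : imG M,
      ‖((g : (Matrix (Fin 2) (Fin 2) ℂ)ˣ) : Matrix (Fin 2) (Fin 2) ℂ).trace‖ ^ 2 := rfl
  rw [h3] at h2
  linarith

/-- **Deligne-Serre, abstract form**. -/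
theorem ArtinInput.exists_rep (hC : ChebLower) {N : ℕ} (hN : N ≠ 0) {χ : ZMod N →* ℤbar}
    {α : ℕ → ℤbar} (h : ArtinInput N χ α) :
    ∃ M : Γℚ →* Matrix (Fin 2) (Fin 2) ℂ,
      IsFrobRep N (fun p ↦ (α p : ℂ)) (fun p ↦ (χ p : ℂ)) M ∧ NoLine M := by
  obtain ⟨ℓ, -, hℓ, M, hM⟩ := h.exists_large hC hN 0
  obtain ⟨ℓ', hℓℓ', hℓ', M', hM'⟩ := h.exists_large hC hN ℓ
  have hirr := h.noLine hC hN hℓ hM
  have heq := fun σ ↦ hM.trace_eq (mul_ne_zero hN hℓ.ne_zero) (mul_ne_zero hN hℓ'.ne_zero) hM'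
    (fun _ _ _ ↦ ⟨rfl, rfl⟩) σ
  have hcase : ∀ p : ℕ, p.Prime → ¬ p ∣ N → ¬ p ∣ N * ℓ ∨ ¬ p ∣ N * ℓ' := by
    intro p hp hpN
    by_contra hcon
    push Not at hcon
    have h1 := (hp.dvd_mul.mp hcon.1).resolve_left hpN
    have h2 := (hp.dvd_mul.mp hcon.2).resolve_left hpN
    rw [Nat.prime_dvd_prime_iff_eq hp hℓ] at h1
    rw [Nat.prime_dvd_prime_iff_eq hp hℓ'] at h2
    omega
  refine ⟨M, ⟨hM.level, ?_, ?_, ?_⟩, hirr⟩
  · intro p hp hpN A hA σ hσ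
    rcases hcase p hp hpN with h1 | h1
    · exact hM.unram p hp h1 A hA σ hσ
    · apply hirr.eq_one
      intro g
      rw [(heq (g * σ)).1, map_mul, hM'.unram p hp h1 A hA σ hσ, mul_one, (heq g).1]
  · intro p hp hpN A hA σ hσ
    rcases hcase p hp hpN with h1 | h1
    · exact hM.trace p hp h1 A hA σ hσ
    · rw [(heq σ).1]
      exact hM'.trace p hp h1 A hA σ hσ
  · intro p hp hpN A hA σ hσ
    rcases hcase p hp hpN with h1 | h1
    · exact hM.det p hp h1 A hA σ hσ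
    · rw [(heq σ).2]
      exact hM'.det p hp h1 A hA σ hσ

end Fermat.Agent.DS
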