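import Fermat.Agent.DS.Artin
import Fermat.Agent.ChebFull.Places

/-!
# The Chebotarev input
-/

set_option autoImplicit false
set_option linter.style.haveILetI false

namespace Fermat.Agent.DS

local notation "Qbar" => AlgebraicClosure ℚ
local notation "Γℚ" => (AlgebraicClosure ℚ ≃ₐ[ℚ] AlgebraicClosure ℚ)

theorem chebLower : ChebLower := by
  classical
  intro G _ _ π hπ hsurj B ε hε
  let T : ℕ → Prop := fun p ↦ ∃ A : ValuationSubring Qbar, A.LiesOverPrime p ∧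
    ∃ σ : Γℚ, A.IsFrobeniusAt σ p ∧ π σ ∈ B
  obtain ⟨F, hF, hF'⟩ := hπ
  obtain ⟨C, hC⟩ := ChebFull.chebotarev_lower_places π hsurj ⟨F, hF, hF'⟩ B T 1 one_ne_zero
    (fun p _ _ A hA _ φ hφ hB ↦ ⟨A, hA, φ, hφ, hB⟩) hε
  refine ⟨C + 1, fun s hs1 hs2 ↦ ?_⟩
  have h1 := hC s hs1 hs2
  have hsum : Summable fun p : Nat.Primes ↦ if T p then ((p : ℕ) : ℝ) ^ (-s) else 0 := by
    refine Summable.of_nonneg_of_le (fun p ↦ ?_) (fun p ↦ ?_)
      (Nat.Primes.summable_rpow.mpr (by linarith : -s < -1))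
    · split_ifs
      · positivity
      · exact le_refl 0
    · split_ifs
      · exact le_refl _
      · positivity
  obtain ⟨S, hS⟩ : ∃ S : Finset Nat.Primes, (∑' p : Nat.Primes, if T p then ((p : ℕ) : ℝ) ^ (-s) else 0) - 1 <
      ∑ p ∈ S, if T p then ((p : ℕ) : ℝ) ^ (-s) else 0 := by
    have h2 := hsum.hasSum
    have h3 := h2.eventually (lt_mem_nhds (sub_one_lt _))
    exact h3.exists
  refine ⟨(S.filter fun p : Nat.Primes ↦ T p).image fun p : Nat.Primes ↦ (p : ℕ), ?_, ?_⟩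
  · intro p hp
    obtain ⟨q, hq, rfl⟩ := Finset.mem_image.mp hp
    exact ⟨q.2, (Finset.mem_filter.mp hq).2⟩
  · have hinj : ∀ p ∈ S.filter (fun p : Nat.Primes ↦ T p), ∀ q ∈ S.filter (fun p : Nat.Primes ↦ T p),
        (fun p : Nat.Primes ↦ (p : ℕ)) p = (fun p : Nat.Primes ↦ (p : ℕ)) q → p = q :=
      fun p _ q _ h ↦ Nat.Primes.coe_nat_injective h
    rw [Finset.sum_image hinj, Finset.sum_filter]
    linarith

end Fermat.Agent.DS
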