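import Fermat.Agent.DS.ArtinMain
import Fermat.Prelude.Def_Deformations_MatrixRepresentation

/-!
# Finiteness of the Frobenius traces up to small density
-/

set_option autoImplicit false
set_option linter.style.haveILetI false

open Finset Module NumberField

namespace Fermat.Agent.DS

local notation "Qbar" => AlgebraicClosure ℚ
local notation "Γℚ" => (AlgebraicClosure ℚ ≃ₐ[ℚ] AlgebraicClosure ℚ)
local notation "ℤbar" => integralClosure ℤ ℂ

open Classical in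
theorem density_of_rankin {K : Type} [Field K] [NumberField K] (N : ℕ) (β : ℕ → 𝓞 K)
    (hR : ∀ σ : K →+* ℂ, ∃ C : ℝ, ∀ s : ℝ, 1 < s → s ≤ 2 → ∀ F : Finset ℕ,
      (∀ p ∈ F, p.Prime ∧ ¬ p ∣ N) →
      ∑ p ∈ F, ‖σ (β p)‖ ^ 2 * (p : ℝ) ^ (-s) ≤ Real.log (1 / (s - 1)) + C) :
    ∃ (Y : Finset (𝓞 K)) (C : ℝ), ∀ s : ℝ, 1 < s → s ≤ 2 → ∀ F : Finset ℕ,
      (∀ p ∈ F, p.Prime ∧ ¬ p ∣ N ∧ β p ∉ Y) →
        ∑ p ∈ F, (p : ℝ) ^ (-s) ≤ (1 / 4) * Real.log (1 / (s - 1)) + C := by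
  choose C hC using hR
  set r : ℕ := Fintype.card (K →+* ℂ) with hr
  have hr0 : 0 < r := Fintype.card_pos
  set c : ℝ := Real.sqrt (4 * r) with hc
  have hc2 : c ^ 2 = 4 * r := Real.sq_sqrt (by positivity)
  have hfin : {x : 𝓞 K | ∀ φ : K →+* ℂ, ‖φ x‖ ≤ c}.Finite := by
    have h1 := NumberField.Embeddings.finite_of_norm_le K ℂ c
    refine Set.Finite.of_finite_image (f := fun x : 𝓞 K ↦ (x : K)) (h1.subset ?_)
      (fun x _ y _ h ↦ RingOfIntegers.ext h)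
    rintro _ ⟨x, hx, rfl⟩
    exact ⟨x.isIntegral_coe, hx⟩
  refine ⟨hfin.toFinset, (∑ σ, C σ) / (4 * r), fun s hs1 hs2 F hF ↦ ?_⟩
  have h1 : ∀ p ∈ F, (p : ℝ) ^ (-s) ≤
      (1 / (4 * r)) * ∑ σ : K →+* ℂ, ‖σ (β p)‖ ^ 2 * (p : ℝ) ^ (-s) := by
    intro p hp
    have h2 := (hF p hp).2.2
    rw [Set.Finite.mem_toFinset, Set.mem_ofPred_eq] at h2
    push Not at h2
    obtain ⟨σ, hσ⟩ := h2
    have h3 : c ^ 2 ≤ ‖σ (β p)‖ ^ 2 := by
      apply pow_le_pow_left₀ (Real.sqrt_nonneg _) hσ.le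
    have hp0 : 0 ≤ (p : ℝ) ^ (-s) := by positivity
    have h4 : ‖σ (β p)‖ ^ 2 * (p : ℝ) ^ (-s) ≤
        ∑ σ : K →+* ℂ, ‖σ (β p)‖ ^ 2 * (p : ℝ) ^ (-s) :=
      Finset.single_le_sum (f := fun σ : K →+* ℂ ↦ ‖σ (β p)‖ ^ 2 * (p : ℝ) ^ (-s))
        (fun σ _ ↦ by positivity) (mem_univ σ)
    have h5 : (4 * r : ℝ) * (p : ℝ) ^ (-s) ≤
        ∑ σ : K →+* ℂ, ‖σ (β p)‖ ^ 2 * (p : ℝ) ^ (-s) := by
      refine le_trans ?_ h4
      rw [← hc2]
      exact mul_le_mul_of_nonneg_right h3 hp0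
    rw [one_div, ← div_eq_inv_mul, le_div_iff₀ (by positivity)]
    linarith
  calc ∑ p ∈ F, (p : ℝ) ^ (-s)
      ≤ ∑ p ∈ F, (1 / (4 * r)) * ∑ σ : K →+* ℂ, ‖σ (β p)‖ ^ 2 * (p : ℝ) ^ (-s) :=
        Finset.sum_le_sum h1
    _ = (1 / (4 * r)) * ∑ σ : K →+* ℂ, ∑ p ∈ F, ‖σ (β p)‖ ^ 2 * (p : ℝ) ^ (-s) := by
        rw [← Finset.mul_sum, Finset.sum_comm]
    _ ≤ (1 / (4 * r)) * ∑ σ : K →+* ℂ, (Real.log (1 / (s - 1)) + C σ) := by
        apply mul_le_mul_of_nonneg_left _ (by positivity)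
        exact Finset.sum_le_sum fun σ _ ↦ hC σ s hs1 hs2 F fun p hp ↦ ⟨(hF p hp).1, (hF p hp).2.1⟩
    _ = (1 / 4) * Real.log (1 / (s - 1)) + (∑ σ, C σ) / (4 * r) := by
        rw [Finset.sum_add_distrib, Finset.sum_const, Finset.card_univ, ← hr, nsmul_eq_mul]
        have : (r : ℝ) ≠ 0 := by exact_mod_cast hr0.ne'
        field_simp

/-- irreducibility in the sense of the frozen statement -/
theorem NoLine.isIrreducible {k : Type} [Field k] {G : Type} [Group G] (ρ : G →* GL (Fin 2) k)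
    {M : G →* Matrix (Fin 2) (Fin 2) k} (hM : ∀ g, ((ρ g : GL (Fin 2) k) :
      Matrix (Fin 2) (Fin 2) k) = M g) (h : NoLine M) :
    (Deformation.matrixRepresentation ρ).IsIrreducible := by
  have hne : Nontrivial (Subrepresentation (Deformation.matrixRepresentation ρ)) := by
    refine ⟨⊥, ⊤, fun h0 ↦ ?_⟩
    have h1 := congrArg Subrepresentation.toSubmodule h0
    change (⊥ : Submodule k (Fin 2 → k)) = ⊤ at h1
    exact bot_ne_top h1
  refine { toNontrivial := hne, eq_bot_or_eq_top := fun W ↦ ?_ }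
  rcases h.invariant W.toSubmodule (fun g x hx ↦ by
    have := W.apply_mem_toSubmodule g hx
    rw [Deformation.matrixRepresentation_apply, Matrix.mulVecLin_apply, hM] at this
    exact this) with h1 | h1
  · left
    exact Subrepresentation.toSubmodule_injective h1
  · right
    exact Subrepresentation.toSubmodule_injective h1

end Fermat.Agent.DS
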