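import Fermat.Agent.DS.WtTwo

/-!
# Raising the level of an eigenform of weight one
-/

set_option autoImplicit false
set_option linter.unusedSectionVars false

noncomputable section

namespace Fermat.Agent.DS

open UpperHalfPlane ModularForm CongruenceSubgroup Fermat.Agent.IntStr
open scoped MatrixGroups

local notation "ℤbar" => integralClosure ℤ ℂ

variable {N : ℕ} [NeZero N] {e : DirichletCharacter ℂ N} {f : ℍ → ℂ}

theorem changeLevel_prime (q : ℕ) {p : ℕ} (hp : p.Prime) (hpN : ¬ p ∣ N * q) :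
    (DirichletCharacter.changeLevel (dvd_mul_right N q) e) (p : ZMod (N * q)) =
      e (p : ZMod N) := by
  have hu : IsUnit ((p : ℕ) : ZMod (N * q)) :=
    (ZMod.isUnit_iff_coprime p (N * q)).mpr ((Nat.Prime.coprime_iff_not_dvd hp).mpr hpN)
  obtain ⟨u, hu'⟩ := hu
  have h1 := DirichletCharacter.changeLevel_eq_cast_of_dvd e (dvd_mul_right N q) u
  rw [hu'] at h1
  rw [h1]
  congr 1
  rw [ZMod.cast_natCast (dvd_mul_right N q)]

theorem EigOne.mulLevel (h : EigOne N e f) (q : ℕ) [NeZero (N * q)] :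
    EigOne (N * q) (DirichletCharacter.changeLevel (dvd_mul_right N q) e) f where
  cf := IsCF.mono' (Gamma1_mono (dvd_mul_right N q)) h.cf
  one := h.one
  rel p hp hpN n := by
    rw [changeLevel_prime q hp hpN]
    exact h.rel p hp (fun h0 ↦ hpN (h0.mul_right q)) n

theorem EigOne.al_mulLevel (h : EigOne N e f) (q : ℕ) [NeZero (N * q)] {p : ℕ} (hp : p.Prime)
    (hpN : ¬ p ∣ N * q) : (h.mulLevel q).al p = h.al p := by
  apply Subtype.ext
  rw [EigOne.coe_al _ hp hpN, h.coe_al hp fun h0 ↦ hpN (h0.mul_right q)]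

theorem chi_mulLevel (q : ℕ) [NeZero (N * q)] {p : ℕ} (hp : p.Prime)
    (hpN : ¬ p ∣ N * q) :
    EigOne.chi (DirichletCharacter.changeLevel (dvd_mul_right N q) e) (p : ZMod (N * q)) =
      EigOne.chi e (p : ZMod N) := by
  apply Subtype.ext
  rw [EigOne.coe_chi, EigOne.coe_chi, changeLevel_prime q hp hpN]

end Fermat.Agent.DS
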