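import Fermat.Agent.DS.HeckeG1

/-!
# Weight one Eisenstein series on `Γ₁(ℓ)`: target statement
-/

set_option autoImplicit false

noncomputable section

namespace Fermat.Agent.DS

open UpperHalfPlane ModularForm CongruenceSubgroup Fermat.Agent.IntStr
open scoped MatrixGroups Real

/-- constant term -/
def EisA (u : ℂ) : ℂ :=
  (u + 1) / (u - 1) - 2 * ((u ^ 2 + 1) / (u ^ 2 - 1)) + (u ^ 3 + 1) / (u ^ 3 - 1)

/-- higher coefficients -/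
def EisC (u : ℂ) (n : ℕ) : ℂ :=
  2 * ∑ x ∈ n.divisorsAntidiagonal, (((u⁻¹) ^ x.2 - u ^ x.2) -
    2 * ((u⁻¹) ^ (2 * x.2) - u ^ (2 * x.2)) + ((u⁻¹) ^ (3 * x.2) - u ^ (3 * x.2)))

/-- `exp (2πi d/l)` -/
def uu (l : ℕ) (d : ℤ) : ℂ := Complex.exp (2 * π * Complex.I * d / l)

/-- The family of weight one Eisenstein series. -/
structure Eis1Data (l : ℕ) (E : ZMod l → ℍ → ℂ) : Prop where
  mf : ∀ d, d ≠ 0 → IsMF (Gamma1 l) 1 (E d)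
  slash : ∀ d, d ≠ 0 → ∀ γ ∈ Gamma0 l, E d ∣[(1 : ℤ)] γ = E (d * ((γ 1 1 : ℤ) : ZMod l))
  co_zero : ∀ d : ℤ, (d : ZMod l) ≠ 0 → co (E d) 0 = EisA (uu l d)
  co_pos : ∀ d : ℤ, (d : ZMod l) ≠ 0 → ∀ n : ℕ, n ≠ 0 → co (E d) n = EisC (uu l d) n

end Fermat.Agent.DS
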