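import Fermat.Agent.IntStr.Main

/-!
# Rational and integral structures on modular forms for more general subgroups

We generalise `IntStr` from `Γ₀(N)` to finite index subgroups `G` containing `T` and possessing a
modular form with integral `q`-expansion whose stabiliser is exactly `G`.
-/

set_option autoImplicit false
set_option linter.style.haveILetI false

noncomputable section

namespace Fermat.Agent.DS

open UpperHalfPlane ModularForm CongruenceSubgroup Matrix.SpecialLinearGroup Filter Asymptotics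
open Fermat.Agent.IntStr Module
open scoped MatrixGroups Manifold Topology

/-- A subgroup of `SL₂(ℤ)` having a primitive form with integral `q`-expansion. -/
structure Nice (G : Subgroup SL(2, ℤ)) : Prop where
  fi : G.FiniteIndex
  T_mem : ModularGroup.T ∈ G
  conj : ∃ M : ℕ, 0 < M ∧ ∀ γ : SL(2, ℤ), γ * ModularGroup.T ^ M * γ⁻¹ ∈ G
  prim : ∃ (κ : ℤ) (g : ℍ → ℂ), IsMF G κ g ∧ IsInt (qExpansion 1 g) ∧
    ∀ γ : SL(2, ℤ), g ∣[κ] γ = g → γ ∈ G

variable {G : Subgroup SL(2, ℤ)} {k : ℤ} {f : ℍ → ℂ}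

/-- Galois action on modular forms for `G`. -/
theorem Nice.galois (hG : Nice G) (σ : ℂ →+* ℂ) (hf : IsMF G k f) :
    ∃ f' : ℍ → ℂ, IsMF G k f' ∧ qExpansion 1 f' = PowerSeries.map σ (qExpansion 1 f) := by
  haveI := hG.fi
  have hT := hG.T_mem
  obtain ⟨M, hM0, hM⟩ := hG.conj
  obtain ⟨κ, g, hg, hgi, hinj⟩ := hG.prim
  obtain ⟨n, w, D, hD0, hD, hrel⟩ := exists_relation hg hinj
  obtain ⟨D', hD', eD⟩ := galois_one σ hD
  have hqD : qExpansion 1 D ≠ 0 := fun h => hD0 (hD.eq_zero_of_qExpansion T_mem_top h)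
  have hD'0 : D' ≠ 0 := by
    rintro rfl
    rw [qExpansion_zero] at eD
    exact hqD (map_injective_ps σ (by rw [← eD, map_zero]))
  have hDΓ : IsMF G w D := hD.mono le_top
  have hD'Γ : IsMF G w D' := hD'.mono le_top
  have key : ∀ m : ℕ, ∃ F : ℍ → ℂ, IsMF G (w + m * k) F ∧
      qExpansion 1 F = PowerSeries.map σ (qExpansion 1 D * qExpansion 1 f ^ m) := by
    intro m
    obtain ⟨c, hc, hcf⟩ := hrel _ _ (hf.pow m)
    choose c' hc' ec using fun j => galois_one σ (hc j)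
    have hterm : ∀ j : Fin n, IsMF G (w + m * k) (c j * g ^ (j : ℕ)) := fun j =>
      (((hc j).mono le_top).mul (hg.pow (j : ℕ))).cast (by ring)
    have hterm' : ∀ j : Fin n, IsMF G (w + m * k) (c' j * g ^ (j : ℕ)) := fun j =>
      (((hc' j).mono le_top).mul (hg.pow (j : ℕ))).cast (by ring)
    refine ⟨∑ j, c' j * g ^ (j : ℕ), (MF _ _).sum_mem fun j _ => hterm' j, ?_⟩
    rw [← hf.qExpansion_pow hT, ← hDΓ.qExpansion_mul (hf.pow m) hT, hcf,
      IntStr.qExpansion_sum _ _ (fun j _ => hterm j) hT,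
      IntStr.qExpansion_sum _ _ (fun j _ => hterm' j) hT, map_sum]
    refine Finset.sum_congr rfl fun j _ => ?_
    rw [((hc j).mono le_top : IsMF G _ _).qExpansion_mul (hg.pow (j : ℕ)) hT,
      ((hc' j).mono le_top : IsMF G _ _).qExpansion_mul (hg.pow (j : ℕ)) hT, map_mul, ec,
      hg.qExpansion_pow hT, map_pow, map_of_int σ (mem_intSub_of_isInt hgi)]
  choose F hF eF using key
  obtain ⟨H, hH, hDH⟩ := division (G := G) (w := w) (k := k) (F := F 1)
    (Fn := fun n => F (n + 1)) hM0 hM hD'Γ hD'0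
    ((hF 1).cast (by push_cast; ring)) (fun n => (hF (n + 1)).cast (by push_cast; ring))
    (by
      intro m
      refine IsMF.eq_of_qExpansion (k := (m + 1) * (w + k)) (G := G) ?_ ?_ hT ?_
      · exact ((hF 1).pow (m + 1)).cast (by push_cast; ring)
      · exact ((hD'Γ.pow m).mul (hF (m + 1))).cast (by push_cast; ring)
      · rw [(hF 1).qExpansion_pow hT, (hD'Γ.pow m).qExpansion_mul (hF (m + 1)) hT, eF, eF,
          hD'Γ.qExpansion_pow hT, eD, ← map_pow, ← map_pow, ← map_mul]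
        congr 1
        ring)
  refine ⟨H, hH, ?_⟩
  have h1 : qExpansion 1 D' * qExpansion 1 H =
      PowerSeries.map σ (qExpansion 1 D) * PowerSeries.map σ (qExpansion 1 f) := by
    rw [← hD'Γ.qExpansion_mul hH hT, hDH, eF, pow_one, map_mul]
  rw [← eD] at h1
  refine mul_left_cancel₀ ?_ h1
  intro h
  exact hD'0 (hD'.eq_zero_of_qExpansion T_mem_top h)

/-- `f^M / Δ` is a modular form for a cusp form `f`. -/
theorem exists_div_disc_of_cf {M : ℕ} (hM0 : 0 < M)
    (hM : ∀ γ : SL(2, ℤ), γ * ModularGroup.T ^ M * γ⁻¹ ∈ G) (hf : IsCF G k f) :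
    ∃ h : ℍ → ℂ, IsMF G (M * k - 12) h ∧ f ^ M = ModularForm.discriminant * h := by
  have hN0 : (0 : ℝ) < M := by exact_mod_cast hM0
  have hNne : (M : ℝ) ≠ 0 := hN0.ne'
  refine ⟨f ^ M / ModularForm.discriminant, ⟨?_, ?_, ?_⟩, ?_⟩
  · exact (hf.toIsMF.pow M).holo.div disc_mf.holo ModularForm.discriminant_ne_zero
  · intro γ hγ
    rw [div_slash_SL2, (hf.toIsMF.pow M).slash γ hγ, disc_slash]
  · intro γ
    rw [div_slash_SL2, slash_pow, disc_slash, IsBoundedAtImInfty, BoundedAtFilter]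
    refine (div_isBoundedUnder_of_isBigO ?_).isBigO_one ℝ
    have h1 := (hf.zero_cusp γ).exp_decay_atImInfty hN0
      (hf.toIsMF.periodic_slash γ (hM γ)) (hf.toIsMF.holo_slash γ) (hf.bdd γ)
    have h2 := h1.pow M
    refine IsBigO.trans h2 ?_
    refine IsBigO.trans (IsBigO.of_bound 1 (Eventually.of_forall fun τ => ?_))
      ModularForm.exp_isBigO_discriminant
    rw [one_mul, ← Real.exp_nat_mul]
    apply le_of_eq
    congr 2
    field_simp
  · funext z
    simp only [Pi.pow_apply, Pi.mul_apply, Pi.div_apply]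
    rw [mul_div_cancel₀ _ (ModularForm.discriminant_ne_zero z)]

theorem isCF_of_pow_eq {M : ℕ} (hM0 : 0 < M) (hf : IsMF G k f) {h : ℍ → ℂ}
    (hh : IsMF G (M * k - 12) h) (he : f ^ M = ModularForm.discriminant * h) :
    IsCF G k f := by
  refine ⟨hf, fun γ => ?_⟩
  have h1 : (f ∣[k] γ) ^ M = ModularForm.discriminant * (h ∣[M * k - 12] γ) := by
    rw [← slash_pow, he, show (M : ℤ) * k = 12 + (M * k - 12) by ring, mul_slash_SL2, disc_slash]
    congr 2
    ring
  have h2 : IsZeroAtImInfty ((f ∣[k] γ) ^ M) := by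
    rw [h1]
    have := ModularForm.discriminant_isZeroAtImInfty
    exact ZeroAtFilter.mul_boundedAtFilter this (hh.bdd γ)
  have h3 : Tendsto (fun z => ‖(f ∣[k] γ) z‖ ^ M) atImInfty (𝓝 0) := by
    have := (tendsto_zero_iff_norm_tendsto_zero.mp h2)
    refine this.congr fun z => ?_
    rw [Pi.pow_apply, norm_pow]
  have hN : M ≠ 0 := hM0.ne'
  have h4 : Tendsto (fun z => ‖(f ∣[k] γ) z‖) atImInfty (𝓝 0) := by
    have h5 : Tendsto (fun x : ℝ => x ^ ((M : ℝ)⁻¹)) (𝓝 0) (𝓝 0) := by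
      have hN' : (M : ℝ)⁻¹ ≠ 0 := inv_ne_zero (by exact_mod_cast hN)
      have := (Real.continuous_rpow_const (q := (M : ℝ)⁻¹) (by positivity)).tendsto 0
      rwa [Real.zero_rpow hN'] at this
    refine (h5.comp h3).congr fun z => ?_
    simp only [Function.comp_apply]
    exact Real.pow_rpow_inv_natCast (norm_nonneg _) hN
  exact tendsto_zero_iff_norm_tendsto_zero.mpr h4

/-- Galois action on cusp forms. -/
theorem Nice.galois_cusp (hG : Nice G) (σ : ℂ →+* ℂ) (hf : IsCF G k f) :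
    ∃ f' : ℍ → ℂ, IsCF G k f' ∧ qExpansion 1 f' = PowerSeries.map σ (qExpansion 1 f) := by
  have hT := hG.T_mem
  obtain ⟨M, hM0, hM⟩ := hG.conj
  obtain ⟨f', hf', ef⟩ := hG.galois σ hf.toIsMF
  obtain ⟨h, hh, he⟩ := exists_div_disc_of_cf hM0 hM hf
  obtain ⟨h', hh', eh⟩ := hG.galois σ hh
  have hΔ : IsMF G 12 (ModularForm.discriminant : ℍ → ℂ) := disc_mf.mono le_top
  refine ⟨f', isCF_of_pow_eq hM0 hf' hh' ?_, ef⟩
  refine IsMF.eq_of_qExpansion (hf'.pow M) ((hΔ.mul hh').cast (by ring)) hT ?_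
  rw [hf'.qExpansion_pow hT, hΔ.qExpansion_mul hh' hT, ef, eh, ← map_pow,
    ← hf.toIsMF.qExpansion_pow hT, he, hΔ.qExpansion_mul hh hT, map_mul, map_of_rat σ disc_rat]

/-- A modular form with rational `q`-expansion at `∞` has bounded denominators. -/
theorem Nice.bd_of_rat (hG : Nice G) (hf : IsMF G k f) (hr : IsRat (qExpansion 1 f)) :
    qExpansion 1 f ∈ bdAlg := by
  haveI := hG.fi
  have hT := hG.T_mem
  obtain ⟨κ, g, hg, hgi, hinj⟩ := hG.prim
  obtain ⟨n, w, D, hD0, hD, hrel⟩ := exists_relation hg hinj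
  have hqD : qExpansion 1 D ≠ 0 := fun h => hD0 (hD.eq_zero_of_qExpansion T_mem_top h)
  have hDΓ : IsMF G w D := hD.mono le_top
  refine bd_of_relation (mem_intSub_of_isInt E4_int) (mem_intSub_of_isInt E6_int)
    (mem_intSub_of_isInt hgi) hr hqD (n := n) ?_
  intro m
  obtain ⟨c, hc, hcf⟩ := hrel _ _ (hf.pow m)
  have hterm : ∀ j : Fin n, IsMF G (w + m * k) (c j * g ^ (j : ℕ)) := fun j =>
    (((hc j).mono le_top).mul (hg.pow (j : ℕ))).cast (by ring)
  rw [← hf.qExpansion_pow hT, ← hDΓ.qExpansion_mul (hf.pow m) hT, hcf,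
    IntStr.qExpansion_sum _ _ (fun j _ => hterm j) hT]
  refine Submodule.sum_mem _ fun j _ => ?_
  rw [((hc j).mono le_top : IsMF G _ _).qExpansion_mul (hg.pow (j : ℕ)) hT,
    hg.qExpansion_pow hT]
  exact term_mem_span (hc j) _ j.2

/-- Level one forms of given weight form a finite dimensional space. -/
theorem lvl1Set_finite (k : ℤ) : (lvl1Set k).Finite := by
  refine Set.Finite.subset (Set.finite_range
    (fun x : Fin (k.toNat + 1) × Fin (k.toNat + 1) ↦
      (E₄ : ℍ → ℂ) ^ (x.1 : ℕ) * (E₆ : ℍ → ℂ) ^ (x.2 : ℕ))) ?_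
  rintro _ ⟨a, b, hab, rfl⟩
  exact ⟨(⟨a, by omega⟩, ⟨b, by omega⟩), rfl⟩

theorem finiteDimensional_MF_top (k : ℤ) : FiniteDimensional ℂ (MF ⊤ k) := by
  have h1 : MF ⊤ k ≤ Submodule.span ℂ (lvl1Set k) := fun f hf ↦ lvl1_mem_span hf
  haveI : FiniteDimensional ℂ (Submodule.span ℂ (lvl1Set k)) :=
    FiniteDimensional.span_of_finite ℂ (lvl1Set_finite k)
  exact Submodule.finiteDimensional_of_le h1

/-- Finite dimensionality of spaces of modular forms. -/
theorem Nice.finiteDimensional (hG : Nice G) (k : ℤ) : FiniteDimensional ℂ (MF G k) := by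
  haveI := hG.fi
  have hT := hG.T_mem
  obtain ⟨κ, g, hg, hgi, hinj⟩ := hG.prim
  obtain ⟨n, w, D, hD0, hD, hrel⟩ := exists_relation hg hinj
  -- the target
  haveI : ∀ j : Fin n, FiniteDimensional ℂ
      ((MF ⊤ (w + k - κ * ((j : ℕ) : ℤ))).map (LinearMap.mulRight ℂ (g ^ (j : ℕ)))) := by
    intro j
    haveI := finiteDimensional_MF_top (w + k - κ * ((j : ℕ) : ℤ))
    infer_instance
  let W : Submodule ℂ (ℍ → ℂ) :=
    ⨆ j : Fin n, (MF ⊤ (w + k - κ * ((j : ℕ) : ℤ))).map (LinearMap.mulRight ℂ (g ^ (j : ℕ)))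
  haveI : FiniteDimensional ℂ W := Submodule.finiteDimensional_iSup _
  let Φ : MF G k →ₗ[ℂ] W := LinearMap.codRestrict W
    ((LinearMap.mulLeft ℂ D).comp (MF G k).subtype) (by
      rintro ⟨f, hf⟩
      obtain ⟨c, hc, hcf⟩ := hrel _ _ hf
      change D * f ∈ W
      rw [hcf]
      refine Submodule.sum_mem _ fun j _ ↦ ?_
      refine Submodule.mem_iSup_of_mem j ⟨c j, hc j, rfl⟩)
  have hΦ : Function.Injective Φ := by
    rw [injective_iff_map_eq_zero]
    rintro ⟨f, hf⟩ h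
    have h1 : D * f = 0 := congrArg Subtype.val h
    rcases mul_eq_zero_of_holo hD.holo hf.holo h1 with h2 | h2
    · exact absurd h2 hD0
    · exact Subtype.ext h2
  exact FiniteDimensional.of_injective Φ hΦ

/-- The space of cusp forms, as functions. -/
def CF (G : Subgroup SL(2, ℤ)) (k : ℤ) : Submodule ℂ (ℍ → ℂ) where
  carrier := {f | IsCF G k f}
  add_mem' {f g} hf hg := ⟨hf.toIsMF.add hg.toIsMF, fun γ ↦ by
    rw [SlashAction.add_slash]
    exact (hf.zero_cusp γ).add (hg.zero_cusp γ)⟩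
  zero_mem' := ⟨IsMF.zero, fun γ ↦ by
    rw [SlashAction.zero_slash]
    exact zero_zeroAtFilter _⟩
  smul_mem' c f hf := ⟨hf.toIsMF.smul c, fun γ ↦ by
    rw [SL_smul_slash]
    exact (hf.zero_cusp γ).smul c⟩

theorem mem_CF : f ∈ CF G k ↔ IsCF G k f := Iff.rfl

theorem CF_le_MF : CF G k ≤ MF G k := fun _ hf ↦ hf.toIsMF

theorem Nice.finiteDimensional_CF (hG : Nice G) (k : ℤ) : FiniteDimensional ℂ (CF G k) := by
  haveI := hG.finiteDimensional k
  exact Submodule.finiteDimensional_of_le (CF_le_MF (G := G) (k := k))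

/-- The `q`-expansion map on modular forms as a linear map. -/
def qLinM (hT : ModularGroup.T ∈ G) (k : ℤ) : MF G k →ₗ[ℂ] PowerSeries ℂ where
  toFun F := qExpansion 1 (F : ℍ → ℂ)
  map_add' F F' := IsMF.qExpansion_add F.2 F'.2 hT
  map_smul' c F := IsMF.qExpansion_smul F.2 hT c

theorem qLinM_injective (hT : ModularGroup.T ∈ G) (k : ℤ) :
    Function.Injective (qLinM hT k) := by
  rw [injective_iff_map_eq_zero]
  intro F hF
  exact Subtype.ext (IsMF.eq_zero_of_qExpansion F.2 hT hF)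

/-- A finite dimensional space of power series is determined by finitely many coefficients. -/
theorem exists_bound_of_finiteDimensional (V : Submodule ℂ (PowerSeries ℂ))
    [FiniteDimensional ℂ V] :
    ∃ B : ℕ, ∀ v ∈ V, (∀ i < B, PowerSeries.coeff i v = 0) → v = 0 := by
  let W : ℕ → Submodule ℂ V := fun B ↦
    { carrier := {v | ∀ i < B, PowerSeries.coeff i (v : PowerSeries ℂ) = 0}
      add_mem' := fun {a b} ha hb i hi ↦ by
        rw [Submodule.coe_add, map_add, ha i hi, hb i hi, add_zero]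
      zero_mem' := fun i _ ↦ by rw [Submodule.coe_zero, map_zero]
      smul_mem' := fun c a ha i hi ↦ by
        rw [Submodule.coe_smul, map_smul, ha i hi, smul_zero] }
  have hanti : ∀ a b : ℕ, a ≤ b → W b ≤ W a := fun a b hab v hv i hi ↦ hv i (hi.trans_le hab)
  let f : ℕ →o (Submodule ℂ V)ᵒᵈ := ⟨W, fun a b hab ↦ hanti a b hab⟩
  obtain ⟨n, hn⟩ := WellFoundedGT.monotone_chain_condition f
  refine ⟨n, fun v hv h ↦ ?_⟩
  have h1 : (⟨v, hv⟩ : V) ∈ W n := h
  ext m
  have h2 : W n = W (max n (m + 1)) := hn _ (le_max_left _ _)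
  rw [h2] at h1
  rw [map_zero]
  exact h1 m (lt_of_lt_of_le (Nat.lt_succ_self m) (le_max_right _ _))

/-- Spanning by forms with rational coefficients. -/
theorem Nice.mem_span_rat (hG : Nice G) (hf : IsCF G k f) :
    qExpansion 1 f ∈ Submodule.span ℂ
      {v | (∃ g, IsCF G k g ∧ qExpansion 1 g = v) ∧ IsRat v} := by
  have hT := hG.T_mem
  haveI := hG.finiteDimensional_CF k
  let q : CF G k →ₗ[ℂ] PowerSeries ℂ := (qLinM hT k).comp (Submodule.inclusion CF_le_MF)
  obtain ⟨B, hB⟩ := exists_bound_of_finiteDimensional (LinearMap.range q)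
  have hdesc := descent (LinearMap.range q) (by
      rintro σ v ⟨F, rfl⟩
      obtain ⟨f', hf', ef⟩ := hG.galois_cusp (σ : ℂ →+* ℂ) F.2
      exact ⟨⟨f', hf'⟩, ef⟩) B hB
  have h1 := hdesc ⟨⟨f, hf⟩, rfl⟩
  refine Submodule.span_mono ?_ h1
  rintro _ ⟨⟨F, rfl⟩, hr⟩
  exact ⟨⟨F, F.2, rfl⟩, hr⟩

/-- The coefficients of a cusp form lie in a finitely generated subgroup of `ℂ`. -/
theorem Nice.exists_fg (hG : Nice G) (hf : IsCF G k f) :
    ∃ L : Submodule ℤ ℂ, L.FG ∧ ∀ n, PowerSeries.coeff n (qExpansion 1 f) ∈ L := by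
  have h := hG.mem_span_rat hf
  generalize qExpansion 1 f = v at h
  induction h using Submodule.span_induction with
  | mem x hx =>
    obtain ⟨⟨g, hg, rfl⟩, hr⟩ := hx
    obtain ⟨m, hm, hmF⟩ := mem_bdAlg.mp (hG.bd_of_rat hg.toIsMF hr)
    refine ⟨Submodule.span ℤ {(m : ℂ)⁻¹}, Submodule.fg_span (Set.finite_singleton _), fun n ↦ ?_⟩
    obtain ⟨a, ha⟩ := mem_intSub.mp hmF n
    have hmc : (m : ℂ) ≠ 0 := by exact_mod_cast hm
    rw [Submodule.mem_span_singleton]
    refine ⟨a, ?_⟩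
    have h2 : (m : PowerSeries ℂ) * qExpansion 1 g = (m : ℂ) • qExpansion 1 g := by
      rw [PowerSeries.smul_eq_C_mul]
      simp
    rw [h2, PowerSeries.coeff_smul, smul_eq_mul] at ha
    rw [zsmul_eq_mul, ← ha]
    field_simp
  | zero => exact ⟨⊥, Submodule.fg_bot, fun n ↦ by rw [map_zero]; exact zero_mem _⟩
  | add x y _ _ hx hy =>
    obtain ⟨L, hL, h1⟩ := hx
    obtain ⟨L', hL', h2⟩ := hy
    refine ⟨L ⊔ L', hL.sup hL', fun n ↦ ?_⟩
    rw [map_add]
    exact Submodule.add_mem_sup (h1 n) (h2 n)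
  | smul c x _ hx =>
    obtain ⟨L, hL, h1⟩ := hx
    refine ⟨L.map (LinearMap.mulLeft ℤ c), hL.map _, fun n ↦ ?_⟩
    rw [PowerSeries.coeff_smul, smul_eq_mul]
    exact ⟨_, h1 n, rfl⟩

end Fermat.Agent.DS
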