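import Fermat.Agent.DS.EisG
import Fermat.Agent.DS.IntG
import Fermat.Agent.Top.Eis

/-!
# `Γ₁(N)` has a primitive form with integral `q`-expansion
-/

set_option autoImplicit false
set_option linter.style.haveILetI false
set_option linter.unusedSectionVars false

noncomputable section

namespace Fermat.Agent.DS

open UpperHalfPlane EisensteinSeries ModularForm Filter Topology Fermat.Agent.Support
  CongruenceSubgroup Fermat.Agent.IntStr
open scoped MatrixGroups Manifold Real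

variable {N : ℕ} [NeZero N] {k : ℕ} {φ : ZMod N → ℂ}

theorem vmul_inv_zero (v : Fin 2 → ℤ) (γ : SL(2, ℤ)) :
    vmul v γ⁻¹ 0 = v 0 * γ 1 1 - v 1 * γ 1 0 := by
  rw [vmul, Matrix.SpecialLinearGroup.SL2_inv_expl]
  simp [Matrix.vecMul, dotProduct, Fin.sum_univ_two]
  ring

theorem GE_slash (k : ℕ) (φ : ZMod N → ℂ) {γ : SL(2, ℤ)} (hγ : γ ∈ Gamma0 N) :
    GE N k φ ∣[(k : ℤ)] γ = GE N k fun x ↦ φ (x * ((γ 1 1 : ℤ) : ZMod N)) := by
  rw [GE, wEis_slash, GE]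
  congr 1
  funext v
  rw [vmul_inv_zero]
  push_cast
  rw [Gamma0_mem.mp hγ, mul_zero, sub_zero]

theorem GE_mf (hk : 3 ≤ k) (φ : ZMod N → ℂ) : IsMF (Gamma1 N) k (GE N k φ) := by
  obtain ⟨C, hC0, hC⟩ := exists_bound_phi φ
  refine ⟨wEis_mdifferentiable (C := C) (by exact_mod_cast hk) fun v ↦ hC _, ?_, ?_⟩
  · intro γ hγ
    rw [GE_slash k φ (Gamma1_in_Gamma0 N hγ)]
    have h1 : ((γ 1 1 : ℤ) : ZMod N) = 1 := ((Gamma1_mem N γ).mp hγ).2.1
    rw [h1]
    simp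
  · intro γ
    rw [GE, wEis_slash]
    exact Top.wEis_isBoundedAtImInfty (C := C) (by exact_mod_cast hk) fun v ↦ hC _

theorem T_mem_Gamma1 (N : ℕ) : ModularGroup.T ∈ Gamma1 N := by
  rw [Gamma1_mem, ModularGroup.coe_T]
  simp

theorem GE_coeff (hk : 3 ≤ k) (hφ : φ 0 = 0) (m : ℕ) :
    (qExpansion 1 (GE N k φ)).coeff m =
      ((-2 * π * Complex.I) ^ k / (k - 1).factorial) * GEcoeff N k φ m :=
  coeff_unique (GE_mf hk φ).holo.continuous ((GE_mf hk φ).analyticAt (T_mem_Gamma1 N))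
    (fun τ ↦ GE_hasSum hk hφ τ) m

/-- the normalised weight three series -/
def g3 (N : ℕ) : ℍ → ℂ :=
  (((-2 * π * Complex.I) ^ 3 / (3 - 1 : ℕ).factorial : ℂ))⁻¹ • GE N 3 (Pi.single 1 1)

theorem g3const_ne : ((-2 * π * Complex.I) ^ 3 / (3 - 1 : ℕ).factorial : ℂ) ≠ 0 := by
  refine div_ne_zero (pow_ne_zero _ ?_) ?_
  · simp [Real.pi_ne_zero, Complex.I_ne_zero]
  · exact_mod_cast Nat.factorial_ne_zero _

variable (N) in
theorem g3_mf : IsMF (Gamma1 N) 3 (g3 N) := (GE_mf (le_refl 3) _).smul _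

theorem single_zero (hN : 3 ≤ N) : (Pi.single 1 1 : ZMod N → ℂ) 0 = 0 := by
  haveI : Fact (1 < N) := ⟨by omega⟩
  rw [Pi.single_apply, if_neg zero_ne_one]

theorem GEcoeff_one (k : ℕ) (φ : ZMod N → ℂ) : GEcoeff N k φ 1 = φ 1 + (-1) ^ k * φ (-1) := by
  simp [GEcoeff]

theorem one_ne_neg_one (hN : 3 ≤ N) : (1 : ZMod N) ≠ -1 := by
  intro h
  have h2 : ((2 : ℕ) : ZMod N) = 0 := by
    push_cast
    linear_combination h
  rw [ZMod.natCast_eq_zero_iff] at h2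
  have := Nat.le_of_dvd (by norm_num) h2
  omega

theorem g3_coeff (hN : 3 ≤ N) (m : ℕ) :
    (qExpansion 1 (g3 N)).coeff m = GEcoeff N 3 (Pi.single 1 1) m := by
  rw [g3, (GE_mf (le_refl 3) _).qExpansion_smul (T_mem_Gamma1 N), PowerSeries.coeff_smul,
    GE_coeff (le_refl 3) (single_zero hN), smul_eq_mul, ← mul_assoc, inv_mul_cancel₀ g3const_ne,
    one_mul]

theorem g3_int (hN : 3 ≤ N) : IsInt (qExpansion 1 (g3 N)) := by
  intro m
  rw [g3_coeff hN]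
  refine ⟨∑ x ∈ m.divisorsAntidiagonal, ((if (x.1 : ZMod N) = 1 then 1 else 0) +
    (-1) ^ 3 * (if (-(x.1 : ZMod N)) = 1 then 1 else 0)) * (x.2 : ℤ) ^ 2, ?_⟩
  rw [GEcoeff]
  push_cast
  refine Finset.sum_congr rfl fun x _ ↦ ?_
  simp only [Pi.single_apply]
  norm_num

theorem g3_stab (hN : 3 ≤ N) {γ : SL(2, ℤ)} (hγ : γ ∈ Gamma0 N) (h : g3 N ∣[(3 : ℤ)] γ = g3 N) :
    γ ∈ Gamma1 N := by
  have hc := inv_ne_zero g3const_ne
  rw [g3, SL_smul_slash] at h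
  have h1 := smul_right_injective _ hc h
  have h2 := GE_slash 3 (Pi.single 1 1 : ZMod N → ℂ) hγ
  rw [show (3 : ℤ) = ((3 : ℕ) : ℤ) from rfl] at h1
  rw [h1] at h2
  set d : ZMod N := ((γ 1 1 : ℤ) : ZMod N) with hd
  have h3 : (qExpansion 1 (GE N 3 (Pi.single 1 1))).coeff 1 =
      (qExpansion 1 (GE N 3 fun x ↦ (Pi.single 1 1 : ZMod N → ℂ) (x * d))).coeff 1 := by
    rw [← h2]
  have hd0 : (fun x : ZMod N ↦ (Pi.single 1 1 : ZMod N → ℂ) (x * d)) 0 = 0 := by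
    simp only [zero_mul]
    exact single_zero hN
  rw [GE_coeff (le_refl 3) (single_zero hN), GE_coeff (le_refl 3) hd0] at h3
  have h4 := mul_left_cancel₀ g3const_ne h3
  rw [GEcoeff_one, GEcoeff_one] at h4
  simp only [Pi.single_apply, one_mul, neg_mul] at h4
  rw [if_pos trivial, if_neg (fun h ↦ one_ne_neg_one hN h.symm)] at h4
  have hd1 : d = 1 := by
    by_contra hne
    rw [if_neg hne] at h4
    split_ifs at h4 <;> norm_num at h4
  have hdet := γ.det_coe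
  rw [Matrix.det_fin_two] at hdet
  have hc0 := Gamma0_mem.mp hγ
  rw [Gamma1_mem]
  have ha : ((γ 0 0 : ℤ) : ZMod N) = 1 := by
    have h5 := congrArg (Int.cast : ℤ → ZMod N) hdet
    push_cast at h5
    rw [hc0, mul_zero, sub_zero, ← hd, hd1, mul_one] at h5
    exact h5
  exact ⟨ha, hd1, hc0⟩

theorem conj_T_pow_mem_Gamma1 (N : ℕ) (γ : SL(2, ℤ)) : γ * ModularGroup.T ^ N * γ⁻¹ ∈ Gamma1 N := by
  have h1 : (ModularGroup.T ^ N : SL(2, ℤ)) ∈ Gamma N := by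
    have := ModularGroup_T_pow_mem_Gamma (N : ℤ) (N : ℤ) (dvd_refl _)
    simpa using this
  have h2 : γ * ModularGroup.T ^ N * γ⁻¹ ∈ Gamma N := (Gamma_normal N).conj_mem _ h1 γ
  rw [Gamma1_mem]
  have h3 := Gamma_mem.mp h2
  exact ⟨h3.1, h3.2.2.2, h3.2.2.1⟩

/-- For all but finitely many integers `c`, `g₃ · (E₄(Nz) + c E₄)` has stabiliser `Γ₁(N)`. -/
theorem nice_Gamma1 (hN : 3 ≤ N) : Nice (Gamma1 N) := by
  refine ⟨inferInstance, T_mem_Gamma1 N, ⟨N, NeZero.pos N, conj_T_pow_mem_Gamma1 N⟩, ?_⟩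
  -- bad integers
  let h : ℤ → ℍ → ℂ := fun c ↦ g3 N * (E4N N + (c : ℂ) • (E₄ : ℍ → ℂ))
  have h4 : IsMF (Gamma1 N) 4 (E4N N) := (E4N_mf N).mono (Gamma1_in_Gamma0 N)
  have h4' : IsMF (Gamma1 N) 4 (E₄ : ℍ → ℂ) := E4_mf.mono le_top
  have hmf : ∀ c, IsMF (Gamma1 N) 7 (h c) := fun c ↦
    ((g3_mf N).mul (h4.add (h4'.smul c))).cast (by norm_num)
  have hslash : ∀ c (γ : SL(2, ℤ)), h c ∣[(7 : ℤ)] γ =
      (g3 N ∣[(3 : ℤ)] γ) * (E4N N ∣[(4 : ℤ)] γ + (c : ℂ) • (E₄ : ℍ → ℂ)) := by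
    intro c γ
    change (g3 N * (E4N N + (c : ℂ) • (E₄ : ℍ → ℂ))) ∣[(3 : ℤ) + 4] γ = _
    rw [mul_slash_SL2, SlashAction.add_slash, SL_smul_slash, E4_mf.slash γ (Subgroup.mem_top _)]
  have key : ∀ γ : SL(2, ℤ), γ ∉ Gamma1 N → ∀ c c' : ℤ, h c ∣[(7 : ℤ)] γ = h c →
      h c' ∣[(7 : ℤ)] γ = h c' → c = c' := by
    intro γ hγ c c' e e'
    by_contra hne
    apply hγ
    rw [hslash] at e e'
    have e1 : (g3 N ∣[(3 : ℤ)] γ - g3 N) * (E₄ : ℍ → ℂ) = 0 := by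
      have e2 : ((c : ℂ) - c') • ((g3 N ∣[(3 : ℤ)] γ - g3 N) * (E₄ : ℍ → ℂ)) = 0 := by
        have e3 := congrArg₂ (· - ·) e e'
        simp only [h] at e3
        funext τ
        have e4 := congrFun e3 τ
        simp only [Pi.sub_apply, Pi.mul_apply, Pi.add_apply, Pi.smul_apply, smul_eq_mul,
          Pi.zero_apply] at e4 ⊢
        linear_combination e4
      rcases smul_eq_zero.mp e2 with e3 | e3
      · exfalso
        apply hne
        have : (c : ℂ) = c' := sub_eq_zero.mp e3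
        exact_mod_cast this
      · exact e3
    have hE4 : (E₄ : ℍ → ℂ) ≠ 0 := by
      intro h0
      have := E4_tendsto
      rw [h0] at this
      exact zero_ne_one (tendsto_nhds_unique tendsto_const_nhds this)
    have e2 : g3 N ∣[(3 : ℤ)] γ = g3 N := by
      rcases mul_eq_zero_of_holo (((g3_mf N).holo.slash 3 _).sub (g3_mf N).holo) h4'.holo e1 with
        h5 | h5
      · exact sub_eq_zero.mp h5
      · exact absurd h5 hE4
    have hg3 : g3 N ≠ 0 := by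
      intro h0
      have h5 := g3_coeff hN 1
      rw [h0, GEcoeff_one, UpperHalfPlane.qExpansion_zero, map_zero] at h5
      rw [Pi.single_apply, Pi.single_apply, if_pos rfl,
        if_neg (fun h ↦ one_ne_neg_one hN h.symm)] at h5
      norm_num at h5
    have e3 : g3 N * (E4N N ∣[(4 : ℤ)] γ - E4N N) = 0 := by
      rw [e2] at e
      funext τ
      have e4 := congrFun e τ
      simp only [h, Pi.sub_apply, Pi.mul_apply, Pi.add_apply, Pi.smul_apply, smul_eq_mul,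
          Pi.zero_apply] at e4 ⊢
      linear_combination e4
    have e4 : E4N N ∣[(4 : ℤ)] γ = E4N N := by
      rcases mul_eq_zero_of_holo (g3_mf N).holo ((h4.holo.slash 4 _).sub h4.holo) e3 with
        h5 | h5
      · exact absurd h5 hg3
      · exact sub_eq_zero.mp h5
    exact g3_stab hN (E4N_inj N γ e4) e2
  -- cosets
  haveI : Fintype (SL(2, ℤ) ⧸ Gamma1 N) := Subgroup.fintypeQuotientOfFiniteIndex
  let bad : SL(2, ℤ) ⧸ Gamma1 N → Set ℤ := fun q ↦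
    {c | q.out ∉ Gamma1 N ∧ h c ∣[(7 : ℤ)] (q.out)⁻¹ = h c}
  have hbad : ∀ q, (bad q).Subsingleton := by
    intro q c hc c' hc'
    exact key _ (fun h5 ↦ hc.1 (by simpa using (Gamma1 N).inv_mem h5)) c c' hc.2 hc'.2
  have hfin : (⋃ q, bad q).Finite := Set.finite_iUnion fun q ↦ (hbad q).finite
  obtain ⟨c, hc⟩ := hfin.infinite_compl.nonempty
  refine ⟨7, h c, hmf c, ?_, ?_⟩
  · have e : qExpansion 1 (h c) = qExpansion 1 (g3 N) *
        (qExpansion 1 (E4N N) + (c : ℂ) • qExpansion 1 (E₄ : ℍ → ℂ)) := by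
      simp only [h]
      rw [(g3_mf N).qExpansion_mul (h4.add (h4'.smul c)) (T_mem_Gamma1 N),
        h4.qExpansion_add (h4'.smul c) (T_mem_Gamma1 N), h4'.qExpansion_smul (T_mem_Gamma1 N)]
    have h5 : qExpansion 1 (h c) ∈ intSub := by
      rw [e]
      refine intSub.mul_mem (mem_intSub_of_isInt (g3_int hN)) (intSub.add_mem
        (mem_intSub_of_isInt (E4N_int N)) ?_)
      have : (c : ℂ) • qExpansion 1 (E₄ : ℍ → ℂ) = (c : PowerSeries ℂ) * qExpansion 1 E₄ := by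
        rw [PowerSeries.smul_eq_C_mul]
        simp
      rw [this]
      exact intSub.mul_mem (intCast_mem _ _) (mem_intSub_of_isInt E4_int)
    exact fun n ↦ mem_intSub.mp h5 n
  · intro γ hγ
    by_contra hne
    apply hc
    rw [Set.mem_iUnion]
    refine ⟨(γ⁻¹ : SL(2, ℤ)), ?_⟩
    obtain ⟨n, hn⟩ := QuotientGroup.mk_out_eq_mul (Gamma1 N) γ⁻¹
    constructor
    · intro h5
      rw [hn] at h5
      have h6 := (Gamma1 N).mul_mem h5 ((Gamma1 N).inv_mem n.2)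
      rw [mul_assoc, mul_inv_cancel, mul_one] at h6
      exact hne (by simpa using (Gamma1 N).inv_mem h6)
    · rw [hn, mul_inv_rev, inv_inv, SlashAction.slash_mul, (hmf c).slash _ ((Gamma1 N).inv_mem n.2),
        hγ]

end Fermat.Agent.DS
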