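import Fermat.Agent.DS.Eis1C
import Fermat.Agent.DS.NiceG1
import Fermat.Agent.DS.EisDefs

/-!
# Weight one Eisenstein series on `Γ₁(l)` and their `q`-expansions
-/

set_option autoImplicit false
set_option linter.unusedSectionVars false

noncomputable section

namespace Fermat.Agent.DS

open UpperHalfPlane EisensteinSeries ModularForm Filter Topology Fermat.Agent.Support
  CongruenceSubgroup Fermat.Agent.IntStr Asymptotics
open scoped MatrixGroups Manifold Real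

theorem hasSum_double' {ψ : ℕ → ℂ} {C : ℝ} (hψ : ∀ n, ‖ψ n‖ ≤ C) {r : ℂ} (hr : ‖r‖ < 1) :
    HasSum (fun m : ℕ ↦ (∑ x ∈ m.divisorsAntidiagonal, ψ x.2) * r ^ m)
      (∑' c : ℕ+, ∑' n : ℕ+, ψ n * r ^ (c * n : ℕ)) := by
  have hs : Summable fun c : ℕ+ × ℕ+ ↦ ψ c.2 * r ^ (c.1 * c.2 : ℕ) := by
    have h1 := (summable_prod_mul_pow (𝕜 := ℂ) 0 hr).norm.mul_left C
    refine Summable.of_norm_bounded h1 fun c ↦ ?_
    rw [norm_mul, pow_zero, one_mul]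
    exact mul_le_mul_of_nonneg_right (hψ _) (norm_nonneg _)
  have h2 : HasSum (fun c : ℕ+ × ℕ+ ↦ ψ c.2 * r ^ (c.1 * c.2 : ℕ))
      (∑' c : ℕ+, ∑' n : ℕ+, ψ n * r ^ (c * n : ℕ)) := by
    have h3 := hs.hasSum
    rwa [hs.tsum_prod] at h3
  rw [← sigmaAntidiagonalEquivProd.hasSum_iff] at h2
  have h4 : ∀ n : ℕ+, HasSum (fun x : Nat.divisorsAntidiagonal n ↦
      ((fun c : ℕ+ × ℕ+ ↦ ψ c.2 * r ^ (c.1 * c.2 : ℕ)) ∘
        sigmaAntidiagonalEquivProd) ⟨n, x⟩)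
      ((∑ x ∈ (n : ℕ).divisorsAntidiagonal, ψ x.2) * r ^ (n : ℕ)) := by
    intro n
    have h5 : ∀ x : Nat.divisorsAntidiagonal n,
        ((fun c : ℕ+ × ℕ+ ↦ ψ c.2 * r ^ (c.1 * c.2 : ℕ)) ∘
        sigmaAntidiagonalEquivProd) ⟨n, x⟩ = ψ x.1.2 * r ^ (n : ℕ) := by
      intro x
      have h6 := (Nat.mem_divisorsAntidiagonal.mp x.2).1
      simp only [Function.comp_apply, sigmaAntidiagonalEquivProd, Equiv.coe_fn_mk,
        divisorsAntidiagonalFactors, PNat.mk_coe]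
      rw [h6]
    simp_rw [h5]
    rw [Finset.sum_mul, ← Finset.sum_attach]
    exact hasSum_fintype _
  have h6 := h2.sigma h4
  have h7 : HasSum ((fun m : ℕ ↦ (∑ x ∈ m.divisorsAntidiagonal, ψ x.2) * r ^ m) ∘
      ((↑) : ℕ+ → ℕ)) (∑' c : ℕ+, ∑' n : ℕ+, ψ n * r ^ (c * n : ℕ)) := h6
  rwa [PNat.coe_injective.hasSum_iff] at h7
  intro m hm
  have hm0 : m = 0 := by
    by_contra h0
    exact hm ⟨⟨m, Nat.pos_of_ne_zero h0⟩, rfl⟩
  subst hm0
  simp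

theorem pi_cot_pi (z : ℂ) : π * Complex.cot (π * z) = π * Complex.I *
    ((Complex.exp (2 * π * Complex.I * z) + 1) / (Complex.exp (2 * π * Complex.I * z) - 1)) := by
  rw [Complex.cot_pi_eq_exp_ratio]
  generalize Complex.exp (2 * π * Complex.I * z) = e
  by_cases h : e = 1
  · rw [h]; simp
  · have h1 : 1 - e ≠ 0 := sub_ne_zero.2 (Ne.symm h)
    have h2 : e - 1 ≠ 0 := sub_ne_zero.2 h
    have hI := Complex.I_ne_zero
    rw [mul_assoc]
    congr 1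
    rw [div_eq_iff (mul_ne_zero hI h1)]
    have h3 : Complex.I * ((e + 1) / (e - 1)) * (Complex.I * (1 - e)) =
        (Complex.I * Complex.I) * ((e + 1) * ((1 - e) / (e - 1))) := by ring
    have h4 : (1 - e) / (e - 1) = -1 := by
      rw [div_eq_iff h2]; ring
    rw [h3, h4, Complex.I_mul_I]
    ring

/-- the coefficient function -/
def gfun (u : ℂ) (n : ℕ) : ℂ :=
  (u ^ (-(n : ℤ)) - u ^ (n : ℤ)) - 2 * (u ^ (-(2 * n : ℤ)) - u ^ (2 * n : ℤ)) +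
    (u ^ (-(3 * n : ℤ)) - u ^ (3 * n : ℤ))

/-- the constant term -/
def aconst (u : ℂ) : ℂ :=
  (u + 1) / (u - 1) - 2 * ((u ^ 2 + 1) / (u ^ 2 - 1)) + (u ^ 3 + 1) / (u ^ 3 - 1)

theorem norm_gfun_le {u : ℂ} (hu : ‖u‖ = 1) (n : ℕ) : ‖gfun u n‖ ≤ 8 := by
  have h : ∀ k : ℤ, ‖u ^ k‖ = 1 := fun k => by rw [norm_zpow, hu, one_zpow]
  unfold gfun
  have h1 : ∀ k : ℤ, ‖u ^ (-k) - u ^ k‖ ≤ 2 := fun k => by
    refine (norm_sub_le _ _).trans ?_
    rw [h, h]; norm_num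
  refine (norm_add_le _ _).trans ?_
  have h2 := norm_sub_le (u ^ (-(n : ℤ)) - u ^ (n : ℤ)) (2 * (u ^ (-(2 * n : ℤ)) - u ^ (2 * n : ℤ)))
  rw [norm_mul, Complex.norm_ofNat] at h2
  linarith [h1 n, h1 (2 * n), h1 (3 * n)]

section

variable {l : ℕ} [hl : Fact l.Prime] {d : ℤ}

theorem notDiv_zero (hd : ¬ (l : ℤ) ∣ d) : NotDiv l ![0, d] := fun h => hd (h 1)

theorem rowpt_zero (k : ℤ) (c : ℤ) (τ : ℍ) : rowpt l k ![0, d] c τ = c * τ + k * (d / l) := by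
  simp [rowpt, linf]

theorem exp_rowpt (k : ℕ) (c : ℤ) (τ : ℍ) :
    Complex.exp (2 * π * Complex.I * (c * τ + k * (d / l))) =
      Function.Periodic.qParam 1 (τ : ℂ) ^ c * Complex.exp (2 * π * Complex.I * d / l) ^ k := by
  rw [Function.Periodic.qParam, ← Complex.exp_int_mul, ← Complex.exp_nat_mul, ← Complex.exp_add]
  congr 1
  push_cast
  ring

theorem cot_pos (k : ℕ) (c : ℕ+) (τ : ℍ) :
    π * Complex.cot (π * ((c : ℤ) * τ + k * ((d : ℂ) / l))) = π * Complex.I -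
      2 * π * Complex.I * ∑' n : ℕ, (Function.Periodic.qParam 1 (τ : ℂ) ^ (c : ℕ) *
        Complex.exp (2 * π * Complex.I * d / l) ^ k) ^ n := by
  have him : 0 < ((((c : ℤ) : ℂ) * τ + k * ((d : ℂ) / l))).im := by
    have h1 : ((k : ℂ) * ((d : ℂ) / l)).im = 0 := by
      have : ((k : ℂ) * ((d : ℂ) / l)) = (((k : ℝ) * ((d : ℝ) / l) : ℝ) : ℂ) := by push_cast; rfl
      rw [this, Complex.ofReal_im]
    rw [Complex.add_im, h1, add_zero]
    have h2 : (((c : ℤ) : ℂ) * (τ : ℂ)).im = (c : ℝ) * τ.im := by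
      simp
    rw [h2]
    have := c.pos
    have h3 : (0 : ℝ) < c := by exact_mod_cast this
    exact mul_pos h3 τ.im_pos
  have h1 := pi_mul_cot_pi_q_exp ⟨_, him⟩
  have h2 : ((⟨_, him⟩ : ℍ) : ℂ) = ((c : ℤ) : ℂ) * τ + k * ((d : ℂ) / l) := rfl
  rw [h2] at h1
  rw [h1]
  congr 2
  refine tsum_congr fun n => ?_
  rw [exp_rowpt]
  norm_cast

theorem norm_q_lt (τ : ℍ) (c : ℕ+) : ‖Function.Periodic.qParam 1 (τ : ℂ) ^ (c : ℕ)‖ < 1 := by
  rw [norm_pow]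
  refine pow_lt_one₀ (norm_nonneg _) ?_ c.ne_zero
  exact Function.Periodic.norm_qParam_lt_one one_pos τ.im_pos

theorem norm_u (d : ℤ) : ‖Complex.exp (2 * π * Complex.I * d / l)‖ = 1 := by
  have : 2 * π * Complex.I * d / l = ((2 * π * d / l : ℝ) : ℂ) * Complex.I := by
    push_cast; ring
  rw [this, Complex.norm_exp_ofReal_mul_I]

theorem row_pair (c : ℕ+) (τ : ℍ) :
    rowval l ![0, d] c τ + rowval l ![0, d] (-(c : ℤ)) τ =
      (l : ℂ)⁻¹ * (2 * π * Complex.I) * ∑' n : ℕ+,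
        gfun (Complex.exp (2 * π * Complex.I * d / l)) n *
          Function.Periodic.qParam 1 (τ : ℂ) ^ (c * n : ℕ) := by
  set u := Complex.exp (2 * π * Complex.I * d / l) with hu
  set q := Function.Periodic.qParam 1 (τ : ℂ) with hq
  have hu1 : ‖u‖ = 1 := norm_u d
  have hu0 : u ≠ 0 := Complex.exp_ne_zero _
  have hqc := norm_q_lt τ c
  have hneg : Complex.exp (2 * π * Complex.I * ((-d : ℤ) : ℂ) / l) = u⁻¹ := by
    rw [hu, ← Complex.exp_neg]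
    congr 1
    push_cast; ring
  have hpos : ∀ k : ℕ, π * Complex.cot (π * rowpt l k ![0, d] c τ) = π * Complex.I -
      2 * π * Complex.I * ∑' n : ℕ, (q ^ (c : ℕ) * u ^ k) ^ n := by
    intro k
    rw [rowpt_zero, ← cot_pos]
    push_cast
    rfl
  have hng : ∀ k : ℕ, π * Complex.cot (π * rowpt l k ![0, d] (-(c : ℤ)) τ) = -(π * Complex.I -
      2 * π * Complex.I * ∑' n : ℕ, (q ^ (c : ℕ) * u⁻¹ ^ k) ^ n) := by
    intro k
    have h1 := cot_pos (l := l) (d := -d) k c τ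
    rw [hneg] at h1
    rw [← h1, rowpt_zero, ← mul_neg, ← cot_neg']
    congr 2
    push_cast
    ring
  have hs : ∀ (v : ℂ), ‖v‖ = 1 → Summable fun n : ℕ => (q ^ (c : ℕ) * v) ^ n := by
    intro v hv
    apply summable_geometric_of_norm_lt_one
    rw [norm_mul, hv, mul_one]
    exact hqc
  have hn : ∀ k : ℕ, ‖u ^ k‖ = 1 := fun k => by rw [norm_pow, hu1, one_pow]
  have hn' : ∀ k : ℕ, ‖u⁻¹ ^ k‖ = 1 := fun k => by rw [norm_pow, norm_inv, hu1, inv_one, one_pow]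
  have key : ∑' n : ℕ+, gfun u n * q ^ (c * n : ℕ) =
      (∑' n : ℕ, (q ^ (c : ℕ) * u⁻¹ ^ 1) ^ n - ∑' n : ℕ, (q ^ (c : ℕ) * u ^ 1) ^ n) -
      2 * (∑' n : ℕ, (q ^ (c : ℕ) * u⁻¹ ^ 2) ^ n - ∑' n : ℕ, (q ^ (c : ℕ) * u ^ 2) ^ n) +
      (∑' n : ℕ, (q ^ (c : ℕ) * u⁻¹ ^ 3) ^ n - ∑' n : ℕ, (q ^ (c : ℕ) * u ^ 3) ^ n) := by
    rw [← Summable.tsum_sub (hs _ (hn' _)) (hs _ (hn _)),
      ← Summable.tsum_sub (hs _ (hn' _)) (hs _ (hn _)),
      ← Summable.tsum_sub (hs _ (hn' _)) (hs _ (hn _)), ← tsum_mul_left,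
      ← Summable.tsum_sub ((hs _ (hn' _)).sub (hs _ (hn _)))
        (((hs _ (hn' _)).sub (hs _ (hn _))).mul_left 2),
      ← Summable.tsum_add (((hs _ (hn' _)).sub (hs _ (hn _))).sub
        (((hs _ (hn' _)).sub (hs _ (hn _))).mul_left 2)) ((hs _ (hn' _)).sub (hs _ (hn _)))]
    have h0 : ∀ f : ℕ → ℂ, f 0 = 0 → ∑' n : ℕ+, f n = ∑' n : ℕ, f n := by
      intro f hf
      have := PNat.coe_injective.tsum_eq (f := f) (by
        intro n hn
        have : n ≠ 0 := fun h => hn (by rw [h]; exact hf)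
        exact ⟨⟨n, Nat.pos_of_ne_zero this⟩, rfl⟩)
      exact this
    rw [h0 (fun n => gfun u n * q ^ (c * n : ℕ)) (by simp [gfun])]
    refine tsum_congr fun n => ?_
    have e1 : ∀ k : ℕ, u ^ (-((k : ℤ) * n)) = (u⁻¹ ^ k) ^ n := by
      intro k
      rw [zpow_neg, ← inv_zpow, zpow_mul, zpow_natCast, zpow_natCast]
    have e2 : ∀ k : ℕ, u ^ ((k : ℤ) * n) = (u ^ k) ^ n := by
      intro k
      rw [zpow_mul, zpow_natCast, zpow_natCast]
    have a1 := e1 1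
    have a2 := e1 2
    have a3 := e1 3
    have b1 := e2 1
    have b2 := e2 2
    have b3 := e2 3
    push_cast at a1 a2 a3 b1 b2 b3
    rw [one_mul] at a1 b1
    rw [gfun, a1, a2, a3, b1, b2, b3, pow_mul]
    simp only [mul_pow]
    ring
  rw [key]
  have p1 := hpos 1
  have p2 := hpos 2
  have p3 := hpos 3
  have n1 := hng 1
  have n2 := hng 2
  have n3 := hng 3
  push_cast at p1 p2 p3 n1 n2 n3
  rw [rowval, rowval, p1, p2, p3, n1, n2, n3]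
  ring

theorem row_zero (τ : ℍ) : rowval l ![0, d] 0 τ = (l : ℂ)⁻¹ * (π * Complex.I) *
    aconst (Complex.exp (2 * π * Complex.I * d / l)) := by
  have h : ∀ k : ℕ, Complex.exp (2 * π * Complex.I * rowpt l k ![0, d] 0 τ) =
      Complex.exp (2 * π * Complex.I * d / l) ^ k := by
    intro k
    have h1 := exp_rowpt (l := l) (d := d) k 0 τ
    rw [zpow_zero, one_mul] at h1
    rw [← h1, rowpt_zero]
    push_cast
    rfl
  have h1 := h 1
  have h2 := h 2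
  have h3 := h 3
  rw [pow_one] at h1
  push_cast at h1 h2 h3
  rw [rowval, pi_cot_pi, pi_cot_pi, pi_cot_pi, h1, h2, h3, aconst]
  ring

theorem e1_hasSum (h5 : 5 ≤ l) (hd : ¬ (l : ℤ) ∣ d) (τ : ℍ) :
    HasSum (fun m : ℕ ↦ (if m = 0 then aconst (Complex.exp (2 * π * Complex.I * d / l)) else
      2 * ∑ x ∈ m.divisorsAntidiagonal, gfun (Complex.exp (2 * π * Complex.I * d / l)) x.2) •
        Function.Periodic.qParam 1 (τ : ℂ) ^ m)
      ((l / (π * Complex.I) : ℂ) * e1 l ![0, d] τ) := by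
  have ha := notDiv_zero hd
  have hs := summable_rowval h5 ha τ
  have hl0 : (l : ℂ) ≠ 0 := by exact_mod_cast hl.1.ne_zero
  have hπ : (π : ℂ) ≠ 0 := by exact_mod_cast Real.pi_ne_zero
  set u := Complex.exp (2 * π * Complex.I * d / l) with hu
  set q := Function.Periodic.qParam 1 (τ : ℂ) with hq
  have h1 : e1 l ![0, d] τ = (l : ℂ)⁻¹ * (π * Complex.I) * aconst u +
      (l : ℂ)⁻¹ * (2 * π * Complex.I) * ∑' c : ℕ+, ∑' n : ℕ+, gfun u n * q ^ (c * n : ℕ) := by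
    rw [e1_eq_rows h5 ha, tsum_int_eq_zero_add_tsum_pnat hs, add_assoc, ← Summable.tsum_add]
    · rw [row_zero, ← tsum_mul_left]
      congr 1
      exact tsum_congr fun c => row_pair c τ
    · exact hs.comp_injective (fun a b h ↦ PNat.coe_injective
            (by exact_mod_cast (show ((a : ℕ) : ℤ) = ((b : ℕ) : ℤ) from h)) :
            Function.Injective fun c : ℕ+ ↦ ((c : ℕ) : ℤ))
    · exact hs.comp_injective (fun a b h ↦ PNat.coe_injective (by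
            have : ((a : ℕ) : ℤ) = ((b : ℕ) : ℤ) := neg_injective h
            exact_mod_cast this) :
            Function.Injective fun c : ℕ+ ↦ (-((c : ℕ) : ℤ)))
  have h2 : (l / (π * Complex.I) : ℂ) * e1 l ![0, d] τ = aconst u +
      2 * ∑' c : ℕ+, ∑' n : ℕ+, gfun u n * q ^ (c * n : ℕ) := by
    rw [h1]
    have hI := Complex.I_ne_zero
    field_simp
  rw [h2]
  have hq1 : ‖q‖ < 1 := Function.Periodic.norm_qParam_lt_one one_pos τ.im_pos
  have h3 := (hasSum_double' (norm_gfun_le (norm_u (l := l) d)) hq1).mul_left 2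
  have h4 : HasSum (fun m : ℕ => if m = 0 then aconst u else 0) (aconst u) := by
    have := hasSum_ite_eq (0 : ℕ) (aconst u)
    exact this
  have h5 := h4.add h3
  convert h5 using 1
  funext m
  rw [smul_eq_mul]
  by_cases hm : m = 0
  · subst hm; simp
  · rw [if_neg hm, if_neg hm]; ring

end

theorem exists_eis1_aux (l : ℕ) [hl : Fact l.Prime] (h5 : 5 ≤ l) : ∃ E : ZMod l → ℍ → ℂ,
    (∀ d, d ≠ 0 → IsMF (Gamma1 l) 1 (E d)) ∧
    (∀ d, d ≠ 0 → ∀ γ ∈ Gamma0 l, E d ∣[(1 : ℤ)] γ = E (d * ((γ 1 1 : ℤ) : ZMod l))) ∧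
    ∀ d : ℤ, (d : ZMod l) ≠ 0 → ∀ u : ℂ, u = Complex.exp (2 * π * Complex.I * d / l) →
      (qExpansion 1 (E d)).coeff 0 =
        (u + 1) / (u - 1) - 2 * ((u ^ 2 + 1) / (u ^ 2 - 1)) + (u ^ 3 + 1) / (u ^ 3 - 1) ∧
      ∀ n : ℕ, 0 < n → (qExpansion 1 (E d)).coeff n =
        2 * ∑ x ∈ n.divisorsAntidiagonal, ((u ^ (-(x.2 : ℤ)) - u ^ (x.2 : ℤ)) -
          2 * (u ^ (-(2 * x.2 : ℤ)) - u ^ (2 * x.2 : ℤ)) +
          (u ^ (-(3 * x.2 : ℤ)) - u ^ (3 * x.2 : ℤ))) := by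
  have hval : ∀ d : ZMod l, (((d.val : ℕ) : ℤ) : ZMod l) = d := fun d => by
    rw [Int.cast_natCast, ZMod.natCast_zmod_val]
  have hnd : ∀ d : ZMod l, d ≠ 0 → NotDiv l ![0, (d.val : ℤ)] := fun d hd =>
    notDiv_zero fun h => hd (by rw [← hval d]; exact (ZMod.intCast_zmod_eq_zero_iff_dvd _ _).2 h)
  let E : ZMod l → ℍ → ℂ := fun d => (l / (π * Complex.I) : ℂ) • e1 l ![0, (d.val : ℤ)]
  have hsl : ∀ d, d ≠ 0 → ∀ γ ∈ Gamma0 l,
      E d ∣[(1 : ℤ)] γ = E (d * ((γ 1 1 : ℤ) : ZMod l)) := by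
    intro d hd γ hγ
    show ((l / (π * Complex.I) : ℂ) • e1 l ![0, (d.val : ℤ)]) ∣[(1 : ℤ)] γ = _
    rw [SL_smul_slash, e1_slash]
    show _ = (l / (π * Complex.I) : ℂ) • e1 l ![0, ((d * ((γ 1 1 : ℤ) : ZMod l)).val : ℤ)]
    congr 1
    refine e1_congr h5 ((hnd d hd).mulr γ) fun i => ?_
    have hγ' := (ZMod.intCast_zmod_eq_zero_iff_dvd _ _).1 (Gamma0_mem.mp hγ)
    fin_cases i
    · simpa [vmul, Matrix.vecMul, dotProduct, Fin.sum_univ_two] using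
        hγ'.mul_left (d.val : ℤ)
    · rw [← ZMod.intCast_zmod_eq_zero_iff_dvd]
      simp [vmul, Matrix.vecMul, dotProduct, Fin.sum_univ_two]
  have hmf : ∀ d, d ≠ 0 → IsMF (Gamma1 l) 1 (E d) := by
    intro d hd
    refine ⟨(e1_mdifferentiable h5 (hnd d hd)).const_smul _, ?_, ?_⟩
    · intro γ hγ
      rw [hsl d hd γ (Gamma1_in_Gamma0 l hγ)]
      have h1 : ((γ 1 1 : ℤ) : ZMod l) = 1 := ((Gamma1_mem l γ).mp hγ).2.1
      rw [h1, mul_one]
    · intro γ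
      show IsBoundedAtImInfty (((l / (π * Complex.I) : ℂ) • e1 l ![0, (d.val : ℤ)]) ∣[(1 : ℤ)] γ)
      rw [SL_smul_slash, e1_slash]
      exact (e1_bounded h5 ((hnd d hd).mulr γ)).const_smul_left _
  refine ⟨E, hmf, hsl, ?_⟩
  rintro d hd u rfl
  have hdl : ¬ (l : ℤ) ∣ d := fun h => hd ((ZMod.intCast_zmod_eq_zero_iff_dvd _ _).2 h)
  have hE : E (d : ZMod l) = (l / (π * Complex.I) : ℂ) • e1 l ![0, d] := by
    show (l / (π * Complex.I) : ℂ) • e1 l ![0, (((d : ZMod l)).val : ℤ)] = _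
    congr 1
    refine e1_congr h5 (hnd _ hd) fun i => ?_
    fin_cases i
    · simp
    · rw [← ZMod.intCast_zmod_eq_zero_iff_dvd]
      simp
  have hco : ∀ m : ℕ, (qExpansion 1 (E (d : ZMod l))).coeff m =
      (if m = 0 then aconst (Complex.exp (2 * π * Complex.I * d / l)) else
      2 * ∑ x ∈ m.divisorsAntidiagonal, gfun (Complex.exp (2 * π * Complex.I * d / l)) x.2) :=
    fun m => coeff_unique (hmf _ hd).holo.continuous ((hmf _ hd).analyticAt (T_mem_Gamma1 l))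
      (fun τ => by rw [hE]; exact e1_hasSum h5 hdl τ) m
  refine ⟨?_, fun n hn => ?_⟩
  · rw [hco, if_pos rfl, aconst]
  · rw [hco, if_neg hn.ne']
    rfl

theorem exists_eis1 (l : ℕ) [Fact l.Prime] (hl : 5 ≤ l) :
    ∃ E : ZMod l → ℍ → ℂ, Eis1Data l E := by
  obtain ⟨E, h1, h2, h3⟩ := exists_eis1_aux l hl
  refine ⟨E, h1, h2, fun d hd => (h3 d hd _ rfl).1, fun d hd n hn => ?_⟩
  refine ((h3 d hd _ rfl).2 n (Nat.pos_of_ne_zero hn)).trans ?_
  rw [EisC, uu]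
  congr 1
  refine Finset.sum_congr rfl fun x _ => ?_
  have e1 : ∀ k : ℕ, Complex.exp (2 * π * Complex.I * d / l) ^ (-(k * x.2 : ℤ)) =
      (Complex.exp (2 * π * Complex.I * d / l))⁻¹ ^ (k * x.2) := by
    intro k
    rw [zpow_neg, ← inv_zpow]
    exact_mod_cast rfl
  have e2 : ∀ k : ℕ, Complex.exp (2 * π * Complex.I * d / l) ^ ((k * x.2 : ℤ)) =
      Complex.exp (2 * π * Complex.I * d / l) ^ (k * x.2) := by
    intro k
    exact_mod_cast rfl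
  have a1 := e1 1
  have a2 := e1 2
  have a3 := e1 3
  have b1 := e2 1
  have b2 := e2 2
  have b3 := e2 3
  push_cast at a1 a2 a3 b1 b2 b3
  rw [one_mul, one_mul] at a1 b1
  rw [a1, a2, a3, b1, b2, b3]

end Fermat.Agent.DS
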