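import Fermat.Agent.Support.EisChar
import Fermat.Agent.IntStr.Basic

/-!
# Weight one Eisenstein series: convergence and modularity

For `a ∈ ℤ²`, `a ∉ l ℤ²`, `e1 l a τ = ∑ m, (1/[a + l m] - 2/[2a + l m] + 1/[3a + l m])` where
`[v] = v₀ τ + v₁`.
-/

set_option autoImplicit false
set_option linter.unusedSectionVars false

noncomputable section

namespace Fermat.Agent.DS

open UpperHalfPlane EisensteinSeries ModularForm Filter Topology Fermat.Agent.Support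
  CongruenceSubgroup Fermat.Agent.IntStr
open scoped MatrixGroups Manifold Real

/-- `v₀ τ + v₁` -/
def linf (v : Fin 2 → ℤ) (τ : ℍ) : ℂ := (v 0 : ℂ) * τ + v 1

theorem linf_ne_zero {v : Fin 2 → ℤ} (hv : v ≠ 0) (τ : ℍ) : linf v τ ≠ 0 := by
  have h1 := r_mul_max_le τ hv
  have h2 : 0 < r τ * ‖v‖ := mul_pos (r_pos τ) (norm_pos_iff.mpr hv)
  exact norm_pos_iff.1 (h2.trans_le h1)

theorem eisSummand_one (v : Fin 2 → ℤ) (τ : ℍ) : eisSummand 1 v τ = (linf v τ)⁻¹ := by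
  rw [eisSummand, linf, zpow_neg_one]

theorem norm_eisSummand_one_le (v : Fin 2 → ℤ) (τ : ℍ) :
    ‖eisSummand 1 v τ‖ ≤ (r τ)⁻¹ * ‖v‖⁻¹ := by
  rw [eisSummand_one, norm_inv, ← mul_inv]
  by_cases hv : v = 0
  · subst hv
    simp [linf]
  · exact inv_anti₀ (mul_pos (r_pos τ) (norm_pos_iff.mpr hv)) (r_mul_max_le τ hv)

theorem mul_le_cubes {x y z : ℝ} (hx : 0 ≤ x) (hy : 0 ≤ y) (hz : 0 ≤ z) :
    x * y * z ≤ x ^ 3 + y ^ 3 + z ^ 3 := by
  have h1 : 0 ≤ (x + y + z) * ((x - y) ^ 2 + (y - z) ^ 2 + (z - x) ^ 2) := by positivity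
  nlinarith [mul_nonneg (mul_nonneg hx hy) hz]

/-- the summand -/
def e1term (l : ℕ) (a m : Fin 2 → ℤ) (τ : ℍ) : ℂ :=
  eisSummand 1 (a + (l : ℤ) • m) τ - 2 * eisSummand 1 ((2 : ℤ) • a + (l : ℤ) • m) τ +
    eisSummand 1 ((3 : ℤ) • a + (l : ℤ) • m) τ

/-- the weight one Eisenstein series -/
def e1 (l : ℕ) (a : Fin 2 → ℤ) (τ : ℍ) : ℂ := ∑' m : Fin 2 → ℤ, e1term l a m τ

/-- `a ∉ l ℤ²` -/
def NotDiv (l : ℕ) (a : Fin 2 → ℤ) : Prop := ¬ ∀ i, (l : ℤ) ∣ a i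

section

variable {l : ℕ} [hl : Fact l.Prime] {a : Fin 2 → ℤ}

theorem NotDiv.add_ne_zero (h5 : 5 ≤ l) (ha : NotDiv l a) {c : ℤ} (hc0 : 0 < c) (hc : c < 5)
    (m : Fin 2 → ℤ) : c • a + (l : ℤ) • m ≠ 0 := by
  intro h
  apply ha
  intro i
  have h1 := congrFun h i
  simp only [Pi.add_apply, Pi.smul_apply, smul_eq_mul, Pi.zero_apply] at h1
  have h2 : (l : ℤ) ∣ c * a i := ⟨- m i, by linarith⟩
  refine (Int.Prime.dvd_mul' hl.1 h2).resolve_left fun h3 => ?_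
  have := Int.le_of_dvd hc0 h3
  omega

theorem e1term_eq (h5 : 5 ≤ l) (ha : NotDiv l a) (m : Fin 2 → ℤ) (τ : ℍ) :
    e1term l a m τ = 2 * linf a τ ^ 2 * (eisSummand 1 (a + (l : ℤ) • m) τ *
      eisSummand 1 ((2 : ℤ) • a + (l : ℤ) • m) τ * eisSummand 1 ((3 : ℤ) • a + (l : ℤ) • m) τ) := by
  have h1 := linf_ne_zero (ha.add_ne_zero h5 (c := 1) (by norm_num) (by norm_num) m) τ
  have h2 := linf_ne_zero (ha.add_ne_zero h5 (c := 2) (by norm_num) (by norm_num) m) τ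
  have h3 := linf_ne_zero (ha.add_ne_zero h5 (c := 3) (by norm_num) (by norm_num) m) τ
  rw [one_smul] at h1
  simp only [e1term, eisSummand_one]
  field_simp
  simp only [linf, Pi.add_apply, Pi.smul_apply, smul_eq_mul]
  push_cast
  ring

/-- the numerical majorant -/
def maj (l : ℕ) (a m : Fin 2 → ℤ) : ℝ :=
  ‖a + (l : ℤ) • m‖⁻¹ ^ 3 + ‖(2 : ℤ) • a + (l : ℤ) • m‖⁻¹ ^ 3 +
    ‖(3 : ℤ) • a + (l : ℤ) • m‖⁻¹ ^ 3

theorem maj_nonneg (m : Fin 2 → ℤ) : 0 ≤ maj l a m := by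
  unfold maj; positivity

theorem norm_e1term_le (h5 : 5 ≤ l) (ha : NotDiv l a) (m : Fin 2 → ℤ) (τ : ℍ) :
    ‖e1term l a m τ‖ ≤ 2 * ‖linf a τ‖ ^ 2 * (r τ)⁻¹ ^ 3 * maj l a m := by
  rw [e1term_eq h5 ha, norm_mul, norm_mul, norm_pow, mul_assoc (2 * ‖linf a τ‖ ^ 2),
    Complex.norm_ofNat]
  refine mul_le_mul_of_nonneg_left ?_ (by positivity)
  have hr := inv_nonneg.2 (r_pos τ).le
  rw [norm_mul, norm_mul]
  calc ‖eisSummand 1 (a + (l : ℤ) • m) τ‖ * ‖eisSummand 1 ((2 : ℤ) • a + (l : ℤ) • m) τ‖ *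
        ‖eisSummand 1 ((3 : ℤ) • a + (l : ℤ) • m) τ‖
      ≤ ((r τ)⁻¹ * ‖a + (l : ℤ) • m‖⁻¹) * ((r τ)⁻¹ * ‖(2 : ℤ) • a + (l : ℤ) • m‖⁻¹) *
        ((r τ)⁻¹ * ‖(3 : ℤ) • a + (l : ℤ) • m‖⁻¹) := by
        gcongr <;> exact norm_eisSummand_one_le _ _
    _ = (r τ)⁻¹ ^ 3 * (‖a + (l : ℤ) • m‖⁻¹ * ‖(2 : ℤ) • a + (l : ℤ) • m‖⁻¹ *
        ‖(3 : ℤ) • a + (l : ℤ) • m‖⁻¹) := by ring
    _ ≤ _ := mul_le_mul_of_nonneg_left (mul_le_cubes (by positivity) (by positivity)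
        (by positivity)) (by positivity)

theorem summable_shift (b : Fin 2 → ℤ) : Summable fun m : Fin 2 → ℤ => ‖b + (l : ℤ) • m‖⁻¹ ^ 3 := by
  have h1 := summable_one_div_norm_rpow (k := 3) (by norm_num)
  have h2 : Function.Injective fun m : Fin 2 → ℤ => b + (l : ℤ) • m := by
    intro m m' h
    have h3 : (l : ℤ) • m = (l : ℤ) • m' := add_left_cancel h
    funext i
    have h4 := congrFun h3 i
    simp only [Pi.smul_apply, smul_eq_mul] at h4
    exact mul_left_cancel₀ (by exact_mod_cast hl.1.ne_zero) h4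
  refine (h1.comp_injective h2).congr fun m => ?_
  simp only [Function.comp_apply]
  rw [Real.rpow_neg (norm_nonneg _), inv_pow]
  norm_cast

theorem summable_maj (a : Fin 2 → ℤ) : Summable (maj l a) :=
  ((summable_shift a).add (summable_shift _)).add (summable_shift _)

theorem summable_e1term (h5 : 5 ≤ l) (ha : NotDiv l a) (τ : ℍ) :
    Summable fun m => e1term l a m τ :=
  Summable.of_norm_bounded ((summable_maj a).mul_left _) fun m => norm_e1term_le h5 ha m τ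

theorem norm_e1_le (h5 : 5 ≤ l) (ha : NotDiv l a) (τ : ℍ) :
    ‖e1 l a τ‖ ≤ 2 * ‖linf a τ‖ ^ 2 * (r τ)⁻¹ ^ 3 * ∑' m, maj l a m := by
  have hs := summable_e1term h5 ha τ
  refine (norm_tsum_le_tsum_norm hs.norm).trans ?_
  rw [← tsum_mul_left]
  exact Summable.tsum_le_tsum (fun m => norm_e1term_le h5 ha m τ) hs.norm
    ((summable_maj a).mul_left _)

theorem continuous_linf (a : Fin 2 → ℤ) : Continuous (linf a) := by
  unfold linf
  fun_prop

theorem e1_tendstoLocallyUniformly (h5 : 5 ≤ l) (ha : NotDiv l a) :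
    TendstoLocallyUniformly (fun (s : Finset (Fin 2 → ℤ)) z => ∑ m ∈ s, e1term l a m z)
      (e1 l a) atTop := by
  simp only [tendstoLocallyUniformly_iff_forall_isCompact]
  intro K hK
  obtain ⟨A, B, hB, HABK⟩ := subset_verticalStrip_of_isCompact hK
  obtain ⟨M, hM⟩ := hK.exists_bound_of_continuousOn (continuous_linf a).continuousOn
  refine tendstoUniformlyOn_tsum
    (u := fun m => 2 * M ^ 2 * (r ⟨⟨A, B⟩, hB⟩)⁻¹ ^ 3 * maj l a m)
    ((summable_maj a).mul_left _) (fun m z hz ↦ ?_)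
  refine (norm_e1term_le h5 ha m z).trans (mul_le_mul_of_nonneg_right ?_ (maj_nonneg m))
  have h1 := r_lower_bound_on_verticalStrip z hB (HABK hz)
  have h2 := r_pos ⟨⟨A, B⟩, hB⟩
  have h3 := hM z hz
  have h4 := inv_anti₀ h2 h1
  have h5 : 0 ≤ (r z)⁻¹ := inv_nonneg.2 (r_pos z).le
  gcongr

theorem e1term_differentiableOn (m : Fin 2 → ℤ) :
    DifferentiableOn ℂ (↑ₕ(e1term l a m)) {z : ℂ | 0 < z.im} := by
  have e : (↑ₕ(e1term l a m)) = fun z => (↑ₕ(eisSummand 1 (a + (l : ℤ) • m))) z -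
      2 * (↑ₕ(eisSummand 1 ((2 : ℤ) • a + (l : ℤ) • m))) z +
      (↑ₕ(eisSummand 1 ((3 : ℤ) • a + (l : ℤ) • m))) z := rfl
  rw [e]
  exact ((eisSummand_extension_differentiableOn _ _).sub
    ((eisSummand_extension_differentiableOn _ _).const_mul _)).add
    (eisSummand_extension_differentiableOn _ _)

theorem e1_mdifferentiable (h5 : 5 ≤ l) (ha : NotDiv l a) : MDiff (e1 l a) := by
  have hloc : TendstoLocallyUniformlyOn (fun (s : Finset (Fin 2 → ℤ)) ↦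
      ↑ₕ(fun (z : ℍ) ↦ ∑ v ∈ s, e1term l a v z)) (↑ₕ(e1 l a))
          Filter.atTop {z : ℂ | 0 < z.im} := by
    rw [← upperHalfPlaneSet, ← range_coe, ← Set.image_univ]
    apply TendstoLocallyUniformlyOn.comp (s := ⊤) _ _ _ (OpenPartialHomeomorph.continuousOn_symm _)
    · simp only [Set.top_eq_univ, tendstoLocallyUniformlyOn_univ]
      apply e1_tendstoLocallyUniformly h5 ha
    · simp only [IsOpenEmbedding.toOpenPartialHomeomorph_target, Set.top_eq_univ,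
        Set.mapsTo_range_iff, Set.mem_univ, forall_const]
  intro τ
  suffices DifferentiableAt ℂ (↑ₕ(e1 l a)) τ.1 by
    convert!
      MDifferentiableAt.comp τ (DifferentiableAt.mdifferentiableAt this) τ.mdifferentiable_coe
    exact funext fun z ↦ (comp_ofComplex (e1 l a) z).symm
  refine DifferentiableOn.differentiableAt ?_ (isOpen_upperHalfPlaneSet.mem_nhds τ.2)
  refine hloc.differentiableOn
    (Eventually.of_forall fun s ↦ ?_) isOpen_upperHalfPlaneSet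
  have : (↑ₕ(fun (z : ℍ) ↦ ∑ v ∈ s, e1term l a v z)) =
      fun z => ∑ v ∈ s, (↑ₕ(e1term l a v)) z := rfl
  rw [this]
  exact DifferentiableOn.fun_sum fun v _ ↦ e1term_differentiableOn v

theorem vmul_add (v w : Fin 2 → ℤ) (γ : SL(2, ℤ)) : vmul (v + w) γ = vmul v γ + vmul w γ := by
  simp [vmul, Matrix.add_vecMul]

theorem vmul_smul (c : ℤ) (v : Fin 2 → ℤ) (γ : SL(2, ℤ)) : vmul (c • v) γ = c • vmul v γ := by
  unfold vmul
  exact Matrix.smul_vecMul c v _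

theorem e1_smul (a : Fin 2 → ℤ) (γ : SL(2, ℤ)) (z : ℍ) :
    e1 l a (γ • z) = denom γ z ^ (1 : ℤ) * e1 l (vmul a γ) z := by
  have h1 : ∀ v, e1term l a v (γ • z) = denom γ z ^ (1 : ℤ) * e1term l (vmul a γ) (vmul v γ) z := by
    intro v
    have e : ∀ w, eisSummand 1 w (γ • z) = denom γ z ^ (1 : ℤ) * eisSummand 1 (vmul w γ) z := by
      intro w
      rw [eisSummand_SL2_apply]
      rfl
    simp only [e1term, e, vmul_add, vmul_smul]
    ring
  simp only [e1]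
  simp_rw [h1]
  rw [tsum_mul_left]
  congr 1
  exact (vmulEquiv γ).tsum_eq (fun v => e1term l (vmul a γ) v z)

theorem e1_slash (a : Fin 2 → ℤ) (γ : SL(2, ℤ)) : e1 l a ∣[(1 : ℤ)] γ = e1 l (vmul a γ) := by
  ext1 z
  rw [SL_slash_apply, e1_smul, mul_comm, ← mul_assoc, ← zpow_add₀ (denom_ne_zero _ z),
    neg_add_cancel, zpow_zero, one_mul]

theorem NotDiv.mulr (ha : NotDiv l a) (γ : SL(2, ℤ)) : NotDiv l (vmul a γ) := by
  intro h
  apply ha
  choose c hc using h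
  have h1 : vmul a γ = (l : ℤ) • c := by
    funext i
    rw [hc i]; rfl
  have h2 : a = (l : ℤ) • Fermat.Agent.Support.vmul c γ⁻¹ := by
    rw [← vmul_smul, ← h1, ← vmul_mul, mul_inv_cancel, vmul_one]
  intro i
  rw [h2]
  exact ⟨_, rfl⟩

end

end Fermat.Agent.DS
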