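import Fermat.Agent.DS.Eis1A

/-!
# Weight one Eisenstein series: row sums, periodicity, boundedness
-/

set_option autoImplicit false
set_option linter.unusedSectionVars false

noncomputable section

namespace Fermat.Agent.DS

open UpperHalfPlane EisensteinSeries ModularForm Filter Topology Fermat.Agent.Support
  CongruenceSubgroup Fermat.Agent.IntStr Asymptotics
open scoped MatrixGroups Manifold Real

local notation "ℂ_ℤ" => Complex.integerComplement

theorem summable_cot_pnat {x : ℂ} (hx : x ∈ ℂ_ℤ) :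
    Summable fun n : ℕ+ => (1 / (x - n) + 1 / (x + n)) := by
  have h1 := summable_cotTerm hx
  rw [← Equiv.pnatEquivNat.symm.summable_iff]
  refine h1.congr fun n => ?_
  simp [cotTerm, Equiv.pnatEquivNat]

theorem row_sum {x y w : ℂ} (hx : x ∈ ℂ_ℤ) (hy : y ∈ ℂ_ℤ) (hw : w ∈ ℂ_ℤ)
    (hs : Summable fun n : ℤ => 1 / (x + n) - 2 * (1 / (y + n)) + 1 / (w + n)) :
    ∑' n : ℤ, (1 / (x + n) - 2 * (1 / (y + n)) + 1 / (w + n)) =
      π * Complex.cot (π * x) - 2 * (π * Complex.cot (π * y)) + π * Complex.cot (π * w) := by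
  rw [tsum_int_eq_zero_add_tsum_pnat hs, add_assoc, ← Summable.tsum_add]
  · have e : ∀ n : ℕ+, (1 / (x + ((n : ℤ) : ℂ)) - 2 * (1 / (y + ((n : ℤ) : ℂ))) +
        1 / (w + ((n : ℤ) : ℂ))) + (1 / (x + ((-(n : ℤ) : ℤ) : ℂ)) -
          2 * (1 / (y + ((-(n : ℤ) : ℤ) : ℂ))) + 1 / (w + ((-(n : ℤ) : ℤ) : ℂ))) =
        (1 / (x - n) + 1 / (x + n)) - 2 * (1 / (y - n) + 1 / (y + n)) +
          (1 / (w - n) + 1 / (w + n)) := by
      intro n
      push_cast
      ring
    rw [tsum_congr e, Summable.tsum_add ((summable_cot_pnat hx).sub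
      ((summable_cot_pnat hy).mul_left 2)) (summable_cot_pnat hw),
      Summable.tsum_sub (summable_cot_pnat hx) ((summable_cot_pnat hy).mul_left 2),
      tsum_mul_left, cot_series_rep hx, cot_series_rep hy, cot_series_rep hw]
    push_cast
    ring
  · exact hs.comp_injective (fun a b h ↦ PNat.coe_injective
            (by exact_mod_cast (show ((a : ℕ) : ℤ) = ((b : ℕ) : ℤ) from h)) :
            Function.Injective fun c : ℕ+ ↦ ((c : ℕ) : ℤ))
  · exact hs.comp_injective (fun a b h ↦ PNat.coe_injective (by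
            have : ((a : ℕ) : ℤ) = ((b : ℕ) : ℤ) := neg_injective h
            exact_mod_cast this) :
            Function.Injective fun c : ℕ+ ↦ (-((c : ℕ) : ℤ)))

theorem cot_pi_add_one (x : ℂ) : Complex.cot (π * (x + 1)) = Complex.cot (π * x) := by
  rw [mul_add, mul_one, Complex.cot, Complex.cot, Complex.cos_add_pi, Complex.sin_add_pi,
    neg_div_neg_eq]

theorem cot_pi_add_nat (x : ℂ) (n : ℕ) : Complex.cot (π * (x + n)) = Complex.cot (π * x) := by
  induction n with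
  | zero => simp
  | succ n ih => rw [← ih, ← cot_pi_add_one (x + n)]; congr 2; push_cast; ring

theorem cot_neg' (x : ℂ) : Complex.cot (-x) = - Complex.cot x := by
  rw [Complex.cot, Complex.cot, Complex.cos_neg, Complex.sin_neg, div_neg]

section

variable {l : ℕ} [hl : Fact l.Prime] {a : Fin 2 → ℤ}

/-- the point whose cotangent gives the row sum -/
def rowpt (l : ℕ) (k : ℤ) (a : Fin 2 → ℤ) (c : ℤ) (τ : ℍ) : ℂ :=
  c * τ + k * (linf a τ / l)

theorem rowpt_mem (h5 : 5 ≤ l) (ha : NotDiv l a) {k : ℤ} (hk0 : 0 < k) (hk : k < 5) (c : ℤ)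
    (τ : ℍ) : rowpt l k a c τ ∈ ℂ_ℤ := by
  rw [Complex.mem_integerComplement_iff]
  rintro ⟨n, hn⟩
  have hl0 : (l : ℂ) ≠ 0 := by exact_mod_cast hl.1.ne_zero
  have h1 := linf_ne_zero (ha.add_ne_zero h5 hk0 hk ![c, -n]) τ
  apply h1
  simp only [linf, Pi.add_apply, Pi.smul_apply, smul_eq_mul, Matrix.cons_val_zero,
    Matrix.cons_val_one]
  rw [rowpt, linf] at hn
  field_simp at hn
  push_cast
  linear_combination -hn

theorem eisSummand_row (k : ℤ) (a : Fin 2 → ℤ) (c n : ℤ) (τ : ℍ) :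
    eisSummand 1 (k • a + (l : ℤ) • ![c, n]) τ = (l : ℂ)⁻¹ * (1 / (rowpt l k a c τ + n)) := by
  have hl0 : (l : ℂ) ≠ 0 := by exact_mod_cast hl.1.ne_zero
  rw [eisSummand_one, one_div, ← mul_inv]
  congr 1
  simp only [linf, Pi.add_apply, Pi.smul_apply, smul_eq_mul, Matrix.cons_val_zero,
    Matrix.cons_val_one, rowpt]
  field_simp
  push_cast
  ring

theorem e1term_row (a : Fin 2 → ℤ) (c n : ℤ) (τ : ℍ) :
    e1term l a ![c, n] τ = (l : ℂ)⁻¹ * (1 / (rowpt l 1 a c τ + n) -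
      2 * (1 / (rowpt l 2 a c τ + n)) + 1 / (rowpt l 3 a c τ + n)) := by
  have h1 := eisSummand_row (l := l) 1 a c n τ
  rw [one_smul] at h1
  rw [e1term, h1, eisSummand_row, eisSummand_row]
  ring

/-- the row sum -/
def rowval (l : ℕ) (a : Fin 2 → ℤ) (c : ℤ) (τ : ℍ) : ℂ :=
  (l : ℂ)⁻¹ * (π * Complex.cot (π * rowpt l 1 a c τ) - 2 * (π * Complex.cot (π * rowpt l 2 a c τ)) +
    π * Complex.cot (π * rowpt l 3 a c τ))

theorem summable_prod_e1term (h5 : 5 ≤ l) (ha : NotDiv l a) (τ : ℍ) :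
    Summable fun x : ℤ × ℤ ↦ e1term l a ![x.1, x.2] τ := by
  refine (finTwoArrowEquiv ℤ).summable_iff.mp <| (summable_e1term h5 ha τ).congr (fun v ↦ ?_)
  simp [show ![v 0, v 1] = v from List.ofFn_inj.mp rfl]

theorem row_tsum (h5 : 5 ≤ l) (ha : NotDiv l a) (c : ℤ) (τ : ℍ) :
    ∑' n : ℤ, e1term l a ![c, n] τ = rowval l a c τ := by
  have hs := (summable_prod_e1term h5 ha τ).prod_factor c
  have hl0 : (l : ℂ) ≠ 0 := by exact_mod_cast hl.1.ne_zero
  have hs' : Summable fun n : ℤ => (1 / (rowpt l 1 a c τ + n) -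
      2 * (1 / (rowpt l 2 a c τ + n)) + 1 / (rowpt l 3 a c τ + n)) := by
    refine (hs.mul_left (l : ℂ)).congr fun n => ?_
    rw [e1term_row, ← mul_assoc, mul_inv_cancel₀ hl0, one_mul]
  simp_rw [e1term_row]
  rw [tsum_mul_left, row_sum (rowpt_mem h5 ha (by norm_num) (by norm_num) c τ)
    (rowpt_mem h5 ha (by norm_num) (by norm_num) c τ)
    (rowpt_mem h5 ha (by norm_num) (by norm_num) c τ) hs', rowval]

theorem e1_eq_rows (h5 : 5 ≤ l) (ha : NotDiv l a) (τ : ℍ) :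
    e1 l a τ = ∑' c : ℤ, rowval l a c τ := by
  have hs := summable_prod_e1term h5 ha τ
  rw [e1, ← (finTwoArrowEquiv ℤ).symm.tsum_eq, finTwoArrowEquiv_symm_apply, hs.tsum_prod]
  exact tsum_congr fun c => row_tsum h5 ha c τ

theorem summable_rowval (h5 : 5 ≤ l) (ha : NotDiv l a) (τ : ℍ) :
    Summable fun c : ℤ => rowval l a c τ :=
  (summable_prod_e1term h5 ha τ).prod.congr fun c => (row_tsum h5 ha c τ)

theorem notDiv_congr {a b : Fin 2 → ℤ} (h : ∀ i, (l : ℤ) ∣ a i - b i) (ha : NotDiv l a) :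
    NotDiv l b := by
  intro hb
  apply ha
  intro i
  have := dvd_add (h i) (hb i)
  rwa [sub_add_cancel] at this

/-- shift in the second coordinate -/
theorem e1_shift_one (h5 : 5 ≤ l) (ha : NotDiv l a) :
    e1 l (a + (l : ℤ) • ![0, 1]) = e1 l a := by
  have hb : NotDiv l (a + (l : ℤ) • ![0, 1]) := notDiv_congr (fun i => by
    rw [Pi.add_apply, Pi.smul_apply, smul_eq_mul]
    exact ⟨-(![0, 1] i : ℤ), by ring⟩) ha
  funext τ
  rw [e1_eq_rows h5 ha, e1_eq_rows h5 hb]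
  refine tsum_congr fun c => ?_
  have hl0 : (l : ℂ) ≠ 0 := by exact_mod_cast hl.1.ne_zero
  have e : ∀ k : ℕ, rowpt l k (a + (l : ℤ) • ![0, 1]) c τ = rowpt l k a c τ + k := by
    intro k
    simp only [rowpt, linf, Pi.add_apply, Pi.smul_apply, smul_eq_mul, Matrix.cons_val_zero,
      Matrix.cons_val_one]
    field_simp
    push_cast
    ring
  have e1 := e 1
  have e2 := e 2
  have e3 := e 3
  have c1 := cot_pi_add_nat (rowpt l 1 a c τ) 1
  have c2 := cot_pi_add_nat (rowpt l 2 a c τ) 2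
  have c3 := cot_pi_add_nat (rowpt l 3 a c τ) 3
  push_cast at e1 e2 e3 c1 c2 c3
  rw [rowval, rowval, e1, e2, e3, c1, c2, c3]

theorem e1_shift_zero (h5 : 5 ≤ l) (ha : NotDiv l a) :
    e1 l (a + (l : ℤ) • ![1, 0]) = e1 l a := by
  have hb : NotDiv l (a + (l : ℤ) • ![1, 0]) := notDiv_congr (fun i => by
    rw [Pi.add_apply, Pi.smul_apply, smul_eq_mul]
    exact ⟨-(![1, 0] i : ℤ), by ring⟩) ha
  -- apply `S`
  have hS : ∀ v : Fin 2 → ℤ, vmul v ModularGroup.S = ![v 1, - v 0] := by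
    intro v
    funext i
    fin_cases i <;> simp [vmul, ModularGroup.S, Matrix.vecMul, dotProduct, Fin.sum_univ_two]
  have h1 : e1 l (vmul (a + (l : ℤ) • ![1, 0]) ModularGroup.S) = e1 l (vmul a ModularGroup.S) := by
    have h2 := e1_shift_one h5 (hb.mulr ModularGroup.S)
    rw [← h2]
    congr 1
    rw [hS, hS]
    funext i
    fin_cases i <;> simp
  rw [← e1_slash, ← e1_slash] at h1
  have h3 := congrArg (fun f : ℍ → ℂ => f ∣[(1 : ℤ)] (ModularGroup.S⁻¹ : SL(2, ℤ))) h1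
  simpa [← SlashAction.slash_mul] using h3

end

end Fermat.Agent.DS
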