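import Fermat.Agent.DS.Eis1B

/-!
# Weight one Eisenstein series: boundedness at the cusps
-/

set_option autoImplicit false
set_option linter.unusedSectionVars false

noncomputable section

namespace Fermat.Agent.DS

open UpperHalfPlane EisensteinSeries ModularForm Filter Topology Fermat.Agent.Support
  CongruenceSubgroup Fermat.Agent.IntStr Asymptotics
open scoped MatrixGroups Manifold Real

/-- A holomorphic periodic function of polynomial growth is bounded at `i∞`. -/
theorem bounded_of_growth {h : ℝ} (hh : 0 < h) {f : ℍ → ℂ}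
    (hper : Function.Periodic (f ∘ ofComplex) h) (hol : MDiff f) {C : ℝ}
    (hb : ∀ τ : ℍ, |τ.re| ≤ h → 1 ≤ τ.im → ‖f τ‖ ≤ C * τ.im ^ 2) : IsBoundedAtImInfty f := by
  have hd : ∀ᶠ q in 𝓝[≠] (0 : ℂ), DifferentiableAt ℂ (cuspFunction h f) q := by
    refine Function.Periodic.eventually_differentiableAt_cuspFunction_nhds_ne_zero hh hper ?_
    exact eventually_of_mem (preimage_mem_comap (Ioi_mem_atTop 0))
        (fun z hz ↦ UpperHalfPlane.mdifferentiableAt_iff.mp (hol ⟨z, hz⟩))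
  have hlog : (fun q : ℂ => Real.log ‖q‖ ^ 2) =o[𝓝[≠] 0] fun q : ℂ => q⁻¹ := by
    have h1 := (isLittleO_log_rpow_nhdsGT_zero (r := -(1 / 2)) (by norm_num)).pow (n := 2) (by norm_num)
    have h2 := h1.comp_tendsto (tendsto_norm_nhdsNE_zero (E := ℂ))
    refine h2.trans_isBigO ?_
    refine IsBigO.of_bound 1 ?_
    filter_upwards [self_mem_nhdsWithin] with q hq
    have hq0 : 0 < ‖q‖ := norm_pos_iff.2 hq
    simp only [Function.comp_apply, one_mul, norm_inv]
    rw [← Real.rpow_natCast, ← Real.rpow_mul hq0.le]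
    norm_num
    rw [Real.rpow_neg_one, abs_of_pos (inv_pos.2 hq0)]
  have ho : (fun q => cuspFunction h f q - cuspFunction h f 0) =o[𝓝[≠] (0 : ℂ)]
      fun q => (q - 0)⁻¹ := by
    simp_rw [sub_zero]
    refine IsBigO.trans_isLittleO ?_ hlog
    refine IsBigO.of_bound (|C| * (h / (2 * π)) ^ 2 + ‖cuspFunction h f 0‖) ?_
    have hev : ∀ᶠ q : ℂ in 𝓝[≠] 0, ‖q‖ < min (Real.exp (-1)) (Real.exp (-(2 * π / h))) := by
      have : ∀ᶠ q : ℂ in 𝓝 0, ‖q‖ < min (Real.exp (-1)) (Real.exp (-(2 * π / h))) := by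
        have h1 : Tendsto (fun q : ℂ => ‖q‖) (𝓝 0) (𝓝 0) := by
          simpa using (continuous_norm (E := ℂ)).tendsto 0
        exact h1.eventually_lt_const (lt_min (Real.exp_pos _) (Real.exp_pos _))
      exact this.filter_mono nhdsWithin_le_nhds
    filter_upwards [hev, self_mem_nhdsWithin] with q hq hq0
    have hqpos : 0 < ‖q‖ := norm_pos_iff.2 hq0
    have hl1 : Real.log ‖q‖ < -1 := by
      rw [Real.log_lt_iff_lt_exp hqpos]; exact hq.trans_le (min_le_left _ _)
    have hl2 : Real.log ‖q‖ < -(2 * π / h) := by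
      rw [Real.log_lt_iff_lt_exp hqpos]; exact hq.trans_le (min_le_right _ _)
    have him : (Function.Periodic.invQParam h q).im = -h / (2 * π) * Real.log ‖q‖ :=
      Function.Periodic.im_invQParam h q
    have hπ := Real.pi_pos
    have him1 : 1 ≤ (Function.Periodic.invQParam h q).im := by
      rw [him]
      have h3 : -h / (2 * π) * Real.log ‖q‖ = (h / (2 * π)) * (- Real.log ‖q‖) := by ring
      rw [h3]
      have h4 : 2 * π / h ≤ - Real.log ‖q‖ := by linarith
      calc (1 : ℝ) = (h / (2 * π)) * (2 * π / h) := by field_simp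
        _ ≤ _ := mul_le_mul_of_nonneg_left h4 (by positivity)
    have him0 : 0 < (Function.Periodic.invQParam h q).im := zero_lt_one.trans_le him1
    have hre : |(Function.Periodic.invQParam h q).re| ≤ h := by
      have h3 : (Function.Periodic.invQParam h q).re = h / (2 * π) * (Complex.log q).im := by
        have h4 : (h : ℂ) / (2 * π * Complex.I) = ((-(h / (2 * π)) : ℝ) : ℂ) * Complex.I := by
          have : (π : ℂ) ≠ 0 := by exact_mod_cast hπ.ne'
          push_cast
          field_simp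
          rw [Complex.I_sq]; ring
        rw [Function.Periodic.invQParam, h4, mul_assoc, Complex.re_ofReal_mul]
        simp
      rw [h3, Complex.log_im, abs_mul, abs_of_pos (by positivity : 0 < h / (2 * π))]
      have h5 := Complex.abs_arg_le_pi q
      calc h / (2 * π) * |q.arg| ≤ h / (2 * π) * π := by gcongr
        _ = h / 2 := by field_simp
        _ ≤ h := by linarith
    have hval : cuspFunction h f q = f ⟨Function.Periodic.invQParam h q, him0⟩ := by
      rw [cuspFunction, Function.Periodic.cuspFunction_eq_of_nonzero _ _ hq0]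
      simp only [Function.comp_apply]
      rw [ofComplex_apply_of_im_pos him0]
    have h6 := hb ⟨Function.Periodic.invQParam h q, him0⟩ hre him1
    have h7 : ‖cuspFunction h f q‖ ≤ |C| * (h / (2 * π)) ^ 2 * Real.log ‖q‖ ^ 2 := by
      rw [hval]
      refine h6.trans ?_
      rw [UpperHalfPlane.im, him] at *
      calc C * (-h / (2 * π) * Real.log ‖q‖) ^ 2 ≤ |C| * (-h / (2 * π) * Real.log ‖q‖) ^ 2 :=
            mul_le_mul_of_nonneg_right (le_abs_self C) (sq_nonneg _)
        _ = _ := by ring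
    have h8 : 1 ≤ Real.log ‖q‖ ^ 2 := by nlinarith
    calc ‖cuspFunction h f q - cuspFunction h f 0‖
        ≤ ‖cuspFunction h f q‖ + ‖cuspFunction h f 0‖ := norm_sub_le _ _
      _ ≤ |C| * (h / (2 * π)) ^ 2 * Real.log ‖q‖ ^ 2 +
          ‖cuspFunction h f 0‖ * Real.log ‖q‖ ^ 2 := by
          refine add_le_add h7 (le_mul_of_one_le_right (norm_nonneg _) h8)
      _ = _ := by
          rw [Real.norm_of_nonneg (sq_nonneg _)]; ring
  have hlim := Complex.tendsto_limUnder_of_differentiable_on_punctured_nhds_of_isLittleO hd ho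
  have hq : Tendsto (fun τ : ℍ ↦ Function.Periodic.qParam h τ) atImInfty (𝓝[≠] 0) :=
    (Function.Periodic.qParam_tendsto hh).comp tendsto_coe_atImInfty
  have h9 := hlim.comp hq
  have h10 : (cuspFunction h f ∘ fun τ : ℍ ↦ Function.Periodic.qParam h τ) = f := by
    funext τ
    exact eq_cuspFunction τ hh.ne' hper
  rw [h10] at h9
  exact h9.isBigO_one ℝ

section

variable {l : ℕ} [hl : Fact l.Prime] {a : Fin 2 → ℤ}

theorem e1_shift_nat (h5 : 5 ≤ l) (ha : NotDiv l a) (i j : ℕ) :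
    e1 l (a + (l : ℤ) • ![(i : ℤ), (j : ℤ)]) = e1 l a := by
  have key : ∀ m : Fin 2 → ℤ, NotDiv l (a + (l : ℤ) • m) := fun m =>
    notDiv_congr (fun i => by
      rw [Pi.add_apply, Pi.smul_apply, smul_eq_mul]
      exact ⟨-(m i), by ring⟩) ha
  have hi : ∀ i : ℕ, e1 l (a + (l : ℤ) • ![(i : ℤ), 0]) = e1 l a := by
    intro i
    induction i with
    | zero => congr 1; funext k; fin_cases k <;> simp
    | succ i ih =>
      refine Eq.trans ?_ ((e1_shift_zero h5 (key ![(i : ℤ), 0])).trans ih)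
      congr 1
      funext k
      fin_cases k
      · simp [Matrix.vecHead]; ring
      · simp [Matrix.vecHead, Matrix.vecTail]
  induction j with
  | zero => exact hi i
  | succ j ih =>
    refine Eq.trans ?_ ((e1_shift_one h5 (key ![(i : ℤ), (j : ℤ)])).trans ih)
    congr 1
    funext k
    fin_cases k
    · simp [Matrix.vecHead]
    · simp [Matrix.vecHead, Matrix.vecTail]; ring

theorem e1_congr (h5 : 5 ≤ l) {a b : Fin 2 → ℤ} (ha : NotDiv l a)
    (h : ∀ i, (l : ℤ) ∣ a i - b i) : e1 l a = e1 l b := by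
  have hb : NotDiv l b := notDiv_congr h ha
  choose c hc using h
  have h1 := e1_shift_nat h5 ha ((-(c 0)).toNat) ((-(c 1)).toNat)
  have h2 := e1_shift_nat h5 hb ((c 0).toNat) ((c 1).toNat)
  rw [← h1, ← h2]
  congr 1
  have e : ∀ x : ℤ, (((-x).toNat : ℕ) : ℤ) - ((x.toNat : ℕ) : ℤ) = -x := by intro x; omega
  funext k
  have e0 := e (c 0)
  have e1 := e (c 1)
  fin_cases k
  · have h3 := hc 0
    simp only [Pi.add_apply, Pi.smul_apply, smul_eq_mul]
    show a 0 + (l : ℤ) * (((-(c 0)).toNat : ℕ) : ℤ) = b 0 + (l : ℤ) * (((c 0).toNat : ℕ) : ℤ)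
    linear_combination h3 + (l : ℤ) * e0
  · have h3 := hc 1
    simp only [Pi.add_apply, Pi.smul_apply, smul_eq_mul]
    show a 1 + (l : ℤ) * (((-(c 1)).toNat : ℕ) : ℤ) = b 1 + (l : ℤ) * (((c 1).toNat : ℕ) : ℤ)
    linear_combination h3 + (l : ℤ) * e1

theorem e1_bounded (h5 : 5 ≤ l) (ha : NotDiv l a) : IsBoundedAtImInfty (e1 l a) := by
  have hl0 : (0 : ℝ) < l := by exact_mod_cast hl.1.pos
  have hper : Function.Periodic (e1 l a ∘ ofComplex) (l : ℝ) := by
    refine periodic_of_slash_T_pow (k := 1) (M := l) ?_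
    rw [e1_slash]
    refine e1_congr h5 (ha.mulr _) fun i => ?_
    have h3 := ModularGroup.coe_T_zpow (l : ℤ)
    rw [zpow_natCast] at h3
    fin_cases i
    · simp [vmul, h3, Matrix.vecMul, dotProduct, Fin.sum_univ_two]
    · simp [vmul, h3, Matrix.vecMul, dotProduct, Fin.sum_univ_two]
  refine bounded_of_growth (h := l) hl0 hper (e1_mdifferentiable h5 ha)
    (C := 2 * (|(a 0 : ℝ)| * (l + 1) + |(a 1 : ℝ)|) ^ 2 *
      (r ⟨⟨l, 1⟩, zero_lt_one⟩)⁻¹ ^ 3 * ∑' m, maj l a m) fun τ hre him => ?_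
  refine (norm_e1_le h5 ha τ).trans ?_
  have h0 : 0 ≤ ∑' m, maj l a m := tsum_nonneg maj_nonneg
  have h1 : r ⟨⟨l, 1⟩, zero_lt_one⟩ ≤ r τ :=
    r_lower_bound_on_verticalStrip τ zero_lt_one ⟨hre, him⟩
  have h2 := r_pos ⟨⟨l, 1⟩, zero_lt_one⟩
  have h3 := inv_anti₀ h2 h1
  have h4 : 0 ≤ (r τ)⁻¹ := inv_nonneg.2 (r_pos τ).le
  have h5' : ‖linf a τ‖ ≤ (|(a 0 : ℝ)| * (l + 1) + |(a 1 : ℝ)|) * τ.im := by
    have h6 : ‖(τ : ℂ)‖ ≤ (l + 1) * τ.im := by
      refine (Complex.norm_le_abs_re_add_abs_im _).trans ?_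
      rw [UpperHalfPlane.coe_re, UpperHalfPlane.coe_im, abs_of_pos τ.im_pos]
      nlinarith
    rw [linf]
    refine (norm_add_le _ _).trans ?_
    rw [norm_mul, Complex.norm_intCast, Complex.norm_intCast]
    have h7 : |(a 1 : ℝ)| ≤ |(a 1 : ℝ)| * τ.im := le_mul_of_one_le_right (abs_nonneg _) him
    have h8 := mul_le_mul_of_nonneg_left h6 (abs_nonneg (a 0 : ℝ))
    linarith
  calc 2 * ‖linf a τ‖ ^ 2 * (r τ)⁻¹ ^ 3 * ∑' m, maj l a m
      ≤ 2 * ((|(a 0 : ℝ)| * (l + 1) + |(a 1 : ℝ)|) * τ.im) ^ 2 *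
        (r ⟨⟨l, 1⟩, zero_lt_one⟩)⁻¹ ^ 3 * ∑' m, maj l a m := by gcongr
    _ = _ := by ring

end

end Fermat.Agent.DS
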