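import Fermat.Agent.DS.Eis1

/-!
# Weight one Eisenstein series: existence of `Eis1Data`
-/

set_option autoImplicit false

noncomputable section

namespace Fermat.Agent.DS

open UpperHalfPlane

theorem exists_eis1Data (l : ℕ) [hl : Fact l.Prime] (h5 : 5 ≤ l) :
    ∃ E : ZMod l → ℍ → ℂ, Eis1Data l E := exists_eis1 l h5

end Fermat.Agent.DS
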