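import Fermat.Agent.Top.Eis
import Fermat.Agent.IntStr.Cusp

/-!
# Eisenstein series on `Γ₁(N)` with rational `q`-expansions
-/

set_option autoImplicit false

noncomputable section

namespace Fermat.Agent.DS

open UpperHalfPlane EisensteinSeries ModularForm Filter Topology Fermat.Agent.Support
  CongruenceSubgroup Fermat.Agent.IntStr
open scoped MatrixGroups Manifold Real

/-- The double sum as a power series -/
theorem hasSum_double {ψ : ℕ → ℂ} {C : ℝ} (hψ : ∀ n, ‖ψ n‖ ≤ C) (k : ℕ) {r : ℂ} (hr : ‖r‖ < 1) :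
    HasSum (fun m : ℕ ↦ (∑ x ∈ m.divisorsAntidiagonal, ψ x.1 * (x.2 : ℂ) ^ k) * r ^ m)
      (∑' c : ℕ+, ∑' n : ℕ+, ψ c * ((n : ℂ) ^ k * r ^ (c * n : ℕ))) := by
  have hs : Summable fun c : ℕ+ × ℕ+ ↦ ψ c.1 * ((c.2 : ℂ) ^ k * r ^ (c.1 * c.2 : ℕ)) := by
    have h1 := (summable_prod_mul_pow (𝕜 := ℂ) k hr).norm.mul_left C
    refine Summable.of_norm_bounded h1 fun c ↦ ?_
    rw [norm_mul]
    exact mul_le_mul_of_nonneg_right (hψ _) (norm_nonneg _)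
  have h2 : HasSum (fun c : ℕ+ × ℕ+ ↦ ψ c.1 * ((c.2 : ℂ) ^ k * r ^ (c.1 * c.2 : ℕ)))
      (∑' c : ℕ+, ∑' n : ℕ+, ψ c * ((n : ℂ) ^ k * r ^ (c * n : ℕ))) := by
    have h3 := hs.hasSum
    rwa [hs.tsum_prod] at h3
  rw [← sigmaAntidiagonalEquivProd.hasSum_iff] at h2
  have h4 : ∀ n : ℕ+, HasSum (fun x : Nat.divisorsAntidiagonal n ↦
      ((fun c : ℕ+ × ℕ+ ↦ ψ c.1 * ((c.2 : ℂ) ^ k * r ^ (c.1 * c.2 : ℕ))) ∘
        sigmaAntidiagonalEquivProd) ⟨n, x⟩)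
      ((∑ x ∈ (n : ℕ).divisorsAntidiagonal, ψ x.1 * (x.2 : ℂ) ^ k) * r ^ (n : ℕ)) := by
    intro n
    have h5 : ∀ x : Nat.divisorsAntidiagonal n,
        ((fun c : ℕ+ × ℕ+ ↦ ψ c.1 * ((c.2 : ℂ) ^ k * r ^ (c.1 * c.2 : ℕ))) ∘
        sigmaAntidiagonalEquivProd) ⟨n, x⟩ = ψ x.1.1 * (x.1.2 : ℂ) ^ k * r ^ (n : ℕ) := by
      intro x
      have h6 := (Nat.mem_divisorsAntidiagonal.mp x.2).1
      simp only [Function.comp_apply, sigmaAntidiagonalEquivProd, Equiv.coe_fn_mk,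
        divisorsAntidiagonalFactors, PNat.mk_coe]
      rw [h6]
      ring
    simp_rw [h5]
    rw [Finset.sum_mul, ← Finset.sum_attach]
    exact hasSum_fintype _
  have h6 := h2.sigma h4
  have h7 : HasSum ((fun m : ℕ ↦ (∑ x ∈ m.divisorsAntidiagonal, ψ x.1 * (x.2 : ℂ) ^ k) * r ^ m) ∘
      ((↑) : ℕ+ → ℕ)) (∑' c : ℕ+, ∑' n : ℕ+, ψ c * ((n : ℂ) ^ k * r ^ (c * n : ℕ))) := h6
  rwa [PNat.coe_injective.hasSum_iff] at h7
  intro m hm
  have hm0 : m = 0 := by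
    by_contra h0
    exact hm ⟨⟨m, Nat.pos_of_ne_zero h0⟩, rfl⟩
  subst hm0
  simp

/-- Eisenstein series attached to a function of the first coordinate. -/
def GE (N : ℕ) (k : ℕ) (φ : ZMod N → ℂ) : ℍ → ℂ := wEis k fun v ↦ φ (v 0 : ZMod N)

variable {N : ℕ} [NeZero N] {k : ℕ} {φ : ZMod N → ℂ}

theorem exists_bound_phi (φ : ZMod N → ℂ) :
    ∃ C : ℝ, 0 ≤ C ∧ (∀ x, ‖φ x‖ ≤ C) := by
  refine ⟨∑ x, ‖φ x‖, Finset.sum_nonneg fun _ _ ↦ norm_nonneg _, fun x ↦ ?_⟩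
  exact Finset.single_le_sum (f := fun x ↦ ‖φ x‖) (fun _ _ ↦ norm_nonneg _) (Finset.mem_univ x)

/-- the Fourier coefficients -/
def GEcoeff (N : ℕ) (k : ℕ) (φ : ZMod N → ℂ) (m : ℕ) : ℂ :=
  ∑ x ∈ m.divisorsAntidiagonal, (φ (x.1 : ZMod N) + (-1) ^ k * φ (-(x.1 : ZMod N))) *
    (x.2 : ℂ) ^ (k - 1)

theorem GE_hasSum (hk : 3 ≤ k) (hφ : φ 0 = 0) (τ : ℍ) :
    HasSum (fun m : ℕ ↦ (((-2 * π * Complex.I) ^ k / (k - 1).factorial) * GEcoeff N k φ m) •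
      Function.Periodic.qParam 1 (τ : ℂ) ^ m) (GE N k φ τ) := by
  obtain ⟨C, hC0, hC⟩ := exists_bound_phi φ
  have hs := summable_wEis (k := k) (w := fun v : Fin 2 → ℤ ↦ φ (v 0 : ZMod N)) (C := C)
    (by exact_mod_cast hk) (fun v ↦ hC _) τ
  have hs' : Summable fun x : ℤ × ℤ ↦ φ (x.1 : ZMod N) * eisSummand k ![x.1, x.2] τ := by
    refine (finTwoArrowEquiv ℤ).summable_iff.mp <| hs.congr (fun v ↦ ?_)
    simp [show ![v 0, v 1] = v from List.ofFn_inj.mp rfl]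
  have h1 : GE N k φ τ = ∑' c : ℤ, ∑' d : ℤ, φ (c : ZMod N) * eisSummand k ![c, d] τ := by
    rw [GE, wEis, ← (finTwoArrowEquiv ℤ).symm.tsum_eq, finTwoArrowEquiv_symm_apply,
      ← hs'.tsum_prod]
    rfl
  have H (b : ℕ+) := qExpansion_identity_pnat (k := k - 1) (by omega)
    ⟨b * τ, by simpa using τ.2⟩
  simp_rw [show k - 1 + 1 = k by omega] at H
  have hq : ‖Function.Periodic.qParam 1 (τ : ℂ)‖ < 1 := by
    rw [Function.Periodic.norm_qParam]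
    simp only [div_one]
    rw [Real.exp_lt_one_iff]
    have := τ.im_pos
    have hπ := Real.pi_pos
    rw [UpperHalfPlane.coe_im]
    nlinarith [mul_pos hπ this]
  have hrow : ∀ c : ℤ, ∑' d : ℤ, φ (c : ZMod N) * eisSummand k ![c, d] τ =
      φ (c : ZMod N) * ∑' d : ℤ, 1 / ((c : ℂ) * τ + d) ^ k := by
    intro c
    rw [← tsum_mul_left]
    refine tsum_congr fun d ↦ ?_
    congr 1
    rw [eisSummand]
    simp [zpow_neg]
  have hneg : ∀ c : ℤ, ∑' d : ℤ, 1 / (((-c : ℤ) : ℂ) * τ + d) ^ k =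
      (-1) ^ k * ∑' d : ℤ, 1 / ((c : ℂ) * τ + d) ^ k := by
    intro c
    rw [← tsum_mul_left, ← tsum_comp_neg]
    refine tsum_congr fun d ↦ ?_
    have : (((-c : ℤ) : ℂ) * τ + ((-d : ℤ) : ℂ)) = (-1) * ((c : ℂ) * τ + d) := by
      push_cast; ring
    rw [this, mul_pow]
    have h2 : ((-1 : ℂ) ^ k) * ((-1 : ℂ) ^ k) = 1 := by
      rw [← mul_pow]; norm_num
    have h3 : ((-1 : ℂ) ^ k) ≠ 0 := pow_ne_zero _ (by norm_num)
    rw [one_div, mul_inv, one_div]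
    congr 1
    exact inv_eq_of_mul_eq_one_left h2
  have h2 : GE N k φ τ = ∑' c : ℕ+, (φ (c : ZMod N) + (-1) ^ k * φ (-(c : ZMod N))) *
      ∑' d : ℤ, 1 / ((c : ℂ) * τ + d) ^ k := by
    rw [h1, tsum_int_eq_zero_add_tsum_pnat hs'.prod]
    · have e0 : ∑' d : ℤ, φ ((0 : ℤ) : ZMod N) * eisSummand k ![0, d] τ = 0 := by
        simp [hφ]
      rw [e0, zero_add, ← Summable.tsum_add]
      · refine tsum_congr fun c ↦ ?_
        rw [hrow, hrow, hneg]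
        push_cast
        ring
      · exact (hs'.prod.comp_injective
          (fun a b h ↦ PNat.coe_injective
            (by exact_mod_cast (show ((a : ℕ) : ℤ) = ((b : ℕ) : ℤ) from h)) :
            Function.Injective fun c : ℕ+ ↦ ((c : ℕ) : ℤ)))
      · exact (hs'.prod.comp_injective
          (fun a b h ↦ PNat.coe_injective (by
            have : ((a : ℕ) : ℤ) = ((b : ℕ) : ℤ) := neg_injective h
            exact_mod_cast this) :
            Function.Injective fun c : ℕ+ ↦ (-((c : ℕ) : ℤ))))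
  have h3 : GE N k φ τ = ((-2 * π * Complex.I) ^ k / (k - 1).factorial) * ∑' c : ℕ+, ∑' n : ℕ+,
      (φ (c : ZMod N) + (-1) ^ k * φ (-(c : ZMod N))) *
      ((n : ℂ) ^ (k - 1) * Function.Periodic.qParam 1 (τ : ℂ) ^ (c * n : ℕ)) := by
    rw [h2, ← tsum_mul_left]
    refine tsum_congr fun c ↦ ?_
    have h4 := H c
    rw [h4, tsum_mul_left, ← mul_assoc, mul_comm (φ _ + _), mul_assoc]
    congr 2
    refine tsum_congr fun n ↦ ?_
    congr 1
    rw [Function.Periodic.qParam, ← Complex.exp_nat_mul, ← Complex.exp_nat_mul]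
    congr 1
    push_cast
    field_simp
  rw [h3]
  have h4 := (hasSum_double (ψ := fun c : ℕ ↦ φ (c : ZMod N) + (-1) ^ k * φ (-(c : ZMod N)))
    (C := 2 * C) (fun n ↦ by
      refine (norm_add_le _ _).trans ?_
      rw [norm_mul, norm_pow, norm_neg, norm_one, one_pow, one_mul]
      linarith [hC (n : ZMod N), hC (-(n : ZMod N))]) (k - 1) hq).mul_left
    ((-2 * π * Complex.I) ^ k / (k - 1).factorial)
  have e : (fun m : ℕ ↦ (((-2 * π * Complex.I) ^ k / (k - 1).factorial) * GEcoeff N k φ m) •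
      Function.Periodic.qParam 1 (τ : ℂ) ^ m) = fun m : ℕ ↦
      ((-2 * π * Complex.I) ^ k / (k - 1).factorial) *
        ((∑ x ∈ m.divisorsAntidiagonal, (φ (x.1 : ZMod N) + (-1) ^ k * φ (-(x.1 : ZMod N))) *
          (x.2 : ℂ) ^ (k - 1)) * Function.Periodic.qParam 1 (τ : ℂ) ^ m) := by
    funext m
    rw [smul_eq_mul, GEcoeff, mul_assoc]
  rw [e]
  exact h4

end Fermat.Agent.DS
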