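import Fermat.Agent.DS.HeckeBound

/-!
# Multiplicativity of Hecke eigen-sequences
-/

set_option autoImplicit false

open Finset ModularFormClass

namespace Fermat.Agent.DS

/-- A normalised Hecke eigen-sequence away from `N`. -/
structure HeckeSeq (N : ℕ) (e b : ℕ → ℂ) : Prop where
  one : b 1 = 1
  rel : ∀ p : ℕ, p.Prime → ¬ p ∣ N → ∀ n : ℕ,
    b (p * n) + e p * (if p ∣ n then b (n / p) else 0) = b p * b n

namespace HeckeSeq

variable {N : ℕ} {e b : ℕ → ℂ} (h : HeckeSeq N e b)

include h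

theorem mul_of_not_dvd {p n : ℕ} (hp : p.Prime) (hpN : ¬ p ∣ N) (hpn : ¬ p ∣ n) :
    b (p * n) = b p * b n := by
  have := h.rel p hp hpN n
  rwa [if_neg hpn, mul_zero, add_zero] at this

theorem mul_of_dvd {p : ℕ} (hp : p.Prime) (hpN : ¬ p ∣ N) (n : ℕ) :
    b (p * (p * n)) = b p * b (p * n) - e p * b n := by
  have := h.rel p hp hpN (p * n)
  rw [if_pos (dvd_mul_right p n), Nat.mul_div_cancel_left n hp.pos] at this
  linear_combination this

theorem recur (p : ℕ) (hp : p.Prime) (hpN : ¬ p ∣ N) (r : ℕ) :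
    b (p ^ (r + 2)) = b p * b (p ^ (r + 1)) - e p * b (p ^ r) := by
  have := h.mul_of_dvd hp hpN (p ^ r)
  rw [pow_succ' p (r + 1), pow_succ' p r]
  exact this

/-- relation between the coefficients at `p ^ r * n` -/
theorem prime_pow_mul {p : ℕ} (hp : p.Prime) (hpN : ¬ p ∣ N) {n : ℕ} (hpn : ¬ p ∣ n) (r : ℕ) :
    b (p ^ r * n) = b (p ^ r) * b n := by
  induction r using Nat.twoStepInduction with
  | zero => rw [pow_zero, one_mul, h.one, one_mul]
  | one => rw [pow_one]; exact h.mul_of_not_dvd hp hpN hpn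
  | more r h1 h2 =>
    have h3 := h.mul_of_dvd hp hpN (p ^ r * n)
    rw [h.recur p hp hpN r]
    have e1 : p ^ (r + 2) * n = p * (p * (p ^ r * n)) := by ring
    have e2 : p * (p ^ r * n) = p ^ (r + 1) * n := by ring
    rw [e1, h3, e2, h1, h2]
    ring

/-- multiplicativity, `m` prime to `N` and to `n` -/
theorem mul {m n : ℕ} (hmn : m.Coprime n) (hmN : m.Coprime N) : b (m * n) = b m * b n := by
  induction m using Nat.recOnPrimeCoprime generalizing n with
  | zero =>
    have hn : n = 1 := by simpa using hmn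
    subst hn
    rw [mul_one, h.one, mul_one]
  | prime_pow p r hp =>
    rcases Nat.eq_zero_or_pos r with rfl | hr
    · rw [pow_zero, one_mul, h.one, one_mul]
    · have hpN : ¬ p ∣ N := (Nat.Prime.coprime_iff_not_dvd hp).mp
        (Nat.Coprime.coprime_dvd_left (dvd_pow_self p hr.ne') hmN)
      have hpn : ¬ p ∣ n := (Nat.Prime.coprime_iff_not_dvd hp).mp
        (Nat.Coprime.coprime_dvd_left (dvd_pow_self p hr.ne') hmn)
      exact h.prime_pow_mul hp hpN hpn r
  | coprime u v hu hv huv ihu ihv =>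
    rw [Nat.coprime_mul_iff_left] at hmn hmN
    rw [mul_assoc, ihu (Nat.Coprime.mul_right huv hmn.1) hmN.1, ihv hmn.2 hmN.2,
      ihu huv hmN.1, mul_assoc]

end HeckeSeq

/-- The coefficients of a weight one eigenform satisfy the Rankin bound. -/
theorem rankinSeq_of_form {N : ℕ} [NeZero N] (ε : DirichletCharacter ℂ N)
    (f : CuspForm (CongruenceSubgroup.Gamma1 N) 1)
    (h : HeckeSeq N (fun p ↦ ε (p : ZMod N)) (qCoeff f)) :
    RankinSeq N (fun p ↦ ε (p : ZMod N)) (qCoeff f) where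
  one := h.one
  mul m n hmn hmN _ := h.mul hmn hmN
  recur p hp hpN r := h.recur p hp hpN r
  norm_eps p hp hpN := by
    have h1 : IsUnit ((p : ℕ) : ZMod N) :=
      (ZMod.isUnit_iff_coprime p N).mpr ((Nat.Prime.coprime_iff_not_dvd hp).mpr hpN)
    obtain ⟨u, hu⟩ := h1
    have h2 : (ε (p : ZMod N)) ^ (Nat.totient N) = 1 := by
      rw [← map_pow, ← hu, ← Units.val_pow_eq_pow_val, ZMod.pow_totient, Units.val_one, map_one]
    exact Complex.norm_eq_one_of_pow_eq_one h2 (Nat.totient_pos.mpr (NeZero.pos N)).ne'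
  sum_le := sum_norm_sq_qCoeff_le (one_mem_strictPeriods_Gamma1 N) f

end Fermat.Agent.DS
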