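import Fermat.Agent.DS.OpsG1
import Fermat.Agent.DS.HeckeSeq
import Fermat.Agent.DS.Density
import Fermat.Agent.DS.ArtinMain

/-!
# Weight one eigenforms: nebentypus, integrality, conjugates
-/

set_option autoImplicit false
set_option linter.style.haveILetI false
set_option linter.unusedSectionVars false

noncomputable section

namespace Fermat.Agent.DS

open UpperHalfPlane ModularForm Filter Topology CongruenceSubgroup Fermat.Agent.IntStr
open Fermat.Agent.Newform Matrix.SpecialLinearGroup ModularFormClass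
open scoped MatrixGroups Manifold Real NumberField

local notation "ℤbar" => integralClosure ℤ ℂ

variable {N : ℕ} [NeZero N]

/-- Hecke eigenform relation (abstract form) -/
structure EigOne (N : ℕ) [NeZero N] (e : DirichletCharacter ℂ N) (f : ℍ → ℂ) : Prop where
  cf : IsCF (Gamma1 N) 1 f
  one : co f 1 = 1
  rel : ∀ p : ℕ, p.Prime → ¬ p ∣ N → ∀ n : ℕ,
    co f (p * n) + e (p : ZMod N) * (if p ∣ n then co f (n / p) else 0) = co f p * co f n

namespace EigOne

variable {e : DirichletCharacter ℂ N} {f : ℍ → ℂ} (h : EigOne N e f)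

include h

theorem ne_zero : f ≠ 0 := by
  rintro rfl
  have := h.one
  rw [co, UpperHalfPlane.qExpansion_zero, map_zero] at this
  exact zero_ne_one this

theorem heckeSeq : HeckeSeq N (fun p ↦ e (p : ZMod N)) (co f) := ⟨h.one, h.rel⟩

theorem dia_up {p : ℕ} (hp : p.Prime) (hpN : ¬ p ∣ N) :
    dia 1 (up hp hpN) f = e (p : ZMod N) • f := by
  set F : ℍ → ℂ := dia 1 (up hp hpN) f - e (p : ZMod N) • f with hF
  have hd : IsCF (Gamma1 N) 1 (dia 1 (up hp hpN) f) := IsCF.dia h.cf _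
  have hFmf : IsMF (Gamma1 N) 1 F :=
    (MF (Gamma1 N) 1).sub_mem hd.toIsMF (h.cf.toIsMF.smul _)
  have hH : IsCF (Gamma1 N) 1 (heckeOp 1 hp hpN f - co f p • f) :=
    (CF (Gamma1 N) 1).sub_mem (IsCF.heckeOp hp hpN h.cf) ((CF (Gamma1 N) 1).smul_mem _ h.cf)
  have hT1 := T_mem_Gamma1 N
  have hcF : ∀ n, co F n = co (dia 1 (up hp hpN) f) n - e (p : ZMod N) * co f n := by
    intro n
    rw [hF, co, hd.toIsMF.qExpansion_sub (h.cf.toIsMF.smul _) hT1,
      h.cf.toIsMF.qExpansion_smul hT1, map_sub, PowerSeries.coeff_smul]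
    rfl
  have hcH : ∀ n, co (heckeOp 1 hp hpN f - co f p • f) n = vp p (co F) n := by
    intro n
    rw [co, (IsCF.heckeOp hp hpN h.cf).toIsMF.qExpansion_sub (h.cf.toIsMF.smul _) hT1,
      h.cf.toIsMF.qExpansion_smul hT1, map_sub, PowerSeries.coeff_smul]
    change co (heckeOp 1 hp hpN f) n - co f p * co f n = _
    rw [co_heckeOp hp hpN h.cf, sub_self, zpow_zero, one_mul, vp, mul_comm n p]
    have h1 := h.rel p hp hpN n
    split_ifs with hpn
    · rw [if_pos hpn] at h1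
      rw [hcF]
      linear_combination h1
    · rw [if_neg hpn] at h1
      linear_combination h1
  have hVF : Vp p F = heckeOp 1 hp hpN f - co f p • f := by
    funext τ
    have h1 := hasSum_Vp hp.ne_zero (hasSum_of_mf hFmf) τ
    have h2 := hasSum_of_mf hH.toIsMF τ
    have h3 : (fun m ↦ vp p (fun m ↦ (qExpansion 1 F).coeff m) m •
        Function.Periodic.qParam 1 (τ : ℂ) ^ m) = fun m ↦
        (qExpansion 1 (heckeOp 1 hp hpN f - co f p • f)).coeff m •
          Function.Periodic.qParam 1 (τ : ℂ) ^ m := by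
      funext m
      congr 1
      exact (hcH m).symm
    rw [h3] at h1
    exact h1.unique h2
  have h0 := eq_zero_of_Vp one_pos hp hpN hFmf (by rw [hVF]; exact hH.slash)
  exact sub_eq_zero.mp h0

theorem dia_eq_smul (u : (ZMod N)ˣ) : dia 1 u f = e (u : ZMod N) • f := by
  obtain ⟨p, hpN, hp, hpu⟩ := Nat.forall_exists_prime_gt_and_eq_mod u.isUnit N
  have hpN' : ¬ p ∣ N := fun h ↦ absurd (Nat.le_of_dvd (NeZero.pos N) h) (not_le.mpr hpN)
  have h1 : up hp hpN' = u := Units.ext (by rw [val_up, hpu])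
  rw [← h1, h.dia_up, val_up]

theorem slash_eq {γ : SL(2, ℤ)} (hγ : γ ∈ Gamma0 N) :
    f ∣[(1 : ℤ)] γ = e ((γ 1 1 : ℤ) : ZMod N) • f := by
  have h1 : IsUnit ((γ 1 1 : ℤ) : ZMod N) := by
    have hdet := congrArg (Int.cast : ℤ → ZMod N) γ.det_coe
    rw [Matrix.det_fin_two] at hdet
    push_cast at hdet
    rw [Gamma0_mem.mp hγ, mul_zero, sub_zero] at hdet
    exact IsUnit.of_mul_eq_one_right _ hdet
  obtain ⟨u, hu⟩ := h1
  rw [← hu, ← h.dia_eq_smul, dia_eq h.cf.slash u hγ hu.symm]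

theorem odd : e (-1) = -1 := by
  have h1 : (-1 : SL(2, ℤ)) ∈ Gamma0 N := by
    rw [Gamma0_mem]
    simp
  have h2 := h.slash_eq h1
  have h3 : ((((-1 : SL(2, ℤ)) 1 1 : ℤ)) : ZMod N) = -1 := by simp
  rw [h3] at h2
  have h4 : f ∣[(1 : ℤ)] (-1 : SL(2, ℤ)) = -f := by
    funext τ
    rw [slash_apply']
    have h5 : (-1 : SL(2, ℤ)) • τ = τ := by
      rw [ModularGroup.SL_neg_smul, one_smul]
    rw [h5]
    simp
  rw [h4] at h2
  have h5 : (e (-1) + 1) • f = 0 := by
    rw [add_smul, one_smul, ← h2]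
    ring
  rcases smul_eq_zero.mp h5 with h6 | h6
  · linear_combination h6
  · exact absurd h6 h.ne_zero

theorem three_le : 3 ≤ N := by
  by_contra hlt
  have h1 : (N : ℕ) ∣ 2 := by
    have := NeZero.pos N
    interval_cases N <;> norm_num
  have h2 : (-1 : ZMod N) = 1 := by
    have h3 : ((2 : ℕ) : ZMod N) = 0 := (ZMod.natCast_eq_zero_iff 2 N).mpr h1
    push_cast at h3
    linear_combination -h3
  have h4 := h.odd
  rw [h2, map_one] at h4
  norm_num at h4

theorem nice : Nice (Gamma1 N) := nice_Gamma1 h.three_le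

/-- Galois conjugate of an eigenform. -/
theorem conj (σ : ℂ →+* ℂ) : ∃ f' : ℍ → ℂ, EigOne N (e.ringHomComp σ) f' ∧
    ∀ n, co f' n = σ (co f n) := by
  obtain ⟨f', hf', hq⟩ := h.nice.galois_cusp σ h.cf
  have hco : ∀ n, co f' n = σ (co f n) := by
    intro n
    rw [co, hq, PowerSeries.coeff_map]
    rfl
  refine ⟨f', ⟨hf', ?_, ?_⟩, hco⟩
  · rw [hco, h.one, map_one]
  · intro p hp hpN n
    have h1 := congrArg σ (h.rel p hp hpN n)
    rw [map_add, map_mul, map_mul] at h1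
    rw [hco (p * n), hco p, hco n, MulChar.ringHomComp_apply]
    split_ifs with hpn
    · rw [if_pos hpn] at h1
      rw [hco]
      exact h1
    · rw [if_neg hpn, map_zero] at h1
      exact h1

theorem pow_eq_one {p : ℕ} (hp : p.Prime) (hpN : ¬ p ∣ N) :
    e (p : ZMod N) ^ N.totient = 1 := by
  rw [← val_up hp hpN, ← map_pow, ← Units.val_pow_eq_pow_val, ZMod.pow_totient, Units.val_one,
    map_one]

/-- Hecke eigenvalues are algebraic integers. -/
theorem isIntegral {p : ℕ} (hp : p.Prime) (hpN : ¬ p ∣ N) : IsIntegral ℤ (co f p) := by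
  obtain ⟨L, hL, hLn⟩ := h.nice.exists_fg h.cf
  set x := co f p with hx
  set c := e (p : ZMod N) with hc
  set m := N.totient with hm
  have hm0 : 0 < m := Nat.totient_pos.mpr (NeZero.pos N)
  have hcm : c ^ m = 1 := h.pow_eq_one hp hpN
  let L' : Submodule ℤ ℂ := ⨆ i : Fin m, L.map (LinearMap.mulLeft ℤ (c ^ (i : ℕ)))
  have hL' : L'.FG := Submodule.fg_iSup _ fun i ↦ hL.map _
  let P : Submodule ℤ ℂ := Submodule.span ℤ {y | ∃ i r : ℕ, y = c ^ i * co f (p ^ r)}
  have hPL : P ≤ L' := by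
    rw [Submodule.span_le]
    rintro _ ⟨i, r, rfl⟩
    have h1 : c ^ i = c ^ (i % m) := by
      conv_lhs => rw [← Nat.div_add_mod i m, pow_add, pow_mul, hcm, one_pow, one_mul]
    rw [h1]
    exact Submodule.mem_iSup_of_mem (⟨i % m, Nat.mod_lt _ hm0⟩ : Fin m) ⟨_, hLn _, rfl⟩
  have hP : P.FG := by
    haveI : IsNoetherian ℤ L' := isNoetherian_of_fg_of_noetherian L' hL'
    exact (isNoetherian_submodule (N := L')).mp this P hPL
  have hP0 : P ≠ ⊥ := by
    intro h0
    have h1 : (1 : ℂ) ∈ P := Submodule.subset_span ⟨0, 0, by rw [pow_zero, pow_zero, h.one, one_mul]⟩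
    rw [h0, Submodule.mem_bot] at h1
    exact one_ne_zero h1
  refine isIntegral_of_smul_mem_submodule P hP0 hP x ?_
  intro y hy
  induction hy using Submodule.span_induction with
  | mem y hy =>
    obtain ⟨i, r, rfl⟩ := hy
    rcases Nat.eq_zero_or_pos r with rfl | hr
    · rw [pow_zero, h.one, mul_one, smul_eq_mul, mul_comm]
      exact Submodule.subset_span ⟨i, 1, by rw [pow_one]⟩
    · obtain ⟨s, rfl⟩ : ∃ s, r = s + 1 := ⟨r - 1, by omega⟩
      have h1 := h.heckeSeq.recur p hp hpN s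
      have h2 : x • (c ^ i * co f (p ^ (s + 1))) =
          c ^ i * co f (p ^ (s + 2)) + c ^ (i + 1) * co f (p ^ s) := by
        rw [h1, smul_eq_mul]
        ring
      rw [h2]
      exact P.add_mem (Submodule.subset_span ⟨i, _, rfl⟩) (Submodule.subset_span ⟨i + 1, _, rfl⟩)
  | zero => rw [smul_zero]; exact zero_mem _
  | add a b _ _ ha hb => rw [smul_add]; exact add_mem ha hb
  | smul n a _ ha =>
    rw [smul_comm]
    exact P.smul_mem _ ha

/-- The Rankin bound -/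
theorem rankin_bound : ∃ C : ℝ, ∀ s : ℝ, 1 < s → s ≤ 2 → ∀ F : Finset ℕ,
    (∀ p ∈ F, p.Prime ∧ ¬ p ∣ N) →
    ∑ p ∈ F, ‖co f p‖ ^ 2 * (p : ℝ) ^ (-s) ≤ Real.log (1 / (s - 1)) + C := by
  have h1 : RankinSeq N (fun p ↦ e (p : ZMod N)) (qCoeff (h.cf.toCuspForm)) :=
    rankinSeq_of_form e h.cf.toCuspForm h.heckeSeq
  exact h1.prime_sum_le

/-- A number field containing all the Hecke eigenvalues. -/
theorem exists_field : ∃ K : IntermediateField ℚ ℂ, FiniteDimensional ℚ K ∧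
    ∀ p : ℕ, p.Prime → ¬ p ∣ N → co f p ∈ K := by
  obtain ⟨L, hL, hLn⟩ := h.nice.exists_fg h.cf
  let S : Set ℂ := {y | ∃ p : ℕ, p.Prime ∧ ¬ p ∣ N ∧ y = co f p}
  have hfin : (Submodule.span ℚ S).FG := by
    obtain ⟨T, hT⟩ := hL
    have h1 : Submodule.span ℚ S ≤ Submodule.span ℚ (T : Set ℂ) := by
      rw [Submodule.span_le]
      rintro _ ⟨p, -, -, rfl⟩
      have h2 := hLn p
      rw [← hT] at h2
      have h3 : Submodule.span ℤ (T : Set ℂ) ≤
          (Submodule.span ℚ (T : Set ℂ)).restrictScalars ℤ := by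
        rw [Submodule.span_le]
        exact Submodule.subset_span
      exact h3 h2
    haveI : FiniteDimensional ℚ (Submodule.span ℚ (T : Set ℂ)) :=
      FiniteDimensional.span_finset ℚ T
    haveI := Submodule.finiteDimensional_of_le h1
    exact (Submodule.fg_iff_finiteDimensional _).mpr this
  obtain ⟨T, hTS, hT⟩ := Submodule.fg_span_iff_fg_span_finset_subset S |>.mp hfin
  refine ⟨IntermediateField.adjoin ℚ (T : Set ℂ), ?_, ?_⟩
  · haveI : Finite (T : Set ℂ) := T.finite_toSet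
    refine IntermediateField.finiteDimensional_adjoin fun x hx ↦ ?_
    obtain ⟨p, hp, hpN, rfl⟩ := hTS hx
    exact (h.isIntegral hp hpN).tower_top
  · intro p hp hpN
    have h1 : co f p ∈ Submodule.span ℚ S := Submodule.subset_span ⟨p, hp, hpN, rfl⟩
    rw [hT] at h1
    have h2 : Submodule.span ℚ (T : Set ℂ) ≤
        Subalgebra.toSubmodule (IntermediateField.adjoin ℚ (T : Set ℂ)).toSubalgebra := by
      rw [Submodule.span_le]
      exact IntermediateField.subset_adjoin ℚ _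
    exact h2 h1

/-! ### The data for the Artin input -/

omit h in
theorem isIntegral_char (e : DirichletCharacter ℂ N) (x : ZMod N) : IsIntegral ℤ (e x) := by
  by_cases hx : IsUnit x
  · obtain ⟨u, rfl⟩ := hx
    refine IsIntegral.of_pow (Nat.totient_pos.mpr (NeZero.pos N)) ?_
    rw [← map_pow, ← Units.val_pow_eq_pow_val, ZMod.pow_totient, Units.val_one, map_one]
    exact isIntegral_one
  · rw [MulChar.map_nonunit e hx]
    exact isIntegral_zero

omit h in
/-- The character with values in the algebraic integers. -/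
def chi (e : DirichletCharacter ℂ N) : ZMod N →* ℤbar where
  toFun x := ⟨e x, isIntegral_char e x⟩
  map_one' := Subtype.ext (map_one e)
  map_mul' x y := Subtype.ext (map_mul e x y)

omit h in
@[simp] theorem coe_chi (e : DirichletCharacter ℂ N) (x : ZMod N) : (chi e x : ℂ) = e x := rfl

open Classical in
/-- Hecke eigenvalues as algebraic integers. -/
def al (p : ℕ) : ℤbar :=
  if hp : p.Prime ∧ ¬ p ∣ N then ⟨co f p, h.isIntegral hp.1 hp.2⟩ else 0

theorem coe_al {p : ℕ} (hp : p.Prime) (hpN : ¬ p ∣ N) : (h.al p : ℂ) = co f p := by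
  rw [al, dif_pos ⟨hp, hpN⟩]

theorem dens : ∃ (Y : Finset ℤbar) (C : ℝ), ∀ s : ℝ, 1 < s → s ≤ 2 → ∀ F : Finset ℕ,
      (∀ p ∈ F, p.Prime ∧ ¬ p ∣ N ∧ h.al p ∉ Y) →
        ∑ p ∈ F, (p : ℝ) ^ (-s) ≤ (1 / 4) * Real.log (1 / (s - 1)) + C := by
  classical
  obtain ⟨K, hK, hKp⟩ := h.exists_field
  haveI : NumberField K := ⟨⟩
  have hint : ∀ x : K, IsIntegral ℤ (x : ℂ) ↔ IsIntegral ℤ x := fun x ↦
    isIntegral_algebraMap_iff (A := K) (B := ℂ) (algebraMap K ℂ).injective
  have hex : ∀ p : ℕ, ∃ b : 𝓞 K, p.Prime → ¬ p ∣ N → ((algebraMap (𝓞 K) K b : K) : ℂ) = co f p := by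
    intro p
    by_cases hp : p.Prime ∧ ¬ p ∣ N
    · have h1 : IsIntegral ℤ (⟨co f p, hKp p hp.1 hp.2⟩ : K) :=
        (hint _).mp (h.isIntegral hp.1 hp.2)
      obtain ⟨b, hb⟩ := (IsIntegralClosure.isIntegral_iff (A := 𝓞 K)).mp h1
      exact ⟨b, fun _ _ ↦ by rw [hb]⟩
    · exact ⟨0, fun h1 h2 ↦ absurd ⟨h1, h2⟩ hp⟩
  choose β hβ using hex
  have hcard : Cardinal.mk K ≤ Cardinal.aleph0 := by
    rw [Cardinal.mk_le_aleph0_iff]
    have e1 := (Module.finBasis ℚ K).equivFun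
    exact e1.toEquiv.countable_iff.mpr inferInstance
  obtain ⟨Y, C, hY⟩ := density_of_rankin N β (by
    intro σ
    obtain ⟨S, hS⟩ := exists_ringEquiv_of_injective hcard (algebraMap K ℂ) σ
      (algebraMap K ℂ).injective σ.injective
    obtain ⟨f', hf', hco⟩ := h.conj (S : ℂ →+* ℂ)
    obtain ⟨C, hC⟩ := hf'.rankin_bound
    refine ⟨C, fun s hs1 hs2 F hF ↦ ?_⟩
    refine le_trans (le_of_eq (Finset.sum_congr rfl fun p hp ↦ ?_)) (hC s hs1 hs2 F hF)
    rw [hco, ← hβ p (hF p hp).1 (hF p hp).2]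
    have := hS (β p)
    change S ((β p : K) : ℂ) = _ at this
    change _ = ‖S ((β p : K) : ℂ)‖ ^ 2 * _
    rw [this])
  refine ⟨Y.image fun y : 𝓞 K ↦ (⟨((algebraMap (𝓞 K) K y : K) : ℂ),
    (hint _).mpr (NumberField.RingOfIntegers.isIntegral_coe y)⟩ : ℤbar), C, fun s hs1 hs2 F hF ↦
    hY s hs1 hs2 F fun p hp ↦ ?_⟩
  obtain ⟨h1, h2, h3⟩ := hF p hp
  refine ⟨h1, h2, fun h4 ↦ h3 ?_⟩
  rw [Finset.mem_image]
  refine ⟨β p, h4, Subtype.ext ?_⟩
  rw [h.coe_al h1 h2]
  exact hβ p h1 h2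

theorem rankin : ∃ C : ℝ, ∀ s : ℝ, 1 < s → s ≤ 2 → ∀ F : Finset ℕ,
    (∀ p ∈ F, p.Prime ∧ ¬ p ∣ N) →
      ∑ p ∈ F, ‖(h.al p : ℂ)‖ ^ 2 * (p : ℝ) ^ (-s) ≤ Real.log (1 / (s - 1)) + C := by
  obtain ⟨C, hC⟩ := h.rankin_bound
  refine ⟨C, fun s hs1 hs2 F hF ↦ le_trans (le_of_eq (Finset.sum_congr rfl fun p hp ↦ ?_))
    (hC s hs1 hs2 F hF)⟩
  rw [h.coe_al (hF p hp).1 (hF p hp).2]

theorem chi_odd : chi e (-1) = -1 := Subtype.ext h.odd

end EigOne

end Fermat.Agent.DS
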