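import Fermat.Agent.DS.Theta
import Fermat.Agent.DS.WtOne

/-!
# From weight one to weight two modulo `ℓ`
-/

set_option autoImplicit false
set_option linter.style.haveILetI false
set_option linter.unusedSectionVars false

noncomputable section

namespace Fermat.Agent.DS

open UpperHalfPlane ModularForm Filter Topology CongruenceSubgroup Fermat.Agent.IntStr
open Fermat.Agent.Newform Matrix.SpecialLinearGroup
open scoped MatrixGroups Manifold Real

local notation "ℤbar" => integralClosure ℤ ℂ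

/-- Elements integral over `ℤ` belong to every valuation ring. -/
theorem mem_of_isIntegral_int {K : Type} [Field K] (A : ValuationSubring K) {x : K}
    (hx : IsIntegral ℤ x) : x ∈ A := by
  have h1 : IsIntegral A x := hx.tower_top
  obtain ⟨y, hy⟩ := IsIntegrallyClosed.isIntegral_iff.mp h1
  rw [← hy]
  exact y.2

/-- Scaling a sequence with values in a finitely generated subgroup to make it integral and
primitive. -/
theorem exists_scale {K : Type} [Field K] (O : ValuationSubring K) {a : ℕ → K}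
    (hL : ∃ L : Submodule ℤ K, L.FG ∧ ∀ n, a n ∈ L) (ha : ∃ n, a n ≠ 0) :
    ∃ m, a m ≠ 0 ∧ ∀ n, a n / a m ∈ O := by
  classical
  obtain ⟨L, hL, hLn⟩ := hL
  have hP : (Submodule.span ℤ (Set.range a)).FG := by
    haveI : IsNoetherian ℤ L := isNoetherian_of_fg_of_noetherian L hL
    refine (isNoetherian_submodule (N := L)).mp this _ ?_
    rw [Submodule.span_le]
    rintro _ ⟨n, rfl⟩
    exact hLn n
  obtain ⟨T, hTS, hT⟩ := Submodule.fg_span_iff_fg_span_finset_subset _ |>.mp hP
  have hTne : T.Nonempty := by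
    rw [Finset.nonempty_iff_ne_empty]
    rintro rfl
    obtain ⟨n, hn⟩ := ha
    have h1 : a n ∈ Submodule.span ℤ (Set.range a) := Submodule.subset_span ⟨n, rfl⟩
    rw [hT, Finset.coe_empty, Submodule.span_empty, Submodule.mem_bot] at h1
    exact hn h1
  obtain ⟨x, hx, hmax⟩ := T.exists_max_image (fun y ↦ O.valuation y) hTne
  have hx0 : x ≠ 0 := by
    rintro rfl
    obtain ⟨n, hn⟩ := ha
    have h1 : a n ∈ Submodule.span ℤ (Set.range a) := Submodule.subset_span ⟨n, rfl⟩
    have h2 : ∀ y ∈ T, y = 0 := by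
      intro y hy
      have h3 := hmax y hy
      simp only [map_zero] at h3
      exact (map_eq_zero O.valuation).mp (le_antisymm h3 zero_le)
    have h4 : Submodule.span ℤ (T : Set K) ≤ ⊥ := by
      rw [Submodule.span_le]
      intro y hy
      exact h2 y hy
    rw [hT] at h1
    exact hn (h4 h1)
  obtain ⟨m, rfl⟩ := hTS hx
  refine ⟨m, hx0, fun n ↦ ?_⟩
  have h1 : a n ∈ Submodule.span ℤ (T : Set K) := by
    rw [← hT]
    exact Submodule.subset_span ⟨n, rfl⟩
  have hv0 : O.valuation (a m) ≠ 0 := (map_ne_zero _).mpr hx0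
  generalize a n = y at h1
  induction h1 using Submodule.span_induction with
  | mem y hy =>
    rw [← O.valuation_le_one_iff, map_div₀]
    exact div_le_one_of_le₀ (hmax y hy) zero_le
  | zero => rw [zero_div]; exact O.zero_mem
  | add y z _ _ hy hz => rw [add_div]; exact O.add_mem _ _ hy hz
  | smul c y _ hy =>
    rw [zsmul_eq_mul, mul_div_assoc]
    exact O.mul_mem _ _ (intCast_mem O c) hy

/-- Weight one Eisenstein series congruent to a constant modulo `ℓ`. -/
structure GoodEis {k : Type} [Field k] {O : Subring ℂ} (r : O →+* k) (l : ℕ)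
    (E : ZMod l → ℍ → ℂ) : Prop where
  mf : ∀ d, d ≠ 0 → IsMF (Gamma1 l) 1 (E d)
  slash : ∀ d, d ≠ 0 → ∀ γ ∈ Gamma0 l, E d ∣[(1 : ℤ)] γ = E (d * ((γ 1 1 : ℤ) : ZMod l))
  res : ∀ d : ℤ, (d : ZMod l) ≠ 0 → ∀ n, Res r (co (E d) n) (if n = 0 then (d : k)⁻¹ else 0)

theorem Gamma1_mono {M N : ℕ} (h : M ∣ N) : Gamma1 N ≤ Gamma1 M := by
  intro γ hγ
  rw [Gamma1_mem] at hγ ⊢
  obtain ⟨h1, h2, h3⟩ := hγ
  have key : ∀ x : ℤ, (x : ZMod N) = 1 → (x : ZMod M) = 1 := by
    intro x hx
    have := congrArg (ZMod.castHom h (ZMod M)) hx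
    rwa [map_intCast, map_one] at this
  refine ⟨key _ h1, key _ h2, ?_⟩
  have := congrArg (ZMod.castHom h (ZMod M)) h3
  rwa [map_intCast, map_zero] at this

theorem Gamma0_mono {M N : ℕ} (h : M ∣ N) : Gamma0 N ≤ Gamma0 M := by
  intro γ hγ
  rw [Gamma0_mem] at hγ ⊢
  have := congrArg (ZMod.castHom h (ZMod M)) hγ
  rwa [map_intCast, map_zero] at this

theorem IsMF.slash_bdd {G : Subgroup SL(2, ℤ)} {k : ℤ} {f : ℍ → ℂ} (hf : IsMF G k f) :
    ∀ γ : SL(2, ℤ), IsBoundedAtImInfty (f ∣[k] γ) := hf.bdd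

theorem isCF_mul {G : Subgroup SL(2, ℤ)} {k l : ℤ} {f g : ℍ → ℂ} (hf : IsCF G k f)
    (hg : IsMF G l g) : IsCF G (k + l) (f * g) := by
  refine ⟨hf.toIsMF.mul hg, fun γ ↦ ?_⟩
  rw [mul_slash_SL2]
  exact ZeroAtFilter.mul_boundedAtFilter (hf.zero_cusp γ) (hg.bdd γ)

theorem IsCF.mono' {G G' : Subgroup SL(2, ℤ)} {k : ℤ} {f : ℍ → ℂ} (h : G' ≤ G) (hf : IsCF G k f) :
    IsCF G' k f := ⟨hf.toIsMF.mono h, hf.zero_cusp⟩

theorem co_mul {D : ℕ} {k l : ℤ} {f g : ℍ → ℂ} (hf : IsMF (Gamma1 D) k f)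
    (hg : IsMF (Gamma1 D) l g) (n : ℕ) :
    co (f * g) n = ∑ x ∈ Finset.HasAntidiagonal.antidiagonal n, co f x.1 * co g x.2 := by
  rw [co, hf.qExpansion_mul hg (T_mem_Gamma1 D), PowerSeries.coeff_mul]; rfl

variable {N : ℕ} [NeZero N] {e : DirichletCharacter ℂ N} {f : ℍ → ℂ}

/-- The mod `ℓ` eigensystem of weight two attached to an eigenform of weight one. -/
theorem EigOne.exists_theta (h : EigOne N e f) (O : ValuationSubring ℂ) {k : Type} [Field k]
    (r : O.toSubring →+* k) {l : ℕ} [Fact l.Prime] [CharP k l]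
    {E : ZMod l → ℍ → ℂ} (hE : GoodEis r l E) (φ : ℤbar →+* k)
    (hφ : ∀ x : ℤbar, Res r (x : ℂ) (φ x)) [NeZero (N * l)] :
    ∃ θ : heckeRing (N * l) 2 →+* k,
      (∀ (p : ℕ) (hp : p.Prime), ¬ p ∣ N * l →
        θ (heckeGen (N * l) 2 (Sum.inl ⟨p, hp⟩)) = φ (h.al p)) ∧
      ∀ (p : ℕ) (hp : p.Prime) (hpD : ¬ p ∣ N * l),
        (p : k) * θ (heckeGen (N * l) 2 (Sum.inr (up hp hpD))) = φ (EigOne.chi e p) := by
  have hl := (Fact.out : l.Prime)
  have hN3 := h.three_le
  have hT1 := T_mem_Gamma1 N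
  -- scaled form
  obtain ⟨m, hm, hO⟩ := exists_scale O (a := co f) (h.nice.exists_fg h.cf) ⟨1, by
    rw [h.one]; exact one_ne_zero⟩
  set c : ℂ := (co f m)⁻¹ with hc
  have hcO : ∀ n, c * co f n ∈ O.toSubring := fun n ↦ by
    have := hO n
    rwa [div_eq_inv_mul] at this
  let b : ℕ → k := fun n ↦ r ⟨c * co f n, hcO n⟩
  have hb : ∀ n, Res r (c * co f n) (b n) := fun n ↦ ⟨hcO n, rfl⟩
  -- the product
  have hfD : IsCF (Gamma1 (N * l)) 1 f := IsCF.mono' (Gamma1_mono (dvd_mul_right N l)) h.cf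
  have hfcD : IsCF (Gamma1 (N * l)) 1 (c • f) := (CF _ 1).smul_mem c hfD
  have hED : ∀ d, d ≠ 0 → IsMF (Gamma1 (N * l)) 1 (E d) := fun d hd ↦
    (hE.mf d hd).mono (Gamma1_mono (dvd_mul_left l N))
  have hl1 : (1 : ZMod l) ≠ 0 := one_ne_zero
  have hFcf : IsCF (Gamma1 (N * l)) 2 ((c • f) * E 1) :=
    isCF_mul hfcD (hED 1 hl1)
  -- the two characters
  let πN : (ZMod (N * l))ˣ →* (ZMod N)ˣ := Units.map (ZMod.castHom (dvd_mul_right N l) (ZMod N)).toMonoidHom
  let πl : (ZMod (N * l))ˣ →* (ZMod l)ˣ := Units.map (ZMod.castHom (dvd_mul_left l N) (ZMod l)).toMonoidHom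
  let cl : ZMod l →+* k := ZMod.castHom (dvd_refl l) k
  let ψ : (ZMod (N * l))ˣ →* k :=
    { toFun := fun u ↦ φ (EigOne.chi e (πN u : ZMod N)) * (cl (πl u : ZMod l))⁻¹
      map_one' := by simp
      map_mul' := fun u v ↦ by
        simp only [map_mul, Units.val_mul]
        rw [mul_inv]
        ring }
  -- diamonds on the product
  have hdia : ∀ u : (ZMod (N * l))ˣ, dia 2 u ((c • f) * E 1) =
      (e (πN u : ZMod N) • (c • f)) * E (πl u : ZMod l) := by
    intro u
    have hg := gam_mem u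
    have hg1 := gam_one_one u
    have h1 : ((gam u 1 1 : ℤ) : ZMod N) = (πN u : ZMod N) := by
      have := congrArg (ZMod.castHom (dvd_mul_right N l) (ZMod N)) hg1
      rw [map_intCast] at this
      rw [this]
      rfl
    have h2 : ((gam u 1 1 : ℤ) : ZMod l) = (πl u : ZMod l) := by
      have := congrArg (ZMod.castHom (dvd_mul_left l N) (ZMod l)) hg1
      rw [map_intCast] at this
      rw [this]
      rfl
    change ((c • f) * E 1) ∣[(1 : ℤ) + 1] gam u = _
    rw [mul_slash_SL2, SL_smul_slash, h.slash_eq (Gamma0_mono (dvd_mul_right N l) hg),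
      hE.slash 1 hl1 _ (Gamma0_mono (dvd_mul_left l N) hg), h1, h2, one_mul, smul_comm]
  have hres : ∀ u n, Res r (co (dia 2 u ((c • f) * E 1)) n) (ψ u * b n) := by
    intro u n
    have hu0 : (πl u : ZMod l) ≠ 0 := (πl u).ne_zero
    obtain ⟨d, hd⟩ := ZMod.intCast_surjective (πl u : ZMod l)
    have hd0 : (d : ZMod l) ≠ 0 := by rw [hd]; exact hu0
    rw [hdia, co_mul (hfcD.toIsMF.smul _) (hED _ hu0), ← hd]
    have h1 : Res r (∑ x ∈ Finset.HasAntidiagonal.antidiagonal n,
        co (e (πN u : ZMod N) • (c • f)) x.1 * co (E (d : ZMod l)) x.2)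
        (∑ x ∈ Finset.HasAntidiagonal.antidiagonal n, (φ (EigOne.chi e (πN u : ZMod N)) * b x.1) *
          (if x.2 = 0 then (d : k)⁻¹ else 0)) := by
      refine Res.sum _ _ _ fun x _ ↦ Res.mul ?_ (hE.res d hd0 x.2)
      rw [co_smul hfcD.toIsMF, co_smul hfD.toIsMF]
      exact (hφ (EigOne.chi e (πN u : ZMod N))).mul (hb x.1)
    refine h1.congr ?_
    have h2 : cl (πl u : ZMod l) = (d : k) := by rw [← hd, map_intCast]
    rw [Finset.sum_eq_single (n, 0)]
    · rw [if_pos rfl]
      change _ = φ (EigOne.chi e (πN u : ZMod N)) * (cl (πl u : ZMod l))⁻¹ * b n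
      rw [h2]
      ring
    · rintro ⟨i, j⟩ hij hne
      have : j ≠ 0 := by
        rintro rfl
        apply hne
        rw [Finset.HasAntidiagonal.mem_antidiagonal, add_zero] at hij
        exact Prod.ext hij rfl
      rw [if_neg this, mul_zero]
    · intro hn
      exact absurd (Finset.HasAntidiagonal.mem_antidiagonal.mpr (add_zero n)) hn
  have hb1 : b m = 1 := by
    refine (hb m).unique ?_
    rw [hc, inv_mul_cancel₀ hm]
    exact Res.one
  have hup : ∀ (p : ℕ) (hp : p.Prime) (hpD : ¬ p ∣ N * l),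
      (p : k) * ψ (up hp hpD) = φ (EigOne.chi e p) := by
    intro p hp hpD
    change (p : k) * (φ (EigOne.chi e (πN (up hp hpD) : ZMod N)) *
      (cl (πl (up hp hpD) : ZMod l))⁻¹) = _
    have h1 : (πN (up hp hpD) : ZMod N) = p := by
      change ZMod.castHom (dvd_mul_right N l) (ZMod N) (up hp hpD : ZMod (N * l)) = _
      rw [val_up, map_natCast]
    have h2 : cl (πl (up hp hpD) : ZMod l) = p := by
      change cl (ZMod.castHom (dvd_mul_left l N) (ZMod l) (up hp hpD : ZMod (N * l))) = _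
      rw [val_up, map_natCast, map_natCast]
    have h3 : (p : k) ≠ 0 := by
      intro h0
      rw [CharP.cast_eq_zero_iff k l] at h0
      have : l = p := (Nat.prime_dvd_prime_iff_eq hl hp).mp h0
      exact hpD (this ▸ dvd_mul_left l N)
    rw [h1, h2]
    field_simp
  obtain ⟨θ, hθ1, hθ2⟩ := DS.exists_theta (D := N * l) r ⟨(c • f) * E 1, hFcf⟩ ψ b ⟨m, hb1⟩
    (fun p ↦ φ (h.al p)) hres (by
      intro p hp hpD n
      have hpN : ¬ p ∣ N := fun h ↦ hpD (h.mul_right l)
      have h1 := h.rel p hp hpN n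
      rw [hup p hp hpD]
      have h2 : Res r (c * co f (p * n) + e (p : ZMod N) *
          (if p ∣ n then c * co f (n / p) else 0))
          (b (n * p) + φ (EigOne.chi e p) * (if p ∣ n then b (n / p) else 0)) := by
        refine Res.add ?_ (Res.mul (hφ (EigOne.chi e p)) ?_)
        · rw [mul_comm p n]
          exact hb _
        · split_ifs
          · exact hb _
          · exact Res.zero
      have h3 : Res r (c * co f (p * n) + e (p : ZMod N) *
          (if p ∣ n then c * co f (n / p) else 0)) (φ (h.al p) * b n) := by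
        have h4 : c * co f (p * n) + e (p : ZMod N) * (if p ∣ n then c * co f (n / p) else 0) =
            (h.al p : ℂ) * (c * co f n) := by
          rw [h.coe_al hp hpN]
          have h5 : e (p : ZMod N) * (if p ∣ n then c * co f (n / p) else 0) =
              c * (e (p : ZMod N) * (if p ∣ n then co f (n / p) else 0)) := by
            split_ifs
            · ring
            · ring
          rw [h5, ← mul_add, h1]
          ring
        rw [h4]
        exact (hφ (h.al p)).mul (hb n)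
      exact h2.unique h3)
  refine ⟨θ, hθ1, fun p hp hpD ↦ ?_⟩
  rw [hθ2, hup]

end Fermat.Agent.DS
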