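import Fermat.Agent.DS.EisDefs
import Fermat.Agent.DS.WtTwo

/-!
# Congruence properties of the weight one Eisenstein series
-/

set_option autoImplicit false
set_option linter.style.haveILetI false
set_option linter.unusedSectionVars false

noncomputable section

namespace Fermat.Agent.DS

open UpperHalfPlane ModularForm Filter Topology CongruenceSubgroup Fermat.Agent.IntStr
open scoped MatrixGroups Manifold Real

variable {k : Type} [Field k] {O : ValuationSubring ℂ} {r : O.toSubring →+* k}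

theorem Res.inv (hloc : ∀ x : O.toSubring, r x ≠ 0 → ((x : ℂ))⁻¹ ∈ O) {x : ℂ} {c : k}
    (hx : Res r x c) (hc : c ≠ 0) : Res r x⁻¹ c⁻¹ := by
  obtain ⟨h, rfl⟩ := hx
  have h1 := hloc ⟨x, h⟩ hc
  have hx0 : x ≠ 0 := by
    rintro rfl
    apply hc
    exact map_zero r
  refine ⟨h1, ?_⟩
  have h2 : r ⟨x, h⟩ * r ⟨x⁻¹, h1⟩ = 1 := by
    rw [← map_mul, ← map_one r]
    congr 1
    exact Subtype.ext (mul_inv_cancel₀ hx0)
  exact (eq_inv_of_mul_eq_one_right h2)

theorem Res.ne_zero {x : ℂ} {c : k} (hx : Res r x c) (hc : c ≠ 0) : x ≠ 0 := by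
  rintro rfl
  obtain ⟨h, rfl⟩ := hx
  exact hc (map_zero r)

/-- regularised constant term -/
def EisB (u : ℂ) : ℂ :=
  (u + 1) - 2 * ((u ^ 2 + 1) * (u + 1)⁻¹) + (u ^ 3 + 1) * (u ^ 2 + u + 1)⁻¹

theorem EisA_eq {u : ℂ} (h1 : u - 1 ≠ 0) (h2 : u + 1 ≠ 0) (h3 : u ^ 2 + u + 1 ≠ 0) :
    EisA u = EisB u * (u - 1)⁻¹ := by
  rw [EisA, EisB]
  have e2 : u ^ 2 - 1 = (u - 1) * (u + 1) := by ring
  have e3 : u ^ 3 - 1 = (u - 1) * (u ^ 2 + u + 1) := by ring
  rw [e2, e3]
  field_simp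

theorem res_EisB (hloc : ∀ x : O.toSubring, r x ≠ 0 → ((x : ℂ))⁻¹ ∈ O) (h2 : (2 : k) ≠ 0)
    (h3 : (3 : k) ≠ 0) {u : ℂ} (hu : Res r u 1) : Res r (EisB u) (2 * 3⁻¹) := by
  have a1 : Res r (u + 1) 2 := (hu.add Res.one).congr (by norm_num)
  have a2 : Res r (u ^ 2 + u + 1) 3 := (((hu.pow 2).add hu).add Res.one).congr (by norm_num)
  have b1 := a1.inv hloc h2
  have b2 := a2.inv hloc h3
  have h := (a1.sub ((Res.natCast (r := r) 2).mul (((hu.pow 2).add Res.one).mul b1))).add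
    (((hu.pow 3).add Res.one).mul b2)
  refine (h.congr ?_).congr' ?_
  · push_cast
    field_simp
    ring
  · rw [EisB]
    push_cast
    ring

theorem uu_pow (l : ℕ) (n : ℕ) : uu l n = (uu l 1) ^ n := by
  rw [uu, uu, ← Complex.exp_nat_mul]
  congr 1
  push_cast
  ring

theorem uu_add_mul (l : ℕ) (hl : l ≠ 0) (d m : ℤ) : uu l (d + l * m) = uu l d := by
  rw [uu, uu]
  have hl' : (l : ℂ) ≠ 0 := by exact_mod_cast hl
  have : (2 * π * Complex.I * ((d + l * m : ℤ) : ℂ) / l) = 2 * π * Complex.I * d / l +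
      m * (2 * π * Complex.I) := by
    push_cast
    field_simp
  rw [this, Complex.exp_add, Complex.exp_int_mul_two_pi_mul_I, mul_one]

theorem uu_primitive {l : ℕ} (hl : l ≠ 0) : IsPrimitiveRoot (uu l 1) l := by
  have := Complex.isPrimitiveRoot_exp l hl
  rw [uu]
  push_cast
  rw [mul_one]
  exact this

theorem res_uu {l : ℕ} [Fact l.Prime] [CharP k l] (d : ℤ) : Res r (uu l d) 1 := by
  have hl := (Fact.out : l.Prime)
  have h1 : uu l d ^ l = 1 := by
    rw [uu, ← Complex.exp_nat_mul]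
    have hl' : (l : ℂ) ≠ 0 := by exact_mod_cast hl.ne_zero
    have : (l : ℂ) * (2 * π * Complex.I * d / l) = d * (2 * π * Complex.I) := by
      field_simp
    rw [this, Complex.exp_int_mul_two_pi_mul_I]
  have h2 : IsIntegral ℤ (uu l d) := IsIntegral.of_pow hl.pos (by rw [h1]; exact isIntegral_one)
  have h3 : uu l d ∈ O := mem_of_isIntegral_int O h2
  refine ⟨h3, ?_⟩
  have h4 : r ⟨uu l d, h3⟩ ^ l = 1 := by
    rw [← map_pow, ← map_one r]
    congr 1
    exact Subtype.ext h1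
  have h5 : (r ⟨uu l d, h3⟩ - 1) ^ l = 0 := by
    rw [sub_pow_char, h4, one_pow, sub_self]
  exact sub_eq_zero.mp (pow_eq_zero_iff hl.ne_zero |>.mp h5)

/-- **The Eisenstein series are congruent to constants.** -/
theorem goodEis_of_data {l : ℕ} [Fact l.Prime] [CharP k l] (hl5 : 5 ≤ l)
    (hloc : ∀ x : O.toSubring, r x ≠ 0 → ((x : ℂ))⁻¹ ∈ O) {E : ZMod l → ℍ → ℂ}
    (hE : Eis1Data l E) : GoodEis r l fun d ↦ (EisA (uu l 1))⁻¹ • E d := by
  have hl := (Fact.out : l.Prime)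
  have hcast : ∀ n : ℕ, n < l → n ≠ 0 → (n : k) ≠ 0 := by
    intro n hn hn0 h
    rw [CharP.cast_eq_zero_iff k l] at h
    exact absurd (Nat.le_of_dvd (Nat.pos_of_ne_zero hn0) h) (not_le.mpr hn)
  have h2 : (2 : k) ≠ 0 := by exact_mod_cast hcast 2 (by omega) (by norm_num)
  have h3 : (3 : k) ≠ 0 := by exact_mod_cast hcast 3 (by omega) (by norm_num)
  have hprim := uu_primitive hl.ne_zero
  -- `A` in terms of `B`
  have hA : ∀ d : ℕ, ¬ l ∣ d → EisA (uu l d) = EisB (uu l d) * (uu l d - 1)⁻¹ ∧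
      uu l d - 1 ≠ 0 := by
    intro d hd
    have hr := res_uu (r := r) (l := l) d
    have n1 : uu l d - 1 ≠ 0 := by
      intro h0
      rw [uu_pow, sub_eq_zero, hprim.pow_eq_one_iff_dvd] at h0
      exact hd h0
    have n2 : uu l d + 1 ≠ 0 := (hr.add Res.one).ne_zero (by
      rw [one_add_one_eq_two]; exact h2)
    have n3 : uu l d ^ 2 + uu l d + 1 ≠ 0 := (((hr.pow 2).add hr).add Res.one).ne_zero (by
      rw [one_pow, one_add_one_eq_two]
      have : (2 : k) + 1 = 3 := by norm_num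
      rw [this]
      exact h3)
    exact ⟨EisA_eq n1 n2 n3, n1⟩
  have hl1 : ¬ l ∣ 1 := by
    rw [Nat.dvd_one]
    omega
  obtain ⟨hA1, hne1⟩ := hA 1 hl1
  rw [Nat.cast_one] at hA1 hne1
  have hB := fun d : ℤ ↦ res_EisB hloc h2 h3 (res_uu (r := r) (l := l) d)
  have hBne : (2 * 3⁻¹ : k) ≠ 0 := mul_ne_zero h2 (inv_ne_zero h3)
  have hB1 : EisB (uu l 1) ≠ 0 := (hB 1).ne_zero hBne
  have hAinv : (EisA (uu l 1))⁻¹ = (uu l 1 - 1) * (EisB (uu l 1))⁻¹ := by
    rw [hA1, mul_inv, inv_inv, mul_comm]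
  have hAinvres : Res r (EisA (uu l 1))⁻¹ 0 := by
    rw [hAinv]
    have := ((res_uu (r := r) (l := l) 1).sub Res.one).mul ((hB 1).inv hloc hBne)
    exact this.congr (by rw [sub_self, zero_mul])
  refine ⟨fun d hd ↦ (hE.mf d hd).smul _, fun d hd γ hγ ↦ ?_, fun d hd n ↦ ?_⟩
  · rw [SL_smul_slash, hE.slash d hd γ hγ]
  · have hco : co ((EisA (uu l 1))⁻¹ • E d) n = (EisA (uu l 1))⁻¹ * co (E d) n := by
      haveI : NeZero l := ⟨hl.ne_zero⟩
      exact co_smul (hE.mf d hd) _ n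
    rw [hco]
    split_ifs with hn
    · subst hn
      -- the constant term
      obtain ⟨d', hd', hdd'⟩ : ∃ d' : ℕ, ¬ l ∣ d' ∧ ∃ m : ℤ, d = d' + l * m := by
        have h1 := Int.emod_nonneg d (by exact_mod_cast hl.ne_zero : (l : ℤ) ≠ 0)
        refine ⟨(d % l).toNat, ?_, d / l, ?_⟩
        · intro h4
          apply hd
          rw [ZMod.intCast_zmod_eq_zero_iff_dvd]
          have h5 : (l : ℤ) ∣ d % l := by
            have := Int.natCast_dvd_natCast.mpr h4
            rwa [Int.toNat_of_nonneg h1] at this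
          exact (Int.dvd_iff_dvd_of_dvd_sub (Int.dvd_self_sub_emod)).mpr h5
        · rw [Int.toNat_of_nonneg h1, Int.emod_add_mul_ediv]
      obtain ⟨m, rfl⟩ := hdd'
      rw [hE.co_zero _ hd, uu_add_mul l hl.ne_zero]
      obtain ⟨hAd, hned⟩ := hA d' hd'
      rw [hAd, hAinv]
      -- the geometric sum
      set s : ℂ := ∑ i ∈ Finset.range d', uu l 1 ^ i with hs
      have hsr : Res r s (d' : k) := by
        have := Res.sum (r := r) (Finset.range d') (fun i ↦ uu l 1 ^ i) (fun _ ↦ (1 : k))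
          fun i _ ↦ ((res_uu (r := r) (l := l) 1).pow i).congr (one_pow i)
        exact this.congr (by simp)
      have hd'k : (d' : k) ≠ 0 := by
        intro h0
        rw [CharP.cast_eq_zero_iff k l] at h0
        exact hd' h0
      have hs1 : uu l d' - 1 = s * (uu l 1 - 1) := by
        rw [hs, geom_sum_mul, uu_pow]
      have hs0 : s ≠ 0 := hsr.ne_zero hd'k
      have e1 : (uu l 1 - 1) * (EisB (uu l 1))⁻¹ * (EisB (uu l d') * (uu l d' - 1)⁻¹) =
          (EisB (uu l 1))⁻¹ * EisB (uu l d') * s⁻¹ := by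
        rw [hs1]
        field_simp
      rw [e1]
      refine ((((hB 1).inv hloc hBne).mul (hB d')).mul (hsr.inv hloc hd'k)).congr ?_
      have e2 : (((d' : ℤ) + (l : ℤ) * m : ℤ) : k) = (d' : k) := by
        push_cast
        rw [CharP.cast_eq_zero k l, zero_mul, add_zero]
      rw [e2, inv_mul_cancel₀ hBne, one_mul]
    · rw [hE.co_pos d hd n hn, EisC]
      have hr := res_uu (r := r) (l := l) d
      have hri : Res r (uu l d)⁻¹ 1 := (hr.inv hloc one_ne_zero).congr inv_one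
      have h4 : Res r (2 * ∑ x ∈ n.divisorsAntidiagonal,
          ((((uu l d)⁻¹) ^ x.2 - (uu l d) ^ x.2) -
          2 * (((uu l d)⁻¹) ^ (2 * x.2) - (uu l d) ^ (2 * x.2)) +
          (((uu l d)⁻¹) ^ (3 * x.2) - (uu l d) ^ (3 * x.2))))
          ((2 : ℕ) * ∑ x ∈ n.divisorsAntidiagonal,
          (((1 : k) ^ x.2 - 1 ^ x.2) - (2 : ℕ) * (1 ^ (2 * x.2) - 1 ^ (2 * x.2)) +
          (1 ^ (3 * x.2) - 1 ^ (3 * x.2)))) := by
        refine Res.mul (by simpa using Res.natCast (r := r) 2) (Res.sum _ _ _ fun x _ ↦ ?_)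
        refine Res.add (Res.sub ((hri.pow _).sub (hr.pow _)) (Res.mul ?_ ((hri.pow _).sub
          (hr.pow _)))) ((hri.pow _).sub (hr.pow _))
        simpa using Res.natCast (r := r) 2
      exact (hAinvres.mul h4).congr (zero_mul _)

end Fermat.Agent.DS
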