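import Fermat.Agent.DS.ArtinMain

/-!
# Gluing two mod `ℓ` representations with the same Frobenius data
-/

set_option autoImplicit false
set_option linter.style.haveILetI false

open Finset Module Matrix

namespace Fermat.Agent.DS

local notation "Qbar" => AlgebraicClosure ℚ
local notation "Γℚ" => (AlgebraicClosure ℚ ≃ₐ[ℚ] AlgebraicClosure ℚ)

theorem exists_line {k : Type} [Field k] {U U' : Submodule k (Fin 2 → k)} {v : Fin 2 → k}
    (hv : v ≠ 0) (hU : U = Submodule.span k {v}) (hc : IsCompl U U') :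
    ∃ w : Fin 2 → k, w ≠ 0 ∧ U' = Submodule.span k {w} := by
  have h1 : finrank k U = 1 := by rw [hU]; exact finrank_span_singleton hv
  have h2 : finrank k U + finrank k U' = 2 := by
    rw [Submodule.finrank_add_eq_of_isCompl hc]
    simp
  have h3 : finrank k U' = 1 := by omega
  obtain ⟨w, hw, hw2⟩ := finrank_eq_one_iff'.mp h3
  refine ⟨w, by simpa using hw, le_antisymm ?_ ?_⟩
  · intro x hx
    obtain ⟨c, hc⟩ := hw2 ⟨x, hx⟩
    rw [Submodule.mem_span_singleton]
    exact ⟨c, congrArg Subtype.val hc⟩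
  · rw [Submodule.span_singleton_le_iff_mem]; exact w.2

/-- a semisimple representation is trivial where its trace function is invariant -/
theorem IsSS.eq_one {k : Type} [Field k] [IsAlgClosed k] (h2 : (2 : k) ≠ 0) {G : Type*} [Group G]
    {ρ : G →* Matrix (Fin 2) (Fin 2) k} (h : IsSS ρ) {g₀ : G}
    (hg : ∀ g, (ρ (g * g₀)).trace = (ρ g).trace) : ρ g₀ = 1 := by
  by_cases hnl : NoLine ρ
  · exact hnl.eq_one hg
  rw [NoLine] at hnl
  push Not at hnl
  obtain ⟨v, hv, hev⟩ := hnl
  choose c1 hc1 using hev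
  obtain ⟨U', hU', hcompl⟩ := h (Submodule.span k {v}) (fun g x hx ↦ by
    obtain ⟨b, rfl⟩ := Submodule.mem_span_singleton.mp hx
    rw [mulVec_smul, hc1]
    exact Submodule.smul_mem _ _ (Submodule.smul_mem _ _ (Submodule.mem_span_singleton_self v)))
  obtain ⟨w, hw, rfl⟩ := exists_line hv rfl hcompl
  have hew : ∀ g, ∃ c : k, (ρ g).mulVec w = c • w := by
    intro g
    obtain ⟨c, hc⟩ := Submodule.mem_span_singleton.mp
      (hU' g w (Submodule.mem_span_singleton_self w))
    exact ⟨c, hc.symm⟩
  choose c2 hc2 using hew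
  -- the determinant
  have hdet : v 0 * w 1 - v 1 * w 0 ≠ 0 := by
    intro h0
    have hdis := Submodule.disjoint_def.mp hcompl.disjoint
    -- w is a multiple of v
    have hwv : w ∈ Submodule.span k {v} := by
      rw [Submodule.mem_span_singleton]
      by_cases hv0 : v 0 = 0
      · have hv1 : v 1 ≠ 0 := by
          intro hv1
          apply hv
          ext i
          fin_cases i
          · exact hv0
          · exact hv1
        refine ⟨w 1 / v 1, ?_⟩
        rw [hv0, zero_mul, zero_sub, neg_eq_zero] at h0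
        have hw0 := (mul_eq_zero.mp h0).resolve_left hv1
        ext i
        fin_cases i
        · simp [hv0, hw0]
        · simp [hv1]
      · refine ⟨w 0 / v 0, ?_⟩
        ext i
        fin_cases i
        · simp [hv0]
        · simp only [Fin.mk_one, Pi.smul_apply, smul_eq_mul]
          field_simp
          linear_combination -h0
    exact hw (hdis w hwv (Submodule.mem_span_singleton_self w))
  set P : Matrix (Fin 2) (Fin 2) k := !![v 0, w 0; v 1, w 1] with hP
  have hPdet : P.det ≠ 0 := by
    rw [hP, det_fin_two_of]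
    intro h0
    apply hdet
    linear_combination h0
  have hPu : IsUnit P.det := hPdet.isUnit
  have hPP : P⁻¹ * P = 1 := nonsing_inv_mul P hPu
  have hPP' : P * P⁻¹ = 1 := mul_nonsing_inv P hPu
  have hρP : ∀ g, ρ g * P = P * !![c1 g, 0; 0, c2 g] := by
    intro g
    have e1 := hc1 g
    have e2 := hc2 g
    have a0 := congrFun e1 0
    have a1 := congrFun e1 1
    have b0 := congrFun e2 0
    have b1 := congrFun e2 1
    simp only [mulVec, dotProduct, Fin.sum_univ_two, Pi.smul_apply, smul_eq_mul] at a0 a1 b0 b1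
    ext i j
    fin_cases i <;> fin_cases j
    · simp only [hP, mul_apply, Fin.sum_univ_two, Fin.zero_eta, of_apply, cons_val', cons_val_zero,
        cons_val_fin_one, cons_val_one, mul_zero, add_zero]
      rw [a0, mul_comm]
    · simp only [hP, mul_apply, Fin.sum_univ_two, Fin.zero_eta, Fin.mk_one, of_apply, cons_val',
        cons_val_zero, cons_val_fin_one, cons_val_one, mul_zero, zero_add]
      rw [b0, mul_comm]
    · simp only [hP, mul_apply, Fin.sum_univ_two, Fin.zero_eta, Fin.mk_one, of_apply, cons_val',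
        cons_val_zero, cons_val_fin_one, cons_val_one, mul_zero, add_zero]
      rw [a1, mul_comm]
    · simp only [hP, mul_apply, Fin.sum_univ_two, Fin.mk_one, of_apply, cons_val', cons_val_zero,
        cons_val_fin_one, cons_val_one, mul_zero, zero_add]
      rw [b1, mul_comm]
  have hρ : ∀ g, ρ g = P * !![c1 g, 0; 0, c2 g] * P⁻¹ := by
    intro g
    rw [← hρP, mul_assoc, hPP', mul_one]
  have htr : ∀ g, (ρ g).trace = c1 g + c2 g := by
    intro g
    rw [hρ, trace_mul_comm, ← mul_assoc, hPP, one_mul, trace_fin_two_of]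
  -- multiplicativity
  have key : ∀ g g', c1 (g * g') = c1 g * c1 g' ∧ c2 (g * g') = c2 g * c2 g' := by
    intro g g'
    constructor
    · have h3 : c1 (g * g') • v = (c1 g * c1 g') • v := by
        rw [← hc1, map_mul, ← mulVec_mulVec, hc1, mulVec_smul, hc1, smul_smul, mul_comm]
      exact smul_left_injective k hv h3
    · have h3 : c2 (g * g') • w = (c2 g * c2 g') • w := by
        rw [← hc2, map_mul, ← mulVec_mulVec, hc2, mulVec_smul, hc2, smul_smul, mul_comm]
      exact smul_left_injective k hw h3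
  have hone : c1 1 = 1 ∧ c2 1 = 1 := by
    constructor
    · have h3 : c1 1 • v = (1 : k) • v := by rw [← hc1, map_one, one_mulVec, one_smul]
      exact smul_left_injective k hv h3
    · have h3 : c2 1 • w = (1 : k) • w := by rw [← hc2, map_one, one_mulVec, one_smul]
      exact smul_left_injective k hw h3
  let χ1 : G →* k := { toFun := c1, map_one' := hone.1, map_mul' := fun g g' ↦ (key g g').1 }
  let χ2 : G →* k := { toFun := c2, map_one' := hone.2, map_mul' := fun g g' ↦ (key g g').2 }
  have hrel : ∀ g, (c1 g₀ - 1) * c1 g + (c2 g₀ - 1) * c2 g = 0 := by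
    intro g
    have h3 := hg g
    rw [htr, htr, (key g g₀).1, (key g g₀).2] at h3
    linear_combination h3
  have hc : c1 g₀ = 1 ∧ c2 g₀ = 1 := by
    by_cases heq : χ1 = χ2
    · have h4 : ∀ g, c1 g = c2 g := fun g ↦ DFunLike.congr_fun heq g
      have h5 := hrel 1
      rw [← h4, ← h4, hone.1, mul_one] at h5
      have h6 : (2 : k) * (c1 g₀ - 1) = 0 := by linear_combination h5
      have h7 := sub_eq_zero.mp ((mul_eq_zero.mp h6).resolve_left h2)
      exact ⟨h7, (h4 g₀).symm.trans h7⟩
    · have hli := linearIndependent_monoidHom G k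
      have hpair : LinearIndependent k ![(χ1 : G → k), (χ2 : G → k)] := by
        have h3 := hli.comp ![χ1, χ2] (by
          intro i j hij
          fin_cases i <;> fin_cases j
          · rfl
          · exact absurd hij heq
          · exact absurd hij.symm heq
          · rfl)
        have e : ![(χ1 : G → k), (χ2 : G → k)] = (fun f : G →* k ↦ (f : G → k)) ∘ ![χ1, χ2] := by
          funext i
          fin_cases i <;> rfl
        rw [e]
        exact h3
      rw [LinearIndependent.pair_iff] at hpair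
      have h4 := hpair (c1 g₀ - 1) (c2 g₀ - 1) (by
        ext g
        exact hrel g)
      exact ⟨sub_eq_zero.mp h4.1, sub_eq_zero.mp h4.2⟩
  rw [hρ, hc.1, hc.2, ← one_fin_two, mul_one, hPP']

/-- **Gluing.** -/
theorem IsFrobRep.glue {k : Type} [Field k] [IsAlgClosed k] (h2 : (2 : k) ≠ 0) {B B' C : ℕ}
    (hB : B ≠ 0) (hB' : B' ≠ 0) {t d : ℕ → k} {ρ ρ' : Γℚ →* Matrix (Fin 2) (Fin 2) k}
    (h : IsFrobRep B t d ρ) (h' : IsFrobRep B' t d ρ')
    (hC : ∀ p : ℕ, p.Prime → ¬ p ∣ C → ¬ p ∣ B ∨ ¬ p ∣ B') :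
    ∃ ρ'' : Γℚ →* Matrix (Fin 2) (Fin 2) k, IsFrobRep C t d ρ'' := by
  obtain ⟨ρ₁, h₁, hss⟩ := h.semisimplify
  have heq := fun σ ↦ h₁.trace_eq hB hB' h' (fun p _ _ ↦ ⟨rfl, rfl⟩) σ
  refine ⟨ρ₁, h₁.level, fun p hp hpC A hA σ hσ ↦ ?_, fun p hp hpC A hA σ hσ ↦ ?_,
    fun p hp hpC A hA σ hσ ↦ ?_⟩
  · rcases hC p hp hpC with hpB | hpB
    · exact h₁.unram p hp hpB A hA σ hσ
    · refine hss.eq_one h2 fun g ↦ ?_
      rw [(heq _).1, (heq _).1, map_mul, h'.unram p hp hpB A hA σ hσ, mul_one]
  · rcases hC p hp hpC with hpB | hpB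
    · exact h₁.trace p hp hpB A hA σ hσ
    · rw [(heq _).1]
      exact h'.trace p hp hpB A hA σ hσ
  · rcases hC p hp hpC with hpB | hpB
    · exact h₁.det p hp hpB A hA σ hσ
    · rw [(heq _).2]
      exact h'.det p hp hpB A hA σ hσ

end Fermat.Agent.DS
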