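import Fermat.Agent.DS.HeckeG1

/-!
# The Hecke ring of `Γ₁(N)`
-/

set_option autoImplicit false
set_option linter.style.haveILetI false
set_option linter.unusedSectionVars false

noncomputable section

namespace Fermat.Agent.DS

open UpperHalfPlane ModularForm Filter Topology CongruenceSubgroup Fermat.Agent.IntStr
open Fermat.Agent.Newform Matrix.SpecialLinearGroup
open scoped MatrixGroups Manifold Real

variable {N : ℕ} [NeZero N] {k : ℤ} {f : ℍ → ℂ}

theorem dia_add (k : ℤ) (u : (ZMod N)ˣ) (f g : ℍ → ℂ) : dia k u (f + g) = dia k u f + dia k u g :=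
  SlashAction.add_slash _ _ _ _

theorem dia_smul (k : ℤ) (u : (ZMod N)ˣ) (c : ℂ) (f : ℍ → ℂ) : dia k u (c • f) = c • dia k u f :=
  SL_smul_slash _ _ _ _

theorem heckeOp_add {p : ℕ} (hp : p.Prime) (hpN : ¬ p ∣ N) (f g : ℍ → ℂ) :
    heckeOp k hp hpN (f + g) = heckeOp k hp hpN f + heckeOp k hp hpN g := by
  rw [heckeOp_eq, heckeOp_eq, heckeOp_eq, heckeU_add, dia_add]
  funext τ
  simp only [Pi.add_apply, Pi.smul_apply, Vp, smul_eq_mul]
  ring

theorem heckeOp_smul {p : ℕ} (hp : p.Prime) (hpN : ¬ p ∣ N) (c : ℂ) (f : ℍ → ℂ) :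
    heckeOp k hp hpN (c • f) = c • heckeOp k hp hpN f := by
  rw [heckeOp_eq, heckeOp_eq, heckeU_smul, dia_smul]
  funext τ
  simp only [Pi.add_apply, Pi.smul_apply, Vp, smul_eq_mul]
  ring

/-- `T_p` as an endomorphism of the space of cusp forms. -/
def TL (k : ℤ) {p : ℕ} (hp : p.Prime) (hpN : ¬ p ∣ N) : Module.End ℂ (CF (Gamma1 N) k) where
  toFun F := ⟨heckeOp k hp hpN F, IsCF.heckeOp hp hpN F.2⟩
  map_add' F H := Subtype.ext (heckeOp_add hp hpN F H)
  map_smul' c F := Subtype.ext (heckeOp_smul hp hpN c F)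

/-- The diamond operators as endomorphisms of the space of cusp forms. -/
def DL (k : ℤ) (u : (ZMod N)ˣ) : Module.End ℂ (CF (Gamma1 N) k) where
  toFun F := ⟨dia k u F, IsCF.dia F.2 u⟩
  map_add' F H := Subtype.ext (dia_add k u F H)
  map_smul' c F := Subtype.ext (dia_smul k u c F)

@[simp] theorem coe_TL {p : ℕ} (hp : p.Prime) (hpN : ¬ p ∣ N) (F : CF (Gamma1 N) k) :
    (TL k hp hpN F : ℍ → ℂ) = heckeOp k hp hpN F := rfl

@[simp] theorem coe_DL (u : (ZMod N)ˣ) (F : CF (Gamma1 N) k) :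
    (DL k u F : ℍ → ℂ) = dia k u F := rfl

/-- All operators: `T_p` for `p ∤ N` (and `0` for `p ∣ N`), and the diamonds. -/
def opG (N : ℕ) [NeZero N] (k : ℤ) : Nat.Primes ⊕ (ZMod N)ˣ → Module.End ℂ (CF (Gamma1 N) k)
  | Sum.inl p => if h : ¬ (p : ℕ) ∣ N then TL k p.2 h else 0
  | Sum.inr u => DL k u

theorem opG_inl (p : Nat.Primes) (h : ¬ (p : ℕ) ∣ N) : opG N k (Sum.inl p) = TL k p.2 h := by
  rw [opG, dif_pos h]

theorem opG_inl_of_dvd (p : Nat.Primes) (h : (p : ℕ) ∣ N) : opG N k (Sum.inl p) = 0 := by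
  rw [opG, dif_neg (not_not.mpr h)]

theorem opG_inr (u : (ZMod N)ˣ) : opG N k (Sum.inr u) = DL k u := rfl

/-- The Hecke ring (away from `N`) of cusp forms of weight `k` for `Γ₁(N)`. -/
def heckeRing (N : ℕ) [NeZero N] (k : ℤ) : Subalgebra ℤ (Module.End ℂ (CF (Gamma1 N) k)) :=
  Algebra.adjoin ℤ (Set.range (opG N k))

/-- The generators as elements of the Hecke ring. -/
def heckeGen (N : ℕ) [NeZero N] (k : ℤ) (i : Nat.Primes ⊕ (ZMod N)ˣ) : heckeRing N k :=
  ⟨opG N k i, Algebra.subset_adjoin ⟨i, rfl⟩⟩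

theorem DL_comm (u v : (ZMod N)ˣ) : Commute (DL (N := N) k u) (DL k v) := by
  refine LinearMap.ext fun F ↦ Subtype.ext ?_
  change dia k u (dia k v F) = dia k v (dia k u F)
  rw [dia_dia F.2.slash, dia_dia F.2.slash, mul_comm]

theorem TL_DL_comm {p : ℕ} (hp : p.Prime) (hpN : ¬ p ∣ N) (u : (ZMod N)ˣ) :
    Commute (TL k hp hpN) (DL k u) := by
  refine LinearMap.ext fun F ↦ Subtype.ext ?_
  change heckeOp k hp hpN (dia k u F) = dia k u (heckeOp k hp hpN F)
  exact (heckeOp_slash hp hpN F.2.slash (gam_mem u)).symm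

theorem dia_heckeOp {p : ℕ} (hp : p.Prime) (hpN : ¬ p ∣ N) (u : (ZMod N)ˣ)
    (hf : IsCF (Gamma1 N) k f) :
    dia k u (heckeOp k hp hpN f) = heckeOp k hp hpN (dia k u f) :=
  heckeOp_slash hp hpN hf.slash (gam_mem u)

theorem co_TT {p q : ℕ} (hp : p.Prime) (hpN : ¬ p ∣ N) (hq : q.Prime) (hqN : ¬ q ∣ N)
    (hpq : p ≠ q) (hf : IsCF (Gamma1 N) k f) (n : ℕ) :
    co (heckeOp k hp hpN (heckeOp k hq hqN f)) n = co f (n * p * q) +
      (q : ℂ) ^ (k - 1) * (if q ∣ n then co (dia k (up hq hqN) f) (n * p / q) else 0) +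
      (p : ℂ) ^ (k - 1) * (if p ∣ n then co (dia k (up hp hpN) f) (n * q / p) else 0) +
      (p : ℂ) ^ (k - 1) * (q : ℂ) ^ (k - 1) *
        (if p * q ∣ n then co (dia k (up hp hpN * up hq hqN) f) (n / (p * q)) else 0) := by
  have hcop : Nat.Coprime p q := (Nat.coprime_primes hp hq).mpr hpq
  rw [co_heckeOp hp hpN (IsCF.heckeOp hq hqN hf), co_heckeOp hq hqN hf,
    dia_heckeOp hq hqN _ hf]
  have h1 : q ∣ n * p ↔ q ∣ n := by
    constructor
    · exact fun h ↦ hcop.symm.dvd_of_dvd_mul_right h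
    · exact fun h ↦ h.mul_right p
  have h2 : (if q ∣ n * p then co (dia k (up hq hqN) f) (n * p / q) else 0) =
      if q ∣ n then co (dia k (up hq hqN) f) (n * p / q) else 0 := by
    simp only [h1]
  rw [h2]
  by_cases hpn : p ∣ n
  · rw [if_pos hpn, if_pos hpn, co_heckeOp hq hqN (IsCF.dia hf _), dia_dia hf.slash]
    obtain ⟨m, rfl⟩ := hpn
    have h3 : q ∣ p * m / p ↔ p * q ∣ p * m := by
      rw [Nat.mul_div_cancel_left _ hp.pos, Nat.mul_dvd_mul_iff_left hp.pos]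
    have h4 : p * m / p / q = p * m / (p * q) := Nat.div_div_eq_div_mul _ _ _
    have h5 : p * m / p * q = p * m * q / p := by
      rw [Nat.mul_div_cancel_left _ hp.pos, mul_assoc, Nat.mul_div_cancel_left _ hp.pos]
    rw [h4, h5]
    simp only [h3]
    ring
  · have h6 : ¬ p * q ∣ n := fun h ↦ hpn ((dvd_mul_right p q).trans h)
    rw [if_neg hpn, if_neg hpn, if_neg h6]
    ring

theorem TL_comm {p q : ℕ} (hp : p.Prime) (hpN : ¬ p ∣ N) (hq : q.Prime) (hqN : ¬ q ∣ N) :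
    Commute (TL k hp hpN) (TL k hq hqN) := by
  by_cases hpq : p = q
  · subst hpq
    exact Commute.refl _
  refine LinearMap.ext fun F ↦ Subtype.ext ?_
  change heckeOp k hp hpN (heckeOp k hq hqN F) = heckeOp k hq hqN (heckeOp k hp hpN F)
  refine eq_of_co (IsCF.heckeOp hp hpN (IsCF.heckeOp hq hqN F.2)).toIsMF
    (IsCF.heckeOp hq hqN (IsCF.heckeOp hp hpN F.2)).toIsMF fun n ↦ ?_
  rw [co_TT hp hpN hq hqN hpq F.2, co_TT hq hqN hp hpN (Ne.symm hpq) F.2, mul_comm p q,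
    mul_comm (up hp hpN), mul_right_comm n p q]
  ring

theorem commute_opG (i j : Nat.Primes ⊕ (ZMod N)ˣ) : Commute (opG N k i) (opG N k j) := by
  rcases i with p | u <;> rcases j with q | v
  · by_cases hp : (p : ℕ) ∣ N
    · rw [opG_inl_of_dvd p hp]; exact Commute.zero_left _
    · by_cases hq : (q : ℕ) ∣ N
      · rw [opG_inl_of_dvd q hq]; exact Commute.zero_right _
      · rw [opG_inl p hp, opG_inl q hq]; exact TL_comm _ _ _ _
  · by_cases hp : (p : ℕ) ∣ N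
    · rw [opG_inl_of_dvd p hp]; exact Commute.zero_left _
    · rw [opG_inl p hp]; exact TL_DL_comm _ _ _
  · by_cases hq : (q : ℕ) ∣ N
    · rw [opG_inl_of_dvd q hq]; exact Commute.zero_right _
    · rw [opG_inl q hq]; exact (TL_DL_comm _ _ _).symm
  · exact DL_comm _ _

end Fermat.Agent.DS
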