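import Fermat.Agent.DS.Artin
import Fermat.Agent.DS.OpsG1

/-!
# The weight two input (Eichler-Shimura with nebentypus) of the Deligne-Serre theorem
-/

set_option autoImplicit false

open CongruenceSubgroup UpperHalfPlane
open scoped MatrixGroups ModularForm

namespace Fermat.Agent.DS

local notation "Γℚ" => (AlgebraicClosure ℚ ≃ₐ[ℚ] AlgebraicClosure ℚ)

/-- Mod `ℓ` representations attached to mod `ℓ` eigensystems of weight two on `Γ₁(D)`. -/
def WeightTwoGalois : Prop :=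
  ∀ (D l : ℕ) [NeZero D] [Fact l.Prime] (k : Type) [Field k] [CharP k l] [IsAlgClosed k]
    (θ : heckeRing D 2 →+* k) (t d : ℕ → k), 5 ≤ D → 5 ≤ l → (2 ∣ D ∨ 3 ∣ D) →
    (∀ (p : ℕ) (hp : p.Prime), ¬ p ∣ D → t p = θ (heckeGen D 2 (Sum.inl ⟨p, hp⟩))) →
    (∀ (p : ℕ) (hp : p.Prime) (hpD : ¬ p ∣ D),
      d p = (p : k) * θ (heckeGen D 2 (Sum.inr (up hp hpD)))) →
    ∃ ρ : Γℚ →* Matrix (Fin 2) (Fin 2) k, IsFrobRep (D * l) t d ρ

end Fermat.Agent.DS
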