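import Fermat.Agent.DS.EisRes
import Fermat.Agent.DS.Target
import Fermat.Agent.DS.ChebL
import Fermat.Agent.DS.Density
import Fermat.Agent.DS.Glue
import Fermat.Agent.DS.EigLevel
import Fermat.Agent.Frob.Basic
import Fermat.Prelude.Def_GaloisRep_Residual
import Fermat.Prelude.Def_Deformations_MatrixRepresentation

/-!
# The Deligne-Serre theorem, conditional on the weight two input
-/

set_option autoImplicit false
set_option linter.style.haveILetI false
set_option linter.unusedSectionVars false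

noncomputable section

namespace Fermat.Agent.DS

open UpperHalfPlane ModularForm Filter Topology CongruenceSubgroup Fermat.Agent.IntStr
open scoped MatrixGroups Manifold Real

local notation "Γℚ" => (AlgebraicClosure ℚ ≃ₐ[ℚ] AlgebraicClosure ℚ)
local notation "ℤbar" => integralClosure ℤ ℂ

/-- residue data at a prime `l` -/
theorem exists_residue (l : ℕ) (hl : l.Prime) : ∃ (O : ValuationSubring ℂ) (k : Type) (_ : Field k)
    (_ : CharP k l) (_ : IsAlgClosed k) (r : O.toSubring →+* k) (φ : ℤbar →+* k),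
    (∀ x : O.toSubring, r x ≠ 0 → ((x : ℂ))⁻¹ ∈ O) ∧ ∀ x : ℤbar, Res r (x : ℂ) (φ x) := by
  obtain ⟨O, hO⟩ := Frob.exists_liesOverPrime ℂ hl
  let κ := IsLocalRing.ResidueField O
  have h0 : ((l : ℕ) : κ) = 0 := by
    have h1 : IsLocalRing.residue O (l : O) = 0 := by
      rw [IsLocalRing.residue_eq_zero_iff, ValuationSubring.valuation_lt_one_iff]
      have := (ValuationSubring.mem_nonunits_iff (A := O)).mp hO
      simpa using this
    rw [map_natCast] at h1
    exact h1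
  haveI : Fact l.Prime := ⟨hl⟩
  haveI : CharP κ l := (CharP.charP_iff_prime_eq_zero hl).mpr h0
  let k := AlgebraicClosure κ
  haveI : CharP k l := charP_of_injective_algebraMap (algebraMap κ k).injective l
  let r : O.toSubring →+* k := (algebraMap κ k).comp (IsLocalRing.residue O)
  let ι : ℤbar →+* O.toSubring :=
    { toFun := fun x ↦ ⟨x, mem_of_isIntegral_int O x.2⟩
      map_one' := rfl
      map_mul' := fun _ _ ↦ rfl
      map_zero' := rfl
      map_add' := fun _ _ ↦ rfl }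
  refine ⟨O, k, inferInstance, inferInstance, inferInstance, r, r.comp ι, ?_, ?_⟩
  · intro x hx
    have h1 : IsLocalRing.residue O x ≠ 0 := by
      intro h2
      apply hx
      change algebraMap κ k (IsLocalRing.residue O x) = 0
      rw [h2, map_zero]
    rw [Ne, IsLocalRing.residue_eq_zero_iff, IsLocalRing.mem_maximalIdeal, mem_nonunits_iff,
      not_not] at h1
    obtain ⟨u, hu⟩ := h1
    have h2 : ((u⁻¹ : (O : Type)ˣ) : O) * x = 1 := by
      rw [← hu]
      exact Units.inv_mul u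
    have h3 : (((u⁻¹ : (O : Type)ˣ) : O) : ℂ) * (x : ℂ) = 1 := congrArg (Subtype.val) h2
    rw [← eq_inv_of_mul_eq_one_left h3]
    exact ((u⁻¹ : (O : Type)ˣ) : O).2
  · intro x
    exact ⟨mem_of_isIntegral_int O x.2, rfl⟩

variable {N : ℕ} [NeZero N] {e : DirichletCharacter ℂ N} {f : ℍ → ℂ}

/-- The Artin input attached to an eigenform of weight one. -/
theorem EigOne.artinInput (h : EigOne N e f) (hG : WeightTwoGalois)
    (hE : ∀ (l : ℕ) [Fact l.Prime], 5 ≤ l → ∃ E : ZMod l → ℍ → ℂ, Eis1Data l E) :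
    ArtinInput N (EigOne.chi e) h.al where
  odd := h.chi_odd
  dens := h.dens
  rankin := h.rankin
  mod B := by
    obtain ⟨l, hlB, hl⟩ := Nat.exists_infinite_primes (B + N + 6)
    haveI : Fact l.Prime := ⟨hl⟩
    obtain ⟨O, k, _, _, _, r, φ, hloc, hφ⟩ := exists_residue l hl
    obtain ⟨E, hE⟩ := hE l (by omega)
    have hgood := goodEis_of_data (r := r) (by omega) hloc hE
    have hl5 : 5 ≤ l := by omega
    -- the representations of level `N q`, for `q = 2, 3`
    have key : ∀ q : ℕ, 0 < q → (2 ∣ q ∨ 3 ∣ q) → ∃ ρ : Γℚ →* Matrix (Fin 2) (Fin 2) k,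
        IsFrobRep (N * q * l * l) (fun p ↦ φ (h.al p)) (fun p ↦ φ (EigOne.chi e p)) ρ := by
      intro q hq0 hq
      haveI : NeZero (N * q) := ⟨mul_ne_zero (NeZero.ne N) hq0.ne'⟩
      haveI : NeZero (N * q * l) := ⟨mul_ne_zero (NeZero.ne _) hl.ne_zero⟩
      obtain ⟨θ, hθ1, hθ2⟩ := (h.mulLevel q).exists_theta O r hgood φ hφ
      have h5 : 5 ≤ N * q * l := by
        have h1 := NeZero.pos (N * q)
        nlinarith
      have hdv : ∀ p : ℕ, ¬ p ∣ N * q * l → ¬ p ∣ N * q := fun p h1 h2 ↦ h1 (h2.mul_right l)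
      refine hG (N * q * l) l k θ (fun p ↦ φ (h.al p)) (fun p ↦ φ (EigOne.chi e p)) h5 hl5 ?_
        (fun p hp hpD ↦ ?_) (fun p hp hpD ↦ ?_)
      · rcases hq with hq | hq
        · exact Or.inl ((hq.mul_left N).mul_right l)
        · exact Or.inr ((hq.mul_left N).mul_right l)
      · rw [hθ1 p hp hpD, h.al_mulLevel q hp (hdv p hpD)]
      · rw [hθ2 p hp hpD, chi_mulLevel q hp (hdv p hpD)]
    obtain ⟨ρ2, hρ2⟩ := key 2 (by norm_num) (Or.inl dvd_rfl)
    obtain ⟨ρ3, hρ3⟩ := key 3 (by norm_num) (Or.inr dvd_rfl)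
    have h20 : (2 : k) ≠ 0 := by
      intro h0
      have h1 : ((2 : ℕ) : k) = 0 := by exact_mod_cast h0
      rw [CharP.cast_eq_zero_iff k l] at h1
      have := Nat.le_of_dvd (by norm_num) h1
      omega
    have hne : ∀ q : ℕ, 0 < q → N * q * l * l ≠ 0 := fun q hq ↦
      mul_ne_zero (mul_ne_zero (mul_ne_zero (NeZero.ne N) hq.ne') hl.ne_zero) hl.ne_zero
    obtain ⟨ρ, hρ⟩ := hρ2.glue (C := N * l) h20 (hne 2 (by norm_num)) (hne 3 (by norm_num)) hρ3 (by
      intro p hp hpN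
      have hpN' : ¬ p ∣ N := fun h0 ↦ hpN (h0.mul_right l)
      have hpl : ¬ p ∣ l := fun h0 ↦ hpN (h0.mul_left N)
      have hstep : ∀ q : ℕ, ¬ p ∣ q → ¬ p ∣ N * q * l * l := by
        intro q hpq h1
        rcases (Nat.Prime.dvd_mul hp).mp h1 with h2 | h2
        · rcases (Nat.Prime.dvd_mul hp).mp h2 with h3 | h3
          · rcases (Nat.Prime.dvd_mul hp).mp h3 with h4 | h4
            · exact hpN' h4
            · exact hpq h4
          · exact hpl h3
        · exact hpl h2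
      by_cases hp2 : p ∣ 2
      · right
        refine hstep 3 fun hp3 ↦ ?_
        have h1 : p ∣ 1 := by
          have := Nat.dvd_sub hp3 hp2
          simpa using this
        exact hp.one_lt.ne' (Nat.dvd_one.mp h1)
      · exact Or.inl (hstep 2 hp2))
    exact ⟨l, by omega, hl, k, inferInstance, inferInstance, inferInstance, φ, ρ, hρ.level,
      hρ.unram, hρ.trace, hρ.det⟩

/-- **The Deligne-Serre theorem**, from the two inputs. -/
theorem deligneSerre (hG : WeightTwoGalois)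
    (hE : ∀ (l : ℕ) [Fact l.Prime], 5 ≤ l → ∃ E : ZMod l → ℍ → ℂ, Eis1Data l E)
    (N : ℕ) [NeZero N] (ε : DirichletCharacter ℂ N) (f : CuspForm (Gamma1 N) 1)
    (hf₁ : ModularFormClass.qCoeff f 1 = 1)
    (hT : ∀ p : ℕ, p.Prime → ¬ p ∣ N → ∀ n : ℕ,
        ModularFormClass.qCoeff f (p * n) +
            ε (p : ZMod N) * (if p ∣ n then ModularFormClass.qCoeff f (n / p) else 0) =
          ModularFormClass.qCoeff f p * ModularFormClass.qCoeff f n) :
    ∃ ρ : Γℚ →* GL (Fin 2) ℂ, GaloisFactorsThroughFiniteLevel ρ ∧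
      (Deformation.matrixRepresentation ρ).IsIrreducible ∧
      ∀ p : ℕ, p.Prime → ¬ p ∣ N →
        ∀ A : ValuationSubring (AlgebraicClosure ℚ), A.LiesOverPrime p →
          (∀ σ ∈ A.inertiaSubgroupIn ℚ, ρ σ = 1) ∧
          ∀ σ : Γℚ, A.IsFrobeniusAt σ p →
            ((ρ σ : GL (Fin 2) ℂ) : Matrix (Fin 2) (Fin 2) ℂ).trace = ModularFormClass.qCoeff f p ∧
            ((ρ σ : GL (Fin 2) ℂ) : Matrix (Fin 2) (Fin 2) ℂ).det = ε (p : ZMod N) := by
  have h : EigOne N ε (f : ℍ → ℂ) := ⟨IsCF.of_cuspForm f, hf₁, hT⟩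
  obtain ⟨M, hM, hline⟩ := (h.artinInput hG hE).exists_rep chebLower (NeZero.ne N)
  let ρ : Γℚ →* GL (Fin 2) ℂ := MonoidHom.toHomUnits M
  have hρ : ∀ g, ((ρ g : GL (Fin 2) ℂ) : Matrix (Fin 2) (Fin 2) ℂ) = M g := fun g ↦ rfl
  refine ⟨ρ, ?_, hline.isIrreducible ρ hρ, fun p hp hpN A hA ↦ ⟨fun σ hσ ↦ ?_, fun σ hσ ↦ ⟨?_, ?_⟩⟩⟩
  · obtain ⟨F, hF, hF'⟩ := hM.level
    exact ⟨F, hF, fun σ hσ ↦ Units.ext ((hρ σ).trans (hF' σ hσ))⟩
  · exact Units.ext ((hρ σ).trans (hM.unram p hp hpN A hA σ hσ))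
  · rw [hρ, hM.trace p hp hpN A hA σ hσ, h.coe_al hp hpN]
    rfl
  · rw [hρ, hM.det p hp hpN A hA σ hσ]
    rfl

end Fermat.Agent.DS
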