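import Fermat.Agent.DS.Rankin
import Fermat.Prelude.Def_FLTPrelim_Modularity

/-!
# Mean square bound for the coefficients of a weight one cusp form
-/

set_option autoImplicit false

open Finset UpperHalfPlane ModularFormClass MeasureTheory
open scoped MatrixGroups Real

namespace Fermat.Agent.DS

theorem one_mem_strictPeriods_Gamma1 (N : ℕ) :
    (1 : ℝ) ∈ (CongruenceSubgroup.Gamma1 N : Subgroup (GL (Fin 2) ℝ)).strictPeriods := by
  simp

variable {Γ : Subgroup (GL (Fin 2) ℝ)} [Γ.IsArithmetic] {k : ℤ}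

omit [Γ.IsArithmetic] in
/-- Bessel inequality on a horizontal line -/
theorem sum_norm_sq_mul_exp_le (h1 : (1 : ℝ) ∈ Γ.strictPeriods) (f : CuspForm Γ k)
    {C t : ℝ} (ht : 0 < t) (hC : ∀ τ : ℍ, τ.im = t → ‖f τ‖ ^ 2 ≤ C) (M : ℕ) :
    ∑ n ∈ range M, ‖qCoeff f n‖ ^ 2 * Real.exp (-4 * π * n * t) ≤ C := by
  have him : ∀ x : ℝ, 0 < ((x : ℂ) + t * Complex.I).im := fun x ↦ by simpa using ht
  let F : ℝ → ℂ := fun x ↦ f ⟨(x : ℂ) + t * Complex.I, him x⟩
  have hFC : ∀ x, ‖F x‖ ^ 2 ≤ C := fun x ↦ hC _ (by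
    show ((x : ℂ) + t * Complex.I).im = t
    simp)
  have hC0 : 0 ≤ C := (sq_nonneg _).trans (hFC 0)
  have hFc : Continuous F := by
    have h2 : Continuous (fun x : ℝ ↦ (⟨(x : ℂ) + t * Complex.I, him x⟩ : ℍ)) := by
      rw [UpperHalfPlane.isEmbedding_coe.continuous_iff]
      show Continuous fun x : ℝ ↦ (x : ℂ) + t * Complex.I
      fun_prop
    exact (ModularFormClass.continuous f).comp h2
  have hL2 : MemLp F 2 (volume.restrict (Set.Ioc (0 : ℝ) 1)) := by
    refine MemLp.of_bound hFc.aestronglyMeasurable (√C) (Filter.Eventually.of_forall fun x ↦ ?_)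
    exact Real.le_sqrt_of_sq_le (hFC x)
  have hP := hasSum_sq_fourierCoeffOn (zero_lt_one (α := ℝ)) hL2
  have hcoef : ∀ n : ℕ, fourierCoeffOn (zero_lt_one (α := ℝ)) F n =
      Real.exp (-2 * π * n * t) * qCoeff f n := by
    intro n
    have h2 := ModularFormClass.qExpansion_coeff_eq_intervalIntegral (t := t) f one_pos h1 n ht
    rw [qCoeff, h2, fourierCoeffOn_eq_integral, ← intervalIntegral.integral_const_mul,
      ← intervalIntegral.integral_const_mul, ← intervalIntegral.integral_smul]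
    refine intervalIntegral.integral_congr fun x _ ↦ ?_
    have h3 : fourier (-(n : ℤ)) (x : AddCircle ((1 : ℝ) - 0)) =
        Complex.exp (-2 * π * n * t : ℝ) * (1 / Function.Periodic.qParam 1 (x + t * Complex.I) ^ n) := by
      rw [fourier_coe_apply, Function.Periodic.qParam, ← Complex.exp_nat_mul, one_div,
        ← Complex.exp_neg, ← Complex.exp_add]
      congr 1
      push_cast
      ring_nf
      simp only [Complex.I_sq]
      ring
    simp only [smul_eq_mul, F]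
    rw [h3, Complex.ofReal_exp]
    simp
    ring
  have h2 : ∑ n ∈ range M, ‖fourierCoeffOn (zero_lt_one (α := ℝ)) F (n : ℤ)‖ ^ 2 ≤
      ((1 : ℝ) - 0)⁻¹ • ∫ x in (0 : ℝ)..1, ‖F x‖ ^ 2 := by
    rw [← hP.tsum_eq]
    have h3 := hP.summable.sum_le_tsum ((range M).map Nat.castEmbedding) fun _ _ ↦ sq_nonneg _
    rwa [sum_map] at h3
  have h3 : ∫ x in (0 : ℝ)..1, ‖F x‖ ^ 2 ≤ C := by
    have h4 : ∫ x in (0 : ℝ)..1, ‖F x‖ ^ 2 ≤ ∫ x in (0 : ℝ)..1, C := by
      refine intervalIntegral.integral_mono zero_le_one ?_ ?_ hFC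
      · exact (hFc.norm.pow 2).intervalIntegrable _ _
      · exact continuous_const.intervalIntegrable _ _
    simpa using h4
  have h5 : ∀ n : ℕ, ‖fourierCoeffOn (zero_lt_one (α := ℝ)) F (n : ℤ)‖ ^ 2 =
      ‖qCoeff f n‖ ^ 2 * Real.exp (-4 * π * n * t) := by
    intro n
    rw [hcoef, norm_mul, mul_pow, mul_comm, Complex.norm_real, Real.norm_eq_abs,
      abs_of_pos (Real.exp_pos _), ← Real.exp_nat_mul]
    congr 2
    push_cast
    ring
  simp_rw [h5] at h2
  refine h2.trans ?_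
  simpa using h3

/-- mean square bound for weight one cusp forms -/
theorem sum_norm_sq_qCoeff_le (h1 : (1 : ℝ) ∈ Γ.strictPeriods) (f : CuspForm Γ 1) :
    ∃ C : ℝ, ∀ M : ℕ, ∑ n ∈ range M, ‖qCoeff f (n + 1)‖ ^ 2 ≤ C * M := by
  obtain ⟨C, hC⟩ := CuspFormClass.exists_bound f
  refine ⟨Real.exp (4 * π) * C ^ 2, fun M ↦ ?_⟩
  rcases Nat.eq_zero_or_pos M with rfl | hM
  · simp
  have hMR : (0 : ℝ) < M := by exact_mod_cast hM
  have h2 := sum_norm_sq_mul_exp_le h1 f (t := 1 / M) (C := C ^ 2 * M) (by positivity)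
    (fun τ hτ ↦ by
      have h3 := hC τ
      have h4 : ‖f τ‖ ^ 2 ≤ (C / τ.im ^ (((1 : ℤ) : ℝ) / 2)) ^ 2 :=
        pow_le_pow_left₀ (norm_nonneg _) h3 2
      refine h4.trans (le_of_eq ?_)
      rw [div_pow, ← Real.rpow_natCast (τ.im ^ _), ← Real.rpow_mul τ.im_pos.le, hτ]
      norm_num) (M + 1)
  rw [sum_range_succ'] at h2
  have h3 : ∑ n ∈ range M, ‖qCoeff f (n + 1)‖ ^ 2 * Real.exp (-4 * π) ≤ C ^ 2 * M := by
    refine le_trans (sum_le_sum fun n hn ↦ ?_) ((le_add_of_nonneg_right (by positivity)).trans h2)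
    refine mul_le_mul_of_nonneg_left ?_ (sq_nonneg _)
    apply Real.exp_le_exp.mpr
    have hn' : ((n + 1 : ℕ) : ℝ) ≤ M := by
      exact_mod_cast Finset.mem_range.mp hn
    have h5 : ((n + 1 : ℕ) : ℝ) * (1 / M) ≤ 1 := by
      rw [mul_one_div, div_le_one hMR]; exact hn'
    nlinarith [Real.pi_pos]
  rw [← sum_mul] at h3
  have h4 : Real.exp (4 * π) * Real.exp (-4 * π) = 1 := by
    rw [← Real.exp_add]; simp
  have h5 : 0 < Real.exp (4 * π) := Real.exp_pos _
  calc ∑ n ∈ range M, ‖qCoeff f (n + 1)‖ ^ 2 =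
      Real.exp (4 * π) * ((∑ n ∈ range M, ‖qCoeff f (n + 1)‖ ^ 2) * Real.exp (-4 * π)) := by
        linear_combination (-(∑ n ∈ range M, ‖qCoeff f (n + 1)‖ ^ 2)) * h4
    _ ≤ Real.exp (4 * π) * (C ^ 2 * M) := mul_le_mul_of_nonneg_left h3 h5.le
    _ = _ := by ring

end Fermat.Agent.DS
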