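import Fermat.Agent.DS.LemmaA1
import Fermat.Agent.Newform.Reps

/-!
# Hecke operators on `Γ₁(N)`
-/

set_option autoImplicit false
set_option linter.style.haveILetI false
set_option linter.unusedSectionVars false

noncomputable section

namespace Fermat.Agent.DS

open UpperHalfPlane ModularForm Filter Topology CongruenceSubgroup Fermat.Agent.IntStr
open Fermat.Agent.Newform Matrix.SpecialLinearGroup
open scoped MatrixGroups Manifold Real

variable {N : ℕ} [NeZero N] {k : ℤ} {f : ℍ → ℂ}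

/-! ### Diamond operators -/

/-- An element of `Γ₀(N)` with prescribed lower right entry. -/
theorem exists_gam (N : ℕ) [NeZero N] (u : (ZMod N)ˣ) :
    ∃ γ : SL(2, ℤ), γ ∈ Gamma0 N ∧ ((γ 1 1 : ℤ) : ZMod N) = u := by
  obtain ⟨x, hx⟩ := ZMod.intCast_surjective (u : ZMod N)
  obtain ⟨y, hy⟩ := ZMod.intCast_surjective ((u⁻¹ : (ZMod N)ˣ) : ZMod N)
  have h1 : ((x * y : ℤ) : ZMod N) = ((1 : ℤ) : ZMod N) := by
    push_cast
    rw [hx, hy, Units.mul_inv]
  rw [ZMod.intCast_eq_intCast_iff_dvd_sub] at h1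
  obtain ⟨z, hz⟩ := h1
  have hcop : IsCoprime x (N : ℤ) := ⟨y, z, by linear_combination -hz⟩
  obtain ⟨s, t, hst⟩ := hcop
  let γ : SL(2, ℤ) := ⟨!![s, -t; N, x], by rw [Matrix.det_fin_two_of]; linear_combination hst⟩
  refine ⟨γ, ?_, ?_⟩
  · rw [Gamma0_mem]
    simp [γ]
  · exact hx

/-- Chosen element of `Γ₀(N)` with lower right entry `u`. -/
def gam (u : (ZMod N)ˣ) : SL(2, ℤ) := (exists_gam N u).choose

theorem gam_mem (u : (ZMod N)ˣ) : gam u ∈ Gamma0 N := (exists_gam N u).choose_spec.1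

theorem gam_one_one (u : (ZMod N)ˣ) : ((gam u 1 1 : ℤ) : ZMod N) = u :=
  (exists_gam N u).choose_spec.2

/-- Elements of `Γ₀(N)` with the same lower right entry differ by `Γ₁(N)`. -/
theorem mul_inv_mem_Gamma1 {γ δ : SL(2, ℤ)} (hγ : γ ∈ Gamma0 N) (hδ : δ ∈ Gamma0 N)
    (h : ((γ 1 1 : ℤ) : ZMod N) = ((δ 1 1 : ℤ) : ZMod N)) : γ * δ⁻¹ ∈ Gamma1 N := by
  have hc := Gamma0_mem.mp hγ
  have hc' := Gamma0_mem.mp hδ
  have hdet := congrArg (Int.cast : ℤ → ZMod N) γ.det_coe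
  rw [Matrix.det_fin_two] at hdet
  push_cast at hdet
  rw [hc, mul_zero, sub_zero] at hdet
  have hdet' := congrArg (Int.cast : ℤ → ZMod N) δ.det_coe
  rw [Matrix.det_fin_two] at hdet'
  push_cast at hdet'
  rw [hc', mul_zero, sub_zero] at hdet'
  have e : ∀ i j, (γ * δ⁻¹) i j = γ i 0 * δ⁻¹ 0 j + γ i 1 * δ⁻¹ 1 j := by
    intro i j
    simp only [Matrix.SpecialLinearGroup.coe_mul, Matrix.mul_apply, Fin.sum_univ_two]
  have i00 : δ⁻¹ 0 0 = δ 1 1 := by rw [Matrix.SpecialLinearGroup.SL2_inv_expl]; rfl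
  have i01 : δ⁻¹ 0 1 = -δ 0 1 := by rw [Matrix.SpecialLinearGroup.SL2_inv_expl]; rfl
  have i10 : δ⁻¹ 1 0 = -δ 1 0 := by rw [Matrix.SpecialLinearGroup.SL2_inv_expl]; rfl
  have i11 : δ⁻¹ 1 1 = δ 0 0 := by rw [Matrix.SpecialLinearGroup.SL2_inv_expl]; rfl
  rw [Gamma1_mem]
  refine ⟨?_, ?_, ?_⟩
  · rw [e, i00, i10]
    push_cast
    rw [hc', ← h]
    linear_combination hdet
  · rw [e, i01, i11]
    push_cast
    rw [hc, h]
    linear_combination hdet'
  · rw [e, i00, i10]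
    push_cast
    rw [hc, hc']
    ring

/-- Invariance under `Γ₁(N)` -/
def Inv1 (N : ℕ) (k : ℤ) (f : ℍ → ℂ) : Prop := ∀ γ ∈ Gamma1 N, f ∣[k] γ = f

theorem Inv1.slash_eq (hf : Inv1 N k f) {γ δ : SL(2, ℤ)} (hγ : γ ∈ Gamma0 N) (hδ : δ ∈ Gamma0 N)
    (h : ((γ 1 1 : ℤ) : ZMod N) = ((δ 1 1 : ℤ) : ZMod N)) : f ∣[k] γ = f ∣[k] δ := by
  have h1 := hf _ (mul_inv_mem_Gamma1 hγ hδ h)
  conv_rhs => rw [← h1]
  rw [← SlashAction.slash_mul]
  congr 1
  group

theorem Inv1.slash (hf : Inv1 N k f) {γ : SL(2, ℤ)} (hγ : γ ∈ Gamma0 N) :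
    Inv1 N k (f ∣[k] γ) := by
  intro δ hδ
  have h1 := hf _ (Gamma1_conj_mem hγ hδ)
  conv_rhs => rw [← h1]
  rw [← SlashAction.slash_mul, ← SlashAction.slash_mul]
  congr 1
  group

/-- The diamond operator -/
def dia (k : ℤ) (u : (ZMod N)ˣ) (f : ℍ → ℂ) : ℍ → ℂ := f ∣[k] gam u

theorem dia_eq (hf : Inv1 N k f) (u : (ZMod N)ˣ) {γ : SL(2, ℤ)} (hγ : γ ∈ Gamma0 N)
    (h : ((γ 1 1 : ℤ) : ZMod N) = u) : dia k u f = f ∣[k] γ :=
  hf.slash_eq (gam_mem u) hγ (by rw [gam_one_one, h])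

theorem Gamma0_lower_right_mul {γ δ : SL(2, ℤ)} (hγ : γ ∈ Gamma0 N) :
    (((γ * δ) 1 1 : ℤ) : ZMod N) = ((γ 1 1 : ℤ) : ZMod N) * ((δ 1 1 : ℤ) : ZMod N) := by
  have e : (γ * δ) 1 1 = γ 1 0 * δ 0 1 + γ 1 1 * δ 1 1 := by
    simp only [Matrix.SpecialLinearGroup.coe_mul, Matrix.mul_apply, Fin.sum_univ_two]
  rw [e]
  push_cast
  rw [Gamma0_mem.mp hγ]
  ring

theorem dia_dia (hf : Inv1 N k f) (u v : (ZMod N)ˣ) :
    dia k v (dia k u f) = dia k (u * v) f := by
  have h1 : gam u * gam v ∈ Gamma0 N := (Gamma0 N).mul_mem (gam_mem u) (gam_mem v)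
  rw [dia_eq hf (u * v) h1 (by
    rw [Gamma0_lower_right_mul (gam_mem u), gam_one_one, gam_one_one, Units.val_mul]),
    SlashAction.slash_mul]
  rfl

theorem Inv1.dia (hf : Inv1 N k f) (u : (ZMod N)ˣ) : Inv1 N k (dia k u f) := hf.slash (gam_mem u)

/-! ### Representatives -/

/-- `Γ₁(N)` inside `GL₂(ℝ)`. -/
def G1 (N : ℕ) : Subgroup (GL (Fin 2) ℝ) := (Gamma1 N).map (mapGL ℝ)

theorem mem_G1 {m : GL (Fin 2) ℝ} : m ∈ G1 N ↔ ∃ a b c d : ℤ, a * d - b * c = 1 ∧
    (N : ℤ) ∣ a - 1 ∧ (N : ℤ) ∣ c ∧ (N : ℤ) ∣ d - 1 ∧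
    (m : Matrix (Fin 2) (Fin 2) ℝ) = !![(a : ℝ), b; c, d] := by
  have key : ∀ x : ℤ, ((x : ℤ) : ZMod N) = 1 ↔ (N : ℤ) ∣ x - 1 := by
    intro x
    rw [← ZMod.intCast_zmod_eq_zero_iff_dvd]
    push_cast
    exact sub_eq_zero.symm
  constructor
  · rintro ⟨γ, hγ, rfl⟩
    rw [SetLike.mem_coe, Gamma1_mem, ZMod.intCast_zmod_eq_zero_iff_dvd, key, key] at hγ
    have hdet : γ 0 0 * γ 1 1 - γ 0 1 * γ 1 0 = 1 := by
      have := γ.det_coe
      rwa [Matrix.det_fin_two] at this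
    refine ⟨_, _, _, _, hdet, hγ.1, hγ.2.2, hγ.2.1, ?_⟩
    ext i j
    rw [val_mapGL]
    fin_cases i <;> fin_cases j <;> simp
  · rintro ⟨a, b, c, d, hdet, ha, hc, hd, hm⟩
    let γ : SL(2, ℤ) := ⟨!![a, b; c, d], by rw [Matrix.det_fin_two_of]; exact hdet⟩
    refine ⟨γ, ?_, ?_⟩
    · rw [SetLike.mem_coe, Gamma1_mem, ZMod.intCast_zmod_eq_zero_iff_dvd, key, key]
      exact ⟨ha, hd, hc⟩
    · apply Units.ext
      rw [hm]
      ext i j
      rw [val_mapGL]
      fin_cases i <;> fin_cases j <;> simp [γ]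

theorem G1_le_stab (hf : Inv1 N k f) : G1 N ≤ stab k f := by
  rintro _ ⟨γ, hγ, rfl⟩
  rw [mem_stab]
  have := hf γ hγ
  rwa [ModularForm.SL_slash] at this

/-- `(ZMod N)ˣ`-class of a prime not dividing `N` -/
def up {p : ℕ} (hp : p.Prime) (hpN : ¬ p ∣ N) : (ZMod N)ˣ :=
  ZMod.unitOfCoprime p ((Nat.Prime.coprime_iff_not_dvd hp).mpr hpN)

theorem val_up {p : ℕ} (hp : p.Prime) (hpN : ¬ p ∣ N) :
    ((up hp hpN : (ZMod N)ˣ) : ZMod N) = (p : ZMod N) := ZMod.coe_unitOfCoprime _ _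

/-- Representatives for the Hecke operator `T_p` on `Γ₁(N)`. -/
def rH (u : (ZMod N)ˣ) (p : ℕ) : Option (Fin p) → GL (Fin 2) ℝ
  | some j => heckeMatrix p j
  | none => mapGL ℝ (gam u) * heckeDiagMatrix p

/-- The relevant double coset. -/
def DH (N p : ℕ) (m : GL (Fin 2) ℝ) : Prop := ∃ a b c d : ℤ, a * d - b * c = p ∧
    (N : ℤ) ∣ a - 1 ∧ (N : ℤ) ∣ c ∧ (N : ℤ) ∣ d - p ∧
    (m : Matrix (Fin 2) (Fin 2) ℝ) = !![(a : ℝ), b; c, d]

theorem dvd_iff_eq (x y : ℤ) : (N : ℤ) ∣ x - y ↔ ((x : ℤ) : ZMod N) = ((y : ℤ) : ZMod N) := by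
  rw [← ZMod.intCast_zmod_eq_zero_iff_dvd]
  push_cast
  exact sub_eq_zero

theorem cover_DH {p : ℕ} (hp : p.Prime) (hpN : ¬ p ∣ N) {m : GL (Fin 2) ℝ} (hm : DH N p m) :
    ∃ i, m * (rH (up hp hpN) p i)⁻¹ ∈ G1 N := by
  obtain ⟨a, b, c, d, hdet, ha, hc, hd, hm⟩ := hm
  have hpp : Prime (p : ℤ) := Nat.prime_iff_prime_int.mp hp
  have hp0 : (p : ℝ) ≠ 0 := by exact_mod_cast hp.ne_zero
  have hpZ : (p : ℤ) ≠ 0 := by exact_mod_cast hp.ne_zero
  have hcop : IsCoprime (N : ℤ) (p : ℤ) := by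
    rw [Nat.isCoprime_iff_coprime]
    exact ((Nat.Prime.coprime_iff_not_dvd hp).mpr hpN).symm
  by_cases hcol : (p : ℤ) ∣ a ∧ (p : ℤ) ∣ c
  · obtain ⟨⟨a', ha'⟩, ⟨c', hc'⟩⟩ := hcol
    refine ⟨none, ?_⟩
    have hdet' : a' * d - b * c' = 1 := by
      apply mul_left_cancel₀ hpZ
      rw [mul_one]
      rw [ha', hc'] at hdet
      linear_combination hdet
    let δ : SL(2, ℤ) := ⟨!![a', b; c', d], by rw [Matrix.det_fin_two_of]; exact hdet'⟩
    have hδ : δ ∈ Gamma0 N := by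
      rw [Gamma0_mem, ZMod.intCast_zmod_eq_zero_iff_dvd]
      change (N : ℤ) ∣ c'
      rw [hc'] at hc
      exact hcop.dvd_of_dvd_mul_left hc
    have hδd : ((δ 1 1 : ℤ) : ZMod N) = ((gam (up hp hpN) 1 1 : ℤ) : ZMod N) := by
      rw [gam_one_one, val_up]
      have := (dvd_iff_eq (N := N) d p).mp hd
      push_cast at this
      exact this
    have h1 := mul_inv_mem_Gamma1 hδ (gam_mem (up hp hpN)) hδd
    have h2 : m * (rH (up hp hpN) p none)⁻¹ = mapGL ℝ (δ * (gam (up hp hpN))⁻¹) := by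
      have h3 : m = mapGL ℝ δ * heckeDiagMatrix p := by
        apply Units.ext
        rw [Units.val_mul, hm, val_heckeDiagMatrix hp.ne_zero]
        have e1 : ((mapGL ℝ δ : GL (Fin 2) ℝ) : Matrix (Fin 2) (Fin 2) ℝ) =
            !![(a' : ℝ), b; c', d] := by
          ext i j
          rw [val_mapGL]
          fin_cases i <;> fin_cases j <;> simp [δ]
        rw [e1, Matrix.mul_fin_two, ha', hc']
        push_cast
        simp [mul_comm]
      rw [h3, rH, mul_inv_rev, map_mul, map_inv]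
      group
    rw [h2]
    exact ⟨_, h1, rfl⟩
  · -- the other case
    obtain ⟨j, hj1, hj2⟩ : ∃ j : ℤ, (p : ℤ) ∣ b - j * a ∧ (p : ℤ) ∣ d - j * c := by
      by_cases hpa : (p : ℤ) ∣ a
      · have hpc : ¬ (p : ℤ) ∣ c := fun h ↦ hcol ⟨hpa, h⟩
        obtain ⟨u, v, huv⟩ := (hpp.coprime_iff_not_dvd).mpr hpc
        refine ⟨d * v, ?_, ?_⟩
        · refine (hpp.coprime_iff_not_dvd.mpr hpc).dvd_of_dvd_mul_left ?_
          have h5 : c * (b - d * v * a) = p * (-1 + d * a * u) := by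
            linear_combination -hdet - a * d * huv
          rw [h5]
          exact dvd_mul_right _ _
        · exact ⟨d * u, by linear_combination (-d) * huv⟩
      · obtain ⟨u, v, huv⟩ := (hpp.coprime_iff_not_dvd).mpr hpa
        refine ⟨b * v, ?_, ?_⟩
        · exact ⟨b * u, by linear_combination (-b) * huv⟩
        · refine (hpp.coprime_iff_not_dvd.mpr hpa).dvd_of_dvd_mul_left ?_
          have h5 : a * (d - b * v * c) = p * (1 + b * c * u) := by
            linear_combination hdet - b * c * huv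
          rw [h5]
          exact dvd_mul_right _ _
    -- reduce mod `p`
    obtain ⟨i, hi⟩ : ∃ i : Fin p, (p : ℤ) ∣ j - (i : ℕ) := by
      refine ⟨⟨(j % p).toNat, ?_⟩, ?_⟩
      · have h1 := Int.emod_lt_of_pos j (by exact_mod_cast hp.pos : (0 : ℤ) < p)
        have h2 := Int.emod_nonneg j hpZ
        omega
      · have h2 := Int.emod_nonneg j hpZ
        rw [Int.toNat_of_nonneg h2]
        exact Int.dvd_self_sub_emod
    refine ⟨some i, ?_⟩
    obtain ⟨i', hi'⟩ := hi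
    obtain ⟨b', hb'⟩ : (p : ℤ) ∣ b - (i : ℕ) * a := by
      have : b - (i : ℕ) * a = (b - j * a) + p * (i' * a) := by linear_combination a * hi'
      rw [this]
      exact dvd_add hj1 (dvd_mul_right _ _)
    obtain ⟨d', hd'⟩ : (p : ℤ) ∣ d - (i : ℕ) * c := by
      have : d - (i : ℕ) * c = (d - j * c) + p * (i' * c) := by linear_combination c * hi'
      rw [this]
      exact dvd_add hj2 (dvd_mul_right _ _)
    have hdet' : a * d' - b' * c = 1 := by
      apply mul_left_cancel₀ hpZ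
      linear_combination hdet - a * hd' + c * hb'
    rw [mem_G1]
    refine ⟨a, b', c, d', hdet', ha, hc, ?_, ?_⟩
    · refine hcop.dvd_of_dvd_mul_left ?_
      have h6 : (p : ℤ) * (d' - 1) = (d - p) - (i : ℕ) * c := by linear_combination -hd'
      rw [h6]
      exact dvd_sub hd (hc.mul_left _)
    · have hne : (a : ℝ) * d' - b' * c ≠ 0 := by
        have : (a : ℝ) * d' - b' * c = 1 := by exact_mod_cast hdet'
        rw [this]; exact one_ne_zero
      have h3 : m = mat (a : ℝ) b' c d' hne * heckeMatrix p i := by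
        apply Units.ext
        rw [Units.val_mul, hm, val_heckeMatrix hp.ne_zero, val_mat, Matrix.mul_fin_two]
        have hb'' : (b : ℝ) = (i : ℕ) * a + p * b' := by
          have : b = (i : ℕ) * a + p * b' := by linear_combination hb'
          exact_mod_cast this
        have hd'' : (d : ℝ) = (i : ℕ) * c + p * d' := by
          have : d = (i : ℕ) * c + p * d' := by linear_combination hd'
          exact_mod_cast this
        rw [hb'', hd'']
        ext x y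
        fin_cases x <;> fin_cases y <;> simp <;> ring
      rw [h3, rH, mul_inv_cancel_right, val_mat]

theorem DH_rH {p : ℕ} (hp : p.Prime) (hpN : ¬ p ∣ N) (i : Option (Fin p)) :
    DH N p (rH (up hp hpN) p i) := by
  cases i with
  | none =>
    set γ := gam (up hp hpN) with hγ
    have hdet : γ 0 0 * γ 1 1 - γ 0 1 * γ 1 0 = 1 := by
      have := γ.det_coe
      rwa [Matrix.det_fin_two] at this
    have h1 := gam_one_one (up hp hpN)
    rw [val_up, ← hγ] at h1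
    have h0 := Gamma0_mem.mp (gam_mem (up hp hpN))
    rw [← hγ] at h0
    refine ⟨γ 0 0 * p, γ 0 1, γ 1 0 * p, γ 1 1, by linear_combination p * hdet, ?_, ?_, ?_, ?_⟩
    · rw [dvd_iff_eq]
      push_cast
      rw [← h1]
      have := congrArg (Int.cast : ℤ → ZMod N) hdet
      push_cast at this
      rw [h0, mul_zero, sub_zero] at this
      exact this
    · rw [← ZMod.intCast_zmod_eq_zero_iff_dvd]
      push_cast
      rw [h0, zero_mul]
    · rw [dvd_iff_eq]
      push_cast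
      exact h1
    · rw [rH, Units.val_mul, val_heckeDiagMatrix hp.ne_zero]
      have e1 : ((mapGL ℝ γ : GL (Fin 2) ℝ) : Matrix (Fin 2) (Fin 2) ℝ) =
          !![(γ 0 0 : ℝ), (γ 0 1 : ℝ); (γ 1 0 : ℝ), (γ 1 1 : ℝ)] := by
        ext i j
        rw [val_mapGL]
        fin_cases i <;> fin_cases j <;> rfl
      rw [e1, Matrix.mul_fin_two]
      push_cast
      simp
  | some j =>
    refine ⟨1, (j : ℕ), 0, p, by ring, by simp, by simp, by simp, ?_⟩
    rw [rH, val_heckeMatrix hp.ne_zero]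
    push_cast
    rfl

theorem DH_mul_right {p : ℕ} {m κ : GL (Fin 2) ℝ} (hm : DH N p m) (hκ : κ ∈ G1 N) :
    DH N p (m * κ) := by
  obtain ⟨a, b, c, d, hdet, ha, hc, hd, hm⟩ := hm
  obtain ⟨a', b', c', d', hdet', ha', hc', hd', hκ⟩ := mem_G1.mp hκ
  refine ⟨a * a' + b * c', a * b' + b * d', c * a' + d * c', c * b' + d * d', ?_, ?_, ?_, ?_, ?_⟩
  · linear_combination (a' * d' - b' * c') * hdet + p * hdet'
  · have : a * a' + b * c' - 1 = (a - 1) * a' + (a' - 1) + b * c' := by ring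
    rw [this]
    exact dvd_add (dvd_add (ha.mul_right _) ha') (hc'.mul_left _)
  · exact dvd_add (hc.mul_right _) (hc'.mul_left _)
  · have : c * b' + d * d' - p = c * b' + (d - p) * d' + p * (d' - 1) := by ring
    rw [this]
    exact dvd_add (dvd_add (hc.mul_right _) (hd.mul_right _)) (hd'.mul_left _)
  · rw [Units.val_mul, hm, hκ, Matrix.mul_fin_two]
    push_cast
    rfl

theorem DH_conj {p : ℕ} {m : GL (Fin 2) ℝ} (hm : DH N p m) {δ : SL(2, ℤ)} (hδ : δ ∈ Gamma0 N) :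
    DH N p (mapGL ℝ δ * m * (mapGL ℝ δ)⁻¹) := by
  obtain ⟨a, b, c, d, hdet, ha, hc, hd, hm⟩ := hm
  set x := δ 0 0
  set y := δ 0 1
  set z := δ 1 0
  set w := δ 1 1
  have hdetδ : x * w - y * z = 1 := by
    have := δ.det_coe
    rwa [Matrix.det_fin_two] at this
  have hz : (N : ℤ) ∣ z := by
    rw [← ZMod.intCast_zmod_eq_zero_iff_dvd]
    exact Gamma0_mem.mp hδ
  have e1 : ((mapGL ℝ δ : GL (Fin 2) ℝ) : Matrix (Fin 2) (Fin 2) ℝ) = !![(x : ℝ), y; z, w] := by
    ext i j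
    rw [val_mapGL]
    fin_cases i <;> fin_cases j <;> rfl
  have e2 : (((mapGL ℝ δ)⁻¹ : GL (Fin 2) ℝ) : Matrix (Fin 2) (Fin 2) ℝ) =
      !![(w : ℝ), -y; -z, x] := by
    rw [← map_inv]
    ext i j
    rw [val_mapGL, Matrix.SpecialLinearGroup.SL2_inv_expl]
    fin_cases i <;> fin_cases j <;> simp <;> rfl
  refine ⟨(x * a + y * c) * w - (x * b + y * d) * z, -(x * a + y * c) * y + (x * b + y * d) * x,
    (z * a + w * c) * w - (z * b + w * d) * z, -(z * a + w * c) * y + (z * b + w * d) * x,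
    ?_, ?_, ?_, ?_, ?_⟩
  · linear_combination (x * w - y * z) ^ 2 * hdet + p * (x * w - y * z + 1) * hdetδ
  · have : (x * a + y * c) * w - (x * b + y * d) * z - 1 =
        x * w * (a - 1) + c * (y * w) - z * (x * b) - z * (y * d) + z * y := by
      linear_combination hdetδ
    rw [this]
    exact dvd_add (dvd_sub (dvd_sub (dvd_add (ha.mul_left _) (hc.mul_right _)) (hz.mul_right _))
      (hz.mul_right _)) (hz.mul_right _)
  · exact dvd_sub ((dvd_add (hz.mul_right _) (hc.mul_left _)).mul_right _) (hz.mul_left _)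
  · have : -(z * a + w * c) * y + (z * b + w * d) * x - p =
        z * (-(a * y) + b * x) - c * (w * y) + (d - p) * (w * x) + z * (y * p) := by
      linear_combination (p : ℤ) * hdetδ
    rw [this]
    exact dvd_add (dvd_add (dvd_sub (hz.mul_right _) (hc.mul_right _)) (hd.mul_right _))
      (hz.mul_right _)
  · rw [Units.val_mul, Units.val_mul, e1, e2, hm, Matrix.mul_fin_two, Matrix.mul_fin_two]
    push_cast
    ext i j
    fin_cases i <;> fin_cases j <;> simp <;> ring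

theorem inj_rH {p : ℕ} (hp : p.Prime) (hpN : ¬ p ∣ N) (i j : Option (Fin p))
    (h : rH (up hp hpN) p i * (rH (up hp hpN) p j)⁻¹ ∈ G1 N) : i = j := by
  obtain ⟨a, b, c, d, hdet, ha, hc, hd, hm⟩ := mem_G1.mp h
  have hpZ : (p : ℤ) ≠ 0 := by exact_mod_cast hp.ne_zero
  have hp0 : (p : ℝ) ≠ 0 := by exact_mod_cast hp.ne_zero
  have hne : (a : ℝ) * d - b * c ≠ 0 := by
    have : (a : ℝ) * d - b * c = 1 := by exact_mod_cast hdet
    rw [this]; exact one_ne_zero
  have h1 : rH (up hp hpN) p i = mat (a : ℝ) b c d hne * rH (up hp hpN) p j := by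
    have : rH (up hp hpN) p i * (rH (up hp hpN) p j)⁻¹ = mat (a : ℝ) b c d hne := by
      apply Units.ext
      rw [hm, val_mat]
    rw [← this]
    group
  have h2 := congrArg (fun g : GL (Fin 2) ℝ ↦ (g : Matrix (Fin 2) (Fin 2) ℝ)) h1
  simp only [Units.val_mul, val_mat] at h2
  have hu : ¬ (p : ℤ) ∣ 1 := by
    intro h
    have := Int.isUnit_iff.mp (isUnit_of_dvd_one h)
    have h3 := hp.two_le
    omega
  cases i with
  | none =>
    cases j with
    | none => rfl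
    | some j =>
      exfalso
      rw [rH, rH, Units.val_mul, val_heckeDiagMatrix hp.ne_zero, val_heckeMatrix hp.ne_zero] at h2
      have h00 := congrFun (congrFun h2 0) 0
      have h10 := congrFun (congrFun h2 1) 0
      simp [Matrix.mul_apply, Fin.sum_univ_two] at h00 h10
      have h00' : (gam (up hp hpN) 0 0) * p = a := by exact_mod_cast h00
      have h10' : (gam (up hp hpN) 1 0) * p = c := by exact_mod_cast h10
      apply hu
      rw [← hdet, ← h00', ← h10']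
      exact ⟨gam (up hp hpN) 0 0 * d - b * gam (up hp hpN) 1 0, by ring⟩
  | some i =>
    cases j with
    | none =>
      exfalso
      rw [rH, rH, Units.val_mul, val_heckeDiagMatrix hp.ne_zero, val_heckeMatrix hp.ne_zero] at h2
      have h00 := congrFun (congrFun h2 0) 0
      simp [Matrix.mul_apply, Fin.sum_univ_two] at h00
      apply hu
      refine ⟨a * gam (up hp hpN) 0 0 + b * gam (up hp hpN) 1 0, ?_⟩
      have h5 : (1 : ℝ) = p * (a * (gam (up hp hpN) 0 0 : ℤ) + b * (gam (up hp hpN) 1 0 : ℤ)) := by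
        linear_combination h00
      exact_mod_cast h5
    | some j =>
      rw [rH, rH, val_heckeMatrix hp.ne_zero, val_heckeMatrix hp.ne_zero] at h2
      have h00 := congrFun (congrFun h2 0) 0
      have h01 := congrFun (congrFun h2 0) 1
      simp at h00 h01
      have h00' : a = 1 := by
        have : (a : ℝ) = 1 := h00.symm
        exact_mod_cast this
      have h01' : ((i : ℕ) : ℤ) = a * (j : ℕ) + b * p := by exact_mod_cast h01
      rw [h00', one_mul] at h01'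
      have hij : (i : ℕ) = (j : ℕ) := by
        have h5 : (p : ℤ) ∣ ((i : ℕ) : ℤ) - ((j : ℕ) : ℤ) := ⟨b, by linear_combination h01'⟩
        have h6 : ((i : ℕ) : ℤ) - ((j : ℕ) : ℤ) = 0 := by
          apply Int.eq_zero_of_abs_lt_dvd h5
          have := i.2
          have := j.2
          rw [abs_lt]
          omega
        omega
      congr 1
      exact Fin.ext hij

/-! ### The Hecke operator -/

/-- The Hecke operator `T_p` on functions invariant under `Γ₁(N)`. -/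
def heckeOp (k : ℤ) {p : ℕ} (hp : p.Prime) (hpN : ¬ p ∣ N) (f : ℍ → ℂ) : ℍ → ℂ :=
  ∑ i : Option (Fin p), f ∣[k] rH (up hp hpN) p i

theorem heckeOp_inv {p : ℕ} (hp : p.Prime) (hpN : ¬ p ∣ N) (hf : Inv1 N k f) :
    Inv1 N k (heckeOp k hp hpN f) := by
  intro γ hγ
  rw [ModularForm.SL_slash]
  refine sum_reps_slash (G1_le_stab hf) _ _ ?_ (inj_rH hp hpN)
  intro i
  exact cover_DH hp hpN (DH_mul_right (DH_rH hp hpN i) ⟨γ, hγ, rfl⟩)

theorem heckeOp_slash {p : ℕ} (hp : p.Prime) (hpN : ¬ p ∣ N) (hf : Inv1 N k f) {δ : SL(2, ℤ)}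
    (hδ : δ ∈ Gamma0 N) :
    (heckeOp k hp hpN f) ∣[k] δ = heckeOp k hp hpN (f ∣[k] δ) := by
  rw [ModularForm.SL_slash, ModularForm.SL_slash]
  refine sum_reps_comm (G1_le_stab hf) _ _ ?_ ?_
  · intro i
    exact cover_DH hp hpN (DH_conj (DH_rH hp hpN i) hδ)
  · intro i j h
    apply inj_rH hp hpN
    obtain ⟨γ, hγ, e⟩ := h
    change mapGL ℝ γ = mapGL ℝ δ * (rH (up hp hpN) p i * (rH (up hp hpN) p j)⁻¹) *
      (mapGL ℝ δ)⁻¹ at e
    have h1 : rH (up hp hpN) p i * (rH (up hp hpN) p j)⁻¹ =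
        mapGL ℝ (δ⁻¹ * γ * δ) := by
      rw [map_mul, map_mul, e, map_inv]
      group
    rw [h1]
    refine ⟨_, ?_, rfl⟩
    have := Gamma1_conj_mem ((Gamma0 N).inv_mem hδ) hγ
    rwa [inv_inv] at this

theorem heckeOp_eq (k : ℤ) {p : ℕ} (hp : p.Prime) (hpN : ¬ p ∣ N) (f : ℍ → ℂ) :
    heckeOp k hp hpN f = heckeU k p f + (p : ℂ) ^ (k - 1) • Vp p (dia k (up hp hpN) f) := by
  have hp' : (p : ℂ) ≠ 0 := by exact_mod_cast hp.ne_zero
  rw [heckeOp, Fintype.sum_option, add_comm, heckeU, Finset.sum_range]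
  congr 1
  rw [rH, SlashAction.slash_mul]
  funext τ
  rw [slash_heckeDiagMatrix_apply k hp.ne_zero, Pi.smul_apply, smul_eq_mul, Vp, dia,
    ModularForm.SL_slash]
  rfl

theorem isRatM_rH {p : ℕ} (u : (ZMod N)ˣ) (i : Option (Fin p)) : IsRatM (rH u p i) := by
  cases i with
  | none => exact (isRatM_mapGL _).mul (isRatM_heckeDiag p)
  | some j => exact isRatM_heckeMatrix p j

theorem isQCF_iff_isCF : IsCF (Gamma1 N) k f ↔ IsQCF k f ∧ Inv1 N k f :=
  ⟨fun h ↦ ⟨h.isQCF, h.slash⟩, fun h ↦ h.1.isCF h.2⟩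

theorem IsCF.heckeOp {p : ℕ} (hp : p.Prime) (hpN : ¬ p ∣ N) (hf : IsCF (Gamma1 N) k f) :
    IsCF (Gamma1 N) k (heckeOp k hp hpN f) := by
  rw [isQCF_iff_isCF]
  refine ⟨?_, heckeOp_inv hp hpN hf.slash⟩
  exact IsQCF.sum _ _ fun i _ ↦ hf.isQCF.slash (isRatM_rH _ i)

theorem IsCF.dia (hf : IsCF (Gamma1 N) k f) (u : (ZMod N)ˣ) : IsCF (Gamma1 N) k (dia k u f) :=
  IsCF.slash_Gamma0 hf (gam_mem u)

/-! ### `q`-expansions -/

theorem hasSum_U {p : ℕ} (hp : p ≠ 0) {a : ℕ → ℂ} {f : ℍ → ℂ}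
    (h : ∀ τ : ℍ, HasSum (fun m => a m • Function.Periodic.qParam 1 (τ : ℂ) ^ m) (f τ)) (k : ℤ)
    (τ : ℍ) :
    HasSum (fun m => a (m * p) • Function.Periodic.qParam 1 (τ : ℂ) ^ m) (heckeU k p f τ) := by
  have hp' : (p : ℂ) ≠ 0 := by exact_mod_cast hp
  rw [heckeU_apply k hp]
  set w : ℂ := Complex.exp (2 * π * Complex.I * (τ : ℂ) / p) with hw
  set ζ : ℂ := Complex.exp (2 * π * Complex.I / p) with hζ
  have hζp : IsPrimitiveRoot ζ p := Complex.isPrimitiveRoot_exp p hp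
  have h1 : ∀ j : ℕ, Function.Periodic.qParam 1 ((heckeMatrix p j • τ : ℍ) : ℂ) = w * ζ ^ j := by
    intro j
    rw [coe_heckeMatrix_smul hp, Function.Periodic.qParam, hw, hζ, ← Complex.exp_nat_mul,
      ← Complex.exp_add]
    congr 1
    push_cast
    field_simp
  have h2 := (hasSum_sum fun j (_ : j ∈ Finset.range p) ↦ h (heckeMatrix p j • τ)).mul_left
    (p : ℂ)⁻¹
  have h3 : ∀ m : ℕ, (p : ℂ)⁻¹ * ∑ j ∈ Finset.range p,
      a m • Function.Periodic.qParam 1 ((heckeMatrix p j • τ : ℍ) : ℂ) ^ m =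
      if p ∣ m then a m * w ^ m else 0 := by
    intro m
    have h4 : ∀ j : ℕ, a m • Function.Periodic.qParam 1 ((heckeMatrix p j • τ : ℍ) : ℂ) ^ m =
        (a m * w ^ m) * (ζ ^ m) ^ j := by
      intro j
      rw [h1, smul_eq_mul, mul_pow, ← pow_mul, ← pow_mul, mul_comm j m]
      ring
    rw [Finset.sum_congr rfl fun j _ ↦ h4 j, ← Finset.mul_sum]
    split_ifs with hpm
    · have h5 : ζ ^ m = 1 := (hζp.pow_eq_one_iff_dvd m).mpr hpm
      rw [h5]
      simp only [one_pow, Finset.sum_const, Finset.card_range, nsmul_eq_mul, mul_one]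
      field_simp
    · have h5 : ζ ^ m ≠ 1 := fun h6 ↦ hpm ((hζp.pow_eq_one_iff_dvd m).mp h6)
      have h6 : (∑ j ∈ Finset.range p, (ζ ^ m) ^ j) = 0 := by
        have h7 := geom_sum_mul (ζ ^ m) p
        rw [← pow_mul, mul_comm m p, pow_mul, hζp.pow_eq_one, one_pow, sub_self] at h7
        rcases mul_eq_zero.mp h7 with h8 | h8
        · exact h8
        · exact absurd (sub_eq_zero.mp h8) h5
      rw [h6, mul_zero, mul_zero]
  simp_rw [h3] at h2
  have hinj : Function.Injective (fun n : ℕ => n * p) :=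
    fun a b h => Nat.eq_of_mul_eq_mul_right (Nat.pos_of_ne_zero hp) h
  rw [← hinj.hasSum_iff] at h2
  · have h4 : (fun m => a (m * p) • Function.Periodic.qParam 1 (τ : ℂ) ^ m) =
        ((fun m ↦ if p ∣ m then a m * w ^ m else 0) ∘ fun n ↦ n * p) := by
      funext n
      simp only [Function.comp_apply]
      rw [if_pos (dvd_mul_left p n), smul_eq_mul]
      congr 1
      rw [hw, Function.Periodic.qParam, ← Complex.exp_nat_mul, ← Complex.exp_nat_mul]
      congr 1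
      push_cast
      field_simp
    rw [h4]
    exact h2
  · intro m hm
    have : ¬ p ∣ m := fun ⟨n, hn⟩ => hm ⟨n, by rw [hn, mul_comm]⟩
    simp [this]

/-- coefficients -/
def co (f : ℍ → ℂ) (n : ℕ) : ℂ := (qExpansion 1 f).coeff n

theorem co_heckeOp {p : ℕ} (hp : p.Prime) (hpN : ¬ p ∣ N) (hf : IsCF (Gamma1 N) k f) (n : ℕ) :
    co (DS.heckeOp k hp hpN f) n = co f (n * p) +
      (p : ℂ) ^ (k - 1) * (if p ∣ n then co (DS.dia k (up hp hpN) f) (n / p) else 0) := by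
  have hT := IsCF.heckeOp hp hpN hf
  refine coeff_unique (c := fun n ↦ co f (n * p) +
      (p : ℂ) ^ (k - 1) * (if p ∣ n then co (DS.dia k (up hp hpN) f) (n / p) else 0))
    hT.holo.continuous (hT.toIsMF.analyticAt (T_mem_Gamma1 N)) ?_ n
  intro τ
  have h1 := hasSum_U hp.ne_zero (hasSum_of_mf hf.toIsMF) k τ
  have h2 := (hasSum_Vp hp.ne_zero (hasSum_of_mf (IsCF.dia hf (up hp hpN)).toIsMF) τ).mul_left
    ((p : ℂ) ^ (k - 1))
  have h3 := h1.add h2
  rw [heckeOp_eq]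
  have h4 : (fun m ↦ (co f (m * p) + (p : ℂ) ^ (k - 1) *
      (if p ∣ m then co (DS.dia k (up hp hpN) f) (m / p) else 0)) •
        Function.Periodic.qParam 1 (τ : ℂ) ^ m) =
      fun m ↦ (qExpansion 1 f).coeff (m * p) • Function.Periodic.qParam 1 (τ : ℂ) ^ m +
        (p : ℂ) ^ (k - 1) * (vp p (fun m ↦ (qExpansion 1 (DS.dia k (up hp hpN) f)).coeff m) m •
          Function.Periodic.qParam 1 (τ : ℂ) ^ m) := by
    funext m
    simp only [co, vp, smul_eq_mul]
    ring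
  rw [h4]
  exact h3

/-- `q`-expansion principle -/
theorem eq_of_co {F H : ℍ → ℂ} (hF : IsMF (Gamma1 N) k F) (hH : IsMF (Gamma1 N) k H)
    (h : ∀ n, co F n = co H n) : F = H :=
  IsMF.eq_of_qExpansion hF hH (T_mem_Gamma1 N) (PowerSeries.ext h)

end Fermat.Agent.DS
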