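import Fermat.Agent.DS.NiceG1
import Fermat.Agent.Newform.Slash

/-!
# Modular forms `F` such that `F(z)` and `F(pz)` are both modular on `Γ₁(N)` vanish
-/

set_option autoImplicit false
set_option linter.style.haveILetI false
set_option linter.unusedSectionVars false

noncomputable section

namespace Fermat.Agent.DS

open UpperHalfPlane ModularForm Filter Topology CongruenceSubgroup Fermat.Agent.IntStr
open scoped MatrixGroups Manifold Real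

variable {N : ℕ} [NeZero N] {k : ℤ}

/-- `F(pz)` -/
def Vp (p : ℕ) (F : ℍ → ℂ) : ℍ → ℂ := fun τ ↦ F (heckeDiagMatrix p • τ)

theorem coe_SL_smul (γ : SL(2, ℤ)) (τ : ℍ) :
    ((γ • τ : ℍ) : ℂ) = ((γ 0 0 : ℤ) * (τ : ℂ) + (γ 0 1 : ℤ)) / ((γ 1 0 : ℤ) * (τ : ℂ) + (γ 1 1 : ℤ)) := by
  rw [UpperHalfPlane.coe_specialLinearGroup_apply]
  simp

theorem slash_apply' (f : ℍ → ℂ) (γ : SL(2, ℤ)) (τ : ℍ) :
    (f ∣[k] γ) τ = f (γ • τ) * ((γ 1 0 : ℤ) * (τ : ℂ) + (γ 1 1 : ℤ)) ^ (-k) := by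
  rw [SL_slash_apply, ModularGroup.denom_apply]

/-- conjugating `(a, pb; c, d)` by `(p, 0; 0, 1)` -/
theorem Vp_slash {p : ℕ} (hp : p ≠ 0) (F : ℍ → ℂ) (δ δ' : SL(2, ℤ)) (h00 : δ' 0 0 = δ 0 0)
    (h01 : δ 0 1 = p * δ' 0 1) (h10 : δ' 1 0 = p * δ 1 0) (h11 : δ' 1 1 = δ 1 1) :
    Vp p (F ∣[k] δ) = (Vp p F) ∣[k] δ' := by
  funext τ
  have hp' : (p : ℂ) ≠ 0 := by exact_mod_cast hp
  rw [slash_apply', Vp, Vp, slash_apply']
  have e1 : δ • (heckeDiagMatrix p • τ) = heckeDiagMatrix p • (δ' • τ) := by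
    apply UpperHalfPlane.ext
    rw [coe_SL_smul, coe_heckeDiagMatrix_smul hp, coe_heckeDiagMatrix_smul hp, coe_SL_smul, h00,
      h01, h10, h11]
    push_cast
    rw [← mul_div_assoc]
    congr 1
    · ring
    · ring
  have e2 : ((δ 1 0 : ℤ) : ℂ) * ((heckeDiagMatrix p • τ : ℍ) : ℂ) + ((δ 1 1 : ℤ) : ℂ) =
      ((δ' 1 0 : ℤ) : ℂ) * (τ : ℂ) + ((δ' 1 1 : ℤ) : ℂ) := by
    rw [coe_heckeDiagMatrix_smul hp, h10, h11]
    push_cast
    ring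
  rw [e1, e2]

/-- the key identity -/
theorem slash_eq_Vp_Vp {p : ℕ} (hp : p ≠ 0) {F : ℍ → ℂ} (γ γ' : SL(2, ℤ))
    (hγ : Vp p F ∣[k] γ = Vp p F) (h00 : γ 0 0 = 1) (h11 : γ 1 1 = p * γ' 1 1)
    (h01 : γ' 0 1 = γ 0 1) (h00' : γ' 0 0 = p) (h10 : γ' 1 0 = γ 1 0) :
    F ∣[k] γ' = (p : ℂ) ^ k • Vp p (Vp p F) := by
  funext u
  have hp' : (p : ℂ) ≠ 0 := by exact_mod_cast hp
  have h1 := congrFun hγ (heckeDiagMatrix p • u)
  rw [slash_apply', Vp] at h1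
  have e1 : heckeDiagMatrix p • (γ • (heckeDiagMatrix p • u)) = γ' • u := by
    apply UpperHalfPlane.ext
    rw [coe_heckeDiagMatrix_smul hp, coe_SL_smul, coe_SL_smul, coe_heckeDiagMatrix_smul hp, h00,
      h11, h01, h00', h10]
    push_cast
    have e3 : ((γ 1 0 : ℤ) : ℂ) * ((p : ℂ) * (u : ℂ)) + (p : ℂ) * ((γ' 1 1 : ℤ) : ℂ) =
      (p : ℂ) * (((γ 1 0 : ℤ) : ℂ) * (u : ℂ) + ((γ' 1 1 : ℤ) : ℂ)) := by ring
    rw [e3, ← mul_div_assoc, mul_div_mul_left _ _ hp']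
    congr 1
    ring
  have e2 : ((γ 1 0 : ℤ) : ℂ) * ((heckeDiagMatrix p • u : ℍ) : ℂ) + ((γ 1 1 : ℤ) : ℂ) =
      (p : ℂ) * (((γ' 1 0 : ℤ) : ℂ) * (u : ℂ) + ((γ' 1 1 : ℤ) : ℂ)) := by
    rw [coe_heckeDiagMatrix_smul hp, h10, h11]
    push_cast
    ring
  rw [e1, e2, mul_zpow] at h1
  rw [slash_apply', Pi.smul_apply, smul_eq_mul, Vp, ← h1]
  have h3 : (p : ℂ) ^ k * (p : ℂ) ^ (-k) = 1 := by
    rw [← zpow_add₀ hp', add_neg_cancel, zpow_zero]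
  calc _ = ((p : ℂ) ^ k * (p : ℂ) ^ (-k)) * (F (γ' • u) *
        (((γ' 1 0 : ℤ) : ℂ) * (u : ℂ) + ((γ' 1 1 : ℤ) : ℂ)) ^ (-k)) := by rw [h3, one_mul]
    _ = _ := by ring

theorem Gamma1_conj_mem {γ δ : SL(2, ℤ)} (hγ : γ ∈ Gamma0 N) (hδ : δ ∈ Gamma1 N) :
    γ * δ * γ⁻¹ ∈ Gamma1 N := by
  have h1 := Gamma0_mem.mp hγ
  obtain ⟨h2, h3, h4⟩ := (Gamma1_mem N δ).mp hδ
  have hdet := congrArg (Int.cast : ℤ → ZMod N) γ.det_coe
  rw [Matrix.det_fin_two] at hdet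
  push_cast at hdet
  rw [h1, mul_zero, sub_zero] at hdet
  have e : ∀ i j, (γ * δ * γ⁻¹) i j = (γ i 0 * δ 0 0 + γ i 1 * δ 1 0) * γ⁻¹ 0 j +
      (γ i 0 * δ 0 1 + γ i 1 * δ 1 1) * γ⁻¹ 1 j := by
    intro i j
    simp only [Matrix.SpecialLinearGroup.coe_mul, Matrix.mul_apply, Fin.sum_univ_two]
  have i00 : γ⁻¹ 0 0 = γ 1 1 := by rw [Matrix.SpecialLinearGroup.SL2_inv_expl]; rfl
  have i01 : γ⁻¹ 0 1 = -γ 0 1 := by rw [Matrix.SpecialLinearGroup.SL2_inv_expl]; rfl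
  have i10 : γ⁻¹ 1 0 = -γ 1 0 := by rw [Matrix.SpecialLinearGroup.SL2_inv_expl]; rfl
  have i11 : γ⁻¹ 1 1 = γ 0 0 := by rw [Matrix.SpecialLinearGroup.SL2_inv_expl]; rfl
  rw [Gamma1_mem]
  refine ⟨?_, ?_, ?_⟩
  · rw [e, i00, i10]
    push_cast
    rw [h1, h2, h3, h4]
    linear_combination hdet
  · rw [e, i01, i11]
    push_cast
    rw [h1, h2, h3, h4]
    linear_combination hdet
  · rw [e, i00, i10]
    push_cast
    rw [h1, h2, h3, h4]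
    ring

theorem IsMF.slash_Gamma0 {F : ℍ → ℂ} (hF : IsMF (Gamma1 N) k F) {γ : SL(2, ℤ)}
    (hγ : γ ∈ Gamma0 N) : IsMF (Gamma1 N) k (F ∣[k] γ) where
  holo := hF.holo_slash γ
  slash δ hδ := hF.slash_slash_conj γ δ (Gamma1_conj_mem hγ hδ)
  bdd δ := by
    rw [← SlashAction.slash_mul]
    exact hF.bdd _

theorem IsCF.slash_Gamma0 {F : ℍ → ℂ} (hF : IsCF (Gamma1 N) k F) {γ : SL(2, ℤ)}
    (hγ : γ ∈ Gamma0 N) : IsCF (Gamma1 N) k (F ∣[k] γ) where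
  toIsMF := IsMF.slash_Gamma0 hF.toIsMF hγ
  zero_cusp δ := by
    rw [← SlashAction.slash_mul]
    exact hF.zero_cusp _

theorem hasSum_of_mf {F : ℍ → ℂ} (hF : IsMF (Gamma1 N) k F) (τ : ℍ) :
    HasSum (fun m ↦ (qExpansion 1 F).coeff m • Function.Periodic.qParam 1 (τ : ℂ) ^ m) (F τ) :=
  hasSum_qExpansion one_pos (hF.periodic (T_mem_Gamma1 N)) hF.holo hF.bdd_infty τ

/-- `q ↦ q^p` on coefficient sequences -/
def vp (p : ℕ) (a : ℕ → ℂ) : ℕ → ℂ := fun n ↦ if p ∣ n then a (n / p) else 0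

theorem hasSum_Vp {p : ℕ} (hp : p ≠ 0) {F : ℍ → ℂ} {a : ℕ → ℂ}
    (h : ∀ τ : ℍ, HasSum (fun m ↦ a m • Function.Periodic.qParam 1 (τ : ℂ) ^ m) (F τ)) (τ : ℍ) :
    HasSum (fun m ↦ vp p a m • Function.Periodic.qParam 1 (τ : ℂ) ^ m) (Vp p F τ) :=
  hasSum_V hp h τ

theorem hasSum_Vp_iter {p : ℕ} (hp : p ≠ 0) {F : ℍ → ℂ} {a : ℕ → ℂ}
    (h : ∀ τ : ℍ, HasSum (fun m ↦ a m • Function.Periodic.qParam 1 (τ : ℂ) ^ m) (F τ)) (r : ℕ)
    (τ : ℍ) :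
    HasSum (fun m ↦ ((vp p)^[r] a) m • Function.Periodic.qParam 1 (τ : ℂ) ^ m)
      (((Vp p)^[r] F) τ) := by
  induction r generalizing τ with
  | zero => exact h τ
  | succ r ih =>
    rw [Function.iterate_succ', Function.iterate_succ']
    exact hasSum_Vp hp ih τ

theorem Vp_smul (p : ℕ) (c : ℂ) (F : ℍ → ℂ) : Vp p (c • F) = c • Vp p F := rfl

theorem Vp_smul_iter (p : ℕ) (c : ℂ) (F : ℍ → ℂ) (r : ℕ) :
    (Vp p)^[r] (c • F) = c • (Vp p)^[r] F := by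
  induction r with
  | zero => rfl
  | succ r ih => rw [Function.iterate_succ_apply', ih, Vp_smul, Function.iterate_succ_apply']

theorem vp_iter_eq_zero {p : ℕ} {a : ℕ → ℂ} {n : ℕ} (h : ∀ m < n, a m = 0) (r : ℕ) :
    ∀ m < n, ((vp p)^[r] a) m = 0 := by
  induction r with
  | zero => exact h
  | succ r ih =>
    intro m hm
    rw [Function.iterate_succ_apply', vp]
    split_ifs
    · exact ih _ (lt_of_le_of_lt (Nat.div_le_self _ _) hm)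
    · rfl

theorem vp_iter_eq_zero' {p : ℕ} (hp : 2 ≤ p) {a : ℕ → ℂ} {n : ℕ} (hn : 0 < n)
    (h : ∀ m < n, a m = 0) (r : ℕ) : ((vp p)^[r + 1] a) n = 0 := by
  rw [Function.iterate_succ_apply', vp]
  split_ifs
  · exact vp_iter_eq_zero h r _ (Nat.div_lt_self hn hp)
  · rfl

/-- **Lemma A1** -/
theorem eq_zero_of_Vp (hk : 0 < k) {p : ℕ} (hp : p.Prime) (hpN : ¬ p ∣ N) {F : ℍ → ℂ}
    (hF : IsMF (Gamma1 N) k F) (hVF : ∀ γ ∈ Gamma1 N, Vp p F ∣[k] γ = Vp p F) : F = 0 := by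
  have hpp : Prime (p : ℤ) := Nat.prime_iff_prime_int.mp hp
  have hcop : IsCoprime (p : ℤ) (N : ℤ) := by
    rw [Nat.isCoprime_iff_coprime]
    exact (Nat.Prime.coprime_iff_not_dvd hp).mpr hpN
  obtain ⟨d, b, hdb, hpd⟩ : ∃ d b : ℤ, p * d - b * N = 1 ∧ ¬ (p : ℤ) ∣ d := by
    obtain ⟨u, v, huv⟩ := hcop
    by_cases h : (p : ℤ) ∣ u
    · refine ⟨u + N, p - v, by linear_combination huv, fun h' ↦ hpN ?_⟩
      have := (dvd_add_right h).mp h'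
      exact_mod_cast this
    · exact ⟨u, -v, by linear_combination huv, h⟩
  let γ₁ : SL(2, ℤ) := ⟨!![1, b; N, p * d], by rw [Matrix.det_fin_two_of]; linarith⟩
  let γ₂ : SL(2, ℤ) := ⟨!![p, b; N, d], by rw [Matrix.det_fin_two_of]; linarith⟩
  have hγ₁ : γ₁ ∈ Gamma1 N := by
    rw [Gamma1_mem]
    refine ⟨by simp [γ₁], ?_, by simp [γ₁]⟩
    have h1 : γ₁ 1 1 = 1 + b * N := by
      change p * d = _
      linarith
    rw [h1]
    simp
  have hγ₂ : γ₂ ∈ Gamma0 N := by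
    rw [Gamma0_mem]
    simp [γ₂]
  -- auxiliary matrix with upper right entry divisible by `p`
  obtain ⟨j, c, hjc⟩ : ∃ j c : ℤ, b + j * d = p * c := by
    obtain ⟨u, v, huv⟩ := (hpp.coprime_iff_not_dvd).mpr hpd
    refine ⟨-(b * v), b * u, ?_⟩
    linear_combination (-b) * huv
  let δ : SL(2, ℤ) := ModularGroup.T ^ j * γ₂
  have hδ00 : δ 0 0 = p + j * N := by
    simp only [δ, Matrix.SpecialLinearGroup.coe_mul, ModularGroup.coe_T_zpow, Matrix.mul_apply,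
      Fin.sum_univ_two]
    simp [γ₂]
  have hδ01 : δ 0 1 = p * c := by
    simp only [δ, Matrix.SpecialLinearGroup.coe_mul, ModularGroup.coe_T_zpow, Matrix.mul_apply,
      Fin.sum_univ_two]
    simp [γ₂, hjc]
  have hδ10 : δ 1 0 = N := by
    simp only [δ, Matrix.SpecialLinearGroup.coe_mul, ModularGroup.coe_T_zpow, Matrix.mul_apply,
      Fin.sum_univ_two]
    simp [γ₂]
  have hδ11 : δ 1 1 = d := by
    simp only [δ, Matrix.SpecialLinearGroup.coe_mul, ModularGroup.coe_T_zpow, Matrix.mul_apply,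
      Fin.sum_univ_two]
    simp [γ₂]
  have hdetδ : (p + j * N) * d - (p * c) * N = 1 := by
    rw [← hjc]; linear_combination hdb
  let δ' : SL(2, ℤ) := ⟨!![p + j * N, c; p * N, d], by
    rw [Matrix.det_fin_two_of]; linear_combination hdetδ⟩
  have hδ' : δ' ∈ Gamma0 N := by
    rw [Gamma0_mem]
    simp [δ']
  -- the property
  let P : (ℍ → ℂ) → Prop := fun F ↦ IsMF (Gamma1 N) k F ∧ ∀ γ ∈ Gamma1 N, Vp p F ∣[k] γ = Vp p F
  have hstep1 : ∀ F, P F → F ∣[k] γ₂ = (p : ℂ) ^ k • Vp p (Vp p F) := by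
    rintro F ⟨hF, hVF⟩
    exact slash_eq_Vp_Vp hp.ne_zero γ₁ γ₂ (hVF _ hγ₁) rfl rfl rfl rfl rfl
  have hstep2 : ∀ F, P F → P (F ∣[k] γ₂) := by
    rintro F ⟨hF, hVF⟩
    refine ⟨IsMF.slash_Gamma0 hF hγ₂, ?_⟩
    have h1 : F ∣[k] γ₂ = F ∣[k] δ := by
      have h2 : F ∣[k] (ModularGroup.T ^ j : SL(2, ℤ)) = F :=
        hF.slash _ ((Gamma1 N).zpow_mem (T_mem_Gamma1 N) j)
      change _ = F ∣[k] (ModularGroup.T ^ j * γ₂)
      rw [SlashAction.slash_mul, h2]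
    have h3 : Vp p (F ∣[k] δ) = (Vp p F) ∣[k] δ' :=
      Vp_slash hp.ne_zero F δ δ' hδ00.symm hδ01 (by rw [hδ10]; rfl) hδ11.symm
    intro γ hγ
    rw [h1, h3]
    have h4 := hVF _ (Gamma1_conj_mem hδ' hγ)
    conv_rhs => rw [← h4]
    rw [← SlashAction.slash_mul, ← SlashAction.slash_mul]
    congr 1
    group
  have hstep3 : ∀ r : ℕ, P (F ∣[k] (γ₂ ^ r)) ∧
      F ∣[k] (γ₂ ^ r) = ((p : ℂ) ^ k) ^ r • (Vp p)^[2 * r] F := by
    intro r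
    induction r with
    | zero => exact ⟨by rw [pow_zero, SlashAction.slash_one]; exact ⟨hF, hVF⟩, by simp⟩
    | succ r ih =>
      obtain ⟨h1, h2⟩ := ih
      have h3 : F ∣[k] (γ₂ ^ (r + 1)) = (F ∣[k] (γ₂ ^ r)) ∣[k] γ₂ := by
        rw [pow_succ, SlashAction.slash_mul]
      refine ⟨by rw [h3]; exact hstep2 _ h1, ?_⟩
      rw [h3, hstep1 _ h1, h2, Vp_smul, Vp_smul, smul_smul, ← pow_succ', show 2 * (r + 1) =
        2 * r + 1 + 1 by ring, Function.iterate_succ_apply', Function.iterate_succ_apply']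
  obtain ⟨r, hr0, hr1, hr⟩ := Subgroup.exists_pow_mem_of_index_ne_zero
    (H := Gamma1 N) (Subgroup.FiniteIndex.index_ne_zero) γ₂
  have h1 := (hstep3 r).2
  rw [hF.slash _ hr] at h1
  -- coefficients
  set a : ℕ → ℂ := fun n ↦ (qExpansion 1 F).coeff n with ha
  have h2 : ∀ τ : ℍ, HasSum (fun m ↦ (((p : ℂ) ^ k) ^ r * ((vp p)^[2 * r] a) m) •
      Function.Periodic.qParam 1 (τ : ℂ) ^ m) (F τ) := by
    intro τ
    have h3 := (hasSum_Vp_iter hp.ne_zero (hasSum_of_mf hF) (2 * r) τ).mul_left (((p : ℂ) ^ k) ^ r)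
    have h5 : F τ = ((p : ℂ) ^ k) ^ r * ((Vp p)^[2 * r] F) τ := congrFun h1 τ
    rw [h5]
    have h6 : (fun m ↦ (((p : ℂ) ^ k) ^ r * ((vp p)^[2 * r] a) m) •
      Function.Periodic.qParam 1 (τ : ℂ) ^ m) = fun m ↦ ((p : ℂ) ^ k) ^ r *
        (((vp p)^[2 * r] a) m • Function.Periodic.qParam 1 (τ : ℂ) ^ m) := by
      funext m
      rw [smul_eq_mul, smul_eq_mul, mul_assoc]
    rw [h6]
    exact h3
  have h3 : ∀ n, a n = ((p : ℂ) ^ k) ^ r * ((vp p)^[2 * r] a) n := fun n ↦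
    coeff_unique hF.holo.continuous (hF.analyticAt (T_mem_Gamma1 N)) h2 n
  obtain ⟨s, rfl⟩ : ∃ s, r = s + 1 := ⟨r - 1, by omega⟩
  have h4 : ∀ n, a n = 0 := by
    intro n
    induction n using Nat.strong_induction_on with
    | _ n ih =>
      rcases Nat.eq_zero_or_pos n with rfl | hn
      · have h5 := h3 0
        have h6 : ∀ m : ℕ, ((vp p)^[m] a) 0 = a 0 := by
          intro m
          induction m with
          | zero => rfl
          | succ m ih2 => rw [Function.iterate_succ_apply', vp, if_pos (dvd_zero _), Nat.zero_div, ih2]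
        rw [h6] at h5
        by_contra hne
        have h7 : ((p : ℂ) ^ k) ^ (s + 1) = 1 := by
          have : (((p : ℂ) ^ k) ^ (s + 1) - 1) * a 0 = 0 := by linear_combination -h5
          rcases mul_eq_zero.mp this with h | h
          · exact sub_eq_zero.mp h
          · exact absurd h hne
        have h8 : ‖((p : ℂ) ^ k) ^ (s + 1)‖ = 1 := by rw [h7, norm_one]
        rw [norm_pow, norm_zpow, Complex.norm_natCast] at h8
        have h9 : (1 : ℝ) < (p : ℝ) ^ k := one_lt_zpow₀ (by exact_mod_cast hp.one_lt) hk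
        exact absurd h8 (one_lt_pow₀ h9 (by omega)).ne'
      · rw [h3 n, show 2 * (s + 1) = (2 * s + 1) + 1 by ring,
          vp_iter_eq_zero' hp.two_le hn ih, mul_zero]
  refine hF.eq_zero_of_qExpansion (T_mem_Gamma1 N) ?_
  ext n
  rw [map_zero]
  exact h4 n

end Fermat.Agent.DS
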