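import Mathlib
import Fermat.Agent.RepTwo.PseudoChar

/-!
# Lifting two-dimensional mod `ℓ` representations with small image to characteristic zero
-/

set_option autoImplicit false

open Finset Polynomial

namespace Fermat.Agent.DS

local notation "ℤbar" => integralClosure ℤ ℂ

theorem exists_mul_eq_intCast {x : ℤbar} (hx : x ≠ 0) :
    ∃ (y : ℤbar) (m : ℤ), m ≠ 0 ∧ x * y = m := by
  have hint : IsIntegral ℤ x := by
    have := x.2
    rw [mem_integralClosure_iff] at this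
    rwa [← isIntegral_algebraMap_iff (B := ℂ) (FaithfulSMul.algebraMap_injective ℤbar ℂ)]
  have h0 : (minpoly ℤ x).coeff 0 ≠ 0 := by
    intro h0
    have h1 := Polynomial.divX_mul_X_add (minpoly ℤ x)
    rw [h0, C_0, add_zero] at h1
    have hmon := minpoly.monic hint
    have hd : (minpoly ℤ x).divX.Monic := by
      rw [← h1] at hmon
      rw [Monic, leadingCoeff_mul_X] at hmon
      exact hmon
    have h2 := minpoly.aeval ℤ x
    rw [← h1, map_mul, aeval_X] at h2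
    have h3 : aeval x (minpoly ℤ x).divX = 0 := (mul_eq_zero.mp h2).resolve_right hx
    have h4 := minpoly.min ℤ x hd h3
    have h5 : (minpoly ℤ x).natDegree = (minpoly ℤ x).divX.natDegree + 1 := by
      conv_lhs => rw [← h1]
      rw [natDegree_mul_X hd.ne_zero]
    have h6 := natDegree_le_natDegree h4
    omega
  refine ⟨-(aeval x (minpoly ℤ x).divX), (minpoly ℤ x).coeff 0, h0, ?_⟩
  have h1 := minpoly.aeval ℤ x
  rw [← Polynomial.divX_mul_X_add (minpoly ℤ x)] at h1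
  rw [map_add, map_mul, aeval_X, aeval_C] at h1
  have h2 : (algebraMap ℤ ℤbar) ((minpoly ℤ x).coeff 0) = (((minpoly ℤ x).coeff 0 : ℤ) : ℤbar) :=
    rfl
  rw [← h2]
  linear_combination -h1

theorem exists_bound_ne_zero {x : ℤbar} (hx : x ≠ 0) : ∃ B : ℕ, ∀ ℓ : ℕ, B < ℓ →
    ∀ (k : Type) [Field k] [CharP k ℓ] (φ : ℤbar →+* k), φ x ≠ 0 := by
  obtain ⟨y, m, hm, hxy⟩ := exists_mul_eq_intCast hx
  refine ⟨m.natAbs, fun ℓ hℓ k _ _ φ h0 ↦ ?_⟩
  have h1 := congrArg φ hxy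
  rw [map_mul, h0, zero_mul, map_intCast] at h1
  have h2 := (CharP.intCast_eq_zero_iff k ℓ m).mp h1.symm
  have h3 := Int.natAbs_dvd_natAbs.mpr h2
  have h4 := Nat.le_of_dvd (Int.natAbs_pos.mpr hm) h3
  simp at h4
  omega

theorem exists_bound_injOn (D : Finset ℤbar) : ∃ B : ℕ, ∀ ℓ : ℕ, B < ℓ →
    ∀ (k : Type) [Field k] [CharP k ℓ] (φ : ℤbar →+* k),
      ∀ x ∈ D, ∀ y ∈ D, φ x = φ y → x = y := by
  classical
  have h : ∀ z : ℤbar × ℤbar, ∃ B : ℕ, z.1 ≠ z.2 → ∀ ℓ : ℕ, B < ℓ →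
      ∀ (k : Type) [Field k] [CharP k ℓ] (φ : ℤbar →+* k), φ z.1 ≠ φ z.2 := by
    intro z
    by_cases hz : z.1 = z.2
    · exact ⟨0, fun h ↦ absurd hz h⟩
    · obtain ⟨B, hB⟩ := exists_bound_ne_zero (sub_ne_zero.mpr hz)
      refine ⟨B, fun _ ℓ hℓ k _ _ φ h ↦ hB ℓ hℓ k φ ?_⟩
      rw [map_sub, h, sub_self]
  choose B hB using h
  refine ⟨(D ×ˢ D).sup B, fun ℓ hℓ k _ _ φ x hx y hy hxy ↦ ?_⟩
  by_contra hne
  refine hB (x, y) hne ℓ (lt_of_le_of_lt ?_ hℓ) k φ hxy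
  exact Finset.le_sup (f := B) (Finset.mem_product.mpr ⟨hx, hy⟩)

/-- the `n`-th roots of unity -/
noncomputable def U (n : ℕ) : Finset ℤbar := nthRootsFinset n (1 : ℤbar)

open Classical in
/-- the sums of two `n`-th roots of unity -/
noncomputable def TT (n : ℕ) : Finset ℤbar := (U n ×ˢ U n).image fun z ↦ z.1 + z.2

theorem mem_U {n : ℕ} (hn : 0 < n) {x : ℤbar} : x ∈ U n ↔ x ^ n = 1 := by
  rw [U, mem_nthRootsFinset hn]

theorem exists_isPrimitiveRoot {n : ℕ} (hn : 0 < n) : ∃ ζ : ℤbar, IsPrimitiveRoot ζ n := by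
  have h := Complex.isPrimitiveRoot_exp n hn.ne'
  have hint : IsIntegral ℤ (Complex.exp (2 * Real.pi * Complex.I / n)) :=
    h.isIntegral hn
  refine ⟨⟨_, hint⟩, ?_⟩
  exact IsPrimitiveRoot.of_map_of_injective (f := algebraMap ℤbar ℂ) h
    (FaithfulSMul.algebraMap_injective ℤbar ℂ)

theorem exists_mem_U {k : Type} [Field k] (φ : ℤbar →+* k) {n : ℕ} (hn : 0 < n) {α : k}
    (hα : α ^ n = 1) : ∃ ζ ∈ U n, φ ζ = α := by
  obtain ⟨ζ, hζ⟩ := exists_isPrimitiveRoot hn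
  have h1 := X_pow_sub_one_eq_prod hn hζ
  have h2 := congrArg (fun P ↦ (Polynomial.map φ P).eval α) h1
  simp only [Polynomial.map_sub, Polynomial.map_pow, Polynomial.map_X, Polynomial.map_one,
    eval_sub, eval_pow, eval_X, eval_one, hα, sub_self, Polynomial.map_prod, Polynomial.map_C,
    eval_prod, eval_C] at h2
  obtain ⟨z, hz, hz2⟩ := Finset.prod_eq_zero_iff.mp h2.symm
  exact ⟨z, hz, (sub_eq_zero.mp hz2).symm⟩

section Mat

variable {k : Type} [Field k]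

theorem eigen_pow_eq_one {M : Matrix (Fin 2) (Fin 2) k} {n : ℕ} (hM : M ^ n = 1) {α : k}
    (hα : α ^ 2 - M.trace * α + M.det = 0) : α ^ n = 1 := by
  have h1 : (M - Matrix.scalar (Fin 2) α).det = 0 := by
    rw [← hα, Matrix.det_fin_two, Matrix.trace_fin_two, Matrix.det_fin_two]
    simp
    ring
  obtain ⟨v, hv, hv2⟩ := Matrix.exists_mulVec_eq_zero_iff.mpr h1
  have h2 : M.mulVec v = α • v := by
    rw [Matrix.sub_mulVec, sub_eq_zero] at hv2
    rw [hv2]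
    ext i
    fin_cases i <;> simp [Matrix.mulVec, dotProduct, Matrix.scalar_apply, Matrix.diagonal]
  have h3 : ∀ m : ℕ, (M ^ m).mulVec v = α ^ m • v := by
    intro m
    induction m with
    | zero => simp
    | succ m ih => rw [pow_succ, ← Matrix.mulVec_mulVec, h2, Matrix.mulVec_smul, ih, smul_smul,
        pow_succ]; congr 1; ring
  have h4 := h3 n
  rw [hM, Matrix.one_mulVec] at h4
  obtain ⟨i, hi⟩ := Function.ne_iff.mp hv
  have h5 := congrFun h4 i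
  simp only [Pi.smul_apply, smul_eq_mul] at h5
  have h6 : (α ^ n - 1) * v i = 0 := by linear_combination -h5
  exact sub_eq_zero.mp ((mul_eq_zero.mp h6).resolve_right hi)

theorem exists_eigen [IsAlgClosed k] {M : Matrix (Fin 2) (Fin 2) k} {n : ℕ} (hM : M ^ n = 1) :
    ∃ α β : k, α ^ n = 1 ∧ β ^ n = 1 ∧ M.trace = α + β ∧ M.det = α * β := by
  obtain ⟨α, hα⟩ := IsAlgClosed.exists_root (X ^ 2 - C M.trace * X + C M.det : k[X]) (by
    have : (X ^ 2 - C M.trace * X + C M.det : k[X]).degree = 2 := by compute_degree!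
    rw [this]
    exact two_ne_zero)
  have hα' : α ^ 2 - M.trace * α + M.det = 0 := by
    simpa [IsRoot.def] using hα
  have hβ' : (M.trace - α) ^ 2 - M.trace * (M.trace - α) + M.det = 0 := by
    linear_combination hα'
  exact ⟨α, M.trace - α, eigen_pow_eq_one hM hα', eigen_pow_eq_one hM hβ', by ring,
    by linear_combination hα'⟩

theorem trace_identity (A B B' : Matrix (Fin 2) (Fin 2) k) (h : B * B' = 1) :
    (A * B).trace + B.det * (A * B').trace = A.trace * B.trace := by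
  have h1 : B' = (B.det)⁻¹ • B.adjugate := by
    have hdet : IsUnit B.det := by
      have := congrArg Matrix.det h
      rw [Matrix.det_mul, Matrix.det_one] at this
      exact IsUnit.of_mul_eq_one _ this
    have h2 : B⁻¹ = B' := by
      exact Matrix.inv_eq_right_inv h
    rw [← h2, Matrix.inv_def]
    simp
  have hdet : B.det ≠ 0 := by
    have := congrArg Matrix.det h
    rw [Matrix.det_mul, Matrix.det_one] at this
    intro h0
    rw [h0, zero_mul] at this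
    exact zero_ne_one this
  rw [h1, Matrix.mul_smul, Matrix.trace_smul, smul_eq_mul, ← mul_assoc, mul_inv_cancel₀ hdet,
    one_mul, Matrix.adjugate_fin_two, Matrix.trace_fin_two, Matrix.trace_fin_two,
    Matrix.trace_fin_two, Matrix.trace_fin_two]
  simp [Matrix.mul_apply, Fin.sum_univ_two]
  ring

end Mat

open Fermat.Agent.RepTwo in
theorem traceLin_mul_of {L : Type*} [Field L] {G : Type*} [Group G] {t : G → L} {h : G}
    (ht : ∀ g, t (g * h) = t g) (w : MonoidAlgebra L G) :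
    traceLin t (w * MonoidAlgebra.of L G h) = traceLin t w := by
  induction w using MonoidAlgebra.induction_linear with
  | zero => simp
  | add x y hx hy => rw [add_mul, map_add, map_add, hx, hy]
  | single g r =>
    rw [MonoidAlgebra.of_apply, MonoidAlgebra.single_mul_single, traceLin_single,
      traceLin_single, ht, mul_one]

open Classical in
/-- the finite set of algebraic integers on which reduction has to be injective -/
noncomputable def DD (n : ℕ) : Finset ℤbar :=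
  (TT n ∪ U n ∪ ((U n ×ˢ U n).image fun z ↦ z.1 * z.2) ∪
    ((TT n ×ˢ (U n ×ˢ TT n)).image fun z ↦ z.1 + z.2.1 * z.2.2)) ∪
    ((TT n ×ˢ TT n).image fun z ↦ z.1 * z.2) ∪ {1, 2, -1}

theorem TT_sub {n : ℕ} {x : ℤbar} (hx : x ∈ TT n) : x ∈ DD n :=
  mem_union_left _ (mem_union_left _ (mem_union_left _ (mem_union_left _ (mem_union_left _ hx))))

theorem U_sub {n : ℕ} {x : ℤbar} (hx : x ∈ U n) : x ∈ DD n :=
  mem_union_left _ (mem_union_left _ (mem_union_left _ (mem_union_left _ (mem_union_right _ hx))))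

theorem UU_sub {n : ℕ} {x y : ℤbar} (hx : x ∈ U n) (hy : y ∈ U n) : x * y ∈ DD n :=
  mem_union_left _ (mem_union_left _ (mem_union_left _ (mem_union_right _
    (Finset.mem_image.mpr ⟨(x, y), Finset.mem_product.mpr ⟨hx, hy⟩, rfl⟩))))

theorem TUT_sub {n : ℕ} {x y z : ℤbar} (hx : x ∈ TT n) (hy : y ∈ U n) (hz : z ∈ TT n) :
    x + y * z ∈ DD n :=
  mem_union_left _ (mem_union_left _ (mem_union_right _
    (Finset.mem_image.mpr ⟨(x, (y, z)), Finset.mem_product.mpr ⟨hx,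
        Finset.mem_product.mpr ⟨hy, hz⟩⟩, rfl⟩)))

theorem TTTT_sub {n : ℕ} {x y : ℤbar} (hx : x ∈ TT n) (hy : y ∈ TT n) : x * y ∈ DD n :=
  mem_union_left _ (mem_union_right _
    (Finset.mem_image.mpr ⟨(x, y), Finset.mem_product.mpr ⟨hx, hy⟩, rfl⟩))

theorem one_sub (n : ℕ) : (1 : ℤbar) ∈ DD n := mem_union_right _ (by simp)

theorem two_sub (n : ℕ) : (2 : ℤbar) ∈ DD n := mem_union_right _ (by simp)

theorem neg_one_sub (n : ℕ) : (-1 : ℤbar) ∈ DD n := mem_union_right _ (by simp)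

open Fermat.Agent.RepTwo in
/-- **Lifting of representations with bounded image.** -/
theorem exists_charZero_lift_of_injOn {n : ℕ} (hn : 0 < n) {k : Type} [Field k]
    [IsAlgClosed k] (φ : ℤbar →+* k) (hφ : ∀ x ∈ DD n, ∀ y ∈ DD n, φ x = φ y → x = y)
    {Γ : Type} [Group Γ] (ρ : Γ →* Matrix (Fin 2) (Fin 2) k) (hρ : ∀ g, ρ g ^ n = 1)
    {c₀ : Γ} (hc₀ : c₀ * c₀ = 1) (hodd : (ρ c₀).det = -1) :
    ∃ M : Γ →* Matrix (Fin 2) (Fin 2) ℂ, (∀ h, ρ h = 1 → M h = 1) ∧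
      ∀ g, ∃ t ∈ TT n, ∃ c ∈ U n, (M g).trace = t ∧ (M g).det = c ∧
        φ t = (ρ g).trace ∧ φ c = (ρ g).det := by
  classical
  have h1 : ∀ g, ∃ t ∈ TT n, ∃ c ∈ U n, φ t = (ρ g).trace ∧ φ c = (ρ g).det := by
    intro g
    obtain ⟨α, β, hα, hβ, htr, hdet⟩ := exists_eigen (hρ g)
    obtain ⟨ζ, hζ, rfl⟩ := exists_mem_U φ hn hα
    obtain ⟨ξ, hξ, rfl⟩ := exists_mem_U φ hn hβ
    refine ⟨ζ + ξ, ?_, ζ * ξ, ?_, by rw [map_add, htr], by rw [map_mul, hdet]⟩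
    · exact Finset.mem_image.mpr ⟨(ζ, ξ), Finset.mem_product.mpr ⟨hζ, hξ⟩, rfl⟩
    · rw [mem_U hn] at hζ hξ ⊢
      rw [mul_pow, hζ, hξ, one_mul]
  choose t ht c hc htt hcc using h1
  have hTD : ∀ {x}, x ∈ TT n → x ∈ DD n := fun {x} hx ↦ TT_sub hx
  have hUD : ∀ {x}, x ∈ U n → x ∈ DD n := fun {x} hx ↦ U_sub hx
  have hUUD : ∀ {x y}, x ∈ U n → y ∈ U n → x * y ∈ DD n := fun {x y} hx hy ↦ UU_sub hx hy
  have hTTD : ∀ {x y}, x ∈ TT n → y ∈ TT n → x * y ∈ DD n := fun {x y} hx hy ↦ TTTT_sub hx hy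
  have hTUD : ∀ {x y z}, x ∈ TT n → y ∈ U n → z ∈ TT n → x + y * z ∈ DD n :=
    fun {x y z} hx hy hz ↦ TUT_sub hx hy hz
  have h1D : (1 : ℤbar) ∈ DD n := one_sub n
  have h2D : (2 : ℤbar) ∈ DD n := two_sub n
  have hm1D : (-1 : ℤbar) ∈ DD n := neg_one_sub n
  have ht1 : t 1 = 2 := by
    refine hφ _ (hTD (ht 1)) _ h2D ?_
    rw [htt, map_one, Matrix.trace_one, Fintype.card_fin, map_ofNat]
    norm_num
  have hc1 : c 1 = 1 := by
    refine hφ _ (hUD (hc 1)) _ h1D ?_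
    rw [hcc, map_one, Matrix.det_one, map_one]
  have hcmul : ∀ g h, c (g * h) = c g * c h := by
    intro g h
    refine hφ _ (hUD (hc _)) _ (hUUD (hc _) (hc _)) ?_
    rw [hcc, map_mul, Matrix.det_mul, map_mul, hcc, hcc]
  have htcomm : ∀ g h, t (g * h) = t (h * g) := by
    intro g h
    refine hφ _ (hTD (ht _)) _ (hTD (ht _)) ?_
    rw [htt, htt, map_mul, map_mul, Matrix.trace_mul_comm]
  have htmul : ∀ g h, t (g * h) + c h * t (g * h⁻¹) = t g * t h := by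
    intro g h
    refine hφ _ (hTUD (ht _) (hc _) (ht _)) _ (hTTD (ht _) (ht _)) ?_
    rw [map_add, map_mul, map_mul, htt, hcc, htt, htt, htt, map_mul, map_mul]
    exact trace_identity _ _ _ (by rw [← map_mul, mul_inv_cancel, map_one])
  have hcodd : c c₀ = -1 := by
    refine hφ _ (hUD (hc _)) _ hm1D ?_
    rw [hcc, hodd, map_neg, map_one]
  let cc : Γ →* ℂ :=
    { toFun := fun g ↦ (c g : ℂ)
      map_one' := by rw [hc1]; rfl
      map_mul' := fun g h ↦ by rw [hcmul]; rfl }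
  have hps : IsPseudoChar (fun g ↦ (t g : ℂ)) cc := by
    refine ⟨?_, fun g h ↦ ?_, fun g h ↦ ?_⟩
    · change ((t 1 : ℤbar) : ℂ) = 2
      rw [ht1]; rfl
    · rw [htcomm]
    · change ((t (g * h) : ℤbar) : ℂ) + ((c h : ℤbar) : ℂ) * ((t (g * h⁻¹) : ℤbar) : ℂ) =
        ((t g : ℤbar) : ℂ) * ((t h : ℤbar) : ℂ)
      exact_mod_cast congrArg (algebraMap ℤbar ℂ) (htmul g h)
  obtain ⟨M, w, hM1, hM2, hM3⟩ := hps.exists_matrix_rep two_ne_zero hc₀ (by
    change ((c c₀ : ℤbar) : ℂ) = -1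
    rw [hcodd]; rfl)
  refine ⟨M, fun h hh ↦ ?_, fun g ↦ ⟨t g, ht g, c g, hc g, hM1 g, hM2 g, htt g, hcc g⟩⟩
  have h3 : ∀ g, t (g * h) = t g := by
    intro g
    refine hφ _ (hTD (ht _)) _ (hTD (ht _)) ?_
    rw [htt, htt, map_mul, hh, mul_one]
  rw [← map_one M]
  ext i j
  rw [hM3, hM3, map_one, mul_one]
  exact traceLin_mul_of (fun g ↦ by rw [h3]) _

/-- **Lifting of representations with bounded image.** -/
theorem exists_charZero_lift {n : ℕ} (hn : 0 < n) : ∃ B : ℕ, ∀ ℓ : ℕ, B < ℓ →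
    ∀ (k : Type) [Field k] [CharP k ℓ] [IsAlgClosed k] (φ : ℤbar →+* k),
      (∀ x ∈ DD n, ∀ y ∈ DD n, φ x = φ y → x = y) ∧
      ∀ (Γ : Type) [Group Γ] (ρ : Γ →* Matrix (Fin 2) (Fin 2) k) (_ : ∀ g, ρ g ^ n = 1)
        (c₀ : Γ) (_ : c₀ * c₀ = 1) (_ : (ρ c₀).det = -1),
      ∃ M : Γ →* Matrix (Fin 2) (Fin 2) ℂ, (∀ h, ρ h = 1 → M h = 1) ∧
        ∀ g, ∃ t ∈ TT n, ∃ c ∈ U n, (M g).trace = t ∧ (M g).det = c ∧
          φ t = (ρ g).trace ∧ φ c = (ρ g).det := by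
  obtain ⟨B, hB⟩ := exists_bound_injOn (DD n)
  refine ⟨B, fun ℓ hℓ k _ _ _ φ ↦ ⟨hB ℓ hℓ k φ, fun Γ _ ρ hρ c₀ hc₀ hodd ↦ ?_⟩⟩
  exact exists_charZero_lift_of_injOn hn φ (hB ℓ hℓ k φ) ρ hρ hc₀ hodd

end Fermat.Agent.DS
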