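import Mathlib

/-!
# An abstract Rankin bound

For a sequence `a` with the multiplicative properties of the coefficients of a weight one
eigenform and `∑_{n ≤ M} |a n|² = O(M)` we have `∑ |a p|² p^{-s} ≤ log (1/(s-1)) + O(1)`.
-/

set_option autoImplicit false

open Finset

namespace Fermat.Agent.DS

/-- comparison of weighted sums by summation by parts -/
theorem sum_mul_le_of_partialSums_le {b w : ℕ → ℝ} {C : ℝ} (hw : Antitone w)
    (hw0 : ∀ n, 0 ≤ w n) (hb : ∀ M : ℕ, ∑ n ∈ range M, b n ≤ C * M) (M : ℕ) :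
    ∑ n ∈ range M, b n * w n ≤ C * ∑ n ∈ range M, w n := by
  have key : ∀ M : ℕ, (C * M - ∑ n ∈ range M, b n) * w M ≤
      C * ∑ n ∈ range M, w n - ∑ n ∈ range M, b n * w n := by
    intro M
    induction M with
    | zero => simp
    | succ M ih =>
      have h1 := hb (M + 1)
      have h2 : w (M + 1) ≤ w M := hw (Nat.le_succ M)
      have h3 : (C * ((M + 1 : ℕ) : ℝ) - ∑ n ∈ range (M + 1), b n) * w (M + 1) ≤
          (C * ((M + 1 : ℕ) : ℝ) - ∑ n ∈ range (M + 1), b n) * w M :=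
        mul_le_mul_of_nonneg_left h2 (by linarith)
      refine h3.trans ?_
      rw [sum_range_succ b, sum_range_succ w, sum_range_succ (fun n ↦ b n * w n)]
      push_cast
      nlinarith [ih]
  have h1 := key M
  have h2 : 0 ≤ (C * M - ∑ n ∈ range M, b n) * w M :=
    mul_nonneg (by linarith [hb M]) (hw0 M)
  linarith

/-- the basic bound for the zeta function -/
theorem sum_rpow_le {s : ℝ} (hs : 1 < s) (M : ℕ) :
    ∑ n ∈ range (M + 1), ((n : ℝ) + 1) ^ (-s) ≤ 1 + (1 - ((M : ℝ) + 1) ^ (1 - s)) / (s - 1) := by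
  induction M with
  | zero => simp
  | succ M ih =>
    rw [sum_range_succ]
    have hs0 : 0 < s - 1 := by linarith
    set x : ℝ := (M : ℝ) + 1 with hx
    have hx0 : 0 < x := by positivity
    have hcast : ((M + 1 : ℕ) : ℝ) + 1 = x + 1 := by push_cast; ring
    rw [hcast]
    have key : (s - 1) * (x + 1) ^ (-s) ≤ x ^ (1 - s) - (x + 1) ^ (1 - s) := by
      set u : ℝ := 1 / (x + 1) with hu
      have hu0 : 0 < u := by positivity
      have hu1 : 0 < 1 - u := by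
        rw [hu, sub_pos, div_lt_one (by positivity)]; linarith
      have e1 : x = (x + 1) * (1 - u) := by rw [hu]; field_simp; ring
      have e2 : x ^ (1 - s) = (x + 1) ^ (1 - s) * (1 - u) ^ (1 - s) := by
        conv_lhs => rw [e1]
        rw [Real.mul_rpow (by positivity) hu1.le]
      have e3 : 1 + (s - 1) * u ≤ (1 - u) ^ (1 - s) := by
        rw [Real.rpow_def_of_pos hu1]
        have h1 := Real.add_one_le_exp (Real.log (1 - u) * (1 - s))
        have h2 := Real.log_le_sub_one_of_pos hu1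
        nlinarith
      have e4 : (x + 1) ^ (-s) = (x + 1) ^ (1 - s) * u := by
        rw [hu, mul_one_div, eq_div_iff (by positivity), ← Real.rpow_add_one (by positivity)]
        congr 1; ring
      have e5 : 0 < (x + 1) ^ (1 - s) := by positivity
      rw [e2, e4]
      nlinarith
    have h3 : (x + 1) ^ (-s) ≤ (x ^ (1 - s) - (x + 1) ^ (1 - s)) / (s - 1) := by
      rw [le_div_iff₀ hs0]; linarith
    have h4 : (1 - (x + 1) ^ (1 - s)) / (s - 1) = (1 - x ^ (1 - s)) / (s - 1) +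
        (x ^ (1 - s) - (x + 1) ^ (1 - s)) / (s - 1) := by
      rw [← add_div]; congr 1; ring
    rw [h4]
    linarith

theorem sum_rpow_le' {s : ℝ} (hs : 1 < s) (hs2 : s ≤ 2) (M : ℕ) :
    ∑ n ∈ range M, ((n : ℝ) + 1) ^ (-s) ≤ 2 / (s - 1) := by
  have hs0 : 0 < s - 1 := by linarith
  rcases M with _ | M
  · simp; positivity
  · refine (sum_rpow_le hs M).trans ?_
    have h1 : 0 < ((M : ℝ) + 1) ^ (1 - s) := by positivity
    rw [← sub_nonneg]
    have : 2 / (s - 1) - (1 + (1 - ((M : ℝ) + 1) ^ (1 - s)) / (s - 1)) =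
      (2 - s + ((M : ℝ) + 1) ^ (1 - s)) / (s - 1) := by
      field_simp
      ring
    rw [this]
    apply div_nonneg _ hs0.le
    linarith

/-- the basic elementary inequality -/
theorem exp_le_aux {y x : ℝ} (hy0 : 0 ≤ y) (hy : y ≤ 26 / 25) (hx0 : 0 ≤ x) (hx : x ≤ 1 / 100) :
    Real.exp (y - 6 * x ^ 2) ≤ 1 + y + (y - x) ^ 2 := by
  have h1 : Real.exp (y / 2) ≤ 1 + y / 2 + (y / 2) ^ 2 / 2 + 2 / 9 * (y / 2) ^ 3 := by
    have := Real.exp_bound' (x := y / 2) (by linarith) (by linarith) (n := 3) (by norm_num)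
    refine this.trans (le_of_eq ?_)
    simp [Finset.sum_range_succ, Nat.factorial]
    ring
  have h2 : Real.exp y ≤ 1 + y + 3 / 4 * y ^ 2 := by
    have h3 : Real.exp y = Real.exp (y / 2) ^ 2 := by
      rw [← Real.exp_nat_mul]; congr 1; push_cast; ring
    rw [h3]
    have h4 : Real.exp (y / 2) ^ 2 ≤ (1 + y / 2 + (y / 2) ^ 2 / 2 + 2 / 9 * (y / 2) ^ 3) ^ 2 :=
      pow_le_pow_left₀ (Real.exp_pos _).le h1 2
    refine h4.trans ?_
    obtain ⟨z, rfl⟩ : ∃ z, y = 2 * z := ⟨y / 2, by ring⟩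
    have hz0 : 0 ≤ z := by linarith
    have hz : z ≤ 13 / 25 := by linarith
    have e1 : (1 + 2 * z / 2 + (2 * z / 2) ^ 2 / 2 + 2 / 9 * (2 * z / 2) ^ 3) ^ 2 =
      1 + 2 * z + 2 * z ^ 2 + z ^ 2 * (13 / 9 * z + 25 / 36 * z ^ 2 + 2 / 9 * z ^ 3
        + 4 / 81 * z ^ 4) := by ring
    have e2 : 13 / 9 * z + 25 / 36 * z ^ 2 + 2 / 9 * z ^ 3 + 4 / 81 * z ^ 4 ≤ 1 := by
      have a2 : z ^ 2 ≤ (13 / 25) ^ 2 := pow_le_pow_left₀ hz0 hz 2
      have a3 : z ^ 3 ≤ (13 / 25) ^ 3 := pow_le_pow_left₀ hz0 hz 3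
      have a4 : z ^ 4 ≤ (13 / 25) ^ 4 := pow_le_pow_left₀ hz0 hz 4
      norm_num at a2 a3 a4 ⊢
      linarith
    rw [e1]
    nlinarith [mul_le_mul_of_nonneg_left e2 (sq_nonneg z)]
  have h5 : Real.exp (-(6 * x ^ 2)) ≤ 1 - 3 * x ^ 2 := by
    have hu : 0 ≤ x ^ 2 := sq_nonneg x
    have hu' : x ^ 2 ≤ 1 / 10000 := by nlinarith
    have h6 : 1 + 6 * x ^ 2 ≤ Real.exp (6 * x ^ 2) := by
      have := Real.add_one_le_exp (6 * x ^ 2); linarith
    rw [Real.exp_neg, inv_le_comm₀ (Real.exp_pos _) (by linarith)]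
    refine le_trans ?_ h6
    rw [inv_le_iff_one_le_mul₀ (by linarith)]
    nlinarith
  have h7 : Real.exp (y - 6 * x ^ 2) = Real.exp y * Real.exp (-(6 * x ^ 2)) := by
    rw [← Real.exp_add]; congr 1
  rw [h7]
  have h8 : (1 : ℝ) ≤ Real.exp y := Real.one_le_exp hy0
  have h9 : Real.exp y * Real.exp (-(6 * x ^ 2)) ≤ Real.exp y * (1 - 3 * x ^ 2) :=
    mul_le_mul_of_nonneg_left h5 (Real.exp_pos _).le
  refine h9.trans ?_
  nlinarith [sq_nonneg x, sq_nonneg (y / 2 - 2 * x), mul_nonneg (sq_nonneg x) (sub_nonneg.mpr h8)]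

/-- the abstract properties of the coefficients of a weight one eigenform -/
structure RankinSeq (N : ℕ) (ε a : ℕ → ℂ) : Prop where
  one : a 1 = 1
  mul : ∀ m n : ℕ, m.Coprime n → m.Coprime N → n.Coprime N → a (m * n) = a m * a n
  recur : ∀ p : ℕ, p.Prime → ¬ p ∣ N → ∀ r : ℕ,
    a (p ^ (r + 2)) = a p * a (p ^ (r + 1)) - ε p * a (p ^ r)
  norm_eps : ∀ p : ℕ, p.Prime → ¬ p ∣ N → ‖ε p‖ = 1
  sum_le : ∃ C : ℝ, ∀ M : ℕ, ∑ n ∈ range M, ‖a (n + 1)‖ ^ 2 ≤ C * M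

namespace RankinSeq

variable {N : ℕ} {ε a : ℕ → ℂ} (h : RankinSeq N ε a)

include h in
theorem norm_sq_le : ∃ C : ℝ, 0 < C ∧ ∀ n : ℕ, n ≠ 0 → ‖a n‖ ^ 2 ≤ C * n := by
  obtain ⟨C, hC⟩ := h.sum_le
  refine ⟨max C 1, lt_max_of_lt_right one_pos, fun n hn ↦ ?_⟩
  obtain ⟨m, rfl⟩ := Nat.exists_eq_succ_of_ne_zero hn
  have h1 := hC (m + 1)
  have h2 : ‖a (m + 1)‖ ^ 2 ≤ ∑ n ∈ range (m + 1), ‖a (n + 1)‖ ^ 2 :=
    single_le_sum (f := fun n ↦ ‖a (n + 1)‖ ^ 2) (fun _ _ ↦ sq_nonneg _) (self_mem_range_succ m)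
  refine (h2.trans h1).trans ?_
  exact mul_le_mul_of_nonneg_right (le_max_left _ _) (Nat.cast_nonneg _)

include h in
/-- for large primes `|a p| ≤ 1.01 √p` -/
theorem norm_sq_prime_le {p : ℕ} (hp : p.Prime) (hpN : ¬ p ∣ N) (hp0 : 10000 < p) :
    ‖a p‖ ^ 2 ≤ 26 / 25 * p := by
  by_contra hcon
  push Not at hcon
  obtain ⟨C, hC0, hC⟩ := h.norm_sq_le
  have hpR : (10000 : ℝ) < p := by exact_mod_cast hp0
  set A := ‖a p‖ with hA
  have hA0 : 0 ≤ A := norm_nonneg _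
  have hA1 : 101 < A := by nlinarith
  set κ := A - 1 with hκ
  have hκ1 : 1 ≤ κ := by linarith
  have hκp : (p : ℝ) * (101 / 100) < κ ^ 2 := by
    have : κ ^ 2 = A ^ 2 - 2 * A + 1 := by rw [hκ]; ring
    have h1 : 2 * A ≤ A ^ 2 * (2 / 101) := by nlinarith
    nlinarith
  have hgrow : ∀ r : ℕ, 1 ≤ ‖a (p ^ r)‖ ∧ κ * ‖a (p ^ r)‖ ≤ ‖a (p ^ (r + 1))‖ := by
    intro r
    induction r with
    | zero =>
      rw [pow_zero, h.one, norm_one, zero_add, pow_one]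
      constructor <;> linarith
    | succ r ih =>
      obtain ⟨ih1, ih2⟩ := ih
      have h1 : 1 ≤ ‖a (p ^ (r + 1))‖ := by nlinarith
      refine ⟨h1, ?_⟩
      have h2 := h.recur p hp hpN r
      have h3 : A * ‖a (p ^ (r + 1))‖ - ‖a (p ^ r)‖ ≤ ‖a (p ^ (r + 1 + 1))‖ := by
        rw [show r + 1 + 1 = r + 2 by rfl, h2]
        have h4 := norm_sub_norm_le (a p * a (p ^ (r + 1))) (ε p * a (p ^ r))
        rwa [norm_mul, norm_mul, h.norm_eps p hp hpN, one_mul] at h4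
      have h5 : ‖a (p ^ r)‖ ≤ ‖a (p ^ (r + 1))‖ := by nlinarith
      have h6 : κ * ‖a (p ^ (r + 1))‖ = A * ‖a (p ^ (r + 1))‖ - ‖a (p ^ (r + 1))‖ := by
        rw [hκ]; ring
      linarith
  have hpow : ∀ r : ℕ, κ ^ r ≤ ‖a (p ^ r)‖ := by
    intro r
    induction r with
    | zero => rw [pow_zero, pow_zero, h.one, norm_one]
    | succ r ih =>
      have := (hgrow r).2
      rw [pow_succ]
      nlinarith
  have hlt : (1 : ℝ) < 101 / 100 := by norm_num
  obtain ⟨r, hr⟩ := pow_unbounded_of_one_lt C hlt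
  have h1 := hC (p ^ r) (pow_ne_zero _ hp.ne_zero)
  have h2 : (κ ^ r) ^ 2 ≤ ‖a (p ^ r)‖ ^ 2 := pow_le_pow_left₀ (by positivity) (hpow r) 2
  have h3 : ((p : ℝ) * (101 / 100)) ^ r ≤ (κ ^ r) ^ 2 := by
    rw [← pow_mul, mul_comm r 2, pow_mul]
    exact pow_le_pow_left₀ (by positivity) hκp.le r
  rw [mul_pow] at h3
  push_cast at h1
  have h4 : 0 < (p : ℝ) ^ r := by positivity
  nlinarith

include h in
/-- **The Rankin bound** -/
theorem prime_sum_le : ∃ C : ℝ, ∀ s : ℝ, 1 < s → s ≤ 2 → ∀ F : Finset ℕ,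
    (∀ p ∈ F, p.Prime ∧ ¬ p ∣ N) →
    ∑ p ∈ F, ‖a p‖ ^ 2 * (p : ℝ) ^ (-s) ≤ Real.log (1 / (s - 1)) + C := by
  classical
  obtain ⟨P0, hP0⟩ : ∃ P0 : ℕ, P0 = 10000 := ⟨_, rfl⟩
  obtain ⟨C0, hC0⟩ := h.sum_le
  set C : ℝ := max C0 1 with hCdef
  have hC1 : 1 ≤ C := le_max_right _ _
  have hC : ∀ M : ℕ, ∑ n ∈ range M, ‖a (n + 1)‖ ^ 2 ≤ C * M := fun M ↦
    (hC0 M).trans (mul_le_mul_of_nonneg_right (le_max_left _ _) (Nat.cast_nonneg _))
  have hsum2 : Summable (fun n : ℕ ↦ (n : ℝ) ^ (-2 : ℝ)) :=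
    Real.summable_nat_rpow.mpr (by norm_num)
  set K2 : ℝ := ∑' n : ℕ, (n : ℝ) ^ (-2 : ℝ) with hK2
  set K3 : ℝ := ∑ p ∈ range (P0 + 1), ‖a p‖ ^ 2 with hK3
  refine ⟨Real.log (2 * C) + 6 * K2 + K3, fun s hs hs2 F hF ↦ ?_⟩
  have hs0 : 0 < s - 1 := by linarith
  -- the multiplicative function
  let f : ℕ → ℝ := fun n ↦ if n.Coprime N then ‖a n‖ ^ 2 * (n : ℝ) ^ (-s) else 0
  have hf0 : f 0 = 0 := by
    simp only [f, Nat.cast_zero]
    rw [Real.zero_rpow (by linarith)]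
    simp
  have hf1 : f 1 = 1 := by simp [f, h.one]
  have hfnn : ∀ n, 0 ≤ f n := by
    intro n
    simp only [f]
    split_ifs <;> positivity
  have hfmul : ∀ {m n : ℕ}, m.Coprime n → f (m * n) = f m * f n := by
    intro m n hmn
    by_cases hm : m.Coprime N
    · by_cases hn : n.Coprime N
      · have hmn' : (m * n).Coprime N := Nat.Coprime.mul_left hm hn
        simp only [f, if_pos hm, if_pos hn, if_pos hmn']
        rw [h.mul m n hmn hm hn, norm_mul, Nat.cast_mul,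
          Real.mul_rpow (Nat.cast_nonneg _) (Nat.cast_nonneg _)]
        ring
      · have hmn' : ¬ (m * n).Coprime N := fun h ↦ hn (Nat.Coprime.coprime_mul_left h)
        simp only [f, if_neg hn, if_neg hmn', mul_zero]
    · have hmn' : ¬ (m * n).Coprime N := fun h ↦ hm (Nat.Coprime.coprime_mul_right h)
      simp only [f, if_neg hm, if_neg hmn', zero_mul]
  have hpart : ∀ M : ℕ, ∑ n ∈ range M, f (n + 1) ≤ C * (2 / (s - 1)) := by
    intro M
    have h1 : ∑ n ∈ range M, f (n + 1) ≤ ∑ n ∈ range M, ‖a (n + 1)‖ ^ 2 * ((n : ℝ) + 1) ^ (-s) := by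
      refine sum_le_sum fun n _ ↦ ?_
      simp only [f]
      split_ifs
      · push_cast; exact le_rfl
      · positivity
    refine h1.trans ((sum_mul_le_of_partialSums_le (C := C) (b := fun n ↦ ‖a (n + 1)‖ ^ 2)
      (w := fun n : ℕ ↦ ((n : ℝ) + 1) ^ (-s)) ?_ (fun n ↦ by positivity) hC M).trans ?_)
    · intro m n hmn
      apply Real.rpow_le_rpow_of_nonpos (by positivity) _ (by linarith)
      have : (m : ℝ) ≤ n := by exact_mod_cast hmn
      linarith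
    · exact mul_le_mul_of_nonneg_left (sum_rpow_le' hs hs2 M) (by linarith)
  have hsumm1 : Summable (fun n ↦ f (n + 1)) :=
    summable_of_sum_range_le (fun n ↦ hfnn _) hpart
  have hsumm : Summable f := (summable_nat_add_iff 1).mp hsumm1
  have htsum : ∑' n, f n ≤ C * (2 / (s - 1)) := by
    rw [hsumm.tsum_eq_zero_add, hf0, zero_add]
    exact Real.tsum_le_of_sum_range_le (fun n ↦ hfnn _) hpart
  have hnorm : Summable (fun n ↦ ‖f n‖) := hsumm.congr fun n ↦ (Real.norm_of_nonneg (hfnn n)).symm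
  -- split `F`
  set F' := F.filter (fun p ↦ P0 < p) with hF'
  have hF'p : ∀ p ∈ F', p.Prime ∧ ¬ p ∣ N ∧ P0 < p := fun p hp ↦ by
    rw [hF', mem_filter] at hp
    exact ⟨(hF p hp.1).1, (hF p hp.1).2, hp.2⟩
  have hprod := EulerProduct.prod_filter_prime_tsum_eq_tsum_factoredNumbers hf1 hfmul hnorm F'
  have hfilter : F'.filter Nat.Prime = F' := filter_true_of_mem fun p hp ↦ (hF'p p hp).1
  rw [hfilter] at hprod
  have hle1 : ∑' m : Nat.factoredNumbers F', f m ≤ ∑' n, f n :=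
    hsumm.tsum_subtype_le f _ hfnn
  -- local factors
  have hloc : ∀ p ∈ F', Real.exp (‖a p‖ ^ 2 * (p : ℝ) ^ (-s) - 6 * (p : ℝ) ^ (-2 : ℝ)) ≤
      ∑' n : ℕ, f (p ^ n) := by
    intro p hp
    obtain ⟨hpp, hpN, hp0⟩ := hF'p p hp
    rw [hP0] at hp0
    have hpR : (10000 : ℝ) < p := by exact_mod_cast hp0
    have hcop : ∀ n : ℕ, (p ^ n).Coprime N := fun n ↦
      Nat.Coprime.pow_left n ((Nat.Prime.coprime_iff_not_dvd hpp).mpr hpN)
    set x : ℝ := (p : ℝ) ^ (-s) with hx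
    set y : ℝ := ‖a p‖ ^ 2 * x with hy
    have hx0 : 0 ≤ x := by positivity
    have hx1 : x ≤ (p : ℝ) ^ (-1 : ℝ) :=
      Real.rpow_le_rpow_of_exponent_le (by linarith) (by linarith)
    have hpinv : (p : ℝ) ^ (-1 : ℝ) * p = 1 := by
      rw [Real.rpow_neg_one]; exact inv_mul_cancel₀ (by positivity)
    have hx2 : x ≤ 1 / 100 := by
      have : (p : ℝ) ^ (-1 : ℝ) ≤ 1 / 10000 := by
        rw [Real.rpow_neg_one, inv_le_comm₀ (by positivity) (by positivity)]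
        norm_num
        linarith
      linarith
    have hy0 : 0 ≤ y := by positivity
    have hy1 : y ≤ 26 / 25 := by
      have h1 := h.norm_sq_prime_le hpp hpN hp0
      calc y ≤ (26 / 25 * p) * (p : ℝ) ^ (-1 : ℝ) := by
            apply mul_le_mul h1 hx1 hx0 (by positivity)
        _ = 26 / 25 * ((p : ℝ) ^ (-1 : ℝ) * p) := by ring
        _ = 26 / 25 := by rw [hpinv, mul_one]
    have hexp := exp_le_aux hy0 hy1 hx0 hx2
    have hxsq : x ^ 2 ≤ (p : ℝ) ^ (-2 : ℝ) := by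
      rw [hx, ← Real.rpow_natCast, ← Real.rpow_mul (by positivity)]
      apply Real.rpow_le_rpow_of_exponent_le (by linarith)
      push_cast; linarith
    have h2 : Real.exp (y - 6 * (p : ℝ) ^ (-2 : ℝ)) ≤ Real.exp (y - 6 * x ^ 2) :=
      Real.exp_le_exp.mpr (by linarith)
    refine h2.trans (hexp.trans ?_)
    have hsp : Summable (fun n ↦ f (p ^ n)) :=
      hsumm.comp_injective (Nat.pow_right_injective hpp.two_le)
    refine le_trans ?_ (hsp.sum_le_tsum (range 3) (fun n _ ↦ hfnn _))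
    rw [sum_range_succ, sum_range_succ, sum_range_one, pow_zero, hf1, pow_one]
    have hfp : f p = y := by
      simp only [f]
      rw [if_pos (by simpa using hcop 1)]
    have hfp2 : (y - x) ^ 2 ≤ f (p ^ 2) := by
      simp only [f]
      rw [if_pos (hcop 2)]
      have h3 := h.recur p hpp hpN 0
      simp only [zero_add, pow_one, pow_zero, h.one, mul_one] at h3
      have h4 : |‖a p‖ ^ 2 - 1| ≤ ‖a (p ^ 2)‖ := by
        rw [h3]
        have h5 := abs_norm_sub_norm_le (a p * a p) (ε p)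
        rwa [norm_mul, h.norm_eps p hpp hpN, ← sq] at h5
      have h6 : (((p ^ 2 : ℕ) : ℝ)) ^ (-s) = x ^ 2 := by
        rw [hx]
        push_cast
        rw [← Real.rpow_natCast, ← Real.rpow_mul (by positivity), ← Real.rpow_natCast,
          ← Real.rpow_mul (by positivity)]
        congr 1; ring
      rw [h6]
      have h7 : (‖a p‖ ^ 2 - 1) ^ 2 ≤ ‖a (p ^ 2)‖ ^ 2 := by
        rw [← sq_abs (‖a p‖ ^ 2 - 1)]
        exact pow_le_pow_left₀ (abs_nonneg _) h4 2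
      calc (y - x) ^ 2 = (‖a p‖ ^ 2 - 1) ^ 2 * x ^ 2 := by rw [hy]; ring
        _ ≤ _ := mul_le_mul_of_nonneg_right h7 (sq_nonneg _)
    rw [hfp]
    linarith
  have hexpprod : Real.exp (∑ p ∈ F', (‖a p‖ ^ 2 * (p : ℝ) ^ (-s) - 6 * (p : ℝ) ^ (-2 : ℝ))) ≤
      C * (2 / (s - 1)) := by
    rw [Real.exp_sum]
    refine (prod_le_prod (fun p _ ↦ (Real.exp_pos _).le) hloc).trans ?_
    rw [hprod]
    exact hle1.trans htsum
  have hlog : ∑ p ∈ F', (‖a p‖ ^ 2 * (p : ℝ) ^ (-s) - 6 * (p : ℝ) ^ (-2 : ℝ)) ≤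
      Real.log (1 / (s - 1)) + Real.log (2 * C) := by
    have h1 := (Real.le_log_iff_exp_le (by positivity)).mpr hexpprod
    refine h1.trans (le_of_eq ?_)
    rw [← Real.log_mul (by positivity) (by positivity)]
    congr 1
    ring
  have h6 : ∑ p ∈ F', (p : ℝ) ^ (-2 : ℝ) ≤ K2 :=
    hsum2.sum_le_tsum F' fun n _ ↦ by positivity
  have h7 : ∑ p ∈ F.filter (fun p ↦ ¬ P0 < p), ‖a p‖ ^ 2 * (p : ℝ) ^ (-s) ≤ K3 := by
    refine (sum_le_sum (g := fun p ↦ ‖a p‖ ^ 2) fun p hp ↦ ?_).trans ?_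
    · have hp1 : 1 ≤ (p : ℝ) := by
        have := (hF p (mem_filter.mp hp).1).1.one_lt.le
        exact_mod_cast this
      have : (p : ℝ) ^ (-s) ≤ 1 := Real.rpow_le_one_of_one_le_of_nonpos hp1 (by linarith)
      exact mul_le_of_le_one_right (sq_nonneg _) this
    · refine sum_le_sum_of_subset_of_nonneg ?_ fun _ _ _ ↦ sq_nonneg _
      intro p hp
      rw [mem_filter] at hp
      rw [mem_range]
      omega
  rw [← sum_filter_add_sum_filter_not F (fun p ↦ P0 < p)]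
  rw [sum_sub_distrib, ← mul_sum] at hlog
  have h8 : ∑ p ∈ F.filter (fun p ↦ P0 < p), ‖a p‖ ^ 2 * (p : ℝ) ^ (-s) ≤
      Real.log (1 / (s - 1)) + Real.log (2 * C) + 6 * K2 := by linarith
  linarith

end RankinSeq

end Fermat.Agent.DS
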