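import Fermat.Agent.DS.OpsG1

/-!
# Homomorphisms from the Hecke ring attached to mod `ℓ` eigenforms
-/

set_option autoImplicit false
set_option linter.style.haveILetI false
set_option linter.unusedSectionVars false

noncomputable section

namespace Fermat.Agent.DS

open UpperHalfPlane ModularForm Filter Topology CongruenceSubgroup Fermat.Agent.IntStr
open Fermat.Agent.Newform Matrix.SpecialLinearGroup
open scoped MatrixGroups Manifold Real

/-- `x` lies in `O` and has residue `c`. -/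
def Res {k : Type} [Field k] {O : Subring ℂ} (r : O →+* k) (x : ℂ) (c : k) : Prop :=
  ∃ h : x ∈ O, r ⟨x, h⟩ = c

section Res

variable {k : Type} [Field k] {O : Subring ℂ} {r : O →+* k} {x y : ℂ} {c d : k}

theorem Res.add (hx : Res r x c) (hy : Res r y d) : Res r (x + y) (c + d) := by
  obtain ⟨h, rfl⟩ := hx
  obtain ⟨h', rfl⟩ := hy
  exact ⟨O.add_mem h h', by rw [← map_add]; rfl⟩

theorem Res.mul (hx : Res r x c) (hy : Res r y d) : Res r (x * y) (c * d) := by
  obtain ⟨h, rfl⟩ := hx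
  obtain ⟨h', rfl⟩ := hy
  exact ⟨O.mul_mem h h', by rw [← map_mul]; rfl⟩

theorem Res.sub (hx : Res r x c) (hy : Res r y d) : Res r (x - y) (c - d) := by
  obtain ⟨h, rfl⟩ := hx
  obtain ⟨h', rfl⟩ := hy
  exact ⟨O.sub_mem h h', by rw [← map_sub]; rfl⟩

theorem Res.neg (hx : Res r x c) : Res r (-x) (-c) := by
  obtain ⟨h, rfl⟩ := hx
  exact ⟨O.neg_mem h, by rw [← map_neg]; rfl⟩

theorem Res.one : Res r 1 1 := ⟨O.one_mem, by rw [← map_one r]; rfl⟩

theorem Res.zero : Res r 0 0 := ⟨O.zero_mem, by rw [← map_zero r]; rfl⟩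

theorem Res.natCast (n : ℕ) : Res r (n : ℂ) (n : k) :=
  ⟨natCast_mem O n, by rw [← map_natCast r]; rfl⟩

theorem Res.intCast (n : ℤ) : Res r (n : ℂ) (n : k) :=
  ⟨intCast_mem O n, by rw [← map_intCast r]; rfl⟩

theorem Res.pow (hx : Res r x c) (n : ℕ) : Res r (x ^ n) (c ^ n) := by
  obtain ⟨h, rfl⟩ := hx
  exact ⟨O.pow_mem h n, by rw [← map_pow]; rfl⟩

theorem Res.sum {ι : Type*} (s : Finset ι) (x : ι → ℂ) (c : ι → k)
    (h : ∀ i ∈ s, Res r (x i) (c i)) : Res r (∑ i ∈ s, x i) (∑ i ∈ s, c i) := by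
  classical
  induction s using Finset.induction_on with
  | empty => simpa using Res.zero
  | insert i s hi ih =>
    rw [Finset.sum_insert hi, Finset.sum_insert hi]
    exact (h i (Finset.mem_insert_self i s)).add
      (ih fun j hj => h j (Finset.mem_insert_of_mem hj))

theorem Res.unique (hx : Res r x c) (hy : Res r x d) : c = d := by
  obtain ⟨h, rfl⟩ := hx
  obtain ⟨h', rfl⟩ := hy
  rfl

theorem Res.congr (hx : Res r x c) (h : c = d) : Res r x d := h ▸ hx

theorem Res.congr' (hx : Res r x c) (h : x = y) : Res r y c := h ▸ hx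

end Res

variable {D : ℕ} [NeZero D]

theorem dia_one {k : ℤ} {f : ℍ → ℂ} (hf : Inv1 D k f) : dia k (1 : (ZMod D)ˣ) f = f := by
  rw [dia_eq hf 1 (γ := 1) (one_mem _) (by simp), SlashAction.slash_one]

theorem co_add {k : ℤ} {f g : ℍ → ℂ} (hf : IsMF (Gamma1 D) k f) (hg : IsMF (Gamma1 D) k g)
    (n : ℕ) : co (f + g) n = co f n + co g n := by
  rw [co, hf.qExpansion_add hg (T_mem_Gamma1 D), map_add]; rfl

theorem co_sub {k : ℤ} {f g : ℍ → ℂ} (hf : IsMF (Gamma1 D) k f) (hg : IsMF (Gamma1 D) k g)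
    (n : ℕ) : co (f - g) n = co f n - co g n := by
  rw [co, hf.qExpansion_sub hg (T_mem_Gamma1 D), map_sub]; rfl

theorem co_smul {k : ℤ} {f : ℍ → ℂ} (hf : IsMF (Gamma1 D) k f) (c : ℂ) (n : ℕ) :
    co (c • f) n = c * co f n := by
  rw [co, hf.qExpansion_smul (T_mem_Gamma1 D), PowerSeries.coeff_smul]; rfl

theorem co_zero (n : ℕ) : co 0 n = 0 := by
  rw [co, UpperHalfPlane.qExpansion_zero, map_zero]

/-- A mod `ℓ` eigenform gives a homomorphism from the Hecke ring. -/
theorem exists_theta {k : Type} [Field k] {O : Subring ℂ} (r : O →+* k) (F : CF (Gamma1 D) 2)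
    (ψ : (ZMod D)ˣ →* k) (b : ℕ → k) (hb : ∃ n, b n = 1) (a : ℕ → k)
    (hF : ∀ u n, Res r (co (dia 2 u F) n) (ψ u * b n))
    (hT : ∀ (p : ℕ) (hp : p.Prime) (hpD : ¬ p ∣ D) (n : ℕ),
      b (n * p) + p * ψ (up hp hpD) * (if p ∣ n then b (n / p) else 0) = a p * b n) :
    ∃ θ : heckeRing D 2 →+* k,
      (∀ (p : ℕ) (hp : p.Prime), ¬ p ∣ D → θ (heckeGen D 2 (Sum.inl ⟨p, hp⟩)) = a p) ∧
      ∀ u, θ (heckeGen D 2 (Sum.inr u)) = ψ u := by
  let Q : CF (Gamma1 D) 2 → k → Prop := fun g c ↦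
    ∀ u n, Res r (co (dia 2 u g) n) (c * ψ u * b n)
  have hQF : Q F 1 := fun u n ↦ (hF u n).congr (by ring)
  have huniq : ∀ g c c', Q g c → Q g c' → c = c' := by
    intro g c c' h h'
    obtain ⟨n, hn⟩ := hb
    have h1 := (h 1 n).unique (h' 1 n)
    rwa [map_one, mul_one, mul_one, hn, mul_one, mul_one] at h1
  have hadd : ∀ g h c c', Q g c → Q h c' → Q (g + h) (c + c') := by
    intro g h c c' hg hh u n
    have e : dia 2 u ((g + h : CF (Gamma1 D) 2) : ℍ → ℂ) = dia 2 u g + dia 2 u h :=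
      dia_add 2 u g h
    rw [e, co_add (IsCF.dia g.2 u).toIsMF (IsCF.dia h.2 u).toIsMF]
    exact ((hg u n).add (hh u n)).congr (by ring)
  have hneg : ∀ g c, Q g c → Q (-g) (-c) := by
    intro g c hg u n
    have e : dia 2 u ((-g : CF (Gamma1 D) 2) : ℍ → ℂ) = (-1 : ℂ) • dia 2 u g := by
      rw [← dia_smul, neg_one_smul]
      rfl
    rw [e, co_smul (IsCF.dia g.2 u).toIsMF]
    refine ((hg u n).neg.congr ?_).congr' ?_
    · ring
    · ring
  have hzero : Q 0 0 := by
    intro u n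
    have e : dia 2 u ((0 : CF (Gamma1 D) 2) : ℍ → ℂ) = 0 := SlashAction.zero_slash _ _
    rw [e, co_zero]
    exact Res.zero.congr (by ring)
  -- the operators
  let P : Module.End ℂ (CF (Gamma1 D) 2) → k → Prop := fun t c ↦ ∀ g x, Q g x → Q (t g) (c * x)
  have hPgen1 : ∀ (p : ℕ) (hp : p.Prime) (hpD : ¬ p ∣ D), P (TL 2 hp hpD) (a p) := by
    intro p hp hpD g x hg u n
    have e : dia 2 u ((TL 2 hp hpD g : CF (Gamma1 D) 2) : ℍ → ℂ) =
        heckeOp 2 hp hpD (dia 2 u g) := dia_heckeOp hp hpD u g.2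
    rw [e, co_heckeOp hp hpD (IsCF.dia g.2 u), dia_dia g.2.slash]
    have h1 := hg u (n * p)
    have h2 : Res r (if p ∣ n then co (dia 2 (u * up hp hpD) g) (n / p) else 0)
        (x * (ψ u * ψ (up hp hpD)) * if p ∣ n then b (n / p) else 0) := by
      split_ifs with hpn
      · exact (hg (u * up hp hpD) (n / p)).congr (by rw [map_mul])
      · rw [mul_zero]
        exact Res.zero
    have h3 : Res r ((p : ℂ) ^ ((2 : ℤ) - 1)) (p : k) := by
      have : (p : ℂ) ^ ((2 : ℤ) - 1) = p := by norm_num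
      rw [this]
      exact Res.natCast p
    refine (h1.add (h3.mul h2)).congr ?_
    have h4 := hT p hp hpD n
    linear_combination (x * ψ u) * h4
  have hPgen2 : ∀ v : (ZMod D)ˣ, P (DL 2 v) (ψ v) := by
    intro v g x hg u n
    have e : dia 2 u ((DL 2 v g : CF (Gamma1 D) 2) : ℍ → ℂ) = dia 2 (v * u) g :=
      dia_dia g.2.slash v u
    rw [e]
    exact (hg (v * u) n).congr (by rw [map_mul]; ring)
  have hP0 : P 0 0 := by
    intro g x hg
    rw [zero_mul]
    exact hzero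
  have hP1 : P 1 1 := by
    intro g x hg
    rw [one_mul]
    exact hg
  have hPadd : ∀ s t c d, P s c → P t d → P (s + t) (c + d) := by
    intro s t c d hs ht g x hg
    rw [add_mul]
    exact hadd _ _ _ _ (hs g x hg) (ht g x hg)
  have hPneg : ∀ s c, P s c → P (-s) (-c) := by
    intro s c hs g x hg
    rw [neg_mul]
    exact hneg _ _ (hs g x hg)
  have hPmul : ∀ s t c d, P s c → P t d → P (s * t) (c * d) := by
    intro s t c d hs ht g x hg
    rw [mul_assoc]
    exact hs _ _ (ht g x hg)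
  have hPint : ∀ n : ℤ, P (algebraMap ℤ _ n) (n : k) := by
    intro n
    rw [eq_intCast]
    induction n using Int.induction_on with
    | zero => simpa using hP0
    | succ n ih =>
      rw [Int.cast_add, Int.cast_add, Int.cast_one, Int.cast_one]
      exact hPadd _ _ _ _ ih hP1
    | pred n ih =>
      rw [Int.cast_sub, Int.cast_sub, Int.cast_one, Int.cast_one, sub_eq_add_neg, sub_eq_add_neg]
      exact hPadd _ _ _ _ ih (hPneg _ _ hP1)
  have hgen : ∀ i, ∃ c, P (opG D 2 i) c := by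
    rintro (p | u)
    · by_cases hp : (p : ℕ) ∣ D
      · rw [opG_inl_of_dvd p hp]
        exact ⟨0, hP0⟩
      · rw [opG_inl p hp]
        exact ⟨_, hPgen1 _ _ _⟩
    · exact ⟨_, hPgen2 u⟩
  have hex : ∀ t : heckeRing D 2, ∃ c, P (t : Module.End ℂ (CF (Gamma1 D) 2)) c := by
    rintro ⟨t, ht⟩
    change ∃ c, P t c
    rw [heckeRing] at ht
    induction ht using Algebra.adjoin_induction with
    | mem x hx =>
      obtain ⟨i, rfl⟩ := hx
      exact hgen i
    | algebraMap n => exact ⟨_, hPint n⟩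
    | add x y _ _ hx hy =>
      obtain ⟨c, hc⟩ := hx
      obtain ⟨d, hd⟩ := hy
      exact ⟨_, hPadd _ _ _ _ hc hd⟩
    | mul x y _ _ hx hy =>
      obtain ⟨c, hc⟩ := hx
      obtain ⟨d, hd⟩ := hy
      exact ⟨_, hPmul _ _ _ _ hc hd⟩
  have hPuniq : ∀ t c d, P t c → P t d → c = d := by
    intro t c d hc hd
    have h1 := hc F 1 hQF
    have h2 := hd F 1 hQF
    rw [mul_one] at h1 h2
    exact huniq _ _ _ h1 h2
  choose θ hθ using hex
  refine ⟨{ toFun := θ
            map_one' := hPuniq _ _ _ (hθ 1) hP1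
            map_mul' := fun s t ↦ hPuniq _ _ _ (hθ (s * t)) (hPmul _ _ _ _ (hθ s) (hθ t))
            map_zero' := hPuniq _ _ _ (hθ 0) hP0
            map_add' := fun s t ↦ hPuniq _ _ _ (hθ (s + t)) (hPadd _ _ _ _ (hθ s) (hθ t)) },
    ?_, ?_⟩
  · intro p hp hpD
    refine hPuniq _ _ _ (hθ _) ?_
    change P (opG D 2 (Sum.inl ⟨p, hp⟩)) (a p)
    rw [opG_inl ⟨p, hp⟩ hpD]
    exact hPgen1 p hp hpD
  · intro u
    exact hPuniq _ _ _ (hθ _) (hPgen2 u)

end Fermat.Agent.DS
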